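import Fermat.Agent.PSEMI.Ord.Datum
import Fermat.Agent.GaloisBasic.ResidualMatrix
import Fermat.Agent.ES.Tate.Residual
import Fermat.Agent.RT.TraceExt

/-!
# The Hecke action of a residual eigensystem

An irreducible representation attached to an eigenform makes the Hecke lattice a `HeckeAct`.
-/

set_option autoImplicit false

open CongruenceSubgroup IsLocalRing Polynomial ModularFormClass
open scoped MatrixGroups Matrix

noncomputable section

namespace FermatAgent.PSEMI

open MatLim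

open FermatAgent.ES (GQ)
open FermatAgent.Period (parRank)
open FermatAgent.Flat.Hecke (heckeImg padMatHom LatMat)

local notation "ZC" => integralClosure ℤ ℂ

variable {p : ℕ} [hp : Fact p.Prime] {N : ℕ} [NeZero N]

theorem padMatHom_inclusion {S S' : Set ℕ} (h : S ⊆ S') (x : CuspForm.heckeAlgebra N 2 S') :
    padMatHom p N S (Subalgebra.inclusion (CuspForm.heckeAlgebra_mono h) x) =
      padMatHom p N S' x := by
  simp only [padMatHom, ES.anMatHom, RingHom.coe_comp, Function.comp_apply, AlgHom.toRingHom_eq_coe,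
    RingHom.coe_coe, Subalgebra.inclusion_inclusion]

theorem heckeImg_mono {S S' : Set ℕ} (h : S ⊆ S') : heckeImg p N S' ≤ heckeImg p N S := by
  refine Algebra.adjoin_le ?_
  rintro _ ⟨x, rfl⟩
  exact Algebra.subset_adjoin
    ⟨Subalgebra.inclusion (CuspForm.heckeAlgebra_mono h) x, padMatHom_inclusion h x⟩

theorem padMatHom_heckeAt {S : Set ℕ} (hp' : p ∉ S) :
    padMatHom p N S ⟨_, MF.heckeAt_mem hp.out hp'⟩ = matU p N := by
  simp only [padMatHom, ES.anMatHom, matU, RingHom.coe_comp, Function.comp_apply,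
    AlgHom.toRingHom_eq_coe, RingHom.coe_coe]
  unfold ES.heckePadMat
  rfl

theorem commute_heckeImg {S : Set ℕ} {a b : LatMat p N} (ha : a ∈ heckeImg p N S)
    (hb : b ∈ heckeImg p N S) : Commute a b :=
  congrArg Subtype.val (mul_comm (⟨a, ha⟩ : heckeImg p N S) ⟨b, hb⟩)

variable {k : Type} [Field k] [CharP k p]

/-- The matrices of a residual representation in a basis. -/
def matRho (ρ : ResidualGaloisRep k) (b : Module.Basis (Fin 2) k ρ.V) :
    GQ →* Matrix (Fin 2) (Fin 2) k :=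
  (LinearMap.toMatrixAlgEquiv b).toAlgHom.toRingHom.toMonoidHom.comp ρ.ρ

theorem charpoly_matRho (ρ : ResidualGaloisRep k) (b : Module.Basis (Fin 2) k ρ.V) (g : GQ) :
    (matRho ρ b g).charpoly = LinearMap.charpoly (ρ.ρ g) :=
  LinearMap.charpoly_toMatrix _ b

theorem span_matRho [IsAlgClosed k] (ρ : ResidualGaloisRep k) (b : Module.Basis (Fin 2) k ρ.V)
    (hirr : ρ.IsIrreducible) : Submodule.span k (Set.range (matRho ρ b)) = ⊤ :=
  GaloisBasic.span_range_eq_top_of_isIrreducible ρ hirr b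

/-- By Artin–Rees a character of the Hecke image with values in characteristic `p` kills what is
deeply divisible by `p`. -/
private theorem exists_eq_zero_of_smul {S' : Set ℕ} {ι0 : ℤ_[p] →+* k}
    (τ : heckeImg p N S' →+* k) (hτι : ∀ a, τ (algebraMap ℤ_[p] _ a) = ι0 a) :
    ∃ c, ∀ x : heckeImg p N S', (∃ f, (x : LatMat p N) = (p : ℤ_[p]) ^ c • f) → τ x = 0 := by
  obtain ⟨c, hc⟩ := Flat.Hecke.exists_artinRees p (Subalgebra.toSubmodule (heckeImg p N S'))
  refine ⟨1 + c, fun x hx => ?_⟩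
  obtain ⟨y, hy, hye⟩ := hc _ (Nat.le_add_left c 1) x x.2 hx
  rw [show x = algebraMap ℤ_[p] _ ((p : ℤ_[p]) ^ (1 + c - c)) * ⟨y, hy⟩ from
    Subtype.ext (hye.trans (Algebra.smul_def _ _)), map_mul, hτι, Nat.add_sub_cancel, pow_one,
    map_natCast, CharP.cast_eq_zero, zero_mul]

/-- A character of the Hecke image whose trace and determinant agree with those of `ρ` at Frobenius
elements takes the trace and determinant of `ρ` everywhere, both being continuous. -/
private theorem trace_det_eq_matRho {S S' : Finset ℕ} (hpS : p ∈ S)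
    (hNS : ∀ q : ℕ, q.Prime → q ∣ N → q ∈ S) (hsub : (↑S' : Set ℕ) ⊆ ↑S) {ι0 : ℤ_[p] →+* k}
    {π : CuspForm.heckeAlgebra N 2 (↑S' : Set ℕ) →+* k}
    (τ : heckeImg p N (↑S' : Set ℕ) →+* k)
    (hτ : ∀ x, τ ⟨_, Algebra.subset_adjoin ⟨x, rfl⟩⟩ = π x)
    (hτι : ∀ a, τ (algebraMap ℤ_[p] _ a) = ι0 a) (ρ : ResidualGaloisRep k)
    (b : Module.Basis (Fin 2) k ρ.V)
    (hFrob : ∀ (q : ℕ) (hq : q.Prime) (hqN : ¬ q ∣ N) (hqS' : q ∉ (↑S' : Set ℕ)), q ≠ p →
      ∀ P : ValuationSubring (AlgebraicClosure ℚ), P.LiesOverPrime q → ∀ σ : GQ,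
        P.IsFrobeniusAt σ q →
        (matRho ρ b σ).trace = π (CuspForm.heckeAlgebra.T hq hqN hqS') ∧
          (matRho ρ b σ).det = (q : k))
    (g : GQ) :
    τ (Subalgebra.inclusion (heckeImg_mono hsub) ((Flat.Hecke.latTd p hpS hNS).t g)) =
        (matRho ρ b g).trace ∧
      τ (Subalgebra.inclusion (heckeImg_mono hsub) ((Flat.Hecke.latTd p hpS hNS).d g)) =
        (matRho ρ b g).det := by
  let j := Subalgebra.inclusion (heckeImg_mono (p := p) (N := N) hsub)
  obtain ⟨c, hzero⟩ := exists_eq_zero_of_smul τ hτι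
  obtain ⟨L₁, hL₁, h₁⟩ := Flat.Hecke.exists_level p N c
  obtain ⟨L₂, hL₂, h₂⟩ := ρ.factorsThroughFiniteLevel
  have := hL₁; have := hL₂
  set td := Flat.Hecke.latTd p hpS hNS
  exact RT.TraceDet.eq_of_frobenius td (RT.traceDetRep (matRho ρ b))
    (τ.comp j.toRingHom) (RingHom.id k) (L₁ ⊔ L₂) (fun σ hσ g' => by
      obtain ⟨ht, hd⟩ := Flat.Hecke.latTd_congr p hpS hNS h₁
        (IntermediateField.fixingSubgroup_antitone le_sup_left hσ) g'
      refine ⟨?_, ?_⟩
      · show τ (j _) = τ (j _)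
        rw [← sub_eq_zero, ← map_sub, ← map_sub]
        exact hzero _ (ht.imp fun _ => (Subalgebra.coe_inclusion _ _).trans)
      · show τ (j _) = 1
        rw [← map_one (τ.comp j.toRingHom), ← sub_eq_zero]
        show τ (j _) - τ (j 1) = 0
        rw [← map_sub, ← map_sub]
        exact hzero _ (hd.imp fun _ => (Subalgebra.coe_inclusion _ _).trans))
    (fun σ hσ g' => by
      have h : matRho ρ b σ = 1 := by
        show LinearMap.toMatrixAlgEquiv b (ρ.ρ σ) = 1
        rw [h₂ σ ((IntermediateField.mem_fixingSubgroup_iff _ σ).mp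
          (IntermediateField.fixingSubgroup_antitone le_sup_right hσ)), map_one]
      refine ⟨?_, ?_⟩
      · show (matRho ρ b (g' * σ)).trace = _
        rw [map_mul, h, mul_one]; rfl
      · show (matRho ρ b σ).det = 1
        rw [h, Matrix.det_one])
    S (fun q hq hqS P hP σ hσ => by
      have hqN : ¬ q ∣ N := fun h => hqS (hNS q hq h)
      have hqp : q ≠ p := fun h => hqS (h ▸ hpS)
      have hqS' : q ∉ (↑S' : Set ℕ) := fun h => hqS (hsub h)
      obtain ⟨htr, hdet⟩ := hFrob q hq hqN hqS' hqp P hP σ hσ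
      obtain ⟨-, x, hx, hx'⟩ := ES.exists_hecke_galTrace_pow p π (matRho ρ b σ) hq hqN hqS' hqp
        hP hσ htr hdet 0
      rw [zero_add, pow_one] at hx hx'
      refine ⟨?_, ?_⟩
      · show τ (j (td.t σ)) = (matRho ρ b σ).trace
        rw [show j (td.t σ) = ⟨_, Algebra.subset_adjoin ⟨x, rfl⟩⟩ from Subtype.ext hx.symm, hτ,
          hx']
      · show τ (j (algebraMap ℤ_[p] _ (ES.padCyclo p σ))) = _
        rw [AlgHom.commutes, hτι, ES.padCyclo_frobenius p hq hqp hP hσ, map_natCast]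
        exact hdet.symm) g

/-- **The residual Hecke action**, with the operator at `p` in the algebra. -/
theorem exists_residualAct [IsAlgClosed k] (ι : ZC →+* k)
    {g : CuspForm (Gamma0 N) 2} (hg : g.IsNormalizedEigenform) (ρ : ResidualGaloisRep k)
    (hatt : ρ.IsAttachedTo g ι) (hirr : ρ.IsIrreducible) :
    ∃ (A : HeckeAct p (Fin (parRank (Gamma0 N))) k GQ) (b : Module.Basis (Fin 2) k ρ.V) (a : ZC)
      (hU : matU p N ∈ A.R0),
      A.R0 = (heckeImg p N (↑(N.primeFactors.erase p) : Set ℕ)).toSubring ∧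
        A.G = ES.galMat p N ∧ A.cyc = ES.padCyclo p ∧ A.M = matRho ρ b ∧
        (a : ℂ) = qCoeff g p ∧ A.φ ⟨_, hU⟩ = ι a := by
  classical
  have : Module.Finite ℤ (CuspForm.heckeAlgebra N 2 ∅) := MF.moduleFinite_heckeAlgebra N 2 ∅
  have hf := (MF.isEigen_iff_isNormalizedEigenform g).mpr hg
  let χ : CuspForm.heckeAlgebra N 2 ∅ →+* ZC :=
    (hf.char ∅).codRestrict (integralClosure ℤ ℂ) fun t =>
      map_isIntegral_int _ (Algebra.IsIntegral.isIntegral t)
  set S' : Finset ℕ := N.primeFactors.erase p with hS'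
  set Sf : Finset ℕ := insert p N.primeFactors
  have hpS : p ∈ Sf := Finset.mem_insert_self _ _
  have hNS : ∀ q : ℕ, q.Prime → q ∣ N → q ∈ Sf := fun q hq hqN =>
    Finset.mem_insert_of_mem (Nat.mem_primeFactors.mpr ⟨hq, hqN, NeZero.ne N⟩)
  have hsub : (↑S' : Set ℕ) ⊆ ↑Sf := fun q hq =>
    Finset.mem_insert_of_mem (Finset.mem_of_mem_erase hq)
  let π : CuspForm.heckeAlgebra N 2 (↑S' : Set ℕ) →+* k :=
    (ι.comp χ).comp
      (Subalgebra.inclusion (CuspForm.heckeAlgebra_mono (Set.empty_subset _))).toRingHom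
  obtain ⟨ι0⟩ : Nonempty (ℤ_[p] →+* k) :=
    ⟨(ZMod.castHom (dvd_refl p) k).comp PadicInt.toZMod⟩
  obtain ⟨τ, hτ, hτι⟩ := Flat.Hecke.exists_heckeImg_hom p N (↑S' : Set ℕ) ι0 π
  let j := Subalgebra.inclusion (heckeImg_mono (p := p) (N := N) hsub)
  set b : Module.Basis (Fin 2) k ρ.V := Module.finBasisOfFinrankEq k ρ.V ρ.finrank_eq
  set td := Flat.Hecke.latTd p hpS hNS
  have key : ∀ g', τ (j (td.t g')) = (matRho ρ b g').trace ∧
      τ (j (td.d g')) = (matRho ρ b g').det :=
    trace_det_eq_matRho hpS hNS hsub τ hτ hτι ρ b fun q hq hqN hqS' hqp P hP σ hσ => by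
      obtain ⟨a, ha, hch⟩ := hatt q hq hqN (by
        rw [Ne, CharP.cast_eq_zero_iff k p, Nat.prime_dvd_prime_iff_eq hp.out hq]
        exact Ne.symm hqp) P hP σ hσ
      rw [← charpoly_matRho ρ b] at hch
      have hπ : π (CuspForm.heckeAlgebra.T hq hqN hqS') = ι a := by
        show ι (χ _) = ι a
        congr 1
        refine Subtype.ext ?_
        rw [ha, ← hf.char_heckeAt (S := (∅ : Set ℕ)) hq (Set.notMem_empty q)]
        show hf.char ∅ _ = _
        congr 1
        refine Subtype.ext ?_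
        show CuspForm.heckeTLin 2 hq hqN = MF.heckeAt N 2 hq
        rw [MF.heckeAt, dif_neg hqN]
      have htr : (matRho ρ b σ).trace = π (CuspForm.heckeAlgebra.T hq hqN hqS') := by
        rw [hπ, Matrix.trace_eq_neg_charpoly_coeff, hch]
        simp [Polynomial.coeff_X_pow]
      have hdet : (matRho ρ b σ).det = (q : k) := by
        rw [Matrix.det_eq_sign_charpoly_coeff, hch]
        simp
      exact ⟨htr, hdet⟩
  obtain ⟨c, hzero⟩ := exists_eq_zero_of_smul τ hτι
  have hpS' : p ∉ (↑S' : Set ℕ) := by simp [hS']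
  have hU : matU p N ∈ heckeImg p N (↑S' : Set ℕ) :=
    padMatHom_heckeAt (p := p) (N := N) hpS' ▸
      Algebra.subset_adjoin ⟨⟨_, MF.heckeAt_mem hp.out hpS'⟩, rfl⟩
  refine ⟨{
    R0 := (heckeImg p N (↑S' : Set ℕ)).toSubring
    closed := closed_heckeImg
    comm := fun a ha b hb => commute_heckeImg ha hb
    scalar := fun a => Subalgebra.algebraMap_mem _ a
    φ := τ
    cont := ⟨c, fun x hx => ?_⟩
    G := ES.galMat p N
    commG := fun g r hr => Flat.Hecke.commute_galMat p N _ hr g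
    cyc := ES.padCyclo p
    τ := fun g => j (td.t g)
    τ_eq := fun g => rfl
    M := matRho ρ b
    tr := fun g => (key g).1
    det := fun g => ?_
    span := span_matRho ρ b hirr }, b, χ ⟨_, MF.heckeAt_mem hp.out (Set.notMem_empty p)⟩, hU,
      rfl, rfl, rfl, rfl, hf.char_heckeAt hp.out (Set.notMem_empty p), ?_⟩
  · rw [← map_zero (mred (p := p) (κ := Fin (parRank (Gamma0 N))) c), mred_eq_iff] at hx
    simp only [Matrix.zero_apply, sub_zero] at hx
    have h0 : τ x = 0 := hzero x (Flat.Hecke.exists_smul_of_dvd p N hx)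
    rw [h0]; exact Ideal.zero_mem _
  · rw [← (key g).2]
    exact congrArg τ (Subtype.ext rfl)
  · refine Eq.trans (congrArg τ (Subtype.ext ?_)) (hτ ⟨_, MF.heckeAt_mem hp.out hpS'⟩)
    exact (padMatHom_heckeAt hpS').symm

end FermatAgent.PSEMI
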