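import Fermat.Agent.PSEMI.Ord.Unit
import Fermat.Agent.PSEMI.Ord.Eigen

/-!
# Inertia at a prime of the level with a unit eigenvalue
-/

set_option autoImplicit false

open CongruenceSubgroup IsLocalRing Polynomial ModularFormClass

noncomputable section

namespace FermatAgent.PSEMI

local notation "ZC" => integralClosure ℤ ℂ
local notation "GQ" => AlgebraicClosure ℚ ≃ₐ[ℚ] AlgebraicClosure ℚ

/-- **Inertia at `p ∣∣ M` has eigenvalue one if `a_p` is a unit.** -/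
theorem isRoot_one_of_unit {k : Type} [Field k] [IsAlgClosed k] {p : ℕ} (hp : p.Prime) [CharP k p]
    (hp2 : p ≠ 2) {M : ℕ} [NeZero M] (hpM : p ∣ M) (hp2M : ¬ p ^ 2 ∣ M)
    {g : CuspForm (Gamma0 M) 2} (hg : g.IsNormalizedEigenform) (ι : ZC →+* k)
    (hunit : ∃ a : ZC, (a : ℂ) = qCoeff g p ∧ ι a ≠ 0)
    (ρ : ResidualGaloisRep k) (hatt : ρ.IsAttachedTo g ι) (hirr : ρ.IsIrreducible)
    {P : ValuationSubring (AlgebraicClosure ℚ)} (hP : P.LiesOverPrime p) {τ : GQ}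
    (hτ : τ ∈ P.inertiaSubgroupIn ℚ) :
    LinearMap.trace k ρ.V (ρ.ρ τ) = LinearMap.det (ρ.ρ τ) + 1 ∧
      (LinearMap.charpoly (ρ.ρ τ)).IsRoot 1 := by
  have := Fact.mk hp
  obtain ⟨A, b, a, hU, -, hG, hcyc, hM, ha, hφ⟩ := exists_residualAct (p := p) ι hg ρ hatt hirr
  obtain ⟨a', ha', hne⟩ := hunit
  have e : a = a' := Subtype.ext (ha.trans ha'.symm)
  have hθ : A.toHeckePart.θ ⟨_, hU⟩ ≠ 0 := by
    rw [Ne, ← map_eq_zero (residue k)] at hne
    show residue k (A.φ ⟨_, hU⟩) ≠ 0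
    rwa [hφ, e]
  have h2 : (2 : ResidueField k) ≠ 0 := by
    rw [← map_ofNat (residue k) 2, Ne, map_eq_zero, ← Nat.cast_ofNat (R := k) (n := 2),
      CharP.cast_eq_zero_iff k p, Nat.prime_dvd_prime_iff_eq hp Nat.prime_two]
    exact hp2
  have h := trace_inertia_of_unit hpM hp2M A hG hcyc hU hθ h2 hP hτ
  rw [← map_one (residue k), ← map_add] at h
  have h' := (residue k).injective h
  rw [hM] at h'
  have htr : LinearMap.trace k ρ.V (ρ.ρ τ) = LinearMap.det (ρ.ρ τ) + 1 := by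
    rw [LinearMap.trace_eq_matrix_trace k b, ← LinearMap.det_toMatrix b]
    exact h'
  refine ⟨htr, ?_⟩
  rw [← charpoly_matRho ρ b, Polynomial.IsRoot, Matrix.charpoly_fin_two, h']
  simp

end FermatAgent.PSEMI
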