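import Mathlib.LinearAlgebra.Matrix.NonsingularInverse
import Mathlib.LinearAlgebra.Matrix.Charpoly.Coeff
import Mathlib.LinearAlgebra.Matrix.ToLinearEquiv
import Mathlib.Tactic.LinearCombination
import Mathlib.Tactic.FieldSimp

/-!
# A commutator with trace different from two

In an absolutely irreducible group of matrices, an element with two distinct eigenvalues `1` and
`w` has a commutator of trace different from `2`.
-/

set_option autoImplicit false

open scoped Matrix

namespace FermatAgent.PSEMI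

variable {k : Type*} [Field k] {G : Type*} [Group G]

/-- The trace of a commutator with a diagonal matrix. -/
theorem trace_comm_diag {w : k} (hw : w ≠ 0) (B B' : Matrix (Fin 2) (Fin 2) k) (hB : B * B' = 1)
    (h2 : (!![1, 0; 0, w] * B * !![1, 0; 0, w⁻¹] * B').trace = 2) (hw1 : w ≠ 1) :
    B 0 1 = 0 ∨ B 1 0 = 0 := by
  have hd : B.det ≠ 0 := fun h => one_ne_zero (α := k) (by
    rw [← Matrix.det_one (n := Fin 2), ← hB, Matrix.det_mul, h, zero_mul])
  have hB' : B' = B⁻¹ := (Matrix.inv_eq_right_inv hB).symm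
  rw [hB', Matrix.inv_def, Matrix.adjugate_fin_two, Ring.inverse_eq_inv', Matrix.det_fin_two] at h2
  rw [Matrix.det_fin_two] at hd
  rw [Matrix.eta_fin_two B, Matrix.smul_of, Matrix.mul_fin_two, Matrix.mul_fin_two] at h2
  simp [Matrix.trace_fin_two] at h2
  field_simp at h2
  have h3 : (w - 1) * (w - 1) * (B 0 1 * B 1 0) = 0 := by linear_combination (-1 : k) * h2
  rcases mul_eq_zero.mp h3 with h4 | h4
  · exact absurd (sub_eq_zero.mp (mul_self_eq_zero.mp h4)) hw1
  · exact mul_eq_zero.mp h4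

/-- A diagonal basis for two distinct eigenvalues. -/
theorem exists_diag {A : Matrix (Fin 2) (Fin 2) k} {w : k} (htr : A.trace = 1 + w)
    (hdet : A.det = w) (hw1 : w ≠ 1) :
    ∃ P : (Matrix (Fin 2) (Fin 2) k)ˣ, P⁻¹.1 * A * P.1 = !![1, 0; 0, w] := by
  have ker : ∀ a : k, (A - a • (1 : Matrix (Fin 2) (Fin 2) k)).det = 0 →
      ∃ v : Fin 2 → k, v ≠ 0 ∧ A *ᵥ v = a • v := fun a ha => by
    obtain ⟨v, hv, hv0⟩ := Matrix.exists_mulVec_eq_zero_iff.mpr ha
    refine ⟨v, hv, ?_⟩
    rwa [Matrix.sub_mulVec, Matrix.smul_mulVec, Matrix.one_mulVec, sub_eq_zero] at hv0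
  have hd : ∀ a : k, (A - a • (1 : Matrix (Fin 2) (Fin 2) k)).det = a * a - a * A.trace + A.det :=
    fun a => by simp [Matrix.det_fin_two, Matrix.trace_fin_two]; ring
  obtain ⟨v, hv, hAv⟩ := ker 1 (by rw [hd, htr, hdet]; ring)
  obtain ⟨u, hu, hAu⟩ := ker w (by rw [hd, htr, hdet]; ring)
  set P : Matrix (Fin 2) (Fin 2) k := Matrix.of fun i j => ![v i, u i] j
  have hP : IsUnit P := by
    rw [Matrix.isUnit_iff_isUnit_det, isUnit_iff_ne_zero]
    intro h0
    obtain ⟨x, hx, hPx⟩ := Matrix.exists_mulVec_eq_zero_iff.mpr h0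
    have e : x 0 • v + x 1 • u = 0 := by
      rw [← hPx]; funext i
      simp [P, Matrix.mulVec, dotProduct, Fin.sum_univ_two, mul_comm]
    have e2 : x 0 • v + (x 1 * w) • u = 0 := by
      have := congrArg (A *ᵥ ·) e
      simpa [Matrix.mulVec_add, Matrix.mulVec_smul, hAv, hAu, smul_smul] using this
    have e3 : (x 1 * (w - 1)) • u = 0 := by
      rw [mul_sub, mul_one, sub_smul]
      calc (x 1 * w) • u - x 1 • u = (x 0 • v + (x 1 * w) • u) - (x 0 • v + x 1 • u) := by abel
        _ = 0 := by rw [e, e2, sub_zero]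
    have x1 : x 1 = 0 := by
      rcases smul_eq_zero.mp e3 with h | h
      · exact (mul_eq_zero.mp h).resolve_right (sub_ne_zero.mpr hw1)
      · exact absurd h hu
    rw [x1, zero_smul, add_zero] at e
    exact hx (funext fun i => by
      fin_cases i
      · exact (smul_eq_zero.mp e).resolve_right hv
      · exact x1)
  obtain ⟨P', hP'⟩ := hP
  refine ⟨P', ?_⟩
  have hAP : A * P = P * !![1, 0; 0, w] := by
    ext i j
    have a0 := congrFun hAv i
    have a1 := congrFun hAu i
    simp only [Matrix.mulVec, dotProduct, Fin.sum_univ_two, Pi.smul_apply, smul_eq_mul] at a0 a1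
    fin_cases j <;> simp [P, Matrix.mul_apply, Fin.sum_univ_two, a0, a1, mul_comm]
  rw [mul_assoc, hP', hAP, ← hP', ← mul_assoc, P'.inv_mul, one_mul]

/-- **A commutator with trace different from two.** -/
theorem exists_trace_commutator_ne (r : G →* Matrix (Fin 2) (Fin 2) k)
    (hspan : Submodule.span k (Set.range r) = ⊤) {g0 : G} {w : k} (htr : (r g0).trace = 1 + w)
    (hdet : (r g0).det = w) (hw0 : w ≠ 0) (hw1 : w ≠ 1) :
    ∃ g1, (r (g0 * g1 * g0⁻¹ * g1⁻¹)).trace ≠ 2 := by
  by_contra hne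
  push Not at hne
  obtain ⟨P, hP⟩ := exists_diag htr hdet hw1
  let s : G →* Matrix (Fin 2) (Fin 2) k :=
    { toFun := fun g => P⁻¹.1 * r g * P.1
      map_one' := by rw [map_one, mul_one, P.inv_mul]
      map_mul' := fun g h => by
        rw [map_mul, show P⁻¹.1 * r g * P.1 * (P⁻¹.1 * r h * P.1) =
          P⁻¹.1 * r g * (P.1 * P⁻¹.1) * r h * P.1 by simp only [mul_assoc], P.mul_inv, mul_one]
        simp only [mul_assoc] }
  have hinv : s g0⁻¹ = !![1, 0; 0, w⁻¹] := by
    have h1 : s g0⁻¹ * s g0 = 1 := by rw [← map_mul, inv_mul_cancel, map_one]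
    have h2 : (!![1, 0; 0, w] : Matrix (Fin 2) (Fin 2) k) * !![1, 0; 0, w⁻¹] = 1 := by
      ext i j; fin_cases i <;> fin_cases j <;> simp [hw0]
    rw [show s g0 = !![1, 0; 0, w] from hP] at h1
    rw [← one_mul (!![1, 0; 0, w⁻¹] : Matrix (Fin 2) (Fin 2) k), ← h1, mul_assoc, h2, mul_one]
  have key : ∀ g, s g 0 1 = 0 ∨ s g 1 0 = 0 := fun g => by
    refine trace_comm_diag hw0 (s g) (s g⁻¹) (by rw [← map_mul, mul_inv_cancel, map_one]) ?_ hw1
    have h0 : s g0 = !![1, 0; 0, w] := hP
    rw [← h0, ← hinv, ← map_mul, ← map_mul, ← map_mul]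
    show (P⁻¹.1 * r _ * P.1).trace = 2
    rw [Matrix.trace_mul_comm, ← mul_assoc, P.mul_inv, one_mul]
    exact hne g
  have hall : (∀ g, s g 0 1 = 0) ∨ ∀ g, s g 1 0 = 0 := by
    by_contra hno
    push Not at hno
    obtain ⟨⟨g, hg⟩, ⟨h, hh⟩⟩ := hno
    have g10 := (key g).resolve_left hg
    have h01 := (key h).resolve_right hh
    have hdet : ∀ x, (s x).det ≠ 0 := fun x h0 => one_ne_zero (α := k) (by
      rw [← Matrix.det_one (n := Fin 2), ← map_one s, ← mul_inv_cancel x, map_mul, Matrix.det_mul,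
        h0, zero_mul])
    have hg11 : s g 1 1 ≠ 0 := fun h0 => hdet g (by rw [Matrix.det_fin_two, g10, h0]; ring)
    have hh11 : s h 1 1 ≠ 0 := fun h0 => hdet h (by rw [Matrix.det_fin_two, h01, h0]; ring)
    rcases key (h * g) with e | e <;> rw [map_mul, Matrix.mul_apply, Fin.sum_univ_two] at e
    · rw [h01, zero_mul, add_zero] at e
      rcases mul_eq_zero.mp e with e | e
      · exact hdet h (by rw [Matrix.det_fin_two, e, h01]; ring)
      · exact hg e
    · rw [g10, mul_zero, add_zero] at e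
      rcases mul_eq_zero.mp e with e | e
      · exact hh e
      · exact hdet g (by rw [Matrix.det_fin_two, e, g10]; ring)
  have bad : ∀ i j : Fin 2, (∀ g, s g i j = 0) → False := fun i j hz => by
    have hX : ∀ X : Matrix (Fin 2) (Fin 2) k, (P⁻¹.1 * X * P.1) i j = 0 := fun X => by
      have hm : X ∈ Submodule.span k (Set.range r) := hspan ▸ Submodule.mem_top
      induction hm using Submodule.span_induction with
      | mem x hx => obtain ⟨g, rfl⟩ := hx; exact hz g
      | zero => simp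
      | add x y _ _ hx hy => rw [mul_add, add_mul, Matrix.add_apply, hx, hy, add_zero]
      | smul a x _ hx => rw [Matrix.mul_smul, Matrix.smul_mul, Matrix.smul_apply, hx, smul_zero]
    have h := hX (P.1 * Matrix.single i j 1 * P⁻¹.1)
    rw [show P⁻¹.1 * (P.1 * Matrix.single i j 1 * P⁻¹.1) * P.1 =
      (P⁻¹.1 * P.1) * Matrix.single i j 1 * (P⁻¹.1 * P.1) by simp only [mul_assoc], P.inv_mul,
      one_mul, mul_one, Matrix.single_apply_same] at h
    exact one_ne_zero h
  rcases hall with h | h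
  exacts [bad 0 1 h, bad 1 0 h]

end FermatAgent.PSEMI
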