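import Fermat.Agent.PSEMI.Ord.Vanish
import Fermat.Agent.BAD.Toric.FrobLift

/-!
# `U` follows Frobenius on ordinary classes

The norm along `q ↦ q ^ p` reduces to the Frobenius of the coefficients, so `U - Frob_p` sends
ordinary classes to classes trivial at `∞`.
-/

set_option autoImplicit false

open UpperHalfPlane CongruenceSubgroup IsLocalRing
open scoped MatrixGroups Matrix

noncomputable section

namespace FermatAgent.PSEMI

open MatLim
open FermatAgent.ES (GQ CPlace AuxLevel embC autC zetaC parGroup conjChar goodLevel_Gamma0 charOp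
  SerIn liftSer)
open FermatAgent.Period (parRank transferDataU)
open FermatAgent.Curve.Red
open ModularCurve (coeffMap coeffMap_coeff)

variable {p : ℕ} [hp : Fact p.Prime]

/-- An automorphism respecting the coefficients and acting on residues as Frobenius. -/
structure FrobKeeps {P : CPlace p} (K : Coeffs P) (σ : ℂ ≃+* ℂ) : Prop where
  abv : ∀ x, P.abv (σ x) = P.abv x
  res : ∀ x, P.abv x ≤ 1 → P.abv (σ x - x ^ p) < 1
  fine : ∀ s, Fine K s → Fine K (coeffMap σ.toRingHom s)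

/-- Frobenius elements act on the coefficients. -/
theorem exists_frobKeeps (Φ : ℂ ≃+* PadicAlgCl p) {g : GQ}
    (hg : (CPlace.ofEquiv Φ).algVal.IsFrobeniusAt g p) :
    ∃ σ : ℂ ≃+* ℂ, (∀ x, σ (embC x) = embC (g x)) ∧ FrobKeeps (stableCoeffs Φ) σ := by
  obtain ⟨s, hs, hF⟩ := BAD.Toric.exists_frobLift Φ hg
  refine ⟨BAD.conjC Φ s, BAD.conjC_embC Φ s hs, BAD.abv_conjC Φ s, fun x hx => ?_, ?_⟩
  · rw [CPlace.ofEquiv_abv, map_sub, map_pow, BAD.map_conjC]
    exact hF _ (by rwa [← CPlace.ofEquiv_abv])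
  · rintro y ⟨S, hS, hy⟩
    refine ⟨S, hS, fun k => ?_⟩
    rw [coeffMap_coeff]
    exact BAD.conjC_mem_stableRing Φ s (hy k)

variable {P : CPlace p} {K : Coeffs P}

/-- The norm and Frobenius reduce alike. -/
theorem FrobKeeps.red_nrm_eq {σ : ℂ ≃+* ℂ} (hσ : FrobKeeps K σ) {s : LaurentSeries ℂ}
    (hs : SerIn P.ring s) : red (P := P) (nrm p s) = red (coeffMap σ.toRingHom s) := by
  have hs' : SerIn P.ring (coeffMap σ.toRingHom s) := fun k => by
    rw [coeffMap_coeff]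
    show P.abv _ ≤ 1
    rw [show σ.toRingHom (s.coeff k) = σ (s.coeff k) from rfl, hσ.abv]
    exact hs k
  ext k
  rw [coeff_red_nrm hs, coeff_red hs', coeff_red hs, ← map_pow, ← sub_eq_zero, ← map_sub,
    rd_eq_zero_iff]
  rw [AddSubgroupClass.coe_sub, SubmonoidClass.coe_pow, AbsoluteValue.map_sub]
  simp only [coeffMap_coeff]
  exact hσ.res _ (hs k)

variable {N : ℕ} [NeZero N] {M : ℕ} [NeZero M] (hM : M.Coprime p) {Γ' : Subgroup SL(2, ℤ)}
  (L : IsLevel p M (Gamma0 N) Γ') {m : ℕ} (haux : AuxLevel M m) (hpN : p ∣ N)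

include hM L haux hpN in
/-- **On the ordinary part `U - Frob_p` is trivial at `∞`.** -/
theorem trivVec_of_frob {g : GQ} {σ : ℂ ≃+* ℂ} (hext : ∀ x, σ (embC x) = embC (g x))
    (hσ : FrobKeeps K σ) {eO : Matrix (Fin (parRank (Gamma0 N))) (Fin (parRank (Gamma0 N))) ℤ_[p]}
    {I : ℕ → ℕ} (heO : PowLimit (matU p N) eO I) (k : ℕ)
    (u : Fin (parRank (Gamma0 N)) → ℤ_[p]) :
    TrivVec K k (eO *ᵥ ((matU p N - ES.galMat p N g) *ᵥ u)) := by
  set χ := cv p k u
  obtain ⟨y0, hy0⟩ := exists_isClass (K := K) hM L haux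
    (killsPm_of_parGroup (p := p) (M := M) χ) χ.2
  obtain ⟨J, hJ⟩ := deep_triv_of_red hM L haux (transferDataU hpN) (fun _ => rfl)
    ⟨_, ES.charOp_mem_parGroup (transferDataU hpN) χ.2⟩ (conjChar (goodLevel_Gamma0 N) σ χ)
    (hy0.transfer (transferDataU hpN) fun _ => rfl)
    (hy0.conj' L (goodLevel_Gamma0 N) hσ.abv hσ.fine χ) (hσ.red_nrm_eq hy0.1.serIn)
  obtain ⟨j, hj, hje⟩ := heO.exists_ge k J
  refine TrivVec.of_cgr ?_ (Cgr.of_mred hje _)
  intro y hy
  rw [cv_matU_pow (hpN := hpN), Matrix.sub_mulVec, sub_eq_add_neg, cv_add, cv_neg,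
    cv_galMat, galChar_apply_of_ext _ hext, Subgroup.coe_mul, InvMemClass.coe_inv,
    cv_matU hpN] at hy
  exact hJ j hj y hy

end FermatAgent.PSEMI
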