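import Fermat.Agent.PSEMI.Ord.UnitPart
import Fermat.Agent.PSEMI.Ord.FrobDeep

/-!
# The operator identities at `p ∣∣ N`

For `σ₀`, `σ` in inertia and a Frobenius element `F` at a place over `p`, the operators
`U ^ i (t [σ₀, g₁] - 2) ^ i (1 - (t σ₀ - 1 - w) ^ i) (σ₀ - c σ₀) X`, with `X = σ - 1` or
`X = U - F`, tend to zero.
-/

set_option autoImplicit false

open CongruenceSubgroup
open scoped MatrixGroups Matrix

noncomputable section

namespace FermatAgent.PSEMI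

open MatLim
open FermatAgent.ES (GQ CPlace AuxLevel embC autC zetaC)
open FermatAgent.Period (parRank)

variable {p : ℕ} [hp : Fact p.Prime] {N : ℕ} [NeZero N]

local notation "ι₀" => Fin (parRank (Gamma0 N))
local notation "MatN" => Matrix ι₀ ι₀ ℤ_[p]

variable (p N) in
/-- The operators killing the inertia part, and those comparing `U` with Frobenius. -/
def OrdOp (P0 : ValuationSubring (AlgebraicClosure ℚ))
    (X : Matrix (Fin (parRank (Gamma0 N))) (Fin (parRank (Gamma0 N))) ℤ_[p]) : Prop :=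
  (∃ σ ∈ P0.inertiaSubgroupIn ℚ, X = ES.galMat p N σ - 1) ∨
    ∃ F, P0.IsFrobeniusAt F p ∧ X = matU p N - ES.galMat p N F

/-- **The operator identities on the unit part.** -/
theorem exists_kill_unitPart (hpN : p ∣ N) (hp2N : ¬ p ^ 2 ∣ N)
    {P0 : ValuationSubring (AlgebraicClosure ℚ)} (hP0 : P0.LiesOverPrime p) {σ0 : GQ}
    (hσ0 : σ0 ∈ P0.inertiaSubgroupIn ℚ) (hw : PadicInt.toZModPow 1 (ES.padCyclo p σ0) ≠ 1)
    (g1 : GQ) (X : Matrix (Fin (parRank (Gamma0 N))) (Fin (parRank (Gamma0 N))) ℤ_[p])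
    (hX : OrdOp p N P0 X) (k : ℕ) :
    ∃ i, 0 < i ∧ ∀ t, mred k (matU p N ^ (i * (t + 1)) * commOp p N σ0 g1 ^ (i * (t + 1)) *
      (1 - rootOp p N σ0 (wVal p σ0) ^ (i * (t + 1))) *
      (ES.galMat p N σ0 - algebraMap ℤ_[p] _ (ES.padCyclo p σ0)) * X) = 0 := by
  obtain ⟨M0, M, m, hM00, hM0, hM, L, g, haux, hdiv, hsq⟩ := exists_level_of_dvd hpN hp2N
  obtain ⟨Φ, hΦ⟩ := ES.exists_padicEquiv_compat hP0
  obtain ⟨σC, hσC⟩ := exists_cycExt hP0 hΦ hM hσ0
    (fun y hy => ES.padCyclo_spec p σ0 1 (by rw [pow_one]; exact hy)) (wVal_le σ0)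
  obtain ⟨e, I, J, hc, hI0, hJ0, hspec⟩ := exists_cut p N σ0 g1 (wVal p σ0)
  obtain ⟨eO, I1, heO⟩ := exists_powLimit (matU p N)
  have key : eO * e * (ES.galMat p N σ0 - algebraMap ℤ_[p] MatN (ES.padCyclo p σ0)) * X = 0 := by
    rcases hX with ⟨σ, hσ, rfl⟩ | ⟨F, hF, rfl⟩
    · exact hc.unit_mul_eq_zero hM L haux hdiv hpN hσC (wVal_ne_one hw)
        hsq (toZModPow_padCyclo_eq_wVal σ0) heO _ ((hc.commG σ).sub_left (Commute.one_left e))
        fun k v => trivVec_of_deep hM L haux hpN (exists_keeps Φ (hΦ ▸ hσ)) heO k v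
    · obtain ⟨σF, hextF, hkF⟩ := exists_frobKeeps Φ (hΦ ▸ hF)
      exact hc.unit_mul_eq_zero hM L haux hdiv hpN hσC (wVal_ne_one hw)
        hsq (toZModPow_padCyclo_eq_wVal σ0) heO _ (hc.commU.sub_left (hc.commG F))
        fun k v => trivVec_of_frob hM L haux hpN hextF hkF heO k v
  refine ⟨I1 k * (I k * J k), Nat.mul_pos (heO.pos k) (Nat.mul_pos (hI0 k) (hJ0 k)), fun t => ?_⟩
  have e1 : mred k (matU p N ^ (I1 k * (I k * J k) * (t + 1))) = mred k eO := by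
    obtain ⟨d, hd⟩ := Nat.exists_eq_succ_of_ne_zero
      (Nat.mul_pos (Nat.mul_pos (hI0 k) (hJ0 k)) t.succ_pos).ne'
    rw [mul_assoc, hd]
    exact heO.spec k d
  have e2 : mred k (commOp p N σ0 g1 ^ (I1 k * (I k * J k) * (t + 1)) *
      (1 - rootOp p N σ0 (wVal p σ0) ^ (I1 k * (I k * J k) * (t + 1)))) = mred k e := by
    obtain ⟨a, ha⟩ := Nat.exists_eq_succ_of_ne_zero
      (Nat.mul_pos (Nat.mul_pos (heO.pos k) (hJ0 k)) t.succ_pos).ne'
    obtain ⟨b, hb⟩ := Nat.exists_eq_succ_of_ne_zero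
      (Nat.mul_pos (Nat.mul_pos (heO.pos k) (hI0 k)) t.succ_pos).ne'
    rw [hspec k a b,
      show I1 k * (I k * J k) * (t + 1) = I k * (a + 1) by
        rw [← Nat.succ_eq_add_one a, ← ha, Nat.succ_eq_add_one t]; ring]
    congr 4
    rw [← Nat.succ_eq_add_one a, ← ha, ← Nat.succ_eq_add_one b, ← hb, Nat.succ_eq_add_one t]; ring
  rw [mul_assoc (matU p N ^ _), map_mul, map_mul, map_mul, e1, e2, ← map_mul, ← map_mul, ← map_mul,
    key, map_zero]

end FermatAgent.PSEMI
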