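import Fermat.Agent.PSEMI.Ord.SplitU
import Fermat.Agent.PSEMI.Ord.UnitIdentity
import Fermat.Agent.Flat.Split.Quot
import Fermat.Agent.HM.Gal.Local

/-!
# The operator identities on the homomorphisms of `Γ_H`

For `p` dividing exactly the level and `σ₀`, `σ` in inertia, the operators of `UnitIdentity` tend
to zero on the `p`-adic parabolic homomorphisms of `Γ_H`.
-/

set_option autoImplicit false

open CongruenceSubgroup
open scoped MatrixGroups Matrix
open ModularCurve ModularCurve.Period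
open FermatAgent.HM

noncomputable section

namespace FermatAgent.PSEMI

open MatLim
open FermatAgent.Flat.Split
open FermatAgent.ES (GQ)
open FermatAgent.Period (parRank parabolicCoords)

variable {Δ : Type*} [CommGroup Δ] {N L M : ℕ} [NeZero N] [NeZero M]
variable {δ : (ZMod N)ˣ →* Δ} {hNM : N ∣ M}
variable (p : ℕ) [hp : Fact p.Prime] (hneg : δ (-1) = 1)

local notation "VH" => parabolicHoms ℤ_[p] (gammaH δ hNM) ℤ_[p]
local notation "κL" => Fin (parRank (Gamma0 (M * N ^ 2)))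

variable (hsq : ∀ x : (ZMod N)ˣ, x ^ 2 = 1 → δ x = 1) (hN : Squarefree N)

/-- The coordinates of a translate at the split level. -/
def splitCo (Φ : VH) (u : ZMod N) : κL → ℤ_[p] :=
  parabolicCoords (Gamma0 (M * N ^ 2)) ℤ_[p] ℤ_[p] (splitLin hNM hsq hN Φ u)

/-- `A` corresponds to `B` at the split level, the translations being multiplied by `π`. -/
def Inter (A : Module.End ℤ_[p] VH) (B : Matrix κL κL ℤ_[p]) (π : ZMod N) : Prop :=
  ∀ Φ u, splitCo p hsq hN (A Φ) (π * u) = B *ᵥ splitCo p hsq hN Φ u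

variable {p hsq hN}
  {A A' : Module.End ℤ_[p] (parabolicHoms ℤ_[p] (gammaH δ hNM) ℤ_[p])}
  {B B' : Matrix (Fin (parRank (Gamma0 (M * N ^ 2)))) (Fin (parRank (Gamma0 (M * N ^ 2)))) ℤ_[p]}
  {π π' : ZMod N}

theorem splitCo_add (Φ Φ' : VH) (u : ZMod N) :
    splitCo p hsq hN (Φ + Φ') u = splitCo p hsq hN Φ u + splitCo p hsq hN Φ' u := by
  rw [splitCo, map_add, Pi.add_apply, map_add]; rfl

theorem splitCo_smul (a : ℤ_[p]) (Φ : VH) (u : ZMod N) :
    splitCo p hsq hN (a • Φ) u = a • splitCo p hsq hN Φ u := by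
  rw [splitCo, map_smul, Pi.smul_apply, map_smul]; rfl

/-- The congruence used for translations. -/
theorem splitCo_congr {Φ : VH} {u u' : ZMod N} (e : u = u') :
    splitCo p hsq hN Φ u = splitCo p hsq hN Φ u' := e ▸ rfl

theorem splitCo_sub (Φ Φ' : VH) (u : ZMod N) :
    splitCo p hsq hN (Φ - Φ') u = splitCo p hsq hN Φ u - splitCo p hsq hN Φ' u := by
  rw [splitCo, map_sub, Pi.sub_apply, map_sub]; rfl

theorem Inter.add (h : Inter p hsq hN A B π) (h' : Inter p hsq hN A' B' π) :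
    Inter p hsq hN (A + A') (B + B') π := fun Φ u => by
  show splitCo p hsq hN (A Φ + A' Φ) (π * u) = _
  rw [splitCo_add, h Φ u, h' Φ u, Matrix.add_mulVec]

theorem Inter.smul (h : Inter p hsq hN A B π) (a : ℤ_[p]) :
    Inter p hsq hN (a • A) (a • B) π := fun Φ u => by
  show splitCo p hsq hN (a • A Φ) (π * u) = _
  rw [splitCo_smul, h Φ u, Matrix.smul_mulVec]

theorem Inter.sub (h : Inter p hsq hN A B π) (h' : Inter p hsq hN A' B' π) :
    Inter p hsq hN (A - A') (B - B') π := fun Φ u => by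
  show splitCo p hsq hN (A Φ - A' Φ) (π * u) = _
  rw [splitCo_sub, h Φ u, h' Φ u, Matrix.sub_mulVec]

theorem Inter.mul (h : Inter p hsq hN A B π) (h' : Inter p hsq hN A' B' π') :
    Inter p hsq hN (A * A') (B * B') (π * π') := fun Φ u => by
  show splitCo p hsq hN (A (A' Φ)) (π * π' * u) = _
  rw [splitCo_congr (mul_assoc π π' u), h (A' Φ) (π' * u), h' Φ u, Matrix.mulVec_mulVec]

theorem inter_one : Inter p hsq hN (1 : Module.End ℤ_[p] VH) 1 1 := fun Φ u => by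
  rw [Module.End.one_apply, one_mul, Matrix.one_mulVec]

theorem inter_scalar (a : ℤ_[p]) :
    Inter p hsq hN (algebraMap ℤ_[p] (Module.End ℤ_[p] VH) a)
      (algebraMap ℤ_[p] (Matrix κL κL ℤ_[p]) a) 1 := by
  rw [Algebra.algebraMap_eq_smul_one, Algebra.algebraMap_eq_smul_one]
  exact inter_one.smul a

theorem Inter.pow (h : Inter p hsq hN A B π) (n : ℕ) : Inter p hsq hN (A ^ n) (B ^ n) (π ^ n) := by
  induction n with
  | zero => rw [pow_zero, pow_zero, pow_zero]; exact inter_one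
  | succ n ih => rw [pow_succ A n, pow_succ B n, pow_succ π n]; exact ih.mul h

theorem Inter.pow_one' (h : Inter p hsq hN A B 1) (n : ℕ) : Inter p hsq hN (A ^ n) (B ^ n) 1 := by
  have := h.pow n
  rwa [one_pow] at this

theorem Inter.congr (h : Inter p hsq hN A B π) (e : π = π') : Inter p hsq hN A B π' := e ▸ h

theorem inter_galParLin (g : GQ) :
    Inter (hNM := hNM) p hsq hN (galParLin p hneg g) (ES.galMat p (M * N ^ 2) g)
      (cycloN N g : ZMod N) :=
  fun Φ u => by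
    rw [splitCo, ← galPad_splitLin hNM hsq p hN hneg, ← ES.galMat_mulVec]
    rfl

variable {E : Corr (sigma0 N L) (gammaH δ hNM) (gammaH δ hNM) (HIdx M p)} {r : HIdx M p → Gamma0 M}

theorem inter_transParLin (h : ShiftedCorr E r) (hpM : p ∣ M) :
    Inter (hNM := hNM) p hsq hN (transParLin E) (matU p (M * N ^ 2)) (p : ZMod N) := fun Φ u => by
  have hpL : p ∣ M * N ^ 2 := dvd_mul_of_dvd_left hpM _
  rw [splitCo, splitCo, matU, ES.heckePadMat_mulVec]
  refine congrArg _ (Subtype.ext ?_)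
  rw [FermatAgent.Period.parAction_heckeAt ℤ_[p] ℤ_[p] hp.out (Set.notMem_empty p),
    splitLin_apply, splitLin_apply,
    FermatAgent.Period.heckeOp, dif_pos hpL]
  exact splitHom_homOp hsq h hpM hpL Φ.1 u

variable (p hsq hN)

/-- The trace operator `σ + χ(σ) σ⁻¹` on the homomorphisms of `Γ_H`. -/
def galTr (g : GQ) : Module.End ℤ_[p] VH :=
  galParLin p hneg g + algebraMap ℤ_[p] (Module.End ℤ_[p] VH) (ES.padCyclo p g) *
    galParLin p hneg g⁻¹

/-- `t [σ₀, g₁] - 2` on the homomorphisms of `Γ_H`. -/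
def commOpH (σ0 g1 : GQ) : Module.End ℤ_[p] VH :=
  galTr p hneg (σ0 * g1 * σ0⁻¹ * g1⁻¹) - algebraMap ℤ_[p] _ 2

/-- `t σ₀ - (1 + w)` on the homomorphisms of `Γ_H`. -/
def rootOpH (σ0 : GQ) : Module.End ℤ_[p] VH :=
  galTr p hneg σ0 - algebraMap ℤ_[p] _ (1 + (wVal p σ0 : ℤ_[p]))

/-- `σ₀ - χ(σ₀)` on the homomorphisms of `Γ_H`. -/
def lineOpH (σ0 : GQ) : Module.End ℤ_[p] VH :=
  galParLin p hneg σ0 - algebraMap ℤ_[p] _ (ES.padCyclo p σ0)

variable {p hsq hN}

theorem inter_galTr {g : GQ} (hg : cycloN N g = 1) :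
    Inter (hNM := hNM) p hsq hN (galTr p hneg g) (ES.galTrace (M * N ^ 2) p g) 1 := by
  have h1 : Inter p hsq hN (galParLin p hneg g) (ES.galMat p (M * N ^ 2) g) 1 :=
    (inter_galParLin (hNM := hNM) hneg g).congr (by rw [hg, Units.val_one])
  have h2 : Inter p hsq hN (galParLin p hneg g⁻¹) (ES.galMat p (M * N ^ 2) g⁻¹) 1 :=
    (inter_galParLin (hNM := hNM) hneg g⁻¹).congr (by rw [map_inv, hg, inv_one, Units.val_one])
  exact h1.add (((inter_scalar _).mul h2).congr (one_mul 1))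

theorem inter_commOpH {σ0 : GQ} (g1 : GQ) :
    Inter (hNM := hNM) p hsq hN (commOpH p hneg σ0 g1) (commOp p (M * N ^ 2) σ0 g1) 1 := by
  rw [commOp, show (2 : Matrix κL κL ℤ_[p]) = algebraMap ℤ_[p] _ 2 from (map_ofNat _ 2).symm]
  refine (inter_galTr (hNM := hNM) hneg ?_).sub (inter_scalar _)
  rw [map_mul, map_mul, map_mul, map_inv, map_inv, mul_comm (cycloN N σ0), mul_inv_cancel_right,
    mul_inv_cancel]

theorem inter_rootOpH {σ0 : GQ} (hc : cycloN N σ0 = 1) :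
    Inter (hNM := hNM) p hsq hN (rootOpH p hneg σ0) (rootOp p (M * N ^ 2) σ0 (wVal p σ0)) 1 := by
  rw [rootOp, show (1 + (wVal p σ0 : Matrix κL κL ℤ_[p])) =
    algebraMap ℤ_[p] _ (1 + (wVal p σ0 : ℤ_[p])) by rw [map_add, map_one, map_natCast]]
  exact (inter_galTr (hNM := hNM) hneg hc).sub (inter_scalar _)

theorem inter_lineOpH {σ0 : GQ} (hc : cycloN N σ0 = 1) :
    Inter (hNM := hNM) p hsq hN (lineOpH p hneg σ0)
      (ES.galMat p (M * N ^ 2) σ0 - algebraMap ℤ_[p] _ (ES.padCyclo p σ0)) 1 :=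
  ((inter_galParLin (hNM := hNM) hneg σ0).congr (by rw [hc, Units.val_one])).sub (inter_scalar _)

/-- The operators killing the inertia part, and those comparing `U` with Frobenius, on the
homomorphisms of `Γ_H`. -/
def OrdOpH (E : Corr (sigma0 N L) (gammaH δ hNM) (gammaH δ hNM) (HIdx M p))
    (P0 : ValuationSubring (AlgebraicClosure ℚ)) (X : Module.End ℤ_[p] VH) : Prop :=
  (∃ σ ∈ P0.inertiaSubgroupIn ℚ, X = galParLin p hneg σ - 1) ∨
    ∃ F, P0.IsFrobeniusAt F p ∧ X = (transParLin E : Module.End ℤ_[p] VH) - galParLin p hneg F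

/-- Saturation with a bounded loss for an injective linear map into a finite product. -/
theorem exists_const_divisible {V W : Type*} [AddCommGroup V] [Module ℤ_[p] V] [AddCommGroup W]
    [Module ℤ_[p] W] {J κ : Type} [Finite J] [Finite κ] (Λ : V →ₗ[ℤ_[p]] (J → W))
    (hΛ : Function.Injective Λ) (C : W ≃ₗ[ℤ_[p]] (κ → ℤ_[p])) :
    ∃ c, ∀ (k : ℕ) (v : V), (∀ u i, (p : ℤ_[p]) ^ (k + c) ∣ C (Λ v u) i) →
      ∃ v', v = p ^ k • v' := by
  have : Module.Finite ℤ_[p] W := Module.Finite.equiv C.symm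
  obtain ⟨c, hc⟩ := Ideal.exists_pow_inf_eq_pow_smul (Ideal.span {(p : ℤ_[p])})
    (LinearMap.range Λ)
  refine ⟨c, fun k v hd => ?_⟩
  choose d hd using hd
  have hmem : Λ v ∈ Ideal.span {(p : ℤ_[p])} ^ (k + c) • (⊤ : Submodule ℤ_[p] (J → W)) ⊓
      LinearMap.range Λ := by
    refine ⟨?_, LinearMap.mem_range_self Λ _⟩
    rw [Ideal.span_singleton_pow, Submodule.ideal_span_singleton_smul]
    refine ⟨fun u => C.symm (d u), Submodule.mem_top, funext fun u => C.injective ?_⟩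
    show C ((p : ℤ_[p]) ^ (k + c) • C.symm (d u)) = _
    rw [map_smul, LinearEquiv.apply_symm_apply]
    exact funext fun i' => (hd u i').symm
  rw [hc (k + c) (Nat.le_add_left c k), Nat.add_sub_cancel, Ideal.span_singleton_pow,
    Submodule.ideal_span_singleton_smul] at hmem
  obtain ⟨w, ⟨-, ⟨v', rfl⟩⟩, hw⟩ := hmem
  refine ⟨v', hΛ ?_⟩
  rw [← hw, map_nsmul, ← Nat.cast_smul_eq_nsmul ℤ_[p], Nat.cast_pow]
  rfl

variable [Finite Δ] (hδ : Function.Surjective δ) (hodd : Odd (Nat.card Δ))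
  (hM : ∀ q : ℕ, q.Prime → q ∣ N → ¬ q ^ 2 ∣ M)

include hN hsq hδ hodd hM in
/-- **The operator identities on the homomorphisms of `Γ_H`.** -/
theorem exists_kill_parHoms (h : ShiftedCorr E r) (hpM : p ∣ M) (hp2M : ¬ p ^ 2 ∣ M)
    (hpN : ¬ p ∣ N)
    {P0 : ValuationSubring (AlgebraicClosure ℚ)} (hP0 : P0.LiesOverPrime p) {σ0 : GQ}
    (hσ0 : σ0 ∈ P0.inertiaSubgroupIn ℚ) (hw : PadicInt.toZModPow 1 (ES.padCyclo p σ0) ≠ 1)
    (g1 : GQ) {X : Module.End ℤ_[p] VH} (hX : OrdOpH hneg E P0 X) (k : ℕ) :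
    ∃ i, 0 < i ∧ ∀ Φ : VH, ∃ Φ',
      ((transParLin E : Module.End ℤ_[p] VH) ^ i * commOpH p hneg σ0 g1 ^ i *
      (1 - rootOpH p hneg σ0 ^ i) * lineOpH p hneg σ0 * X : Module.End ℤ_[p] VH) Φ =
      p ^ k • Φ' := by
  classical
  have hpL : p ∣ M * N ^ 2 := dvd_mul_of_dvd_left hpM _
  have hp2L : ¬ p ^ 2 ∣ M * N ^ 2 := fun hd => hp2M
    ((Nat.Coprime.pow 2 2 ((Nat.Prime.coprime_iff_not_dvd hp.out).mpr hpN)).dvd_of_dvd_mul_right hd)
  have hc0 : cycloN N σ0 = 1 := cycloN_inertia p hpN hP0 hσ0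
  obtain ⟨Y, π, hY, hXY⟩ : ∃ Y π, OrdOp p (M * N ^ 2) P0 Y ∧ IsUnit π ∧
      Inter p hsq hN X Y π := by
    rcases hX with ⟨σ, hσ, rfl⟩ | ⟨F, hF, rfl⟩
    · refine ⟨_, 1, Or.inl ⟨σ, hσ, rfl⟩, isUnit_one, Inter.sub ?_ inter_one⟩
      exact (inter_galParLin (hNM := hNM) hneg σ).congr
        (by rw [cycloN_inertia p hpN hP0 hσ, Units.val_one])
    · have hu : (cycloN N F : ZMod N) = p := by
        rw [cycloN_frobenius hp.out hpN hP0 hF, ZMod.coe_unitOfCoprime]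
      exact ⟨_, p, Or.inr ⟨F, hF, rfl⟩,
        (ZMod.isUnit_prime_iff_not_dvd hp.out).mpr hpN,
        (inter_transParLin h hpM).sub ((inter_galParLin (hNM := hNM) hneg F).congr hu)⟩
  obtain ⟨hπ, hXY⟩ := hXY
  obtain ⟨c, hc⟩ := exists_const_divisible (p := p) (splitLin (R := ℤ_[p]) hNM hsq hN)
    (splitLin_injective hNM hsq p hN hδ hodd hM)
    (parabolicCoords (Gamma0 (M * N ^ 2)) ℤ_[p] ℤ_[p])
  obtain ⟨i, hi, hkill⟩ := exists_kill_unitPart hpL hp2L hP0 hσ0 hw g1 Y hY (k + c)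
  set j := i * Nat.totient N
  obtain ⟨t, ht⟩ := Nat.exists_eq_succ_of_ne_zero
    (Nat.totient_pos.mpr (Nat.pos_of_ne_zero (NeZero.ne N))).ne'
  have hj : j = i * (t + 1) := by rw [show j = i * Nat.totient N from rfl, ht]
  have hpj : (p : ZMod N) ^ j = 1 := by
    obtain ⟨u, hu⟩ := (ZMod.isUnit_prime_iff_not_dvd hp.out).mpr hpN
    rw [← hu, ← Units.val_pow_eq_pow_val, show j = Nat.totient N * i from mul_comm _ _, pow_mul,
      ZMod.pow_totient, one_pow, Units.val_one]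
  refine ⟨j, Nat.mul_pos hi (Nat.totient_pos.mpr (Nat.pos_of_ne_zero (NeZero.ne N))), fun Φ => ?_⟩
  set T := (transParLin E : Module.End ℤ_[p] VH) ^ j * commOpH p hneg σ0 g1 ^ j *
    (1 - rootOpH p hneg σ0 ^ j) *
    lineOpH p hneg σ0 * X
  set S := matU p (M * N ^ 2) ^ j * commOp p (M * N ^ 2) σ0 g1 ^ j *
    (1 - rootOp p (M * N ^ 2) σ0 (wVal p σ0) ^ j) *
    (ES.galMat p (M * N ^ 2) σ0 - algebraMap ℤ_[p] _ (ES.padCyclo p σ0)) * Y
  have hTS : Inter p hsq hN T S π := by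
    have h1 := ((((inter_transParLin (hsq := hsq) (hN := hN) h hpM).pow j).congr hpj).mul
      ((inter_commOpH (hsq := hsq) (hN := hN) hneg (σ0 := σ0) g1).pow_one' j))
    have h2 := (h1.mul (inter_one.sub
      ((inter_rootOpH (hsq := hsq) (hN := hN) hneg hc0).pow_one' j)))
    exact ((h2.mul (inter_lineOpH hneg hc0)).mul hXY).congr (by simp only [one_mul])
  have hS : mred (k + c) S = 0 := by
    show mred (k + c) (matU p (M * N ^ 2) ^ j * _ * _ * _ * _) = 0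
    rw [hj]
    exact hkill t
  refine hc k (T Φ) fun v i' => ?_
  obtain ⟨π', rfl⟩ := hπ
  have e : splitCo p hsq hN (T Φ) v = S *ᵥ splitCo p hsq hN Φ ((π'⁻¹ : (ZMod N)ˣ) * v) := by
    rw [← hTS Φ, ← mul_assoc, Units.mul_inv, one_mul]
  show _ ∣ splitCo p hsq hN (T Φ) v i'
  rw [e]
  simpa using mred_mulVec (x := S) (y := 0) (by rw [hS, map_zero])
    (splitCo p hsq hN Φ ((π'⁻¹ : (ZMod N)ˣ) * v)) i'

end FermatAgent.PSEMI
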