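import Fermat.Agent.RT.Cond.ModuleFlat
import Fermat.Agent.PSEMI.Ord.SplitOp
import Fermat.Agent.PSEMI.Ord.ResComm
import Fermat.Agent.GaloisBasic.FiniteFrobenius

/-!
# The auxiliary Hecke modules at a prime dividing the level exactly once

Where `U_p` is invertible and the residual representation has inertia at `p` with trace
`1 + χ`, the twisted Galois action on the localised module satisfies the equations of an ordinary
representation, and the strict equation when the square of `U_p` is one after twisting.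
-/

set_option autoImplicit false
set_option maxRecDepth 2000

noncomputable section

open IsLocalRing FermatAgent.GaloisBasic
open FermatAgent.HM FermatAgent.RT MvPolynomial
open ModularCurve ModularCurve.Period
open scoped Matrix

namespace FermatAgent.PSEMI

section Algebra

variable {A B F : Type*} [Ring A] [Ring B] [FunLike F A B] [RingHomClass F A B]

/-- Images of trace operators. -/
private lemma map_add_mul_sub (f : F) (x y z w : A) :
    f (x + y * z - w) = f x + f y * f z - f w := by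
  rw [map_sub, map_add, map_mul]

/-- Images of products of four factors. -/
private lemma map_mul_four (f : F) (u v x w z : A) (i : ℕ) :
    f (((u ^ i * v ^ i) * (1 - x ^ i)) * w * z) =
      f u ^ i * f v ^ i * (1 - f x ^ i) * (f w * f z) := by
  rw [map_mul, map_mul, map_mul, map_mul, map_pow, map_pow, map_sub, map_one, map_pow, mul_assoc]

/-- Commuting scalar multiples. -/
private lemma smul_map_comm {R : Type*} [CommRing R] [Algebra R B] (f : F) (t u : R) {x y : A}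
    (h : Commute x y) : (t • f x) * (u • f y) = (u • f y) * (t • f x) := by
  rw [smul_mul_smul_comm, smul_mul_smul_comm, ← map_mul, ← map_mul, h.eq, mul_comm t u]

end Algebra

variable (p : ℕ) [hp : Fact p.Prime]
variable {𝒪 : Type} [CommRing 𝒪] [IsDomain 𝒪] [IsDiscreteValuationRing 𝒪]
  [IsAdicComplete (maximalIdeal 𝒪) 𝒪] [Algebra ℤ_[p] 𝒪] [IsAddTorsionFree 𝒪]
variable {κ : Type} [Fintype κ] {m : κ → ℕ} [∀ i, NeZero (m i)]
  [IsLocalRing (MonoidAlgebra 𝒪 (CycProd m))]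
variable {N L M : ℕ} [NeZero M] [NeZero N] {ι : Type} {pr : ι → HPrime L}
variable {δ : (ZMod N)ˣ →* CycProd m} {hNM : N ∣ M}

local notation "S" => MonoidAlgebra 𝒪 (CycProd m)

/-- A shortcut for the tower of the Hecke module over itself. -/
local instance (priority := 10000) towerSelfHeckeH1 {R X : Type} [CommRing R] [AddCommGroup X]
    [Module R X] {ρ : Representation R (sigma0 N L) X} :
    IsScalarTower (MvPolynomial ι R) (MvPolynomial ι R) (HeckeH1 hNM pr ρ) :=
  IsScalarTower.left _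

variable (hδ : Function.Surjective δ) (hneg : δ (-1) = 1)
  (a : ι → (MonoidAlgebra 𝒪 (CycProd m))) (hpO : (p : 𝒪) ∈ maximalIdeal 𝒪)

local notation "VH" => parabolicHoms ℤ_[p] (gammaH δ hNM) ℤ_[p]
local notation "Poly" => MvPolynomial ι (MonoidAlgebra 𝒪 (CycProd m))
local notation "WMod" => HeckeLoc pr hNM (diamondRep 𝒪 δ :) (resIdeal a)

variable (hloc : IsLocalizedModule (resIdeal a).primeCompl (parToLoc 𝒪 δ hNM pr hδ (resIdeal a)))
  {s : ℕ}

local notation "MatS" => Matrix (Fin s) (Fin s) (MonoidAlgebra 𝒪 (CycProd m))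

variable (b : Module.Basis (Fin s) (MonoidAlgebra 𝒪 (CycProd m))
  (HeckeLoc pr hNM (diamondRep 𝒪 δ :) (resIdeal a)))

/-! ### From the homomorphisms to the module -/

/-- The image of a `p`-adic homomorphism in the module. -/
def imgLoc (ψ : VH) : WMod :=
  parToLoc 𝒪 δ hNM pr hδ (resIdeal a) (parOfHom hδ (pushParO (O := 𝒪) ψ))

/-- An operator on the homomorphisms seen on the module. -/
def Push (A : Module.End ℤ_[p] VH) (B : Module.End Poly WMod) : Prop :=
  ∀ ψ, imgLoc p hδ a (A ψ) = B (imgLoc p hδ a ψ)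

/-- Scalars of `ℤ_p` in the polynomial ring. -/
abbrev scalP (c : ℤ_[p]) : Poly := C (algebraMap 𝒪 S (algebraMap ℤ_[p] 𝒪 c))

section

omit [IsDomain 𝒪] [IsDiscreteValuationRing 𝒪] [IsAdicComplete (maximalIdeal 𝒪) 𝒪]
    [IsAddTorsionFree 𝒪] [NeZero N]

theorem imgLoc_add (ψ ψ' : VH) :
    imgLoc (pr := pr) p hδ a (ψ + ψ') = imgLoc p hδ a ψ + imgLoc p hδ a ψ' := by
  refine (congrArg _ ((congrArg (parOfHom hδ) ?_).trans (parOfHom_add hδ _ _))).trans
    (map_add (parToLoc 𝒪 δ hNM pr hδ (resIdeal a)) _ _)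
  exact Subtype.ext (AddMonoidHom.ext fun x => map_add (algebraMap ℤ_[p] 𝒪) _ _)

theorem imgLoc_smul (c : ℤ_[p]) (ψ : VH) :
    imgLoc (pr := pr) p hδ a (c • ψ) = (scalP p c : Poly) • imgLoc p hδ a ψ := by
  refine Eq.trans (congrArg (parToLoc 𝒪 δ hNM pr hδ (resIdeal a)) ?_)
    (map_smul (parToLoc 𝒪 δ hNM pr hδ (resIdeal a)) _ _)
  refine Subtype.ext ((shapiroHecke 𝒪 δ hNM pr hδ).injective ?_)
  rw [shapiro_parOfHom, Submodule.coe_smul, scalP, C_smul_eq,
    show algebraMap 𝒪 S (algebraMap ℤ_[p] 𝒪 c) = MonoidAlgebra.single 1 (algebraMap ℤ_[p] 𝒪 c) by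
      rw [MonoidAlgebra.coe_algebraMap, Function.comp_apply, Algebra.algebraMap_self,
        RingHom.id_apply],
    shapiroHecke_scalar, shapiro_parOfHom]
  exact AddMonoidHom.ext fun x => map_mul (algebraMap ℤ_[p] 𝒪) c _

theorem imgLoc_sub (ψ ψ' : VH) :
    imgLoc (pr := pr) p hδ a (ψ - ψ') = imgLoc p hδ a ψ - imgLoc p hδ a ψ' := by
  rw [eq_sub_iff_add_eq, ← imgLoc_add, sub_add_cancel]

theorem imgLoc_nsmul (n : ℕ) (ψ : VH) :
    imgLoc (pr := pr) p hδ a (n • ψ) = n • imgLoc p hδ a ψ := by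
  induction n with
  | zero =>
    have h := imgLoc_sub (pr := pr) p hδ a ψ ψ
    rw [sub_self, sub_self] at h
    rw [zero_smul, zero_smul, h]
  | succ n ih => rw [succ_nsmul, succ_nsmul, imgLoc_add, ih]

end

variable {p hδ a}

section PushOps

variable {A A' : Module.End ℤ_[p] (parabolicHoms ℤ_[p] (gammaH δ hNM) ℤ_[p])}
variable {B B' : Module.End (MvPolynomial ι (MonoidAlgebra 𝒪 (CycProd m)))
  (HeckeLoc pr hNM (diamondRep 𝒪 δ :) (resIdeal a))}

section

omit [IsDomain 𝒪] [IsDiscreteValuationRing 𝒪] [IsAdicComplete (maximalIdeal 𝒪) 𝒪]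
    [IsAddTorsionFree 𝒪] [NeZero N]

theorem Push.add (h : Push p hδ a A B) (h' : Push p hδ a A' B') :
    Push p hδ a (A + A') (B + B') := fun ψ => by
  show imgLoc p hδ a (A ψ + A' ψ) = B _ + B' _
  rw [imgLoc_add, h ψ, h' ψ]

theorem Push.sub (h : Push p hδ a A B) (h' : Push p hδ a A' B') :
    Push p hδ a (A - A') (B - B') := fun ψ => by
  show imgLoc p hδ a (A ψ - A' ψ) = B _ - B' _
  rw [imgLoc_sub, h ψ, h' ψ]

theorem Push.mul (h : Push p hδ a A B) (h' : Push p hδ a A' B') :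
    Push p hδ a (A * A') (B * B') := fun ψ => by
  show imgLoc p hδ a (A (A' ψ)) = B (B' _)
  rw [h (A' ψ), h' ψ]

theorem push_one : Push (pr := pr) (hNM := hNM) p hδ a 1 1 := fun _ => rfl

theorem push_scalar (c : ℤ_[p]) :
    Push (pr := pr) (hNM := hNM) p hδ a (algebraMap ℤ_[p] (Module.End ℤ_[p] VH) c)
      (algebraMap Poly (Module.End Poly WMod) (scalP p c)) := fun ψ => by
  show imgLoc p hδ a (c • ψ) = (scalP p c : Poly) • imgLoc p hδ a ψ
  exact imgLoc_smul p hδ a c ψ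

theorem Push.pow (h : Push p hδ a A B) (n : ℕ) : Push p hδ a (A ^ n) (B ^ n) := by
  induction n with
  | zero => rw [pow_zero, pow_zero]; exact push_one
  | succ n ih => rw [pow_succ A n, pow_succ B n]; exact ih.mul h

end

end PushOps

section

omit [IsDomain 𝒪] [IsDiscreteValuationRing 𝒪] [IsAdicComplete (maximalIdeal 𝒪) 𝒪] [NeZero N]

theorem push_galParLin (g : GQ) :
    Push p hδ a (galParLin p hneg g) (galLoc p 𝒪 hδ hneg (resIdeal a) hloc g) := fun ψ => by
  refine Eq.trans ?_ (galLoc_parOfHom p hδ hneg a hloc g _).symm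
  refine congrArg (fun φ => parToLoc 𝒪 δ hNM pr hδ (resIdeal a) (parOfHom hδ φ)) ?_
  rw [galParO, MonoidHom.comp_apply]
  exact (extPar_pushParO _ _).symm

omit [IsAddTorsionFree 𝒪] [IsLocalRing S] in
/-- The transfer of a chosen index. -/
theorem exists_transfer_at {ℓ : ℕ} [Fact ℓ.Prime] (i : ι) (hi : ((pr i).1.1 : ℕ) = ℓ) :
    ∃ (r : HIdx M ℓ → CongruenceSubgroup.Gamma0 M)
      (E : Corr (sigma0 N L) (gammaH δ hNM) (gammaH δ hNM) (HIdx M ℓ)),
      ShiftedCorr E r ∧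
        ∀ z : parSub 𝒪 δ hNM pr hδ, shapiroHecke 𝒪 δ hNM pr hδ
          ((algebraMap Poly (Module.End Poly (parSub 𝒪 δ hNM pr hδ)) (X i) z :
              parSub 𝒪 δ hNM pr hδ) : DiamondH1 𝒪 δ hNM pr) =
          ((transParLin E : Module.End 𝒪 (parabolicHoms 𝒪 (gammaH δ hNM) 𝒪))
            ⟨shapiroHecke 𝒪 δ hNM pr hδ z.1, z.2⟩).1 := by
  subst hi
  exact exists_transfer_mem 𝒪 δ hNM pr hδ i

omit [IsAddTorsionFree 𝒪] in
theorem push_transParLin {ℓ : ℕ} [Fact ℓ.Prime] {i : ι}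
    {E : Corr (sigma0 N L) (gammaH δ hNM) (gammaH δ hNM) (HIdx M ℓ)}
    (hE : ∀ z : parSub 𝒪 δ hNM pr hδ, shapiroHecke 𝒪 δ hNM pr hδ
          ((algebraMap Poly (Module.End Poly (parSub 𝒪 δ hNM pr hδ)) (X i) z :
              parSub 𝒪 δ hNM pr hδ) : DiamondH1 𝒪 δ hNM pr) =
          ((transParLin E : Module.End 𝒪 (parabolicHoms 𝒪 (gammaH δ hNM) 𝒪))
            ⟨shapiroHecke 𝒪 δ hNM pr hδ z.1, z.2⟩).1) :
    Push p hδ a (transParLin E) (algebraMap Poly (Module.End Poly WMod) (X i)) := fun ψ => by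
  refine Eq.trans (congrArg (parToLoc 𝒪 δ hNM pr hδ (resIdeal a)) ?_)
    ((map_smul (parToLoc 𝒪 δ hNM pr hδ (resIdeal a)) _ _).trans
      (Module.algebraMap_end_apply _ _ _ _ _).symm)
  refine Subtype.ext ((shapiroHecke 𝒪 δ hNM pr hδ).injective ?_)
  rw [shapiro_parOfHom]
  refine Eq.trans ?_ (hE (parOfHom hδ (pushParO ψ))).symm
  rw [← transParLin_pushParO]
  exact congrArg (fun φ => ((transParLin E :
    Module.End 𝒪 (parabolicHoms 𝒪 (gammaH δ hNM) 𝒪)) φ).1)
    (Subtype.ext (shapiro_parOfHom hδ _).symm)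

end

variable (p hδ a)

omit [NeZero N] in
include hloc in
/-- An operator divisible by `n` on the images of homomorphisms is divisible by `n` on the
module. -/
theorem exists_eq_smul_of_imgLoc
    (B : Module.End Poly WMod) (n : ℕ) (h : ∀ ψ : VH, ∃ w, B (imgLoc p hδ a ψ) = n • w)
    (w : WMod) : ∃ w', B w = n • w' := by
  classical
  obtain ⟨z, hz⟩ := parToLoc_surjective hδ a hloc w
  set φ : parabolicHoms 𝒪 (gammaH δ hNM) 𝒪 := ⟨shapiroHecke 𝒪 δ hNM pr hδ z.1, z.2⟩
  have hz' : parOfHom hδ φ = z := Subtype.ext (AddEquiv.symm_apply_apply _ _)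
  choose w' hw' using h
  let cj := fun j => φ.1 (Additive.ofMul (Period.parElt (gammaH δ hNM) j))
  have hsum : z = ∑ j, (C (MonoidAlgebra.single 1 (cj j)) : Poly) •
      parOfHom hδ (pushParO ((Period.parabolicCoords (gammaH δ hNM) ℤ_[p] ℤ_[p]).symm
        (Pi.single j 1))) := by
    refine Subtype.ext ((shapiroHecke 𝒪 δ hNM pr hδ).injective ?_)
    rw [← hz', shapiro_parOfHom, Submodule.coe_sum, map_sum]
    conv_lhs => rw [eq_sum_pushParO (R := ℤ_[p]) φ, Submodule.coe_sum]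
    refine Finset.sum_congr rfl fun j _ => ?_
    rw [Submodule.coe_smul, Submodule.coe_smul, C_smul_eq, shapiroHecke_scalar, shapiro_parOfHom]
  refine ⟨∑ j, (C (MonoidAlgebra.single 1 (cj j)) : Poly) •
    w' ((Period.parabolicCoords (gammaH δ hNM) ℤ_[p] ℤ_[p]).symm (Pi.single j 1)), ?_⟩
  refine ((congrArg B (hz.symm.trans ((congrArg _ hsum).trans
    (map_sum (parToLoc 𝒪 δ hNM pr hδ (resIdeal a)) _ _)))).trans (map_sum B _ _)).trans ?_
  refine Eq.trans (Finset.sum_congr rfl fun j _ => ?_) (Finset.sum_nsmul _ n _)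
  exact ((congrArg B (map_smul (parToLoc 𝒪 δ hNM pr hδ (resIdeal a)) _ _)).trans
    (map_smul B _ _)).trans ((congrArg _ (hw' _)).trans (smul_comm _ n _))

omit [IsDomain 𝒪] [IsDiscreteValuationRing 𝒪] [IsAdicComplete (maximalIdeal 𝒪) 𝒪]
    [IsAddTorsionFree 𝒪] [Fintype κ] [∀ (i : κ), NeZero (m i)] [NeZero M] [NeZero N] in
theorem endMat_eq_smul (B : Module.End Poly WMod) (n : ℕ) (h : ∀ w, ∃ w', B w = n • w') :
    ∃ Y : MatS, endMat b B = n • Y := by
  choose w' hw' using fun j => h (b j)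
  refine ⟨Matrix.of fun i j => b.repr (w' j) i, Matrix.ext fun i j => ?_⟩
  show LinearMap.toMatrixAlgEquiv b (resEnd B) i j = _
  rw [LinearMap.toMatrixAlgEquiv_apply]
  show b.repr (B (b j)) i = _
  exact congrArg (fun f : Fin s →₀ S => f i)
    ((congrArg b.repr (hw' j)).trans (map_nsmul b.repr n _))

omit hp [IsAdicComplete (maximalIdeal 𝒪) 𝒪] [Algebra ℤ_[p] 𝒪] [IsAddTorsionFree 𝒪] in
include hpO in
/-- The coefficient ring is `p`-adically separated. -/
theorem eq_zero_of_forall_pow {Z : MatS} (h : ∀ k, ∃ Y : MatS, Z = p ^ k • Y) : Z = 0 := by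
  have : IsNoetherianRing S := GroupRing.isNoetherianRing
  refine Matrix.ext fun i j => ?_
  have hk : Z i j ∈ ⨅ k, maximalIdeal S ^ k := by
    rw [Submodule.mem_iInf]
    intro k
    obtain ⟨Y, hY⟩ := h k
    rw [hY, Matrix.smul_apply, nsmul_eq_mul, Nat.cast_pow]
    refine Ideal.mul_mem_right _ _ (Ideal.pow_mem_pow ?_ k)
    rw [← map_natCast (algebraMap 𝒪 S) p]
    exact map_nonunit (algebraMap 𝒪 S) _ hpO
  rw [Ideal.iInf_pow_eq_bot_of_isLocalRing _ (maximalIdeal.isMaximal S).ne_top] at hk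
  exact hk

/-! ### The equations -/

section

omit [IsDomain 𝒪] [IsDiscreteValuationRing 𝒪] [IsAdicComplete (maximalIdeal 𝒪) 𝒪]

omit [IsAddTorsionFree 𝒪] [Fintype κ] [∀ (i : κ), NeZero (m i)] [IsLocalRing S] in
lemma twistDet_of_cycloN {g : GQ} (hg : cycloN N g = 1) : twistDet (𝒪 := 𝒪) δ g = 1 := by
  rw [twistDet_apply, hg, map_one, map_one, inv_one, map_one]

lemma modRho_of_cycloN {g : GQ} (hg : cycloN N g = 1) :
    modRho p hδ hneg a hloc b g = endMat b (galLoc p 𝒪 hδ hneg (resIdeal a) hloc g) :=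
  (modRho_apply p hδ hneg a hloc b g).trans
    ((congrArg (fun t : S => t • endMat b (galLoc p 𝒪 hδ hneg (resIdeal a) hloc g))
      (twistDet_of_cycloN hg)).trans (one_smul _ _))

omit [IsAddTorsionFree 𝒪] [Fintype κ] [∀ (i : κ), NeZero (m i)] [NeZero M] [NeZero N] in
/-- The matrix of a scalar of `ℤ_p`. -/
private lemma endMat_scalP (x : ℤ_[p]) :
    endMat b (algebraMap Poly (Module.End Poly WMod) (scalP p x)) =
      algebraMap S MatS (algebraMap 𝒪 S (algebraMap ℤ_[p] 𝒪 x)) :=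
  endMat_algebraMap b _

omit hp [Algebra ℤ_[p] 𝒪] [IsAddTorsionFree 𝒪] [Fintype κ] [∀ (i : κ), NeZero (m i)] [NeZero M]
    [NeZero N] in
/-- A variable with unit value acts invertibly on the localised module. -/
lemma isUnit_endMat_X (ip : ι) (haip : IsUnit (a ip)) :
    IsUnit (endMat b (algebraMap Poly (Module.End Poly WMod) (X ip))) := by
  refine IsUnit.map (endMat b) ?_
  have h : (X ip : Poly) ∈ (resIdeal a).primeCompl := fun hP => by
    rw [SetLike.mem_coe, mem_resIdeal, aeval_X] at hP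
    exact (mem_maximalIdeal _).mp hP haip
  exact IsLocalizedModule.map_units
    (LocalizedModule.mkLinearMap (resIdeal a).primeCompl (DiamondH1 𝒪 δ hNM pr)) ⟨_, h⟩

end

/-- The equations of an ordinary representation for the idempotent of `i`, with `U` in place of
`U_p`, the last one under a condition on `U`. -/
def OrdEquations (i : OrdIndex (cycloO p 𝒪) p) (U : MatS) : Prop :=
  let π := i.u • (modRho p hδ hneg a hloc b i.σ₀ - 1)
  π * π = π ∧
    (∀ σ ∈ i.P.decompositionSubgroup ℚ, (1 - π) * modRho p hδ hneg a hloc b σ * π = 0) ∧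
    (∀ σ ∈ i.P.inertiaSubgroupIn ℚ, (1 - π) * (modRho p hδ hneg a hloc b σ - 1) = 0) ∧
    (∀ F, i.P.IsFrobeniusAt F p →
      (1 - π) * (modRho p hδ hneg a hloc b F - twistDet (𝒪 := 𝒪) δ F • U) = 0) ∧
    ((∀ F, i.P.IsFrobeniusAt F p →
        (twistDet (𝒪 := 𝒪) δ F • U) * (twistDet (𝒪 := 𝒪) δ F • U) = 1) →
      ∀ σ ∈ i.P.decompositionSubgroup ℚ,
        (1 - π) * (modRho p hδ hneg a hloc b σ * modRho p hδ hneg a hloc b σ - 1) = 0)

section Main

variable (good : Set ι) (Sbad : Finset ℕ)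
  (hgood : ∀ q : ℕ, q.Prime → q ∉ Sbad → ∃ i ∈ good, ((pr i).1.1 : ℕ) = q)
variable (hm : ∀ i, ∃ k, m i = p ^ k) (hs : 0 < s) (hodd : Odd (Nat.card (CycProd m)))
variable (rbar : MatRep (ResidueField 𝒪))
  (hspan : Submodule.span (ResidueField 𝒪) (Set.range rbar) = ⊤)
  (hcont : MatContinuous (ResidueField 𝒪) rbar)
  (hdet : ∀ g, (rbar g).det = residue 𝒪 (algebraMap ℤ_[p] 𝒪 (ES.padCyclo p g)))
  (hres : ∀ i : good, ¬ ((pr i.1).1.1 : ℕ) ∣ M → (pr i.1).1.1 ≠ p →
      ∀ (P : ValuationSubring Qbar) (σ : GQ), P.LiesOverPrime (pr i.1).1.1 →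
        P.IsFrobeniusAt σ (pr i.1).1.1 → (rbar σ).trace = resAug (a i.1))
  (hpeu : ∀ (P : ValuationSubring Qbar), P.LiesOverPrime p → ∀ σ ∈ P.inertiaSubgroupIn ℚ,
      (rbar σ).trace = 1 + residue 𝒪 (cycloO p 𝒪 σ))
variable (hN : Squarefree N) (hM : ∀ q : ℕ, q.Prime → q ∣ N → ¬ q ^ 2 ∣ M) (hpN : ¬ p ∣ N)
  (hpM : p ∣ M) (hp2M : ¬ p ^ 2 ∣ M) {r : HIdx M p → CongruenceSubgroup.Gamma0 M}
  {E : Corr (sigma0 N L) (gammaH δ hNM) (gammaH δ hNM) (HIdx M p)} (hE : ShiftedCorr E r)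
  (Ue : Module.End (MvPolynomial ι (MonoidAlgebra 𝒪 (CycProd m)))
    (HeckeLoc pr hNM (diamondRep 𝒪 δ :) (resIdeal a)))
  (hEU : Push p hδ a (transParLin E) Ue)
  (hUunit : IsUnit (endMat b Ue))
  (hUcomm : ∀ g, Commute Ue (galLoc p 𝒪 hδ hneg (resIdeal a) hloc g))

omit [IsAdicComplete (maximalIdeal 𝒪) 𝒪] in
include hgood hm hs hodd hcont hdet hres hpO in
/-- An operator `σ + χ(σ) σ⁻¹ - c` is invertible when residually it is. -/
theorem isUnit_traceOp {g : GQ} (hg : cycloN N g = 1) (c : ℤ_[p]) (n : ℕ)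
    (h : ∀ v : ResidueField 𝒪, v = (rbar g).trace - residue 𝒪 (algebraMap ℤ_[p] 𝒪 c) →
      (if n = 0 then v else 1 - v ^ n) ≠ 0) :
    IsUnit (if n = 0 then endMat b (galLoc p 𝒪 hδ hneg (resIdeal a) hloc g +
        algebraMap Poly (Module.End Poly WMod) (scalP p (ES.padCyclo p g)) *
          galLoc p 𝒪 hδ hneg (resIdeal a) hloc g⁻¹ -
        algebraMap Poly (Module.End Poly WMod) (scalP p c))
      else 1 - endMat b (galLoc p 𝒪 hδ hneg (resIdeal a) hloc g +
        algebraMap Poly (Module.End Poly WMod) (scalP p (ES.padCyclo p g)) *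
          galLoc p 𝒪 hδ hneg (resIdeal a) hloc g⁻¹ -
        algebraMap Poly (Module.End Poly WMod) (scalP p c)) ^ n) := by
  set T := modTd p hδ hneg good a hpO hloc Sbad hgood
  set x : modT₀ (δ := δ) (hNM := hNM) (pr := pr) good a :=
    T.t g - algebraMap S _ (algebraMap 𝒪 S (algebraMap ℤ_[p] 𝒪 c))
  have hg' : cycloN N g⁻¹ = 1 := by rw [map_inv, hg, inv_one]
  have e : endMat b (galLoc p 𝒪 hδ hneg (resIdeal a) hloc g +
        algebraMap Poly (Module.End Poly WMod) (scalP p (ES.padCyclo p g)) *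
          galLoc p 𝒪 hδ hneg (resIdeal a) hloc g⁻¹ -
        algebraMap Poly (Module.End Poly WMod) (scalP p c)) = modPhi good a b x := by
    have hx' : modPhi good a b x = modRho p hδ hneg a hloc b g +
        algebraMap S MatS (algebraMap 𝒪 S (algebraMap ℤ_[p] 𝒪 (ES.padCyclo p g))) *
          modRho p hδ hneg a hloc b g⁻¹ -
        algebraMap S MatS (algebraMap 𝒪 S (algebraMap ℤ_[p] 𝒪 c)) := by
      rw [map_sub, modPhi_td_t p hδ hneg good a hpO hloc Sbad hgood b hodd,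
        modPhi_td_d p hδ hneg good a hpO hloc Sbad hgood b hodd, AlgHom.commutes]
    exact (map_add_mul_sub (endMat b) _ _ _ _).trans ((congrArg₂ (· - ·)
      (congrArg₂ (· + ·) (modRho_of_cycloN p hδ hneg a hloc b hg).symm
        (congrArg₂ (· * ·) (endMat_scalP p a b _)
          (modRho_of_cycloN p hδ hneg a hloc b hg').symm)) (endMat_scalP p a b _)).trans hx'.symm)
  have hx : modChi p good a hpO b hm hs x =
      (rbar g).trace - residue 𝒪 (algebraMap ℤ_[p] 𝒪 c) := by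
    rw [map_sub, modChi_td p hδ hneg good a hpO hloc Sbad hgood b hm rbar hs hodd hcont hdet hres g,
      modChi_algebraMap p good a hpO b hm hs, AlgHom.commutes]
    rfl
  rw [e]
  have := h _ hx
  by_cases hn : n = 0
  · rw [if_pos hn] at this ⊢
    exact isUnit_modPhi p good a hpO b hm hs x this
  · rw [if_neg hn] at this ⊢
    rw [← map_one (modPhi (hNM := hNM) (pr := pr) good a b), ← map_pow, ← map_sub]
    exact isUnit_modPhi p good a hpO b hm hs _ (by rwa [map_sub, map_pow, map_one])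

omit [IsAdicComplete (maximalIdeal 𝒪) 𝒪] [IsAddTorsionFree 𝒪] in
/-- A `p`-adic integer congruent to `n` modulo `p` is `n` in the residue field. -/
private theorem residue_algebraMap_eq_natCast (hpO : (p : 𝒪) ∈ maximalIdeal 𝒪) {n : ℕ}
    {x : ℤ_[p]} (hx : PadicInt.toZModPow 1 x = (n : ZMod (p ^ 1))) :
    residue 𝒪 (algebraMap ℤ_[p] 𝒪 x) = n := by
  have : (p : ℤ_[p]) ∣ x - n := by
    have h1 : x - n ∈ RingHom.ker (PadicInt.toZModPow (p := p) 1) := by
      rw [RingHom.mem_ker, map_sub, hx, map_natCast, sub_self]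
    rwa [PadicInt.ker_toZModPow, Ideal.mem_span_singleton, pow_one] at h1
  obtain ⟨y, hy⟩ := this
  rw [← sub_eq_zero, ← map_natCast (residue 𝒪) n, ← map_natCast (algebraMap ℤ_[p] 𝒪) n, ← map_sub,
    ← map_sub, hy, map_mul, map_mul, map_natCast, (residue_eq_zero_iff _).mpr hpO, zero_mul]

include hgood hm hs hodd hspan hcont hdet hres hpeu hN hM hpN hpM hp2M hE hEU hUunit hpO in
/-- **The operator identities on the module.** -/
theorem lineOp_mul_eq_zero {P : ValuationSubring Qbar} (hP : P.LiesOverPrime p) {σ₀ : GQ}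
    (hσ₀ : σ₀ ∈ P.inertiaSubgroupIn ℚ) (hw : residue 𝒪 (cycloO p 𝒪 σ₀) ≠ 1) :
    (∀ σ ∈ P.inertiaSubgroupIn ℚ,
      (modRho p hδ hneg a hloc b σ₀ - algebraMap 𝒪 MatS (cycloO p 𝒪 σ₀)) *
        (modRho p hδ hneg a hloc b σ - 1) = 0) ∧
    ∀ F, P.IsFrobeniusAt F p →
      (modRho p hδ hneg a hloc b σ₀ - algebraMap 𝒪 MatS (cycloO p 𝒪 σ₀)) *
        (twistDet (𝒪 := 𝒪) δ F • endMat b Ue -
          modRho p hδ hneg a hloc b F) = 0 := by
  have hw0 : residue 𝒪 (cycloO p 𝒪 σ₀) = (wVal p σ₀ : ℕ) :=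
    residue_algebraMap_eq_natCast p hpO (toZModPow_padCyclo_eq_wVal σ₀)
  have hw1 : PadicInt.toZModPow 1 (ES.padCyclo p σ₀) ≠ 1 := fun h =>
    hw ((residue_algebraMap_eq_natCast p hpO (h.trans Nat.cast_one.symm)).trans Nat.cast_one)
  obtain ⟨g1, hg1⟩ := exists_trace_commutator_ne rbar hspan (hpeu P hP σ₀ hσ₀) (hdet σ₀)
    (fun h0 => one_ne_zero (α := ResidueField 𝒪) (by
      rw [← Matrix.det_one (n := Fin 2), ← map_one rbar, ← mul_inv_cancel σ₀, map_mul,
        Matrix.det_mul, hdet σ₀, ← cycloO_apply, h0, zero_mul])) hw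
  have hc0 : cycloN N σ₀ = 1 := Flat.Split.cycloN_inertia p hpN hP hσ₀
  set g2 : GQ := σ₀ * g1 * σ₀⁻¹ * g1⁻¹
  have hc2 : cycloN N g2 = 1 := by
    rw [map_mul, map_mul, map_mul, map_inv, map_inv, mul_comm (cycloN N σ₀), mul_inv_cancel_right,
      mul_inv_cancel]
  set UB := endMat b Ue
  set xB := endMat b (galLoc p 𝒪 hδ hneg (resIdeal a) hloc g2 +
        algebraMap Poly (Module.End Poly WMod) (scalP p (ES.padCyclo p g2)) *
          galLoc p 𝒪 hδ hneg (resIdeal a) hloc g2⁻¹ -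
        algebraMap Poly (Module.End Poly WMod) (scalP p 2))
  set zB := endMat b (galLoc p 𝒪 hδ hneg (resIdeal a) hloc σ₀ +
        algebraMap Poly (Module.End Poly WMod) (scalP p (ES.padCyclo p σ₀)) *
          galLoc p 𝒪 hδ hneg (resIdeal a) hloc σ₀⁻¹ -
        algebraMap Poly (Module.End Poly WMod) (scalP p (1 + (wVal p σ₀ : ℤ_[p]))))
  have hUB : IsUnit UB := hUunit
  have hxB : IsUnit xB := by
    have := isUnit_traceOp p hδ hneg a hpO hloc b good Sbad hgood hm hs hodd rbar hcont hdet hres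
      hc2 2 0 fun v hv => by
        rw [if_pos rfl, hv, map_ofNat, map_ofNat, sub_ne_zero]
        exact hg1
    rwa [if_pos rfl] at this
  have hzB : ∀ i, 0 < i → IsUnit (1 - zB ^ i) := fun i hi => by
    have := isUnit_traceOp p hδ hneg a hpO hloc b good Sbad hgood hm hs hodd rbar hcont hdet hres
      hc0 (1 + (wVal p σ₀ : ℤ_[p])) i fun v hv => by
        have : v = 0 := by
          rw [hv, hpeu P hP σ₀ hσ₀, map_add, map_add, map_one, map_one, map_natCast, map_natCast,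
            hw0, sub_self]
        rw [if_neg hi.ne', this, zero_pow hi.ne', sub_zero]
        exact one_ne_zero
    rwa [if_neg hi.ne'] at this
  have key : ∀ (XA : Module.End ℤ_[p] VH) (XB : Module.End Poly WMod), OrdOpH hneg E P XA →
      Push p hδ a XA XB →
      (modRho p hδ hneg a hloc b σ₀ - algebraMap 𝒪 MatS (cycloO p 𝒪 σ₀)) * endMat b XB = 0 := by
    intro XA XB hXA hXB
    refine eq_zero_of_forall_pow p hpO fun k => ?_
    obtain ⟨i, hi, hkill⟩ := exists_kill_parHoms (hsq := Flat.Split.sq_eq_one_of_odd (δ := δ) hodd)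
      (hN := hN) hneg hδ hodd hM hE hpM hp2M hpN hP hσ₀ hw1 g1 hXA k
    have hpush := ((((hEU.pow i).mul
      ((((push_galParLin (hδ := hδ) (a := a) hneg hloc g2).add ((push_scalar (ES.padCyclo p g2)).mul
        (push_galParLin (hδ := hδ) (a := a) hneg hloc g2⁻¹))).sub (push_scalar 2)).pow i)).mul
      (push_one.sub ((((push_galParLin (hδ := hδ) (a := a) hneg hloc σ₀).add
        ((push_scalar (ES.padCyclo p σ₀)).mul
        (push_galParLin (hδ := hδ) (a := a) hneg hloc σ₀⁻¹))).sub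
          (push_scalar (1 + (wVal p σ₀ : ℤ_[p])))).pow i))).mul
      ((push_galParLin (hδ := hδ) (a := a) hneg hloc σ₀).sub
        (push_scalar (ES.padCyclo p σ₀)))).mul hXB
    obtain ⟨Y, hY⟩ := endMat_eq_smul a b _ (p ^ k) fun w =>
      exists_eq_smul_of_imgLoc p hδ a hloc _ (p ^ k) (fun ψ => by
        obtain ⟨Φ', hΦ'⟩ := hkill ψ
        exact ⟨imgLoc p hδ a Φ', by rw [← hpush ψ, ← imgLoc_nsmul]; exact congrArg _ hΦ'⟩) w
    have hline : endMat b (galLoc p 𝒪 hδ hneg (resIdeal a) hloc σ₀ -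
        algebraMap Poly (Module.End Poly WMod) (scalP p (ES.padCyclo p σ₀))) =
        modRho p hδ hneg a hloc b σ₀ - algebraMap 𝒪 MatS (cycloO p 𝒪 σ₀) :=
      (map_sub (endMat b) _ _).trans (congrArg₂ (· - ·)
        (modRho_of_cycloN p hδ hneg a hloc b hc0).symm
        ((endMat_scalP p a b _).trans
          ((IsScalarTower.algebraMap_apply 𝒪 S MatS _).symm.trans
            (congrArg (algebraMap 𝒪 MatS) (cycloO_apply p σ₀).symm))))
    replace hY := (map_mul_four (endMat b) _ _ _ _ _ i).symm.trans hY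
    rw [hline] at hY
    obtain ⟨u, hu⟩ := ((hUB.pow i).mul (hxB.pow i)).mul (hzB i hi)
    refine ⟨u⁻¹.1 * Y, ?_⟩
    rw [← mul_smul_comm, ← hY, cycloO_apply, ← hu, ← mul_assoc u⁻¹.1, u.inv_mul, one_mul]
  refine ⟨fun σ hσ => ?_, fun F hF => ?_⟩
  · have h := key _ _ (Or.inl ⟨σ, hσ, rfl⟩)
      ((push_galParLin (hδ := hδ) (a := a) hneg hloc σ).sub push_one)
    rwa [map_sub, map_one, ← modRho_of_cycloN p hδ hneg a hloc b
      (Flat.Split.cycloN_inertia p hpN hP hσ)] at h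
  · have h := key _ _ (Or.inr ⟨F, hF, rfl⟩)
      (hEU.sub (push_galParLin (hδ := hδ) (a := a) hneg hloc F))
    rw [map_sub] at h
    rw [modRho_apply p hδ hneg a hloc b F, ← smul_sub, mul_smul_comm, h, smul_zero]

omit [IsAdicComplete (maximalIdeal 𝒪) 𝒪] in
include hUcomm hpO in
/-- The strict equation: where `σ₀ - c` makes inertia trivial and Frobenius the twisted `U`, a
twisted `U` of square one makes the squares of the decomposition group trivial. -/
private theorem mul_sq_sub_one_eq_zero {P : ValuationSubring Qbar} (hP : P.LiesOverPrime p)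
    {σ₀ : GQ} {c : 𝒪}
    (hI : ∀ τ ∈ P.inertiaSubgroupIn ℚ,
      (modRho p hδ hneg a hloc b σ₀ - algebraMap 𝒪 MatS c) *
        (modRho p hδ hneg a hloc b τ - 1) = 0)
    (hFr : ∀ F, P.IsFrobeniusAt F p →
      (modRho p hδ hneg a hloc b σ₀ - algebraMap 𝒪 MatS c) *
        (twistDet (𝒪 := 𝒪) δ F • endMat b Ue - modRho p hδ hneg a hloc b F) = 0)
    (hU : ∀ F, P.IsFrobeniusAt F p →
      (twistDet (𝒪 := 𝒪) δ F • endMat b Ue) * (twistDet (𝒪 := 𝒪) δ F • endMat b Ue) = 1)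
    {σ : GQ} (hσ : σ ∈ P.decompositionSubgroup ℚ) :
    (modRho p hδ hneg a hloc b σ₀ - algebraMap 𝒪 MatS c) *
      (modRho p hδ hneg a hloc b σ * modRho p hδ hneg a hloc b σ - 1) = 0 := by
  set ρ := modRho p hδ hneg a hloc b
  set G0 : MatS := ρ σ₀ - algebraMap 𝒪 MatS c
  obtain ⟨F, hF⟩ := exists_isFrobeniusAt hp.out hP
  set V : MatS := twistDet (𝒪 := 𝒪) δ F • endMat b Ue
  have hVρ : ∀ g, V * ρ g = ρ g * V := fun g => by
    exact smul_map_comm (endMat b) (twistDet (𝒪 := 𝒪) δ F) (twistDet (𝒪 := 𝒪) δ g) (hUcomm g)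
  have hVG : V * G0 = G0 * V := by
    show V * (ρ σ₀ - _) = (ρ σ₀ - _) * V
    rw [mul_sub, sub_mul, hVρ, Algebra.commutes]
  have hGF : ∀ n : ℕ, G0 * ρ (F ^ n) = V ^ n * G0 := fun n => by
    induction n with
    | zero => rw [pow_zero, pow_zero, map_one, mul_one, one_mul]
    | succ n ih =>
      have h1 : G0 * ρ F = V * G0 := by
        rw [hVG, ← sub_eq_zero, ← mul_sub, ← neg_sub V, mul_neg, hFr F hF, neg_zero]
      rw [pow_succ F n, map_mul, ← mul_assoc, ih, mul_assoc, h1, ← mul_assoc, ← pow_succ V n]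
  refine eq_zero_of_forall_pow p hpO fun k => ?_
  obtain ⟨L₀, hL₀, hlev⟩ := endMat_galLoc_congr p hδ hneg a hloc b k
  obtain ⟨n, τ, hτ, h, hh, rfl⟩ := exists_frob_pow_mul_inertia hp.out hP hF hσ L₀
  obtain ⟨⟨Y, hY⟩, -⟩ := hlev h hh
  have hGτ : G0 * ρ τ = G0 := by rw [← sub_eq_zero, ← mul_sub_one]; exact hI τ hτ
  set Z := ρ (F ^ n * τ)
  have hGZ : G0 * Z = V ^ n * G0 := by
    show G0 * ρ (F ^ n * τ) = _
    rw [map_mul, ← mul_assoc, hGF, mul_assoc, hGτ]
  have hGZZ : G0 * (Z * Z) = G0 := by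
    rw [← mul_assoc, hGZ, mul_assoc, hGZ, ← mul_assoc, ← pow_add, ← two_mul, pow_mul,
      sq, hU F hF, one_pow, one_mul]
  set R := ρ (F ^ n * τ * h)
  have hR : R = Z + p ^ k • (Z * Y) := by
    show ρ (F ^ n * τ * h) = _
    rw [map_mul, show ρ h = _ from hY, mul_add, mul_one, ← Nat.cast_pow,
      Nat.cast_smul_eq_nsmul, mul_smul_comm]
  have hRR : R * R = Z * Z + p ^ k • (Z * (Z * Y) + Z * Y * R) := by
    conv_lhs => arg 1; rw [hR]
    rw [add_mul, smul_mul_assoc, hR, mul_add Z, mul_smul_comm, smul_add, add_assoc]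
  refine ⟨G0 * (Z * (Z * Y) + Z * Y * R), ?_⟩
  rw [mul_sub, mul_one, hRR, mul_add, hGZZ, mul_smul_comm, add_sub_cancel_left]

include hgood hm hs hodd hspan hcont hdet hres hpeu hN hM hpN hpM hp2M hE hEU hUunit hUcomm hpO in
/-- **The equations of an ordinary representation**, the last one under a condition on `U_p`. -/
theorem modRho_ord_of_push (i : OrdIndex (cycloO p 𝒪) p) :
    OrdEquations p hδ hneg a hloc b i (endMat b Ue) := by
  have hw : residue 𝒪 (cycloO p 𝒪 i.σ₀) ≠ 1 := fun h => one_ne_zero (α := ResidueField 𝒪) (by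
    have := congrArg (residue 𝒪) i.u_spec
    rwa [map_mul, map_sub, h, map_one, sub_self, mul_zero, eq_comm] at this)
  obtain ⟨hI, hFr⟩ := lineOp_mul_eq_zero p hδ hneg a hpO hloc b good Sbad hgood hm hs hodd rbar
    hspan hcont hdet hres hpeu hN hM hpN hpM hp2M hE Ue hEU hUunit i.lies i.mem hw
  set ρ := modRho p hδ hneg a hloc b
  set c : 𝒪 := cycloO p 𝒪 i.σ₀
  set G0 : MatS := ρ i.σ₀ - algebraMap 𝒪 MatS c
  unfold OrdEquations
  intro π
  have h1π : 1 - π = -(i.u • G0) := by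
    show 1 - i.u • (ρ i.σ₀ - 1) = -(i.u • (ρ i.σ₀ - algebraMap 𝒪 MatS c))
    have e : i.u • algebraMap 𝒪 MatS c - i.u • (1 : MatS) = 1 := by
      rw [Algebra.algebraMap_eq_smul_one, smul_smul, ← sub_smul,
        show i.u * c - i.u = 1 by linear_combination i.u_spec, one_smul]
    rw [smul_sub, smul_sub, neg_sub, ← sub_eq_zero]
    calc 1 - (i.u • ρ i.σ₀ - i.u • (1 : MatS)) - (i.u • algebraMap 𝒪 MatS c - i.u • ρ i.σ₀)
        = 1 - (i.u • algebraMap 𝒪 MatS c - i.u • (1 : MatS)) := by abel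
      _ = 0 := by rw [e, sub_self]
  have hI' : ∀ σ ∈ i.P.inertiaSubgroupIn ℚ, (1 - π) * (ρ σ - 1) = 0 := fun σ hσ => by
    rw [h1π, neg_mul, smul_mul_assoc, hI σ hσ, smul_zero, neg_zero]
  refine ⟨?_, fun σ hσ => ?_, hI', fun F hF => ?_, fun hU σ hσ => ?_⟩
  · have h : (1 - π) * π = 0 := by
      show (1 - π) * (i.u • (ρ i.σ₀ - 1)) = 0
      rw [mul_smul_comm, hI' _ i.mem, smul_zero]
    rw [sub_mul, one_mul, sub_eq_zero] at h
    exact h.symm
  · have hconj := conj_mem_inertiaSubgroupIn_of_mem hp.out i.lies i.mem hσ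
    show (1 - π) * ρ σ * (i.u • (ρ i.σ₀ - 1)) = 0
    rw [mul_smul_comm, mul_assoc, show ρ σ * (ρ i.σ₀ - 1) = (ρ (σ * i.σ₀ * σ⁻¹) - 1) * ρ σ by
      rw [sub_mul, mul_sub, mul_one, one_mul, ← map_mul, ← map_mul]; simp,
      ← mul_assoc, hI' _ hconj, zero_mul, smul_zero]
  · rw [h1π, neg_mul, smul_mul_assoc, ← neg_sub, mul_neg, hFr F hF, neg_zero, smul_zero, neg_zero]
  · rw [h1π, neg_mul, smul_mul_assoc]
    suffices G0 * (ρ σ * ρ σ - 1) = 0 by rw [this, smul_zero, neg_zero]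
    exact mul_sq_sub_one_eq_zero p hδ hneg a hpO hloc b Ue hUcomm i.lies hI hFr hU hσ

include hgood hm hs hodd hspan hcont hdet hres hpeu hN hM hpN hpM hp2M hpO in
/-- **The equations of an ordinary representation when `p` is a variable.** -/
theorem modRho_ord (ip : ι) (hip : ((pr ip).1.1 : ℕ) = p) (haip : IsUnit (a ip))
    (i : OrdIndex (cycloO p 𝒪) p) :
    OrdEquations p hδ hneg a hloc b i
      (endMat b (algebraMap Poly (Module.End Poly WMod) (X ip))) := by
  obtain ⟨r, E, hE, hEX⟩ := exists_transfer_at (𝒪 := 𝒪) (δ := δ) (hNM := hNM) (pr := pr)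
    (hδ := hδ) ip hip
  exact modRho_ord_of_push p hδ hneg a hpO hloc b good Sbad hgood hm hs hodd rbar hspan hcont hdet
    hres hpeu hN hM hpN hpM hp2M hE _ (push_transParLin (p := p) (a := a) hEX)
    (isUnit_endMat_X a b ip haip) (fun g => Algebra.commutes _ _) i

end Main

end FermatAgent.PSEMI
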