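import Fermat.Agent.PSEMI.Ord.ExtraOp
import Fermat.Agent.PSEMI.Ord.ModuleOrd

/-!
# The operator at `p` on the auxiliary modules

It comes from a transfer on the parabolic homomorphisms and commutes with the Galois action.
-/

set_option autoImplicit false
set_option maxRecDepth 2000

noncomputable section

open IsLocalRing FermatAgent.GaloisBasic
open FermatAgent.HM FermatAgent.RT MvPolynomial
open ModularCurve ModularCurve.Period
open scoped Matrix

namespace FermatAgent.PSEMI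

variable (p : ℕ) [hp : Fact p.Prime]
variable {𝒪 : Type} [CommRing 𝒪] [IsDomain 𝒪] [IsDiscreteValuationRing 𝒪]
  [IsAdicComplete (maximalIdeal 𝒪) 𝒪] [Algebra ℤ_[p] 𝒪] [IsAddTorsionFree 𝒪]
variable {κ : Type} [Fintype κ] {m : κ → ℕ} [∀ i, NeZero (m i)]
  [IsLocalRing (MonoidAlgebra 𝒪 (CycProd m))]
variable {N L M : ℕ} [NeZero M] [NeZero N] {ι : Type} {pr : ι → HPrime L}
variable {δ : (ZMod N)ˣ →* CycProd m} {hNM : N ∣ M}

variable (hδ : Function.Surjective δ) (hneg : δ (-1) = 1)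
  (a : ι → (MonoidAlgebra 𝒪 (CycProd m)))
  (hloc : IsLocalizedModule (resIdeal a).primeCompl (parToLoc 𝒪 δ hNM pr hδ (resIdeal a)))

omit [NeZero N] in
include hloc in
/-- **The operator at `p`**: a transfer, commuting with the Galois action. -/
theorem exists_extraTransfer (hpL : p.Coprime L) :
    ∃ (r : HIdx M p → CongruenceSubgroup.Gamma0 M)
      (E : Corr (sigma0 N L) (gammaH δ hNM) (gammaH δ hNM) (HIdx M p)), ShiftedCorr E r ∧
      Push p hδ a (transParLin E)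
        (extraLoc pr hNM (diamondRep 𝒪 δ) (resIdeal a) (ofPrime hp.out hpL)) ∧
      ∀ g, Commute (extraLoc pr hNM (diamondRep 𝒪 δ) (resIdeal a) (ofPrime hp.out hpL))
        (galLoc p 𝒪 hδ hneg (resIdeal a) hloc g) := by
  choose r hr using fun x : HIdx M p =>
    gammaClass_surjective δ hNM hδ (diamondClass δ ((heckeCorr (L := L) hNM hpL).adj x))⁻¹
  obtain ⟨E, hrep, hadj, hE⟩ := exists_corr_gammaH (O := 𝒪) (heckeCorr hNM hpL) r hr
  have hsh : ShiftedCorr E r := ⟨hrep, hadj⟩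
  set U := extraLoc pr hNM (diamondRep 𝒪 δ) (resIdeal a) (ofPrime hp.out hpL) with hU
  have key : ∀ φ : parabolicHoms 𝒪 (gammaH δ hNM) 𝒪,
      U (parToLoc 𝒪 δ hNM pr hδ (resIdeal a) (parOfHom hδ φ)) =
        parToLoc 𝒪 δ hNM pr hδ (resIdeal a) (parOfHom hδ
          ((transParLin E : Module.End 𝒪 (parabolicHoms 𝒪 (gammaH δ hNM) 𝒪)) φ)) := fun φ => by
    rw [hU, parToLoc, LinearMap.comp_apply, LinearMap.comp_apply, Submodule.subtype_apply,
      Submodule.subtype_apply, extraLoc_mk]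
    congr 1
    refine (shapiroHecke 𝒪 δ hNM pr hδ).injective ?_
    rw [shapiro_parOfHom]
    obtain ⟨c, hc⟩ := exists_mk_eq (pr := pr) (hNM := hNM) (δ := δ)
      ((parOfHom hδ φ : parSub 𝒪 δ hNM pr hδ) : DiamondH1 𝒪 δ hNM pr)
    have h1 : φ.1 = shapiroHom 𝒪 δ hNM c := by
      rw [← shapiro_parOfHom (pr := pr) hδ φ, hc, shapiroHecke_mk]
    rw [hc, show extraEnd pr hNM (diamondRep 𝒪 δ) (ofPrime hp.out hpL)
        (toHeckeH1 pr hNM (diamondRep 𝒪 δ)
          (H1.mk (resRep (actsIn_gamma0 (L := L) hNM) (diamondRep 𝒪 δ)) c)) =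
        toHeckeH1 pr hNM (diamondRep 𝒪 δ)
          (H1.mk (resRep (actsIn_gamma0 (L := L) hNM) (diamondRep 𝒪 δ))
            ((heckeCorr hNM hpL).opZ (actsIn_gamma0 hNM) (actsIn_gamma0 hNM) (diamondRep 𝒪 δ) c))
      from rfl, shapiroHecke_mk, hE, ← h1]
    rfl
  refine ⟨r, E, hsh, fun ψ => ?_, fun g => ?_⟩
  · rw [imgLoc, imgLoc, key]
    congr 2
    exact (transParLin_pushParO E ψ).symm
  · refine LinearMap.ext fun w => ?_
    obtain ⟨z, rfl⟩ := parToLoc_surjective hδ a hloc w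
    set φ : parabolicHoms 𝒪 (gammaH δ hNM) 𝒪 := ⟨shapiroHecke 𝒪 δ hNM pr hδ z.1, z.2⟩
    have hz : parOfHom hδ φ = z := Subtype.ext (AddEquiv.symm_apply_apply _ _)
    rw [← hz, Module.End.mul_apply, Module.End.mul_apply, galLoc_parOfHom p hδ hneg a hloc g,
      key, key, galLoc_parOfHom p hδ hneg a hloc g]
    congr 2
    exact LinearMap.congr_fun (hsh.galParO_trans p hneg 𝒪 g).eq.symm φ

omit [IsDomain 𝒪] [IsDiscreteValuationRing 𝒪] [IsAdicComplete (maximalIdeal 𝒪) 𝒪]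
    [IsAddTorsionFree 𝒪] [Fintype κ] [∀ (i : κ), NeZero (m i)]
    [IsLocalRing (MonoidAlgebra 𝒪 (CycProd m))] in
/-- A character of the diamonds at a prime outside `N`. -/
theorem twistDet_sq_mul_thetaAt (hodd : Odd (Nat.card (CycProd m))) {ℓ : ℕ} (hℓ : ℓ.Prime)
    (hℓN : ¬ ℓ ∣ N) {P : ValuationSubring Qbar} (hP : P.LiesOverPrime ℓ) {F : GQ}
    (hF : P.IsFrobeniusAt F ℓ) :
    twistDet (𝒪 := 𝒪) δ F * twistDet δ F * thetaAt (diamondChar 𝒪 δ) ℓ = 1 := by
  rw [twistDet_apply, ← map_mul, ← mul_inv, sqrtHom_mul_self hodd,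
    thetaAt, dif_pos ((hℓ.coprime_iff_not_dvd).mpr hℓN), diamondChar, MonoidHom.comp_apply,
    cycloN_frobenius hℓ hℓN hP hF, ← map_mul, inv_mul_cancel, map_one]

end FermatAgent.PSEMI
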