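import Fermat.Agent.PSEMI.Ord.Idem
import Mathlib.RingTheory.LocalRing.ResidueField.Basic
import Mathlib.Algebra.BigOperators.Group.Finset.Basic
import Mathlib.Tactic.NoncommRing
import Mathlib.Tactic.LinearCombination

/-!
# Closed algebras of `p`-adic matrices with a map to a local ring

For a `HeckePart`, a closed commutative algebra `R₀` of matrices mapping to a local ring: the least
idempotent `e` of residual value one, the elements nilpotent or invertible on the part of `e`, and
Hensel's lemma there.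
-/

set_option autoImplicit false

open IsLocalRing

noncomputable section

namespace FermatAgent.PSEMI

open MatLim

variable {p : ℕ} [hp : Fact p.Prime] {κ : Type} [Fintype κ] [DecidableEq κ]
  {T : Type} [CommRing T] [IsLocalRing T]

local notation "MatP" => Matrix κ κ ℤ_[p]

/-- A closed commutative algebra of matrices with a map to a local ring. -/
structure HeckePart (p : ℕ) [Fact p.Prime] (κ : Type) [Fintype κ] [DecidableEq κ] (T : Type)
    [CommRing T] [IsLocalRing T] where
  /-- the algebra of matrices -/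
  R0 : Subring (Matrix κ κ ℤ_[p])
  closed : Closed (R0 : Set (Matrix κ κ ℤ_[p]))
  comm : ∀ a ∈ R0, ∀ b ∈ R0, Commute a b
  scalar : ∀ a : ℤ_[p], algebraMap ℤ_[p] (Matrix κ κ ℤ_[p]) a ∈ R0
  /-- the map to the local ring -/
  φ : R0 →+* T
  cont : ∃ c, ∀ x : R0, mred c (x : Matrix κ κ ℤ_[p]) = 0 → φ x ∈ maximalIdeal T

namespace HeckePart

variable (H : HeckePart p κ T)

instance : CommRing H.R0 :=
  { (inferInstance : Ring H.R0) with
    mul_comm := fun a b => Subtype.ext (H.comm _ a.2 _ b.2).eq }

/-- The residual character. -/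
def θ : H.R0 →+* ResidueField T := (residue T).comp H.φ

theorem θ_congr {x y : H.R0} {k : ℕ}
    (hk : ∀ z : H.R0, mred k (z : MatP) = 0 → H.φ z ∈ maximalIdeal T)
    (h : mred k (x : MatP) = mred k (y : MatP)) : H.θ x = H.θ y := by
  rw [← sub_eq_zero, ← map_sub]
  exact (residue_eq_zero_iff _).mpr (hk _ (by rw [AddSubgroupClass.coe_sub, map_sub, h, sub_self]))

/-- An idempotent divisible by `p` is zero. -/
theorem idem_eq_zero {f : MatP} (h : f * f = f) (h1 : mred 1 f = 0) : f = 0 := by
  rw [← map_zero (mred (p := p) (κ := κ) 1), mred_eq_iff] at h1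
  choose g hg using fun i j => h1 i j
  have e : f = (p : ℤ_[p]) • Matrix.of g := by
    ext i j; simpa using hg i j
  refine mred_ext fun k => ?_
  rw [← IsIdempotentElem.pow_succ_eq (a := f) k h, map_zero, pow_succ, map_mul, e, smul_pow]
  have h0 : mred k (((p : ℤ_[p]) ^ k) • (Matrix.of g) ^ k) = 0 := by
    rw [← map_zero (mred (p := p) (κ := κ) k), mred_eq_iff]
    intro i j
    simp
  rw [h0, zero_mul]

/-- The idempotents are determined modulo `p`. -/
theorem idem_ext {e e' : H.R0} (he : e * e = e) (he' : e' * e' = e')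
    (h : mred 1 (e : MatP) = mred 1 (e' : MatP)) : e = e' := by
  have key : ∀ {a b : H.R0}, a * a = a → b * b = b →
      mred 1 (a : MatP) = mred 1 (b : MatP) → a = a * b := fun {a b} ha hb hab => by
    have h2 : ((a * (1 - b) : H.R0) : MatP) = 0 := idem_eq_zero (by
      rw [← Subring.coe_mul]; congr 1
      linear_combination (1 - b) ^ 2 * ha + a * hb) (by
      rw [Subring.coe_mul, AddSubgroupClass.coe_sub, Subring.coe_one, map_mul, map_sub, map_one,
        hab,
        mul_sub, mul_one, ← map_mul, ← Subring.coe_mul, hb, sub_self])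
    have h3 : a * (1 - b) = 0 := Subtype.ext h2
    linear_combination h3
  rw [key he he' h, mul_comm, ← key he' he h.symm]

/-- The least idempotent of the algebra with residual value one; its value in `T` is one. -/
theorem exists_idem :
    ∃ e : H.R0, e * e = e ∧ H.φ e = 1 ∧ ∀ f : H.R0, f * f = f → H.θ f = 1 → e * f = e := by
  classical
  set S := {f : H.R0 | f * f = f ∧ H.θ f = 1}
  have : Finite S := by
    have : NeZero (p ^ 1) := ⟨pow_ne_zero _ hp.out.ne_zero⟩
    refine Finite.of_injective (fun f : S => mred 1 ((f : H.R0) : MatP)) fun f g h => ?_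
    exact Subtype.ext (H.idem_ext f.2.1 g.2.1 h)
  have := Fintype.ofFinite S
  set e := ∏ f : S, (f : H.R0)
  have he : e * e = e := by
    rw [← Finset.prod_mul_distrib]
    exact Finset.prod_congr rfl fun f _ => f.2.1
  have hθ : H.θ e = 1 := by
    rw [map_prod]
    exact Finset.prod_eq_one fun f _ => f.2.2
  refine ⟨e, he, ?_, fun f hf hf1 => ?_⟩
  · have hu : IsUnit (H.φ e) :=
      (residue_ne_zero_iff_isUnit (H.φ e)).mp (by
        show H.θ e ≠ 0
        rw [hθ]; exact one_ne_zero)
    exact (IsIdempotentElem.iff_eq_one_of_isUnit hu).mp (by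
      show H.φ e * H.φ e = H.φ e
      rw [← map_mul, he])
  · rw [show e = ∏ g : S, (g : H.R0) from rfl,
      ← Finset.mul_prod_erase _ _ (Finset.mem_univ (⟨f, hf, hf1⟩ : S))]
    exact (mul_right_comm f _ f).trans (congrArg (fun z => z * _) hf)

theorem mem_of_powLimit (x : H.R0) {q : MatP} {I : ℕ → ℕ} (h : PowLimit (x : MatP) q I) :
    q ∈ H.R0 :=
  h.mem H.closed fun j _ => pow_mem x.2 j

variable {H} {e : H.R0} (he : e * e = e) (heφ : H.φ e = 1)
  (hmin : ∀ f : H.R0, f * f = f → H.θ f = 1 → e * f = e)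

include hmin in
/-- Elements of residual value zero are topologically nilpotent on the part of `e`. -/
theorem nil_of_θ {x : H.R0} (hx : H.θ x = 0) (k : ℕ) :
    ∃ j, ∀ j', j ≤ j' → mred k ((x : MatP) ^ j' * (e : MatP)) = 0 := by
  obtain ⟨q, I, hq⟩ := exists_powLimit (x : MatP)
  set q' : H.R0 := ⟨q, H.mem_of_powLimit x hq⟩
  obtain ⟨c, hc⟩ := H.cont
  have hq0 : H.θ q' = 0 := by
    rw [H.θ_congr hc (y := x ^ I c) (by
      rw [SubmonoidClass.coe_pow]
      exact (by simpa using (hq.spec c 0).symm)), map_pow, hx, zero_pow (hq.pos c).ne']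
  have h1 : e * (1 - q') = e := hmin _ (Subtype.ext (by
    show (1 - q) * (1 - q) = 1 - q
    simp [mul_sub, sub_mul, hq.idem])) (by rw [map_sub, map_one, hq0, sub_zero])
  obtain ⟨j, hj⟩ := hq.nil_compl k
  refine ⟨j, fun j' hj' => ?_⟩
  have h2 : (e : MatP) = (1 - q) * (e : MatP) := by
    conv_lhs => rw [← h1, mul_comm]
    rfl
  rw [h2, ← mul_assoc, map_mul, hj j' hj', zero_mul]

include he hmin in
/-- Elements of nonzero residual value are invertible on the part of `e`. -/
theorem exists_inv {x : H.R0} (hx : H.θ x ≠ 0) : ∃ y : H.R0, x * y * e = e := by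
  obtain ⟨q, I, hq⟩ := exists_powLimit (x : MatP)
  set q' : H.R0 := ⟨q, H.mem_of_powLimit x hq⟩
  obtain ⟨c, hc⟩ := H.cont
  have hqq : q' * q' = q' := Subtype.ext hq.idem
  have hq1 : H.θ q' = 1 := by
    have h1 : H.θ q' = H.θ x ^ I c := by
      rw [H.θ_congr hc (y := x ^ I c) (by
        rw [SubmonoidClass.coe_pow]
        exact (by simpa using (hq.spec c 0).symm)), map_pow]
    have h2 : H.θ q' * H.θ q' = H.θ q' := by rw [← map_mul, hqq]
    exact mul_right_cancel₀ (h1 ▸ pow_ne_zero _ hx) (h2.trans (one_mul _).symm)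
  have heq : e * q' = e := hmin q' hqq hq1
  have heq' : (e : MatP) * q = (e : MatP) := congrArg Subtype.val heq
  set g : ℕ → MatP := fun k => (e : MatP) * (x : MatP) ^ (I k - 1)
  have hstep : ∀ k t, mred k ((e : MatP) * (x : MatP) ^ (I k * (t + 1) - 1)) = mred k (g k) := by
    intro k t
    induction t with
    | zero => simp [g]
    | succ t ih =>
      have : I k * (t + 1 + 1) - 1 = I k + (I k * (t + 1) - 1) := by
        have h0 : 0 < I k * (t + 1) := Nat.mul_pos (hq.pos k) t.succ_pos
        rw [mul_add (I k) (t + 1) 1, mul_one]; omega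
      rw [this, pow_add, ← mul_assoc, map_mul, map_mul,
        show mred k ((x : MatP) ^ I k) = mred k q from
        (by simpa using hq.spec k 0), ← map_mul, heq', ← map_mul, ih]
  have hcomp : ∀ k, mred k (g (k + 1)) = mred k (g k) := fun k => by
    have h1 := mred_mono k.le_succ (hstep (k + 1) (I k - 1))
    rw [Nat.sub_add_cancel (hq.pos k)] at h1
    have h2 := hstep k (I (k + 1) - 1)
    rw [Nat.sub_add_cancel (hq.pos _), mul_comm] at h2
    exact h1.symm.trans h2
  obtain ⟨L, hL⟩ := exists_limit g hcomp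
  refine ⟨⟨L, H.closed L fun k => ⟨_, mul_mem e.2 (pow_mem x.2 _), (hL k).symm⟩⟩,
    Subtype.ext (mred_ext fun k => ?_)⟩
  show mred k ((x : MatP) * L * (e : MatP)) = mred k (e : MatP)
  have hex : Commute (e : MatP) (x : MatP) := H.comm _ e.2 _ x.2
  rw [map_mul, map_mul, hL k, ← map_mul, ← map_mul,
    show (x : MatP) * ((e : MatP) * (x : MatP) ^ (I k - 1)) * (e : MatP) =
      (e : MatP) * (x : MatP) ^ I k * (e : MatP) by
        rw [← mul_assoc, ← hex.eq, mul_assoc (e : MatP), ← pow_succ',
          Nat.sub_add_cancel (hq.pos k)],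
    map_mul, map_mul, show mred k ((x : MatP) ^ I k) = mred k q from (by simpa using hq.spec k 0),
    ← map_mul, heq', ← map_mul, ← Subring.coe_mul, he]

/-- A map of the residual kernel to the part of `e`, injective there modulo `p ^ k`, vanishes
somewhere modulo `p ^ k`, the targets being finite. -/
private theorem exists_mred_zero {F : H.R0 → H.R0} {k : ℕ}
    (hFθ : ∀ y, H.θ y = 0 → H.θ (F y) = 0) (hFe : ∀ y, e * F y = F y)
    (hinj : ∀ y y', H.θ y = 0 → H.θ y' = 0 →
      mred k ((F y : H.R0) : MatP) = mred k ((F y' : H.R0) : MatP) →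
      mred k ((e * y : H.R0) : MatP) = mred k ((e * y' : H.R0) : MatP)) :
    ∃ y, H.θ y = 0 ∧ mred k ((F y : H.R0) : MatP) = 0 := by
  classical
  have : NeZero (p ^ k) := ⟨pow_ne_zero k hp.out.ne_zero⟩
  set J : Set (Matrix κ κ (ZMod (p ^ k))) :=
    {z | ∃ y : H.R0, H.θ y = 0 ∧ mred k ((e * y : H.R0) : MatP) = z}
  choose rep hrep0 hrep using fun z : J => z.2
  let Φ : J → J := fun z => ⟨mred k ((F (rep z) : H.R0) : MatP), F (rep z), hFθ _ (hrep0 z), by
    rw [hFe]⟩
  have hΦ : Function.Injective Φ := fun z z' h => Subtype.ext (by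
    rw [← hrep z, ← hrep z']
    exact hinj _ _ (hrep0 z) (hrep0 z') (congrArg Subtype.val h))
  obtain ⟨z, hz⟩ := (Finite.injective_iff_surjective.mp hΦ) ⟨0, 0, map_zero _, by simp⟩
  exact ⟨rep z, hrep0 z, congrArg Subtype.val hz⟩

omit heφ in
include he hmin in
/-- Hensel's lemma on the part cut out by `e`. -/
theorem exists_quad_root {t d : H.R0} {w : ℕ} (hw : (w : ResidueField T) ≠ 1)
    (ht : H.θ t = (w : ResidueField T) + 1) (hd : H.θ d = (w : ResidueField T)) :
    ∃ A : H.R0, H.θ A = (w : ResidueField T) ∧ e * (A * A - t * A + d) = 0 := by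
  classical
  set W : H.R0 := (w : H.R0)
  have hW : H.θ W = (w : ResidueField T) := map_natCast _ _
  set F : H.R0 → H.R0 := fun y => e * ((W + y) * (W + y) - t * (W + y) + d)
  have hFθ : ∀ y, H.θ y = 0 → H.θ (F y) = 0 := fun y hy => by
    simp only [F, map_mul, map_add, map_sub, hy, hW, ht, hd]
    ring
  have hinj : ∀ k y y', H.θ y = 0 → H.θ y' = 0 →
      mred k ((F y : H.R0) : MatP) = mred k (F y' : MatP) →
      mred k ((e * y : H.R0) : MatP) = mred k ((e * y' : H.R0) : MatP) := by
    intro k y y' hy hy' h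
    set u := W + W + y + y' - t
    obtain ⟨v, hv⟩ := exists_inv he hmin (x := u) (by
      simp only [u, map_add, map_sub, hy, hy', hW, ht]
      intro h0
      exact hw (by linear_combination h0))
    have e1 : e * y - e * y' = (F y - F y') * v := by
      simp only [F, u] at hv ⊢
      linear_combination -(y - y') * hv
    rw [← sub_eq_zero, ← map_sub, ← AddSubgroupClass.coe_sub, e1, Subring.coe_mul, map_mul,
      AddSubgroupClass.coe_sub, map_sub, h, sub_self, zero_mul]
  have hroot : ∀ k, ∃ y, H.θ y = 0 ∧ mred k ((F y : H.R0) : MatP) = 0 := fun k =>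
    exists_mred_zero hFθ (fun y => by simp only [F, ← mul_assoc, he]) (hinj k)
  choose y hy hy0 using hroot
  set g : ℕ → MatP := fun k => ((W + e * y k : H.R0) : MatP)
  obtain ⟨L, hL⟩ := exists_limit g fun k => by
    have h := hinj k (y (k + 1)) (y k) (hy _) (hy _) (by
      rw [hy0 k, mred_mono k.le_succ ((hy0 (k + 1)).trans (map_zero (mred (k + 1))).symm),
        map_zero])
    simp only [g, Subring.coe_add, map_add, h]
  set A : H.R0 := ⟨L, H.closed L fun k => ⟨_, (W + e * y k).2, (hL k).symm⟩⟩
  refine ⟨A, ?_, Subtype.ext (mred_ext fun k => ?_)⟩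
  · obtain ⟨c, hc⟩ := H.cont
    rw [H.θ_congr hc (x := A) (y := W + e * y c) (hL c), map_add, map_mul, hy, mul_zero, add_zero,
      hW]
  · have e1 : F (y k) = e * ((W + e * y k) * (W + e * y k) - t * (W + e * y k) + d) := by
      simp only [F]
      linear_combination (-(y k) * (W + W - t) - y k ^ 2 * (e + 1)) * he
    have h := hy0 k
    rw [e1] at h
    simp only [Subring.coe_mul, Subring.coe_add, AddSubgroupClass.coe_sub, map_mul, map_add,
      map_sub,
      ZeroMemClass.coe_zero, map_zero] at h ⊢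
    simp only [g, Subring.coe_add, Subring.coe_mul, map_add, map_mul] at hL
    rw [show mred k ((A : H.R0) : MatP) = mred k L from rfl, hL k]
    exact h

end HeckePart

end FermatAgent.PSEMI
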