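import Fermat.Agent.PSEMI.Class.Galois

/-!
# Inputs at the level of characters

`deep_triv`: high iterates of `U` kill the inertia differences at `∞`.
-/

set_option autoImplicit false

open UpperHalfPlane CongruenceSubgroup
open scoped MatrixGroups ModularForm Manifold

noncomputable section

namespace FermatAgent.PSEMI

open FermatAgent.ES (SerIn IsTwist IsParChar parGroup GoodLevel charOp conjChar CPlace
  AuxLevel zetaC)
open FermatAgent.BAD (expandL)
open FermatAgent.Period (TransferData)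
open ModularForm (heckeMatrix)
open LevelMp (pmLam)

variable {p : ℕ} [hp : Fact p.Prime] {M : ℕ} [NeZero M] {Γ Γ' : Subgroup SL(2, ℤ)}
  {P : CPlace p} {K : Coeffs P} {n : ℕ}

/-! ### Contraction -/

/-- The iterated norm. -/
def nrmIter (p : ℕ) [NeZero p] : ℕ → LaurentSeries ℂ → LaurentSeries ℂ
  | 0, s => s
  | j + 1, s => nrm p (nrmIter p j s)

theorem nrmIter_mul (j : ℕ) (s t : LaurentSeries ℂ) :
    nrmIter p j (s * t) = nrmIter p j s * nrmIter p j t := by
  induction j with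
  | zero => rfl
  | succ j ih => simp only [nrmIter, ih, nrm_mul]

theorem nrmIter_pow (j : ℕ) (s : LaurentSeries ℂ) (k : ℕ) :
    nrmIter p j (s ^ k) = nrmIter p j s ^ k := by
  induction j with
  | zero => rfl
  | succ j ih => simp only [nrmIter, ih, nrm_pow]

theorem Nice.nrmIter {s : LaurentSeries ℂ} (h : Nice K s) (j : ℕ) : Nice K (nrmIter p j s) := by
  induction j with
  | zero => exact h
  | succ j ih => exact ih.nrm

theorem Triv.nrm' {s : LaurentSeries ℂ} (hs : SerIn P.ring s) (h : Triv K n s) :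
    Triv K n (nrm p s) := fun ε hε => by
  have h0 : 0 ≤ min ε 1 := le_min hε.le zero_le_one
  exact (PowApprox.nrm h0 hs (h _ (lt_min hε one_pos))).mono (min_le_left _ _)

omit hp in
theorem Triv.coeffMap' {σ : ℂ ≃+* ℂ} (hσ : Keeps K σ) {s : LaurentSeries ℂ} (h : Triv K n s) :
    Triv K n (ModularCurve.coeffMap σ.toRingHom s) :=
  fun ε hε => (h ε hε).coeffMap hσ.abv hσ.fine

omit hp in
theorem exists_serLE_lt_one {s : LaurentSeries ℂ} (hs : Fine K s) (h : P.SerLT s) :
    ∃ c : ℝ, 0 ≤ c ∧ c < 1 ∧ P.SerLE c s := by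
  by_cases h0 : s = 0
  · exact ⟨0, le_rfl, one_pos, h0 ▸ CPlace.SerLE.zero le_rfl⟩
  obtain ⟨S, hS, hin⟩ := hs
  obtain ⟨u, -, -, g, hg, hug, e, -⟩ := exists_content (K.isCDVR hS) hin h0
  refine ⟨P.abv u, P.abv.nonneg u, ?_, fun k => ?_⟩
  · obtain ⟨k, hk⟩ := hug
    have := h k
    rwa [e, HahnSeries.C_apply, HahnSeries.coeff_single_mul, sub_zero, map_mul, hk, mul_one] at this
  · rw [e, HahnSeries.C_apply, HahnSeries.coeff_single_mul, sub_zero, map_mul]
    exact mul_le_of_le_one_right (P.abv.nonneg u) ((serIn_mono hg (K.isCDVR hS).le) k)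

/-- The norm drives series close to `1` to `1`. -/
theorem exists_nrmIter_near {s : LaurentSeries ℂ} (hs : Fine K s) (h : P.SerLT (s - 1)) {ε : ℝ}
    (hε : 0 < ε) : ∃ J : ℕ, P.SerLE ε (nrmIter p J s - 1) := by
  obtain ⟨c, hc0, hc1, hle⟩ := exists_serLE_lt_one (hs.sub Fine.one) h
  set θ := max (P.abv (p : ℂ)) c with hθ
  have hθ0 : 0 ≤ θ := le_max_of_le_right hc0
  have hθ1 : θ < 1 := max_lt P.lt_one hc1
  have hfine : ∀ j, Fine K (nrmIter p j s) := fun j => by
    induction j with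
    | zero => exact hs
    | succ j ih => exact ih.nrm
  have step : ∀ j, P.SerLE (c * θ ^ j) (nrmIter p j s - 1) := by
    intro j
    induction j with
    | zero => simpa [nrmIter] using hle
    | succ j ih =>
      have hd0 : 0 ≤ c * θ ^ j := by positivity
      have hdc : c * θ ^ j ≤ c := mul_le_of_le_one_right hc0 (pow_le_one₀ hθ0 hθ1.le)
      refine (serLE_nrm_sub_one (hfine j) hd0 (hdc.trans hc1.le) ih).mono (max_le ?_ ?_)
      · calc P.abv (p : ℂ) * (c * θ ^ j) ≤ θ * (c * θ ^ j) :=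
              mul_le_mul_of_nonneg_right (le_max_left _ _) hd0
          _ = c * θ ^ (j + 1) := by rw [pow_succ]; ring
      · rw [pow_succ, ← mul_assoc]
        calc (c * θ ^ j) ^ p ≤ (c * θ ^ j) ^ 2 :=
              pow_le_pow_of_le_one hd0 (hdc.trans hc1.le) hp.out.two_le
          _ ≤ c * θ ^ j * θ := by
              rw [pow_two]
              exact mul_le_mul_of_nonneg_left (hdc.trans (le_max_right _ _)) hd0
  obtain ⟨J, hJ⟩ := exists_pow_lt_of_lt_one hε hθ1
  exact ⟨J, (step J).mono ((mul_le_of_le_one_left (by positivity) hc1.le).trans hJ.le)⟩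

/-! ### Setting -/

variable (hM : M.Coprime p) (L : IsLevel p M Γ Γ') {m : ℕ} (haux : AuxLevel M m) {N : ℕ} [NeZero N]
  (hG : GoodLevel N Γ) (D : TransferData Γ (ZMod p))
  (hD : ∀ j : ZMod p, D.rep j = heckeMatrix p j.val)

/-- Iterates of the transfer. -/
def opIter : ℕ → (Γ →* ℂˣ) → (Γ →* ℂˣ)
  | 0, χ => χ
  | j + 1, χ => charOp D (opIter j χ)

include hD in
theorem IsClass.opIter {χ : Γ →* ℂˣ} {y : LaurentSeries ℂ} (h : IsClass K n χ y) (j : ℕ) :
    IsClass K n (PSEMI.opIter D j χ) (nrmIter p j y) := by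
  induction j with
  | zero => exact h
  | succ j ih => exact ih.transfer D hD

omit hp [NeZero M] in
theorem killsPm_of_parGroup {n' : ℕ} (χ : parGroup Γ n') : KillsPm p M n' (χ : Γ →* ℂˣ) :=
  fun γ _ => DFunLike.congr_fun χ.2.1 γ

omit hp in
theorem IsClass.pow' {n' : ℕ} {χ : Γ →* ℂˣ} {y : LaurentSeries ℂ}
    (h : IsClass K n' χ y) (k : ℕ) : IsClass K n' (χ ^ k) (y ^ k) := by
  induction k with
  | zero =>
    rw [show χ ^ 0 = 1 from MonoidHom.ext fun γ => by simp, pow_zero]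
    exact isClass_one
  | succ k ih =>
    rw [show χ ^ (k + 1) = χ ^ k * χ from MonoidHom.ext fun γ => by simp [pow_succ], pow_succ]
    exact ih.mul h

include hM L haux hD in
/-- **Deep.** Iterates of `U` make quotients of residually equal classes trivial at `∞`. -/
theorem deep_triv_of_red {n' : ℕ} [NeZero n'] (χ₁ χ₂ : parGroup Γ n') {y₁ y₂ : LaurentSeries ℂ}
    (h₁ : IsClass K n' (χ₁ : Γ →* ℂˣ) y₁) (h₂ : IsClass K n' (χ₂ : Γ →* ℂˣ) y₂)
    (hred : red (P := P) y₁ = red y₂) :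
    ∃ J : ℕ, ∀ j, J ≤ j → ∀ y,
      IsClass K n' (PSEMI.opIter D j ((χ₁ : Γ →* ℂˣ) * ((χ₂ : Γ →* ℂˣ))⁻¹)) y →
        Triv K n' y := by
  have hn0 := NeZero.ne n'
  have hinv : IsClass K n' ((χ₂ : Γ →* ℂˣ)⁻¹) (y₂ ^ (n' - 1)) := by
    have e : (χ₂ : Γ →* ℂˣ)⁻¹ = (χ₂ : Γ →* ℂˣ) ^ (n' - 1) := by
      refine MonoidHom.ext fun γ => ?_
      have := DFunLike.congr_fun χ₂.2.1 γ
      rw [MonoidHom.pow_apply, MonoidHom.one_apply] at this
      rw [MonoidHom.inv_apply, MonoidHom.pow_apply]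
      exact inv_eq_of_mul_eq_one_left (by rw [← pow_succ, Nat.sub_add_cancel
        (Nat.one_le_iff_ne_zero.mpr hn0), this])
    rw [e]
    exact h₂.pow' (n' - 1)
  have hr := h₁.mul hinv
  set r := y₁ * y₂ ^ (n' - 1) with hrdef
  obtain ⟨w, hw, -, hwle⟩ := h₂.1.1.exists_invApprox h₂.1.2 (ε := 1 / 2) (by norm_num) (by norm_num)
  have hy := h₂.1
  have hσy := h₁.1
  set δ := r * w ^ n'
  have hδ : Fine K δ := (hσy.1.mul (hy.1.pow _)).mul (hw.pow _)
  have hδ1 : P.SerLT (δ - 1) := by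
    have h1 : red (P := P) δ = 1 := by
      have hyw : red (P := P) y₂ * red w = 1 := by
        rw [← red_mul hy.serIn hw.serIn, ← red_one (P := P),
          red_eq_red_iff (hy.serIn.mul hw.serIn) SerIn.one]
        exact fun k => (hwle k).trans_lt (by norm_num)
      simp only [δ, r]
      rw [red_mul (hσy.serIn.mul (hy.serIn.pow _)) (hw.serIn.pow _),
        red_mul hσy.serIn (hy.serIn.pow _), hred, red_pow hy.serIn,
        red_pow hw.serIn, ← pow_succ', Nat.sub_add_cancel (Nat.one_le_iff_ne_zero.mpr hn0),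
        ← mul_pow, hyw, one_pow]
    intro k
    exact (red_eq_red_iff hδ.serIn SerIn.one).mp (h1.trans red_one.symm) k
  obtain ⟨J, hJ⟩ := exists_nrmIter_near hδ hδ1
    (ε := P.abv (n' : ℂ) ^ 2 / 2) (by
      have := P.abv.pos (Nat.cast_ne_zero.mpr hn0 : (n' : ℂ) ≠ 0)
      positivity)
  have hδJ : Fine K (nrmIter p J δ) := by
    clear hJ
    induction J with
    | zero => exact hδ
    | succ J ih => exact ih.nrm
  have hT : Triv K n' (nrmIter p J r) := by
    have h1 : Triv K n' (nrmIter p J δ) := triv_of_near_one hn0 hδJ (by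
      have := P.abv.pos (Nat.cast_ne_zero.mpr hn0 : (n' : ℂ) ≠ 0)
      exact half_lt_self (by positivity)) hJ
    have e : nrmIter p J δ = nrmIter p J r * nrmIter p J w ^ n' := by
      simp only [δ, nrmIter_mul, nrmIter_pow]
    rw [e] at h1
    have hwJ : Nice K (nrmIter p J w) := Nice.nrmIter ⟨hw, by
      rw [← red_ne_zero_iff hw.serIn]
      intro h0
      have hyw : red (P := P) (y₂ * w) = red (P := P) 1 :=
        (red_eq_red_iff (hy.serIn.mul hw.serIn) SerIn.one).mpr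
          fun k => (hwle k).trans_lt (by norm_num)
      rw [red_mul hy.serIn hw.serIn, h0, mul_zero, red_one] at hyw
      exact zero_ne_one hyw⟩ J
    exact h1.of_mul hn0 (Nice.nrmIter (hσy.mul (hy.pow _)) J).serIn (hwJ.serIn.pow _)
      (hwJ.2.pow hwJ.serIn _) (triv_pow hwJ.1)
  refine ⟨J, fun j hj y hy' => ?_⟩
  have hT' : Triv K n' (nrmIter p j r) := by
    clear hy'
    induction j, hj using Nat.le_induction with
    | base => exact hT
    | succ j hj ih => exact Triv.nrm' (Nice.nrmIter (hσy.mul (hy.pow _)) j).serIn ih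
  have hcl := hr.opIter D hD j
  have hkj : KillsPm p M n' (PSEMI.opIter D j ((χ₁ : Γ →* ℂˣ) * ((χ₂ : Γ →* ℂˣ))⁻¹)) := by
    clear hy' hcl hT' hj
    suffices h : PSEMI.opIter D j ((χ₁ : Γ →* ℂˣ) * ((χ₂ : Γ →* ℂˣ))⁻¹) ∈ parGroup Γ n' from
      killsPm_of_parGroup ⟨_, h⟩
    induction j with
    | zero => exact mul_mem χ₁.2 (inv_mem χ₂.2)
    | succ j ih => exact ES.charOp_mem_parGroup D ih
  intro ε hε
  have h0 : 0 < min ε (1 / 2) := lt_min hε (by norm_num)
  exact ((hy'.cong hM L haux hn0 h0 hcl (fun _ _ => rfl) hkj).powApprox hn0 h0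
    ((min_le_right _ _).trans_lt (by norm_num)) hy'.1 hcl.1 (hT' _ h0)).mono (min_le_left _ _)

include hM L haux hG hD in
/-- **Deep.** Iterates of `U` make inertia differences trivial at `∞`. -/
theorem deep_triv {σ : ℂ ≃+* ℂ} (hσ : Keeps K σ) {n' : ℕ} [NeZero n'] (χ : parGroup Γ n') :
    ∃ J : ℕ, ∀ j, J ≤ j → ∀ y,
      IsClass K n' (PSEMI.opIter D j ((conjChar hG σ χ : Γ →* ℂˣ) * ((χ : Γ →* ℂˣ))⁻¹)) y →
        Triv K n' y := by
  obtain ⟨y0, hy0⟩ := exists_isClass (K := K) hM L haux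
    (killsPm_of_parGroup (p := p) (M := M) χ) χ.2
  exact deep_triv_of_red hM L haux D hD (conjChar hG σ χ) χ (hy0.conj L hG hσ χ) hy0
    (red_coeffMap hσ.abv hσ.res hy0.1.serIn)

/-! ### The identity, as congruences -/

variable {c : ℝ}

omit hp [NeZero M] in
theorem EqPm.killsPm {χ χ' : Γ →* ℂˣ} (h : EqPm p M χ χ') (h' : KillsPm p M n χ') :
    KillsPm p M n χ := fun γ hγ => by rw [h γ hγ, h' γ hγ]

omit hp [NeZero M] in
theorem eqPm_one_of_killsPm {χ : Γ →* ℂˣ} (h : KillsPm p M 1 χ) : EqPm p M χ 1 := fun γ hγ => by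
  rw [MonoidHom.one_apply, ← h γ hγ, pow_one]

include hM L in
theorem EqPm.comp_wHom {χ χ' : Γ →* ℂˣ} (h : EqPm p M χ χ') :
    EqPm p M (χ.comp (L.wHom hM)) (χ'.comp (L.wHom hM)) := by
  have hk : KillsPm p M 1 (χ * χ'⁻¹) := fun γ hγ => by
    rw [pow_one, MonoidHom.mul_apply, MonoidHom.inv_apply, h γ hγ, mul_inv_cancel]
  intro γ hγ
  have := killsPm_wHom hM L hk γ hγ
  rw [pow_one, MonoidHom.comp_apply, MonoidHom.mul_apply, MonoidHom.inv_apply] at this
  exact mul_inv_eq_one.mp this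

include hM L haux in
/-- A class trivial on `±(Γ₀(p) ∩ Γ(M))` is near. -/
theorem IsClass.powApprox_of_killsPm {χ : Γ →* ℂˣ} {y : LaurentSeries ℂ} (h : IsClass K p χ y)
    (hk : KillsPm p M 1 χ) : PowApprox K p (rp P ^ p) y :=
  cong_one_iff.mp (h.cong hM L haux hp.out.ne_zero rpp_pos isClass_one (eqPm_one_of_killsPm hk)
    fun _ _ => one_pow _)

include hM L haux in
/-- Classes of equal restrictions are congruent. -/
theorem IsClass.near1 {χ χ' : Γ →* ℂˣ} {y y' : LaurentSeries ℂ} (h : IsClass K p χ y)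
    (h' : IsClass K p χ' y') (heq : EqPm p M χ χ') (hk : KillsPm p M p χ') : Near1 K y y' :=
  h.cong hM L haux hp.out.ne_zero rpp_pos h' heq hk

/-- The left side of the key identity. -/
abbrev keyChar (χ : Γ →* ℂˣ) : Γ →* ℂˣ := (χ * charOp D (χ.comp (L.wHom hM))).comp (L.wHom hM)

end FermatAgent.PSEMI
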