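import Fermat.Agent.PSEMI.Ord.Core

/-!
# The two vanishing criteria for characters

`powApprox_of_cycle`: classes near at `∞` and permuted by `U W²` are near at the other place.
`killsPm_one_of_nil`: fixed classes killed by `U` are trivial if also killed by `U W` or in
the image of `U W`.
-/

set_option autoImplicit false

open UpperHalfPlane CongruenceSubgroup
open scoped MatrixGroups ModularForm Manifold

noncomputable section

namespace FermatAgent.PSEMI

open FermatAgent.ES (SerIn IsTwist IsParChar parGroup GoodLevel charOp conjChar CPlace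
  AuxLevel zetaC)
open FermatAgent.BAD (expandL)
open FermatAgent.Period (TransferData)
open ModularForm (heckeMatrix)
open LevelMp (pmLam)

variable {p : ℕ} [hp : Fact p.Prime] {M : ℕ} [NeZero M] {Γ Γ' : Subgroup SL(2, ℤ)}
  {P : CPlace p} {K : Coeffs P} {x y z : LaurentSeries ℂ}

theorem Near1.trans' (hx : Nice K x) (hy : Nice K y) (hz : Nice K z) (h : Near1 K x y)
    (h' : Near1 K y z) : Near1 K x z :=
  Cong.trans hp.out.ne_zero rpp_pos rpp_lt_one hx hy hz h h'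

theorem Near1.symm' (hx : Nice K x) (hy : Nice K y) (h : Near1 K x y) : Near1 K y x :=
  Cong.symm hp.out.ne_zero rpp_pos rpp_lt_one hx hy h

theorem near1_mul_of_near (hx : Nice K x) (hy : Nice K y) (h : PowApprox K p (rp P ^ p) y) :
    Near1 K (x * y) x := by
  show PowApprox K p _ (x * y * x ^ (p - 1))
  rw [mul_right_comm, mul_pow_sub_one hp.out.ne_zero]
  exact (powApprox_pow hx.1 rpp_pos.le p).mul rpp_pos.le hy.serIn h

theorem Near1.powApprox' (hx : Nice K x) (hy : Nice K y) (h : Near1 K x y)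
    (h' : PowApprox K p (rp P ^ p) y) : PowApprox K p (rp P ^ p) x :=
  Cong.powApprox hp.out.ne_zero rpp_pos rpp_lt_one hx hy h h'

theorem expandL_expandL' (a b : ℕ) [NeZero a] [NeZero b] [NeZero (a * b)] (s : LaurentSeries ℂ) :
    expandL a (expandL b s) = expandL (a * b) s := by
  ext m
  by_cases hm : ((a * b : ℕ) : ℤ) ∣ m
  · obtain ⟨k, rfl⟩ := hm
    rw [BAD.expandL_coeff_mul]
    rw [show ((a * b : ℕ) : ℤ) * k = (a : ℤ) * ((b : ℤ) * k) by push_cast; ring,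
      BAD.expandL_coeff_mul, BAD.expandL_coeff_mul]
  · rw [BAD.expandL_coeff_of_not_dvd _ _ hm]
    by_cases ha : (a : ℤ) ∣ m
    · obtain ⟨k, rfl⟩ := ha
      rw [BAD.expandL_coeff_mul, BAD.expandL_coeff_of_not_dvd]
      exact fun hb => hm (by push_cast; exact mul_dvd_mul_left _ hb)
    · exact BAD.expandL_coeff_of_not_dvd _ _ ha

variable (hM : M.Coprime p) (L : IsLevel p M Γ Γ') {m : ℕ} (haux : AuxLevel M m) {N : ℕ} [NeZero N]
  (hG : GoodLevel N Γ) (D : TransferData Γ (ZMod p))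
  (hD : ∀ j : ZMod p, D.rep j = heckeMatrix p j.val)

include hM L hD in
theorem EqPm.charOp {χ χ' : Γ →* ℂˣ} (hpar : IsParChar Γ χ) (hpar' : IsParChar Γ χ')
    (h : EqPm p M χ χ') : EqPm p M (ES.charOp D χ) (ES.charOp D χ') := by
  have hk : KillsPm p M 1 (χ * χ'⁻¹) := fun γ hγ => by
    rw [pow_one, MonoidHom.mul_apply, MonoidHom.inv_apply, h γ hγ, mul_inv_cancel]
  have h1 := killsPm_transfer hM L D hD (fun γ hγ => by
    rw [MonoidHom.mul_apply, MonoidHom.inv_apply, hpar γ hγ, hpar' γ hγ, mul_inv_cancel]) hk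
  intro γ hγ
  have := h1 γ hγ
  rw [pow_one, ES.charOp_apply] at this
  simp only [MonoidHom.mul_apply, MonoidHom.inv_apply, Finset.prod_mul_distrib,
    Finset.prod_inv_distrib] at this
  rw [ES.charOp_apply, ES.charOp_apply]
  exact mul_inv_eq_one.mp this

include hM L in
theorem wHom_mem_parGroup {n' : ℕ} {χ : Γ →* ℂˣ} (h : χ ∈ parGroup Γ n') :
    χ.comp (L.wHom hM) ∈ parGroup Γ n' :=
  (wPar hM L n' ⟨χ, h⟩).2

include hM L in
theorem keyChar_mem_parGroup {n' : ℕ} {χ : Γ →* ℂˣ} (h : χ ∈ parGroup Γ n') :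
    keyChar hM L D χ ∈ parGroup Γ n' :=
  wHom_mem_parGroup hM L (mul_mem h (ES.charOp_mem_parGroup D (wHom_mem_parGroup hM L h)))

include hM L hD in
theorem killsPm_keyChar {χ : Γ →* ℂˣ} (hpar : IsParChar Γ χ) (hk : KillsPm p M p χ) :
    KillsPm p M p (keyChar hM L D χ) := by
  refine killsPm_wHom hM L fun γ hγ => ?_
  rw [MonoidHom.mul_apply, mul_pow, hk γ hγ, killsPm_transfer hM L D hD
    (L.isParChar_wHom hM hpar) (killsPm_wHom hM L hk) γ hγ, one_mul]

omit hp [NeZero M] in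
theorem EqPm.mul {a a' b b' : Γ →* ℂˣ} (h : EqPm p M a a') (h' : EqPm p M b b') :
    EqPm p M (a * b) (a' * b') := fun γ hγ => by
  rw [MonoidHom.mul_apply, MonoidHom.mul_apply, h γ hγ, h' γ hγ]

variable (hdiv : p * M ∣ 12 * N) {σ : ℂ ≃+* ℂ} {w : ℕ} (hσ : Keeps K σ)
  (hσM : σ (zetaC M) = zetaC M) (hw : σ (zp p) = zp p ^ w) (hwp : w ≤ p) (hw1 : (w : ZMod p) ≠ 1)
  {n' : ℕ} [NeZero n']

include hM L haux D hD in
/-- If `U` kills `χ ∘ W` and `y ≡ φ z` for classes `y`, `z` of `χ`, `χ ∘ W`, then `z` is congruent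
to a `p`-th power, as `z ≡ φ² z`. -/
private theorem powApprox_of_charOp_kills (χ : parGroup Γ n')
    (hk : KillsPm p M p (χ : Γ →* ℂˣ)) {y z : LaurentSeries ℂ}
    (hy : IsClass K p (χ : Γ →* ℂˣ) y) (hz : IsClass K p ((χ : Γ →* ℂˣ).comp (L.wHom hM)) z)
    (hyz : Near1 K y (expandL p z))
    (hU' : KillsPm p M 1 (charOp D ((χ : Γ →* ℂˣ).comp (L.wHom hM)))) :
    PowApprox K p (rp P ^ p) z := by
  set X : Γ →* ℂˣ := (χ : Γ →* ℂˣ)
  set WX := X.comp (L.wHom hM)
  have hkW : KillsPm p M p WX := killsPm_wHom hM L hk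
  have hR : 0 ≤ rp P ^ p := rpp_pos.le
  obtain ⟨Y', hY'⟩ := exists_isClass (K := K) hM L haux (killsPm_keyChar hM L D hD χ.2.2 hk)
    (keyChar_mem_parGroup hM L D χ.2)
  have hN : PowApprox K p (rp P ^ p) (nrm p z) :=
    (hz.transfer D hD).powApprox_of_killsPm hM L haux hU'
  have hY'z : Near1 K Y' z := hY'.near1 hM L haux hz (by
    show EqPm p M ((X * charOp D WX).comp (L.wHom hM)) WX
    rw [MonoidHom.mul_comp]
    have h1 := EqPm.mul (fun _ _ => rfl : EqPm p M WX WX)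
      ((eqPm_one_of_killsPm hU').comp_wHom hM L)
    rw [MonoidHom.one_comp] at h1
    exact fun γ hγ => (h1 γ hγ).trans (by
      rw [MonoidHom.mul_apply, MonoidHom.one_apply, mul_one]))
      hkW
  have h1 := IsClass.key hM L haux hp.out.ne_zero (c := rp P ^ p) rpp_pos rpp_lt_one D hD hk
    hy hz hY'
  have h2 : Near1 K z (expandL p y) :=
    ((Near1.symm' hY'.1 hz.1 hY'z).trans' hz.1 hY'.1 (hy.1.mul hz.1.nrm).expandL h1).trans'
      hz.1 (hy.1.mul hz.1.nrm).expandL hy.1.expandL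
      ((near1_mul_of_near hy.1 hz.1.nrm hN).expandL hR)
  have h3 : Near1 K z (expandL p (expandL p z)) :=
    h2.trans' hz.1 hy.1.expandL hz.1.expandL.expandL (Cong.expandL hR hyz)
  have : NeZero (p * p) := ⟨mul_ne_zero hp.out.ne_zero hp.out.ne_zero⟩
  have : NeZero (p ^ 2) := ⟨pow_ne_zero _ hp.out.ne_zero⟩
  rw [expandL_expandL'] at h3
  simp only [← pow_two] at h3
  exact powApprox_of_cong_expandL (N := 2) two_ne_zero hz.1
    (Near1.symm' hz.1 hz.1.expandL h3)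

include hM L haux hG D hD hdiv hσ hw hw1 in
/-- If `χ` is fixed by `σ` and is the image under `U` of `ξ ∘ W`, and `y ≡ φ z`, then the class `z`
of `χ ∘ W` is congruent to a `p`-th power, as `σ` moves the `p`-th roots of unity. -/
private theorem powApprox_of_eqPm_charOp (χ : parGroup Γ n')
    (hk : KillsPm p M p (χ : Γ →* ℂˣ))
    (hfix : EqPm p M (conjChar hG σ χ : Γ →* ℂˣ) (χ : Γ →* ℂˣ)) {y z : LaurentSeries ℂ}
    (hy : IsClass K p (χ : Γ →* ℂˣ) y) (hz : IsClass K p ((χ : Γ →* ℂˣ).comp (L.wHom hM)) z)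
    (hyz : Near1 K y (expandL p z)) {ξ : Γ →* ℂˣ} (hξ : ξ ∈ parGroup Γ n')
    (hkξ : KillsPm p M p ξ)
    (hξχ : EqPm p M (charOp D (ξ.comp (L.wHom hM))) (χ : Γ →* ℂˣ)) :
    PowApprox K p (rp P ^ p) z := by
  set X : Γ →* ℂˣ := (χ : Γ →* ℂˣ)
  set WX := X.comp (L.wHom hM)
  have hWXmem : WX ∈ parGroup Γ n' := wHom_mem_parGroup hM L χ.2
  have hkW : KillsPm p M p WX := killsPm_wHom hM L hk
  have hR : 0 ≤ rp P ^ p := rpp_pos.le
  set Mu := ξ.comp (L.wHom hM)
  have hMu : Mu ∈ parGroup Γ n' := wHom_mem_parGroup hM L hξ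
  obtain ⟨yξ, hyξ⟩ := exists_isClass (K := K) hM L haux hkξ hξ
  obtain ⟨yμ, hyμ⟩ := exists_isClass (K := K) hM L haux (killsPm_wHom hM L hkξ) hMu
  obtain ⟨Y', hY'⟩ := exists_isClass (K := K) hM L haux (killsPm_keyChar hM L D hD hξ.2 hkξ)
    (keyChar_mem_parGroup hM L D hξ)
  have hμy : Near1 K (nrm p yμ) y := (hyμ.transfer D hD).near1 hM L haux hy hξχ hk
  have hY'p : Near1 K Y' (yμ * z) := hY'.near1 hM L haux (hyμ.mul hz) (by
    show EqPm p M ((ξ * charOp D Mu).comp (L.wHom hM)) (Mu * WX)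
    rw [MonoidHom.mul_comp]
    exact EqPm.mul (fun _ _ => rfl) (hξχ.comp_wHom hM L))
    (fun γ hγ => by rw [MonoidHom.mul_apply, mul_pow, killsPm_wHom hM L hkξ γ hγ, hkW γ hγ,
      one_mul])
  have h1 := IsClass.key hM L haux hp.out.ne_zero (c := rp P ^ p) rpp_pos rpp_lt_one D hD hkξ
    hyξ hyμ hY'
  have hμn := (hyμ.1.mul hz.1)
  have hrhs := (hyξ.1.mul hyμ.1.nrm)
  have h2 : Near1 K (yμ * z) (expandL p (yξ * nrm p yμ)) :=
    (Near1.symm' hY'.1 hμn hY'p).trans' hμn hY'.1 hrhs.expandL h1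
  have h3 := Cong.nrm hR hμn hrhs.expandL h2
  rw [nrm_mul, nrm_expandL] at h3
  have h4 : PowApprox K p (rp P ^ p) (nrm p yμ * nrm p z) :=
    Near1.powApprox' (hyμ.1.nrm.mul hz.1.nrm) (hrhs.pow p) h3 (powApprox_pow hrhs.1 hR p)
  have h5 : Near1 K (expandL p z * nrm p z) (nrm p yμ * nrm p z) :=
    Cong.mul hR hz.1.nrm hz.1.nrm
      ((Near1.symm' hy.1 hz.1.expandL hyz).trans' hz.1.expandL hy.1 hyμ.1.nrm
        (Near1.symm' hyμ.1.nrm hy.1 hμy))
      (Cong.refl hp.out.ne_zero hR hz.1.nrm)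
  have hcz := hz.conj L hG hσ ⟨WX, hWXmem⟩
  have hfixW : Near1 K (ModularCurve.coeffMap σ.toRingHom z) z := hcz.near1 hM L haux hz (by
    show EqPm p M (conjChar hG σ (wPar hM L n' χ) : Γ →* ℂˣ) WX
    rw [conjChar_wPar hM L hG hdiv]
    exact hfix.comp_wHom hM L) hkW
  exact powApprox_of_cong_killed (hσ.moves_of hw hw1) hz.1
    (h5.powApprox' (hz.1.expandL.mul hz.1.nrm) (hyμ.1.nrm.mul hz.1.nrm) h4) hfixW

include hM L haux hG D hD hdiv hσ hσM hw hwp hw1 in
/-- **Fixed classes killed by `U` are trivial.** -/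
theorem killsPm_one_of_nil (χ : parGroup Γ n') (hk : KillsPm p M p (χ : Γ →* ℂˣ))
    (hfix : EqPm p M (conjChar hG σ χ : Γ →* ℂˣ) (χ : Γ →* ℂˣ))
    (hW : EqPm p M (((χ : Γ →* ℂˣ).comp (L.wHom hM)).comp (L.wHom hM)) (χ : Γ →* ℂˣ))
    (hU : KillsPm p M 1 (charOp D (χ : Γ →* ℂˣ)))
    (hcase : KillsPm p M 1 (charOp D ((χ : Γ →* ℂˣ).comp (L.wHom hM))) ∨
      ∃ ξ ∈ parGroup Γ n', KillsPm p M p ξ ∧
        EqPm p M (charOp D (ξ.comp (L.wHom hM))) (χ : Γ →* ℂˣ)) :
    KillsPm p M 1 (χ : Γ →* ℂˣ) := by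
  set X : Γ →* ℂˣ := (χ : Γ →* ℂˣ)
  set WX := X.comp (L.wHom hM) with hWXdef
  have hWXmem : WX ∈ parGroup Γ n' := wHom_mem_parGroup hM L χ.2
  have hkW : KillsPm p M p WX := killsPm_wHom hM L hk
  obtain ⟨y, hy⟩ := exists_isClass (K := K) hM L haux hk χ.2
  obtain ⟨z, hz⟩ := exists_isClass (K := K) hM L haux hkW hWXmem
  obtain ⟨y2, hy2⟩ := exists_isClass (K := K) hM L haux (killsPm_wHom hM L hkW)
    (wHom_mem_parGroup hM L hWXmem)
  have hR : 0 ≤ rp P ^ p := rpp_pos.le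
  have hR1 : rp P ^ p ≤ 1 := rpp_lt_one.le
  -- `y ≡ φ z`
  obtain ⟨Y, hY⟩ := exists_isClass (K := K) hM L haux (killsPm_keyChar hM L D hD hWXmem.2 hkW)
    (keyChar_mem_parGroup hM L D hWXmem)
  have hN2 : PowApprox K p (rp P ^ p) (nrm p y2) :=
    (hy2.transfer D hD).powApprox_of_killsPm hM L haux ((EqPm.charOp hM L D hD
      (wHom_mem_parGroup hM L hWXmem).2 χ.2.2 hW).killsPm hU)
  have hYy : Near1 K Y y := hY.near1 hM L haux hy (by
    show EqPm p M ((WX * charOp D (WX.comp (L.wHom hM))).comp (L.wHom hM)) X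
    rw [MonoidHom.mul_comp]
    have h1 := EqPm.mul hW ((eqPm_one_of_killsPm ((EqPm.charOp hM L D hD
      (wHom_mem_parGroup hM L hWXmem).2 χ.2.2 hW).killsPm hU)).comp_wHom hM L)
    rw [MonoidHom.one_comp] at h1
    exact fun γ hγ => (h1 γ hγ).trans (by
      rw [MonoidHom.mul_apply, MonoidHom.one_apply, mul_one])) hk
  have hyz : Near1 K y (expandL p z) := by
    have h1 := IsClass.key hM L haux hp.out.ne_zero (c := rp P ^ p) rpp_pos rpp_lt_one D hD hkW
      hz hy2 hY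
    exact ((Near1.symm' hY.1 hy.1 hYy).trans' hy.1 hY.1 (hz.1.mul hy2.1.nrm).expandL h1).trans'
      hy.1 (hz.1.mul hy2.1.nrm).expandL hz.1.expandL
      ((near1_mul_of_near hz.1 hy2.1.nrm hN2).expandL hR)
  have hnear : PowApprox K p (rp P ^ p) z := by
    rcases hcase with hU' | ⟨ξ, hξ, hkξ, hξχ⟩
    · exact powApprox_of_charOp_kills hM L haux D hD χ hk hy hz hyz hU'
    · exact powApprox_of_eqPm_charOp hM L haux hG D hD hdiv hσ hw hw1 χ hk hfix hy hz hyz hξ
        hkξ hξχ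
  exact killsPm_one_of_near hM hdiv L hG haux hσ hσM hw hwp hw1 χ hk hfix hy hz
    (hyz.powApprox' hy.1 hz.1.expandL (hnear.expandL hR)) hnear

include hM L haux D hD in
/-- **Classes near at `∞` permuted by `U W²` are near at the other cusp.** -/
theorem powApprox_of_cycle {N0 : ℕ} (hN0 : N0 ≠ 0) (f : ℕ → parGroup Γ n')
    (hk : ∀ j, KillsPm p M p (f j : Γ →* ℂˣ))
    (hnext : ∀ j, EqPm p M
      (charOp D (((f j : Γ →* ℂˣ).comp (L.wHom hM)).comp (L.wHom hM))) (f (j + 1) : Γ →* ℂˣ))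
    (hper : EqPm p M (f N0 : Γ →* ℂˣ) (f 0 : Γ →* ℂˣ))
    (hnear : ∀ j y, IsClass K p (((f j : Γ →* ℂˣ).comp (L.wHom hM)).comp (L.wHom hM)) y →
      PowApprox K p (rp P ^ p) y) :
    ∀ z0, IsClass K p ((f 0 : Γ →* ℂˣ).comp (L.wHom hM)) z0 → PowApprox K p (rp P ^ p) z0 := by
  have hR : 0 ≤ rp P ^ p := rpp_pos.le
  have hR1 : rp P ^ p ≤ 1 := rpp_lt_one.le
  have hmem : ∀ j, (f j : Γ →* ℂˣ).comp (L.wHom hM) ∈ parGroup Γ n' := fun j =>
    wHom_mem_parGroup hM L (f j).2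
  have hkW : ∀ j, KillsPm p M p ((f j : Γ →* ℂˣ).comp (L.wHom hM)) := fun j =>
    killsPm_wHom hM L (hk j)
  choose z hz using fun j => exists_isClass (K := K) hM L haux (hkW j) (hmem j)
  have step : ∀ j, Near1 K (z (j + 1)) (expandL p (z j)) := by
    intro j
    obtain ⟨y2, hy2⟩ := exists_isClass (K := K) hM L haux (killsPm_wHom hM L (hkW j))
      (wHom_mem_parGroup hM L (hmem j))
    obtain ⟨Y, hY⟩ := exists_isClass (K := K) hM L haux
      (killsPm_keyChar hM L D hD (hmem j).2 (hkW j))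
      (keyChar_mem_parGroup hM L D (hmem j))
    have hn2 := hnear j y2 hy2
    have hYp : Near1 K Y (y2 * z (j + 1)) := hY.near1 hM L haux (hy2.mul (hz (j + 1))) (by
      show EqPm p M ((((f j : Γ →* ℂˣ).comp (L.wHom hM)) *
        charOp D (((f j : Γ →* ℂˣ).comp (L.wHom hM)).comp (L.wHom hM))).comp (L.wHom hM)) _
      rw [MonoidHom.mul_comp]
      exact EqPm.mul (fun _ _ => rfl) ((hnext j).comp_wHom hM L))
      (fun γ hγ => by rw [MonoidHom.mul_apply, mul_pow, killsPm_wHom hM L (hkW j) γ hγ,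
        hkW (j + 1) γ hγ, one_mul])
    have h1 := IsClass.key hM L haux hp.out.ne_zero (c := rp P ^ p) rpp_pos rpp_lt_one D hD
      (hkW j) (hz j) hy2 hY
    have hl := hy2.1.mul (hz (j + 1)).1
    have hr := (hz j).1.mul hy2.1.nrm
    have h2 : Near1 K (z (j + 1)) (y2 * z (j + 1)) := by
      have h := near1_mul_of_near (hz (j + 1)).1 hy2.1 hn2
      rw [mul_comm] at h
      exact Near1.symm' hl (hz (j + 1)).1 h
    exact ((h2.trans' (hz (j + 1)).1 hl hY.1 (Near1.symm' hY.1 hl hYp)).trans' (hz (j + 1)).1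
      hY.1 hr.expandL h1).trans' (hz (j + 1)).1 hr.expandL (hz j).1.expandL
        ((near1_mul_of_near (hz j).1 hy2.1.nrm (hn2.nrm hR hy2.1.serIn)).expandL hR)
  have iter : ∀ j, haveI : NeZero (p ^ j) := ⟨pow_ne_zero j hp.out.ne_zero⟩
      Near1 K (z j) (expandL (p ^ j) (z 0)) := by
    intro j
    induction j with
    | zero =>
      have e : expandL (p ^ 0) (z 0) = z 0 := by
        ext k
        have h := BAD.expandL_coeff_mul (p ^ 0) (z 0) k
        simp only [pow_zero, Nat.cast_one, one_mul] at h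
        convert h using 3
        simp
      rw [e]
      exact Cong.refl hp.out.ne_zero hR (hz 0).1
    | succ j ih =>
      have : NeZero (p ^ j) := ⟨pow_ne_zero j hp.out.ne_zero⟩
      have : NeZero (p ^ (j + 1)) := ⟨pow_ne_zero _ hp.out.ne_zero⟩
      have : NeZero (p * p ^ j) := ⟨mul_ne_zero hp.out.ne_zero (pow_ne_zero _ hp.out.ne_zero)⟩
      have e : expandL (p ^ (j + 1)) (z 0) = expandL p (expandL (p ^ j) (z 0)) := by
        rw [expandL_expandL']
        congr 1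
        simp [pow_succ, mul_comm]
      rw [e]
      exact (step j).trans' (hz (j + 1)).1 (hz j).1.expandL (hz 0).1.expandL.expandL
        (Cong.expandL hR ih)
  have : NeZero (p ^ N0) := ⟨pow_ne_zero _ hp.out.ne_zero⟩
  have h0 : Near1 K (z N0) (z 0) :=
    (hz N0).near1 hM L haux (hz 0) (hper.comp_wHom hM L) (hkW 0)
  intro z0 hz0
  have hnz : PowApprox K p (rp P ^ p) (z 0) := powApprox_of_cong_expandL hN0 (hz 0).1
    ((Near1.symm' (hz N0).1 (hz 0).1.expandL (iter N0)).trans' (hz 0).1.expandL (hz N0).1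
      (hz 0).1 h0)
  exact Near1.powApprox' hz0.1 (hz 0).1 (hz0.near1 hM L haux (hz 0) (fun _ _ => rfl) (hkW 0)) hnz

end FermatAgent.PSEMI
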