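import Fermat.Agent.PSEMI.Ord.Vanish
import Fermat.Agent.BAD.DatumUnipotent
import Fermat.Agent.RT.Tame

/-!
# Hecke Galois representations at a prime exactly dividing the level

The auxiliary level and the Hecke action of such a representation; when the residual
representation is ordinary, inertia has residual trace `1` plus the determinant.
-/

set_option autoImplicit false

open UpperHalfPlane CongruenceSubgroup IsLocalRing
open scoped MatrixGroups Matrix

noncomputable section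

namespace FermatAgent.PSEMI

open FermatAgent.GaloisBasic (repMatrix repBasis)
open FermatAgent.ES (CPlace AuxLevel GQ embC autC zetaC)
open FermatAgent.Flat.Hecke (heckeImg latTd LatMat padMatHom)
open MatLim
open ModularForm (heckeDiagMatrix heckeMatrix)

/-! ### The level -/

variable {p : ℕ} [hp : Fact p.Prime]

/-- A multiple of `M₀` prime to `p` dividing `12 M₀` and carrying an auxiliary level. -/
theorem exists_aux_multiple {M0 : ℕ} [NeZero M0] (h0 : M0.Coprime p) :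
    ∃ (M m : ℕ), NeZero M ∧ M.Coprime p ∧ M0 ∣ M ∧ AuxLevel M m ∧ M ∣ 12 * M0 := by
  by_cases h3 : p = 3
  · subst h3
    refine ⟨4 * M0, 2, ⟨by simp [NeZero.ne M0]⟩, ?_, dvd_mul_left _ _,
      ⟨Or.inl rfl, (show 2 ∣ 4 by norm_num).mul_right _, ?_⟩, mul_dvd_mul_right (by norm_num) _⟩
    · exact Nat.Coprime.mul_left (by norm_num) h0
    · have := NeZero.one_le (n := M0); omega
  · refine ⟨3 * M0, 3, ⟨by simp [NeZero.ne M0]⟩, ?_, dvd_mul_left _ _,
      ⟨Or.inr rfl, dvd_mul_right _ _, ?_⟩, mul_dvd_mul_right (by norm_num) _⟩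
    · exact Nat.Coprime.mul_left ((Nat.coprime_primes Nat.prime_three hp.out).mpr (Ne.symm h3)) h0
    · have := NeZero.one_le (n := M0); omega

/-- The square of the Atkin involution is inner. -/
theorem exists_wHom_sq {N M0 M : ℕ} [NeZero M] (hN : N = p * M0) (hdvd : M0 ∣ M) (hM : M.Coprime p)
    (L : IsLevel p M (Gamma0 N) (Gamma0 M0)) :
    ∃ g : Gamma0 N, ∀ γ, L.wHom hM (L.wHom hM γ) = g * γ * g⁻¹ := by
  set A := BAD.atkinMat hM with hA
  obtain ⟨d, hd⟩ := (BAD.atkinMat_dvd hM).2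
  have hc : (M0 : ℤ) ∣ A 1 0 := by
    have h := BAD.atkinMat_mem hM
    rw [Gamma_mem] at h
    rw [← ZMod.intCast_zmod_eq_zero_iff_dvd]
    have := congrArg (ZMod.castHom hdvd (ZMod M0)) h.2.2.1
    simpa using this
  set a := A 0 0
  set b := A 0 1
  set c := A 1 0
  have hdet : a * (p * d) - b * c = 1 := by
    have := Matrix.det_fin_two (A : Matrix (Fin 2) (Fin 2) ℤ)
    rw [A.2] at this
    rw [← hd]; exact this.symm
  let g0 : SL(2, ℤ) := ⟨!![(p : ℤ) * a * a + b * c, a * b + b * d;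
    (p : ℤ) * c * (a + d), b * c + p * d * d], by
    rw [Matrix.det_fin_two_of]
    linear_combination (a * (p * d) - b * c + 1) * hdet⟩
  have hg0 : g0 ∈ Gamma0 N := by
    rw [Gamma0_mem, ZMod.intCast_zmod_eq_zero_iff_dvd, hN, Nat.cast_mul]
    exact (mul_dvd_mul_left _ hc).mul_right _
  refine ⟨⟨g0, hg0⟩, fun γ => Subtype.ext ?_⟩
  show (L.wHom hM (L.wHom hM γ) : SL(2, ℤ)) = g0 * γ * g0⁻¹
  refine eq_mul_inv_of_mul_eq (Matrix.SpecialLinearGroup.mapGL_injective (S := ℝ) (R := ℤ) ?_)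
  rw [map_mul, map_mul]
  set Z := (A : GL (Fin 2) ℝ) * heckeDiagMatrix p
  have hW : ∀ δ : Gamma0 N, Z * ((δ : SL(2, ℤ)) : GL (Fin 2) ℝ) =
      ((L.wHom hM δ : SL(2, ℤ)) : GL (Fin 2) ℝ) * Z := fun δ => by
    rw [L.coe_wHom hM, ← hA]
    simp only [Z, map_mul, map_inv, mul_assoc, inv_mul_cancel_left]
    rw [← dilDiag_mul]
    rfl
  have h2 : Z * Z * ((γ : SL(2, ℤ)) : GL (Fin 2) ℝ) =
      ((L.wHom hM (L.wHom hM γ) : SL(2, ℤ)) : GL (Fin 2) ℝ) * (Z * Z) := by
    rw [mul_assoc, hW γ, ← mul_assoc, hW, mul_assoc]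
  have hdR : ((A 1 1 : ℤ) : ℝ) = (p : ℝ) * (d : ℝ) := by rw [hd]; push_cast; ring
  have hZ : ((Z * Z : GL (Fin 2) ℝ) : Matrix (Fin 2) (Fin 2) ℝ) =
      (p : ℝ) • ((g0 : GL (Fin 2) ℝ) : Matrix (Fin 2) (Fin 2) ℝ) := by
    have hp0 := NeZero.ne p
    have hg : ∀ i j, ((g0 : GL (Fin 2) ℝ) : Matrix (Fin 2) (Fin 2) ℝ) i j = ((g0 i j : ℤ) : ℝ) :=
      fun i j => rfl
    ext i j
    rw [Matrix.smul_apply, hg]
    fin_cases i <;> fin_cases j <;>
      simp [Z, g0, ModularForm.val_heckeDiagMatrix hp0, Matrix.mul_apply, Fin.sum_univ_two, hdR] <;>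
      ring
  have h3 := congrArg (fun X : GL (Fin 2) ℝ => (X : Matrix (Fin 2) (Fin 2) ℝ)) h2
  simp only [Units.val_mul] at h3
  rw [Units.val_mul] at hZ
  rw [hZ, Matrix.smul_mul, Matrix.mul_smul] at h3
  exact Units.ext (by
    simp only [Units.val_mul]
    exact (smul_right_injective _ (Nat.cast_ne_zero.mpr (NeZero.ne p)) h3).symm)

/-- The auxiliary level of `N = p * M0`, with its Atkin involution. -/
theorem exists_level {N M0 : ℕ} [NeZero M0] (hN : N = p * M0) (h0 : M0.Coprime p) :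
    ∃ (M m : ℕ) (_ : NeZero M) (hM : M.Coprime p) (L : IsLevel p M (Gamma0 N) (Gamma0 M0))
      (g : Gamma0 N), AuxLevel M m ∧ p * M ∣ 12 * N ∧
        ∀ γ, L.wHom hM (L.wHom hM γ) = g * γ * g⁻¹ := by
  subst hN
  obtain ⟨M, m, hM0, hM, hdvd, haux, hM12⟩ := exists_aux_multiple h0
  obtain ⟨g, hsq⟩ := exists_wHom_sq rfl hdvd hM (isLevel_Gamma0 h0 hdvd)
  exact ⟨M, m, hM0, hM, _, g, haux, mul_left_comm 12 p M0 ▸ mul_dvd_mul_left p hM12, hsq⟩

/-- The auxiliary level at a prime exactly dividing `N`. -/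
theorem exists_level_of_dvd {N : ℕ} [NeZero N] (hpN : p ∣ N) (hp2N : ¬ p ^ 2 ∣ N) :
    ∃ (M0 M m : ℕ) (_ : NeZero M0) (_ : NeZero M) (hM : M.Coprime p)
      (L : IsLevel p M (Gamma0 N) (Gamma0 M0)) (g : Gamma0 N),
      AuxLevel M m ∧ p * M ∣ 12 * N ∧ ∀ γ, L.wHom hM (L.wHom hM γ) = g * γ * g⁻¹ := by
  obtain ⟨M0, hN⟩ := hpN
  have : NeZero M0 := ⟨fun h => NeZero.ne N (by rw [hN, h, mul_zero])⟩
  exact ⟨M0, (exists_level hN (Nat.Coprime.symm ((Nat.Prime.coprime_iff_not_dvd hp.out).mpr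
    fun h => hp2N (by rw [hN, pow_two]; exact mul_dvd_mul_left p h)))).imp
      fun _ => Exists.imp fun _ h => ⟨this, h⟩⟩

/-! ### The Hecke algebra on the lattice -/

variable {N : ℕ} [NeZero N] {S : Finset ℕ} {O : Type} [CommRing O] [IsDomain O]
  [IsDiscreteValuationRing O] [IsAdicComplete (maximalIdeal O) O]
  {θ : CuspForm.heckeAlgebra N 2 (↑S : Set ℕ) →+* ResidueField O}
  {T : Type} [CommRing T] [IsLocalRing T] [IsNoetherianRing T]
  [IsAdicComplete (maximalIdeal T) T] [Algebra O T] [IsLocalHom (algebraMap O T)]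
  [Module.Finite O T] [Module.Free O T]
  (H : CuspForm.HeckeGaloisRepDatum N (↑S : Set ℕ) O θ T)

/-- The Hecke image in the lattice is closed. -/
theorem closed_heckeImg :
    Closed ((heckeImg p N (↑S : Set ℕ)).toSubring : Set (LatMat p N)) := by
  intro z hz
  set B := Subalgebra.toSubmodule (heckeImg p N (↑S : Set ℕ))
  show z ∈ B
  rw [← Submodule.Quotient.mk_eq_zero, ← Submodule.mem_bot (R := ℤ_[p]),
    ← Ideal.iInf_pow_smul_eq_bot_of_isLocalRing (M := LatMat p N ⧸ B) (maximalIdeal ℤ_[p])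
      (maximalIdeal.isMaximal _).ne_top, Submodule.mem_iInf]
  intro k
  obtain ⟨w, hw, he⟩ := hz k
  rw [mred_eq_iff] at he
  obtain ⟨f, hf⟩ := Flat.Hecke.exists_smul_of_dvd p N (Z := w - z) he
  have hwz : (Submodule.Quotient.mk z : LatMat p N ⧸ B) =
      -((p : ℤ_[p]) ^ k • Submodule.Quotient.mk f) := by
    rw [← Submodule.Quotient.mk_smul, ← hf, Submodule.Quotient.mk_sub,
      (Submodule.Quotient.mk_eq_zero B).mpr hw, zero_sub, neg_neg]
  rw [hwz, PadicInt.maximalIdeal_eq_span_p, Ideal.span_singleton_pow]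
  exact Submodule.neg_mem _
    (Submodule.smul_mem_smul (Ideal.mem_span_singleton_self _) Submodule.mem_top)

theorem commute_matU {z : LatMat p N} (hz : z ∈ heckeImg p N (↑S : Set ℕ)) :
    Commute (matU p N) z :=
  Algebra.commute_of_mem_adjoin_of_forall_mem_commute hz fun x hx => by
    obtain ⟨u, rfl⟩ := hx
    exact (Commute.all (⟨_, MF.heckeAt_mem hp.out (Set.notMem_empty p)⟩ :
        CuspForm.heckeAlgebra N 2 ∅)
      (Subalgebra.inclusion (CuspForm.heckeAlgebra_mono (Set.empty_subset _)) u)).map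
      ((Int.castRingHom ℤ_[p]).mapMatrix.comp (FermatAgent.Period.parMatHom N ∅))

/-- The Atkin involution commutes with the Hecke image away from the level, `T_ℓ` being `F + ℓ
F⁻¹` for a Frobenius element `F`. -/
theorem commute_matW {M : ℕ} [NeZero M] (hM : M.Coprime p) {Γ' : Subgroup SL(2, ℤ)}
    (L : IsLevel p M (Gamma0 N) Γ') (hdiv : p * M ∣ 12 * N) (hpS : p ∈ S)
    (hNS : ∀ q : ℕ, q.Prime → q ∣ N → q ∈ S) {z : LatMat p N}
    (hz : z ∈ heckeImg p N (↑S : Set ℕ)) : Commute (matW hM L) z := by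
  refine Algebra.commute_of_mem_adjoin_of_forall_mem_commute hz fun x hx => ?_
  obtain ⟨⟨u, hu⟩, rfl⟩ := hx
  induction hu using Algebra.adjoin_induction with
  | mem x hx =>
    obtain ⟨ℓ, hℓ, hℓS, rfl⟩ := MF.exists_eq_heckeAt_of_mem_heckeGenerators hx
    have hℓN : ¬ ℓ ∣ N := fun h => hℓS (hNS ℓ hℓ h)
    have hℓp : ℓ ≠ p := fun h => hℓS (h ▸ hpS)
    obtain ⟨A, hA⟩ := GaloisBasic.exists_liesOverPrime hℓ
    obtain ⟨g, hg⟩ := GaloisBasic.exists_isFrobeniusAt hℓ hA
    have h := ES.galMat_congruence p hℓ hℓN hℓp hA hg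
    set F : LatMat p N := ES.heckePadMat p ⟨_, MF.heckeAt_mem hℓ (Set.notMem_empty ℓ)⟩
    show Commute (matW hM L) F
    have e : F = ES.galMat p N g + (ℓ : LatMat p N) * ES.galMat p N g⁻¹ := by
      have h1 := congrArg (fun X => X * ES.galMat p N g⁻¹) h
      simp only [zero_mul, add_mul, sub_mul, mul_assoc, ← map_mul, mul_inv_cancel, map_one,
        mul_one] at h1
      rw [sub_add_eq_add_sub, sub_eq_zero] at h1
      exact h1.symm
    rw [e]
    exact (matW_commute hM L hdiv g).add_right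
      ((Nat.commute_cast _ ℓ).mul_right (matW_commute hM L hdiv g⁻¹))
  | algebraMap r =>
    show Commute _ (padMatHom p N (↑S : Set ℕ) (algebraMap ℤ _ r))
    rw [eq_intCast, map_intCast]
    exact (Int.cast_commute r _).symm
  | add x y hx hy ihx ihy =>
    have h1 := map_add (padMatHom p N (↑S : Set ℕ))
      (⟨x, hx⟩ : CuspForm.heckeAlgebra N 2 (↑S : Set ℕ)) ⟨y, hy⟩
    exact cast (congrArg (Commute _) h1.symm) (ihx.add_right ihy)
  | mul x y hx hy ihx ihy =>
    have h1 := map_mul (padMatHom p N (↑S : Set ℕ))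
      (⟨x, hx⟩ : CuspForm.heckeAlgebra N 2 (↑S : Set ℕ)) ⟨y, hy⟩
    exact cast (congrArg (Commute _) h1.symm) (ihx.mul_right ihy)

include H in
/-- A Hecke Galois representation makes the lattice a `HeckeAct`, compared with its matrices. -/
theorem exists_heckeAct (hpO : (p : O) ∈ maximalIdeal O) (hpS : p ∈ S)
    (hNS : ∀ q : ℕ, q.Prime → q ∣ N → q ∈ S) :
    ∃ A : HeckeAct p (Fin (FermatAgent.Period.parRank (Gamma0 N))) T GQ,
      A.R0 = (heckeImg p N (↑S : Set ℕ)).toSubring ∧ A.G = ES.galMat p N ∧ A.M = repMatrix H.ρ := by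
  obtain ⟨τ, hτ⟩ := Flat.Hecke.exists_comparison p hpS hNS H hpO
  have hpT : (p : T) ∈ maximalIdeal T := by
    rw [← map_natCast (algebraMap O T)]
    exact map_nonunit (algebraMap O T) _ hpO
  obtain ⟨c, hc⟩ := Flat.Hecke.exists_artinRees p
    (Subalgebra.toSubmodule (heckeImg p N (↑S : Set ℕ)))
  refine ⟨{
    R0 := (heckeImg p N (↑S : Set ℕ)).toSubring
    closed := closed_heckeImg
    comm := fun a ha b hb => congrArg Subtype.val
      (mul_comm (⟨a, ha⟩ : heckeImg p N (↑S : Set ℕ)) ⟨b, hb⟩)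
    scalar := fun a => Subalgebra.algebraMap_mem _ a
    φ := τ
    cont := ⟨c + 1, fun x hx => ?_⟩
    G := ES.galMat p N
    commG := fun g r hr => Flat.Hecke.commute_galMat p N _ hr g
    cyc := ES.padCyclo p
    τ := fun g => (latTd p hpS hNS).t g
    τ_eq := fun g => rfl
    M := repMatrix H.ρ
    tr := hτ
    det := fun g => ?_
    span := ES.span_repMatrix_eq_top H.ρ H.residual_absIrr }, rfl, rfl, rfl⟩
  · rw [← map_zero (mred (p := p) (κ := Fin (FermatAgent.Period.parRank (Gamma0 N))) (c + 1)),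
      mred_eq_iff] at hx
    simp only [Matrix.zero_apply, sub_zero] at hx
    obtain ⟨b, hb, hbe⟩ := hc (c + 1) (Nat.le_succ _) (x : LatMat p N) x.2
      (Flat.Hecke.exists_smul_of_dvd p N hx)
    rw [show c + 1 - c = 1 by omega, pow_one] at hbe
    have hx' : τ x = (p : T) * τ ⟨b, hb⟩ := by
      rw [← map_natCast τ p, ← map_mul]
      congr 1
      refine Subtype.ext (hbe.trans ?_)
      rw [Algebra.smul_def, map_natCast]
      rfl
    exact hx' ▸ Ideal.mul_mem_right _ _ hpT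
  · exact (BAD.det_repMatrix_datum H hpO hpS hNS (τ.comp (algebraMap ℤ_[p] _)) g).symm

/-! ### Inertia elements and residual data -/

/-- An extension to `ℂ` of a Galois element acts on roots of unity by the same exponent. -/
theorem autC_zetaC_eq {n : ℕ} [NeZero n] {g : GQ} {σ : ℂ ≃+* ℂ}
    (hσ : ∀ x, σ (embC x) = embC (g x)) {j : ℕ}
    (hg : ∀ y : AlgebraicClosure ℚ, y ^ n = 1 → g y = y ^ j) : σ (zetaC n) = zetaC n ^ j := by
  have hz : zetaC n ^ n = 1 := (ES.zetaC_isPrimitiveRoot n).pow_eq_one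
  obtain ⟨y, hy⟩ := ES.exists_embC_eq (x := zetaC n)
    ⟨Polynomial.X ^ n - 1, Polynomial.X_pow_sub_C_ne_zero (NeZero.pos n) 1, by simp [hz]⟩
  have hy1 : y ^ n = 1 := ES.embC.toRingHom.injective (by
    show embC (y ^ n) = embC 1
    rw [map_pow, hy, hz, map_one])
  rw [← hy, hσ, hg y hy1, map_pow]

/-- Inertia at `p` fixes the roots of unity of order prime to `p`. -/
theorem inertia_fixes_zetaC {P0 : ValuationSubring (AlgebraicClosure ℚ)}
    (hP0 : P0.LiesOverPrime p) {M : ℕ} [NeZero M] (hM : M.Coprime p) {g : GQ}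
    (hg : g ∈ P0.inertiaSubgroupIn ℚ) {σ : ℂ ≃+* ℂ} (hσ : ∀ x, σ (embC x) = embC (g x)) :
    σ (zetaC M) = zetaC M := by
  have h := autC_zetaC_eq (n := M) hσ (j := 1) fun y hy => by
    rw [pow_one]
    exact Mazur.inertia_fixes_rootsOfUnity hp.out hP0
      ((Nat.Prime.coprime_iff_not_dvd hp.out).mp hM.symm) (NeZero.ne M) hg hy
  rwa [pow_one] at h

/-- An inertia element at `p` extends to `ℂ` preserving the coefficients of the place, fixing the
roots of unity of order prime to `p`, with the same exponent on those of order `p`. -/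
theorem exists_cycExt {P0 : ValuationSubring (AlgebraicClosure ℚ)} (hP0 : P0.LiesOverPrime p)
    {Φ : ℂ ≃+* PadicAlgCl p} (hΦ : (CPlace.ofEquiv Φ).algVal = P0) {M : ℕ} [NeZero M]
    (hM : M.Coprime p) {σ : GQ} (hσ : σ ∈ P0.inertiaSubgroupIn ℚ) {w : ℕ}
    (hσw : ∀ y : AlgebraicClosure ℚ, y ^ p = 1 → σ y = y ^ w) (hwp : w ≤ p) :
    ∃ σC, CycExt (stableCoeffs Φ) M σ σC w := by
  obtain ⟨σC, hext, hkeep⟩ := exists_keeps Φ (hΦ ▸ hσ)
  exact ⟨σC, hext, hkeep, inertia_fixes_zetaC hP0 hM hσ hext, autC_zetaC_eq (n := p) hext hσw,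
    hwp⟩

/-- An inertia element at `p` inverting the roots of unity of order `p`. -/
theorem exists_inertia_neg_one {P0 : ValuationSubring (AlgebraicClosure ℚ)}
    (hP0 : P0.LiesOverPrime p) : ∃ σ ∈ P0.inertiaSubgroupIn ℚ,
      ∀ y : AlgebraicClosure ℚ, y ^ p = 1 → σ y = y ^ (p - 1) := by
  obtain ⟨σ, hσ, hσw⟩ := RT.exists_inertia_cyclotomic hp.out hP0 (-1 : (ZMod p)ˣ)
  rw [Units.val_neg, Units.val_one, ZMod.neg_val, if_neg one_ne_zero, ZMod.val_one] at hσw
  exact ⟨σ, hσ, hσw⟩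

/-- `p - 1` is `-1` in characteristic `p`. -/
theorem natCast_pred_eq_neg_one {R : Type} [CommRing R] (h0 : (p : R) = 0) :
    ((p - 1 : ℕ) : R) = -1 := by
  rw [eq_neg_iff_add_eq_zero, ← h0]
  exact_mod_cast congrArg (fun i : ℕ => (i : R)) (Nat.sub_add_cancel hp.out.one_le)

omit hp in
/-- Residual ordinarity gives the residual trace of inertia. -/
theorem residue_trace_inertia
    (hres : (GaloisRepAdic.ofResidualGaloisRep H.ρ.residual).IsOrdinaryAt p)
    {P : ValuationSubring (AlgebraicClosure ℚ)} (hP : P.LiesOverPrime p) {g : GQ}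
    (hg : g ∈ P.inertiaSubgroupIn ℚ) :
    residue T (repMatrix H.ρ g).trace = residue T (repMatrix H.ρ g).det + 1 := by
  set W := GaloisRepAdic.ofResidualGaloisRep H.ρ.residual
  obtain ⟨L, ⟨b, hL⟩, -, hI⟩ := hres P hP
  set fk : Module.End (ResidueField T) W.V := W.ρ g
  have htr : residue T (repMatrix H.ρ g).trace = LinearMap.trace (ResidueField T) W.V fk := by
    rw [GaloisBasic.repMatrix_apply, ← LinearMap.trace_eq_matrix_trace]
    exact (LinearMap.trace_baseChange (H.ρ.ρ g) (ResidueField T)).symm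
  have hdet : residue T (repMatrix H.ρ g).det = LinearMap.det fk := by
    rw [GaloisBasic.repMatrix_apply, LinearMap.det_toMatrix]
    exact (LinearMap.det_baseChange (A := ResidueField T) (H.ρ.ρ g)).symm
  rw [htr, hdet, LinearMap.trace_eq_matrix_trace _ b, ← LinearMap.det_toMatrix b]
  have h : ∀ i, ∃ s : ResidueField T, fk (b i) = b i + s • b 0 := fun i => by
    have hm : fk (b i) - b i ∈ L := hI g hg (b i)
    rw [hL, Submodule.mem_span_singleton] at hm
    obtain ⟨s, hs⟩ := hm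
    exact ⟨s, by rw [hs, add_sub_cancel]⟩
  choose s hs using h
  rw [Matrix.trace_fin_two, Matrix.det_fin_two]
  simp [LinearMap.toMatrix_apply, hs]

end FermatAgent.PSEMI
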