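import Fermat.Agent.PSEMI.Ord.Vanish
import Fermat.Agent.PSEMI.Ord.Datum
import Mathlib.RingTheory.Nilpotent.Basic

/-!
# The part of the lattice cut out by a commutator and an inertia element

For an inertia element `σ₀` acting residually with eigenvalues `w ≠ 1` and `1`, the part where
`t [σ₀, g₁] - 2` is invertible and `t σ₀ - (1 + w)` is nilpotent is small, and on it `σ₀` cannot
act through the single eigenvalue `w`.
-/

set_option autoImplicit false

open CongruenceSubgroup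
open scoped MatrixGroups Matrix

noncomputable section

namespace FermatAgent.PSEMI

open MatLim
open FermatAgent.ES (GQ)
open FermatAgent.Period (parRank)

variable {p : ℕ} [hp : Fact p.Prime] {N : ℕ} [NeZero N]

local notation "ι₀" => Fin (parRank (Gamma0 N))
local notation "Vec" => ι₀ → ℤ_[p]
local notation "MatN" => Matrix ι₀ ι₀ ℤ_[p]
local notation "Res" => ι₀ → ZMod (p ^ 1)

/-! ### Vectors modulo `p` -/

omit [NeZero N] in
theorem mred_natCast (k a : ℕ) :
    mred k (a : MatN) = (a : Matrix ι₀ ι₀ (ZMod (p ^ k))) :=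
  map_natCast _ a

omit hp [NeZero N] in
theorem natCast_mulVec_res (a : ℕ) (y : Res) :
    (a : Matrix ι₀ ι₀ (ZMod (p ^ 1))) *ᵥ y = (a : ZMod (p ^ 1)) • y :=
  Matrix.natCast_mulVec a y

/-- The last nonzero image of a vector under the powers of a nilpotent matrix. -/
theorem pow_mulVec_eq_zero_last {R : Type} [CommRing R] {κ : Type} [Fintype κ] [DecidableEq κ]
    {A : Matrix κ κ R} {y : κ → R} {j : ℕ} (hy : y ≠ 0) (hj : A ^ j *ᵥ y = 0) :
    ∃ i, A ^ i *ᵥ y ≠ 0 ∧ A *ᵥ (A ^ i *ᵥ y) = 0 := by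
  induction j with
  | zero => rw [pow_zero, Matrix.one_mulVec] at hj; exact absurd hj hy
  | succ j ih =>
    by_cases h : A ^ j *ᵥ y = 0
    · exact ih h
    · exact ⟨j, h, by rwa [Matrix.mulVec_mulVec, ← pow_succ']⟩

/-! ### The operators -/

section Central

variable (p N)

/-- The support containing the level and `p`. -/
abbrev badSet : Finset ℕ := insert p N.primeFactors

theorem galTrace_mem_badSet (g : GQ) :
    ES.galTrace N p g ∈ Flat.Hecke.heckeImg p N (↑(badSet p N) : Set ℕ) :=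
  Flat.Hecke.galTrace_mem p (Finset.mem_insert_self _ _)
    (fun _ hq hqN => Finset.mem_insert_of_mem (Nat.mem_primeFactors.mpr ⟨hq, hqN, NeZero.ne N⟩)) g

theorem commute_galMat_galTrace (g h : GQ) :
    Commute (ES.galMat p N g) (ES.galTrace N p h) :=
  Flat.Hecke.commute_galMat p N _ (galTrace_mem_badSet p N h) g

theorem commute_matU_galTrace (h : GQ) : Commute (matU p N) (ES.galTrace N p h) :=
  commute_matU (galTrace_mem_badSet p N h)

theorem galTrace_mul_galMat (g : GQ) :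
    ES.galTrace N p g * ES.galMat p N g =
      ES.galMat p N g * ES.galMat p N g + algebraMap ℤ_[p] MatN (ES.padCyclo p g) := by
  rw [ES.galTrace, add_mul, mul_assoc (algebraMap ℤ_[p] MatN _),
    ← map_mul (ES.galMat p N) g⁻¹ g, inv_mul_cancel, map_one, mul_one]

theorem padCyclo_commutator (a b : GQ) : ES.padCyclo p (a * b * a⁻¹ * b⁻¹) = 1 := by
  rw [show a * b * a⁻¹ * b⁻¹ = a * b * (a⁻¹ * b⁻¹) by group, map_mul, map_mul, map_mul,
    mul_mul_mul_comm, ← map_mul, ← map_mul, mul_inv_cancel, mul_inv_cancel, map_one, one_mul]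

/-- `t [σ₀, g₁] - 2`. -/
def commOp (σ0 g1 : GQ) : MatN := ES.galTrace N p (σ0 * g1 * σ0⁻¹ * g1⁻¹) - 2

/-- `t σ₀ - (1 + w)`. -/
def rootOp (σ0 : GQ) (w : ℕ) : MatN := ES.galTrace N p σ0 - (1 + (w : MatN))

end Central

variable {σ0 g1 : GQ} {w : ℕ}

theorem commute_galMat_commOp (g : GQ) : Commute (ES.galMat p N g) (commOp p N σ0 g1) :=
  (commute_galMat_galTrace p N g _).sub_right (Commute.ofNat_right _ 2)

theorem commute_galMat_rootOp (g : GQ) : Commute (ES.galMat p N g) (rootOp p N σ0 w) :=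
  (commute_galMat_galTrace p N g _).sub_right
    ((Commute.one_right _).add_right (Nat.commute_cast _ w))

theorem commute_matU_commOp : Commute (matU p N) (commOp p N σ0 g1) :=
  (commute_matU_galTrace p N _).sub_right (Commute.ofNat_right _ 2)

theorem commute_matU_rootOp : Commute (matU p N) (rootOp p N σ0 w) :=
  (commute_matU_galTrace p N _).sub_right
    ((Commute.one_right _).add_right (Nat.commute_cast _ w))

theorem commute_rootOp_commOp : Commute (rootOp p N σ0 w) (commOp p N σ0 g1) := by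
  have h : ∀ a b : GQ, Commute (ES.galTrace N p a) (ES.galTrace N p b) := fun a b =>
    congrArg Subtype.val (mul_comm
      (⟨_, galTrace_mem_badSet p N a⟩ : Flat.Hecke.heckeImg p N (↑(badSet p N) : Set ℕ))
      ⟨_, galTrace_mem_badSet p N b⟩)
  exact ((h _ _).sub_right (Commute.ofNat_right _ 2)).sub_left
    (((Commute.one_left _).add_left (Nat.cast_commute w _)))

theorem rootOp_mul_galMat :
    rootOp p N σ0 w * ES.galMat p N σ0 =
      (ES.galMat p N σ0 - 1) * (ES.galMat p N σ0 - (w : MatN)) +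
        (algebraMap ℤ_[p] MatN (ES.padCyclo p σ0) - (w : MatN)) := by
  rw [rootOp, sub_mul, galTrace_mul_galMat]
  set G := ES.galMat p N σ0
  simp only [sub_mul, mul_sub, one_mul, add_mul, (Nat.cast_commute w G).eq]
  abel

theorem galTrace_sub_two_mulVec {g : GQ} (hg : ES.padCyclo p g = 1) {y : Res}
    (h : mred 1 (ES.galMat p N g) *ᵥ y = y) : mred 1 (ES.galTrace N p g - 2) *ᵥ y = 0 := by
  have h' : mred 1 (ES.galMat p N g⁻¹) *ᵥ y = y := by
    conv_lhs => rw [← h]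
    rw [Matrix.mulVec_mulVec, ← map_mul (mred 1), ← map_mul (ES.galMat p N) g⁻¹ g, inv_mul_cancel,
      map_one, map_one, Matrix.one_mulVec]
  rw [ES.galTrace, hg, map_one, one_mul, map_sub, map_add, map_ofNat, Matrix.sub_mulVec,
    Matrix.add_mulVec, h, h', ← one_add_one_eq_two, Matrix.add_mulVec, Matrix.one_mulVec, sub_self]

/-- Vectors fixed by the commutator are killed by `t [σ₀, g₁] - 2`. -/
theorem commOp_mulVec_eq_zero {y : Res}
    (h : mred 1 (ES.galMat p N (σ0 * g1 * σ0⁻¹ * g1⁻¹)) *ᵥ y = y) :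
    mred 1 (commOp p N σ0 g1) *ᵥ y = 0 :=
  galTrace_sub_two_mulVec (padCyclo_commutator p σ0 g1) h

/-! ### The cut -/

/-- The idempotent cutting the part where `commOp` is invertible and `rootOp` nilpotent. -/
structure Cut (σ0 g1 : GQ) (w : ℕ) (e : MatN) : Prop where
  idem : e * e = e
  commG : ∀ g, Commute (ES.galMat p N g) e
  commU : Commute (matU p N) e
  nil : ∀ k, ∃ j, ∀ j', j ≤ j' → mred k (rootOp p N σ0 w ^ j' * e) = 0
  inj : ∀ y : Res, mred 1 e *ᵥ y = y → mred 1 (commOp p N σ0 g1) *ᵥ y = 0 → y = 0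

variable (p N) in
/-- The cut exists, as a limit of `x ^ i (1 - z ^ j)`. -/
theorem exists_cut (σ0 g1 : GQ) (w : ℕ) :
    ∃ (e : MatN) (I J : ℕ → ℕ), Cut σ0 g1 w e ∧ (∀ k, 0 < I k) ∧ (∀ k, 0 < J k) ∧
      ∀ k s t, mred k e = mred k (commOp p N σ0 g1 ^ (I k * (s + 1)) *
        (1 - rootOp p N σ0 w ^ (J k * (t + 1)))) := by
  obtain ⟨qx, I, hx⟩ := exists_powLimit (commOp p N σ0 g1)
  obtain ⟨qz, J, hz⟩ := exists_powLimit (rootOp p N σ0 w)
  have cxz : Commute qx qz := hz.commute (hx.commute commute_rootOp_commOp).symm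
  have ce : Commute qx (1 - qz) := (Commute.one_right _).sub_right cxz
  refine ⟨qx * (1 - qz), I, J, ⟨?_, fun g => ?_, ?_, fun k => ?_, fun y hy hxy => ?_⟩,
    hx.pos, hz.pos,
    fun k s t => ?_⟩
  · calc qx * (1 - qz) * (qx * (1 - qz)) = qx * qx * ((1 - qz) * (1 - qz)) :=
        ce.symm.mul_mul_mul_comm _ _
      _ = _ := by rw [hx.idem, IsIdempotentElem.one_sub hz.idem]
  · exact (hx.commute (commute_galMat_commOp g)).mul_right
      ((Commute.one_right _).sub_right (hz.commute (commute_galMat_rootOp g)))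
  · exact (hx.commute commute_matU_commOp).mul_right
      ((Commute.one_right _).sub_right (hz.commute commute_matU_rootOp))
  · obtain ⟨j, hj⟩ := hz.nil_compl k
    refine ⟨j, fun j' hj' => ?_⟩
    rw [ce.eq, ← mul_assoc, map_mul, hj j' hj', zero_mul]
  · have h1 : mred 1 qx *ᵥ y = 0 := by
      obtain ⟨i, hi⟩ := Nat.exists_eq_succ_of_ne_zero
        (Nat.mul_pos (hx.pos 1) (Nat.succ_pos 0)).ne'
      have h := hx.spec 1 0
      rw [hi, map_pow, pow_succ (mred 1 (commOp p N σ0 g1))] at h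
      rw [← h, ← Matrix.mulVec_mulVec, hxy, Matrix.mulVec_zero]
    rw [← hy, ce.eq, map_mul, ← Matrix.mulVec_mulVec, h1, Matrix.mulVec_zero]
  · rw [map_mul, map_mul, map_sub, map_sub, hx.spec k s, hz.spec k t]

/-- The cut commutes with `rootOp`. -/
theorem Cut.commute_rootOp {e : MatN} (hc : Cut σ0 g1 w e) : Commute e (rootOp p N σ0 w) :=
  (((hc.commG σ0).add_left ((Algebra.commute_algebraMap_left _ _).mul_left
    (hc.commG σ0⁻¹))).sub_left
      ((Commute.one_left _).add_left (Nat.cast_commute w _))).symm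

/-- The cut is small. -/
theorem Cut.smallVec {e : MatN} (hc : Cut σ0 g1 w e) : SmallVec e := by
  intro X hX hfix
  refine Matrix.ext_iff_mulVec.mpr fun v => ?_
  rw [Matrix.zero_mulVec]
  refine hc.inj _ (by rw [Matrix.mulVec_mulVec, hX]) (commOp_mulVec_eq_zero ?_)
  rw [Matrix.mulVec_mulVec, hfix]

/-- `rootOp` acts nilpotently modulo `p` on the cut. -/
theorem Cut.exists_pow {e : MatN} (hc : Cut σ0 g1 w e) {y : Res} (hy : mred 1 e *ᵥ y = y) :
    ∃ j, mred 1 (rootOp p N σ0 w) ^ j *ᵥ y = 0 := by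
  obtain ⟨j, hj⟩ := hc.nil 1
  refine ⟨j, ?_⟩
  rw [← hy, Matrix.mulVec_mulVec, ← map_pow, ← map_mul, hj j le_rfl, Matrix.zero_mulVec]

section Residual

variable (hwc : PadicInt.toZModPow 1 (ES.padCyclo p σ0) = (w : ZMod (p ^ 1)))

include hwc in
/-- Where `rootOp` vanishes, `σ₀` is killed by `(X - 1) (X - w)`. -/
theorem quad_of_root {y : Res} (hz : mred 1 (rootOp p N σ0 w) *ᵥ y = 0) :
    (mred 1 (ES.galMat p N σ0) - 1) *ᵥ
      ((mred 1 (ES.galMat p N σ0) - (w : Matrix ι₀ ι₀ (ZMod (p ^ 1)))) *ᵥ y) = 0 := by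
  have h := congrArg (fun A : MatN => mred 1 A *ᵥ y)
    (rootOp_mul_galMat (p := p) (N := N) (σ0 := σ0) (w := w))
  have hcw : mred 1 (algebraMap ℤ_[p] MatN (ES.padCyclo p σ0) - (w : MatN)) = 0 := by
    rw [map_sub, mred_natCast, sub_eq_zero]
    show (algebraMap ℤ_[p] MatN (ES.padCyclo p σ0)).map (PadicInt.toZModPow 1) = _
    rw [Matrix.algebraMap_eq_diagonal, Matrix.diagonal_map (map_zero _), ← Matrix.diagonal_natCast]
    simp [hwc]
  rw [← (commute_galMat_rootOp σ0).eq, map_mul, ← Matrix.mulVec_mulVec, hz, Matrix.mulVec_zero,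
    map_add, hcw, add_zero, map_mul, ← Matrix.mulVec_mulVec, map_sub, map_sub, map_one,
    mred_natCast] at h
  exact h.symm

omit [NeZero N] in
theorem eq_zero_of_smul_eq {a : ℕ} (ha : (a : ZMod p) ≠ 0) {y : Res}
    (h : (a : ZMod (p ^ 1)) • y = 0) : y = 0 := by
  have hu : IsUnit (a : ZMod (p ^ 1)) := by
    rw [ZMod.isUnit_iff_coprime, pow_one, Nat.coprime_comm, hp.out.coprime_iff_not_dvd]
    rwa [← ZMod.natCast_eq_zero_iff]
  exact hu.smul_eq_zero.mp h

theorem natCast_sub_one_ne (hw1 : (w : ZMod p) ≠ 1) :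
    ((w + p - 1 : ℕ) : ZMod p) ≠ 0 := by
  rw [Nat.cast_sub (le_add_left hp.out.one_le), Nat.cast_add, ZMod.natCast_self, add_zero,
    Nat.cast_one, sub_ne_zero]
  exact hw1

theorem natCast_sub_one_eq : ((w + p - 1 : ℕ) : ZMod (p ^ 1)) = (w : ZMod (p ^ 1)) - 1 := by
  have h0 : (p : ZMod (p ^ 1)) = 0 := by
    rw [ZMod.natCast_eq_zero_iff, pow_one]
  rw [Nat.cast_sub (le_add_left hp.out.one_le), Nat.cast_add, h0, add_zero, Nat.cast_one]

include hwc in
/-- On such a vector killed by a power of `σ₀ - w`, `σ₀` is `w`. -/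
theorem eq_smul_of_nil (hw1 : (w : ZMod p) ≠ 1) {y : Res}
    (hz : mred 1 (rootOp p N σ0 w) *ᵥ y = 0) {j : ℕ}
    (hj : (mred 1 (ES.galMat p N σ0) - (w : Matrix ι₀ ι₀ (ZMod (p ^ 1)))) ^ j *ᵥ y = 0) :
    mred 1 (ES.galMat p N σ0) *ᵥ y = (w : ZMod (p ^ 1)) • y := by
  set G := mred 1 (ES.galMat p N σ0)
  set D := G - (w : Matrix ι₀ ι₀ (ZMod (p ^ 1))) with hD
  suffices h : D *ᵥ y = 0 by
    rw [hD, Matrix.sub_mulVec, natCast_mulVec_res, sub_eq_zero] at h
    exact h
  by_contra hne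
  obtain ⟨i, hi0, hi1⟩ := pow_mulVec_eq_zero_last (A := D) hne (j := j) (by
    rw [Matrix.mulVec_mulVec, ← pow_succ, pow_succ' D, ← Matrix.mulVec_mulVec, hj,
      Matrix.mulVec_zero])
  refine hi0 (eq_zero_of_smul_eq (natCast_sub_one_ne hw1) ?_)
  have h1 : (G - 1) *ᵥ (D ^ i *ᵥ (D *ᵥ y)) = 0 := by
    have c : Commute (G - 1) (D ^ i) :=
      (((Commute.refl G).sub_right (Nat.commute_cast G w)).sub_left
        (Commute.one_left _)).pow_right i
    rw [Matrix.mulVec_mulVec, c.eq, ← Matrix.mulVec_mulVec, quad_of_root hwc hz, Matrix.mulVec_zero]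
  have e : G - 1 = D + ((w + p - 1 : ℕ) : Matrix ι₀ ι₀ (ZMod (p ^ 1))) := by
    have : ((w + p - 1 : ℕ) : Matrix ι₀ ι₀ (ZMod (p ^ 1))) =
        (w : Matrix ι₀ ι₀ (ZMod (p ^ 1))) - 1 := by
      rw [← Matrix.diagonal_natCast, ← Matrix.diagonal_natCast, ← Matrix.diagonal_one,
        Matrix.diagonal_sub]
      simp [natCast_sub_one_eq]
    rw [this, hD]; abel
  rw [e, Matrix.add_mulVec, hi1, zero_add, natCast_mulVec_res] at h1
  exact h1

include hwc in
/-- **`σ₀` does not act through `w` on a stable part of the cut.** -/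
theorem Cut.eq_zero_of_wPart {e : MatN} (hc : Cut σ0 g1 w e) (hw1 : (w : ZMod p) ≠ 1) {y : Res}
    (hy : mred 1 e *ᵥ y = y)
    (hnil : ∀ h, ∃ j, (mred 1 (ES.galMat p N σ0) - (w : Matrix ι₀ ι₀ (ZMod (p ^ 1)))) ^ j *ᵥ
      (mred 1 (ES.galMat p N h) *ᵥ y) = 0) : y = 0 := by
  by_contra hy0
  obtain ⟨j, hj⟩ := hc.exists_pow hy
  obtain ⟨i, hi0, hi1⟩ := pow_mulVec_eq_zero_last hy0 hj
  set z := mred 1 (rootOp p N σ0 w)
  set y1 := z ^ i *ᵥ y with hy1
  have hzG : ∀ g, Commute (z ^ i) (mred 1 (ES.galMat p N g)) := fun g =>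
    ((commute_galMat_rootOp g).symm.map (mred 1)).pow_left i
  have hGy1 : ∀ h, mred 1 (ES.galMat p N h) *ᵥ y1 = z ^ i *ᵥ (mred 1 (ES.galMat p N h) *ᵥ y) :=
    fun h => by rw [hy1, Matrix.mulVec_mulVec, Matrix.mulVec_mulVec, (hzG h).eq]
  have hscal : ∀ h, mred 1 (ES.galMat p N σ0) *ᵥ (mred 1 (ES.galMat p N h) *ᵥ y1) =
      (w : ZMod (p ^ 1)) • (mred 1 (ES.galMat p N h) *ᵥ y1) := fun h => by
    obtain ⟨j, hj⟩ := hnil h
    refine eq_smul_of_nil hwc hw1 ?_ (j := j) ?_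
    · rw [Matrix.mulVec_mulVec, ← ((commute_galMat_rootOp h).map (mred 1)).eq,
        ← Matrix.mulVec_mulVec, hi1, Matrix.mulVec_zero]
    · have c := (((hzG σ0).symm.sub_left (Nat.cast_commute w _))).pow_left j
      rw [hGy1, Matrix.mulVec_mulVec, c.eq, ← Matrix.mulVec_mulVec, hj, Matrix.mulVec_zero]
  have hy1e : mred 1 e *ᵥ y1 = y1 := by
    have c : Commute (mred 1 e) (z ^ i) := by
      exact (hc.commute_rootOp.map (mred 1)).pow_right i
    rw [hy1, Matrix.mulVec_mulVec, c.eq, ← Matrix.mulVec_mulVec, hy]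
  refine hi0 ?_
  clear_value y1
  by_cases hw0 : (w : ZMod (p ^ 1)) = 0
  · have h := hscal 1
    rw [map_one, map_one, Matrix.one_mulVec, hw0, zero_smul] at h
    have h2 := congrArg (fun u => mred 1 (ES.galMat p N σ0⁻¹) *ᵥ u) h
    simp only [Matrix.mulVec_mulVec, ← map_mul, inv_mul_cancel, map_one, Matrix.one_mulVec,
      Matrix.mulVec_zero] at h2
    exact h2
  refine hc.inj _ hy1e (commOp_mulVec_eq_zero ?_)
  have hw0' : (w : ZMod p) ≠ 0 := fun h => hw0 (by
    rw [ZMod.natCast_eq_zero_iff] at h ⊢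
    rwa [pow_one])
  refine sub_eq_zero.mp (eq_zero_of_smul_eq hw0' ?_)
  rw [smul_sub, sub_eq_zero]
  have h1 : ∀ h, (w : ZMod (p ^ 1)) • (mred 1 (ES.galMat p N (σ0⁻¹ * h)) *ᵥ y1) =
      mred 1 (ES.galMat p N h) *ᵥ y1 := fun h => by
    rw [map_mul, map_mul, ← Matrix.mulVec_mulVec, ← Matrix.mulVec_smul, ← hscal h,
      Matrix.mulVec_mulVec, ← map_mul, ← map_mul, inv_mul_cancel, map_one, map_one,
      Matrix.one_mulVec]
  calc (w : ZMod (p ^ 1)) • (mred 1 (ES.galMat p N (σ0 * g1 * σ0⁻¹ * g1⁻¹)) *ᵥ y1)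
      = mred 1 (ES.galMat p N (σ0 * g1)) *ᵥ
          ((w : ZMod (p ^ 1)) • (mred 1 (ES.galMat p N (σ0⁻¹ * g1⁻¹)) *ᵥ y1)) := by
        rw [Matrix.mulVec_smul, Matrix.mulVec_mulVec, ← map_mul, ← map_mul, ← mul_assoc]
    _ = mred 1 (ES.galMat p N σ0) *ᵥ y1 := by
        rw [h1, Matrix.mulVec_mulVec, ← map_mul, ← map_mul, mul_assoc, mul_inv_cancel, mul_one]
    _ = _ := by simpa using hscal 1

end Residual

end FermatAgent.PSEMI
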