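import Fermat.Agent.PSEMI.Ord.Criteria

/-!
# Characters trivial on the subgroup, and classes trivial at `∞`

`TrivCl`: all classes of a character are trivial. It is stable under the operations on
characters and makes their series `p`-th powers to within `|ζ - 1| ^ p`.
-/

set_option autoImplicit false

open UpperHalfPlane CongruenceSubgroup
open scoped MatrixGroups ModularForm Manifold

noncomputable section

namespace FermatAgent.PSEMI

open FermatAgent.ES (SerIn IsTwist IsParChar parGroup GoodLevel charOp conjChar CPlace AuxLevel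
  zetaC GalRel HasLExp HasExp)
open FermatAgent.Period (TransferData)
open ModularForm (heckeMatrix)
open LevelMp (pmLam)

variable {p : ℕ} [hp : Fact p.Prime] {M : ℕ} [NeZero M] {Γ Γ' : Subgroup SL(2, ℤ)}
  {P : CPlace p} {K : Coeffs P}

variable (hM : M.Coprime p) (L : IsLevel p M Γ Γ') {m : ℕ} (haux : AuxLevel M m) {N : ℕ} [NeZero N]
  (hG : GoodLevel N Γ) (hdiv : p * M ∣ 12 * N)

include L hG hdiv in
/-- Automorphisms fixing the roots of unity fix characters trivial on `±(Γ₀(p) ∩ Γ(M))`. -/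
theorem conjChar_eq_self_of_killsPm {n' : ℕ} [NeZero n'] {σ : ℂ ≃+* ℂ}
    (hσN : σ (zetaC (12 * N)) = zetaC (12 * N)) (hσn : σ (zetaC n') = zetaC n') (χ : parGroup Γ n')
    (hk : KillsPm p M 1 (χ : Γ →* ℂˣ)) : conjChar hG σ χ = χ := by
  obtain ⟨i, v, v', c, hv, hv0, hv', hv'0, hc, hc'⟩ := ES.conjChar_spec hG σ χ
  obtain ⟨-, hexp⟩ := isTwist_pm_conj L hdiv hk (b := 1) (by simp) (by rw [hσN, pow_one]) hv hc hc'
  have hrel : ∀ γ : SL(2, ℤ), GalRel ((1 : ℕ) : ZMod (12 * N)) γ γ := fun γ => by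
    show _ = _
    rw [Nat.cast_one, ← Matrix.one_fin_two, one_mul, mul_one]
  refine Subtype.ext (MonoidHom.ext fun γ => Units.ext ?_)
  set x : ℂ := (((χ : Γ →* ℂˣ) γ : ℂˣ) : ℂ)
  have hx : σ x = x := by
    have hxn : x ^ n' = 1 := by
      have := DFunLike.congr_fun χ.2.1 γ
      rw [MonoidHom.pow_apply, MonoidHom.one_apply] at this
      rw [← Units.val_pow_eq_pow_val, this, Units.val_one]
    obtain ⟨j, -, hj⟩ := (ES.zetaC_isPrimitiveRoot n').eq_pow_of_pow_eq_one hxn
    rw [← hj, map_pow, hσn]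
  have h2 := hexp γ γ (hrel γ) _ (by
    rw [hv.slash γ]
    exact ((HasLExp.const x).mul (HasLExp.of_exp hc)).congr_fun fun τ => rfl)
  rw [hv'.slash γ, ← HahnSeries.ofPowerSeries_C, ← map_mul, ES.mapSer_ofPowerSeries, map_mul,
    PowerSeries.map_C, RingEquiv.coe_toRingHom, hx, map_mul, HahnSeries.ofPowerSeries_C] at h2
  have h3 := h2.eq_of_series
    (((HasLExp.const x).mul (HasLExp.of_exp hc')).congr_fun fun τ => rfl)
  obtain ⟨τ, hτ⟩ := Function.ne_iff.mp hv'0
  exact mul_right_cancel₀ hτ (congrFun h3 τ)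

/-! ### Classes trivial at `∞` -/

variable (K) in
/-- All classes of exponent `n` are trivial. -/
def TrivCl (n : ℕ) (χ : Γ →* ℂˣ) : Prop := ∀ y, IsClass K n χ y → Triv K n y

include hM L haux in
theorem TrivCl.of_one {n : ℕ} [NeZero n] {χ : Γ →* ℂˣ} {y : LaurentSeries ℂ}
    (hk : KillsPm p M n χ) (h : IsClass K n χ y) (ht : Triv K n y) : TrivCl K n χ := by
  intro z hz ε hε
  have h0 : 0 < min ε (1 / 2) := lt_min hε (by norm_num)
  exact ((hz.cong hM L haux (NeZero.ne n) h0 h (fun _ _ => rfl) hk).powApprox (NeZero.ne n) h0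
    ((min_le_right _ _).trans_lt (by norm_num)) hz.1 h.1 (ht _ h0)).mono (min_le_left _ _)

include hM L haux in
theorem trivCl_one {n : ℕ} [NeZero n] : TrivCl K n (1 : Γ →* ℂˣ) :=
  TrivCl.of_one hM L haux (fun γ _ => one_pow _) isClass_one (by
    have := triv_C (K := K) (NeZero.ne n) (u := 1) (map_one _)
    rwa [map_one] at this)

include hM L haux in
theorem TrivCl.mul {n : ℕ} [NeZero n] {χ χ' : parGroup Γ n} (h : TrivCl K n (χ : Γ →* ℂˣ))
    (h' : TrivCl K n (χ' : Γ →* ℂˣ)) : TrivCl K n ((χ * χ' : parGroup Γ n) : Γ →* ℂˣ) := by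
  obtain ⟨y, hy⟩ := exists_isClass (K := K) hM L haux (killsPm_of_parGroup χ) χ.2
  obtain ⟨y', hy'⟩ := exists_isClass (K := K) hM L haux (killsPm_of_parGroup χ') χ'.2
  exact TrivCl.of_one hM L haux (killsPm_of_parGroup (χ * χ')) (hy.mul hy')
    (Triv.mul hy'.1.serIn (h y hy) (h' y' hy'))

include hM L haux in
theorem TrivCl.pow {n : ℕ} [NeZero n] {χ : parGroup Γ n} (h : TrivCl K n (χ : Γ →* ℂˣ)) (k : ℕ) :
    TrivCl K n ((χ ^ k : parGroup Γ n) : Γ →* ℂˣ) := by
  induction k with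
  | zero => rw [pow_zero]; exact trivCl_one hM L haux
  | succ k ih => rw [pow_succ]; exact TrivCl.mul hM L haux ih h

include hM L haux in
theorem TrivCl.conj {n : ℕ} [NeZero n] {σ : ℂ ≃+* ℂ} (hσ : Keeps K σ) {χ : parGroup Γ n}
    (h : TrivCl K n (χ : Γ →* ℂˣ)) : TrivCl K n (conjChar hG σ χ : Γ →* ℂˣ) := by
  obtain ⟨y, hy⟩ := exists_isClass (K := K) hM L haux (killsPm_of_parGroup χ) χ.2
  exact TrivCl.of_one hM L haux (killsPm_of_parGroup _) (hy.conj L hG hσ χ) ((h y hy).coeffMap' hσ)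

variable (D : TransferData Γ (ZMod p)) (hD : ∀ j : ZMod p, D.rep j = heckeMatrix p j.val)

include hM L haux hD in
theorem TrivCl.transfer {n : ℕ} [NeZero n] {χ : parGroup Γ n}
    (h : TrivCl K n (χ : Γ →* ℂˣ)) : TrivCl K n (charOp D (χ : Γ →* ℂˣ)) := by
  obtain ⟨y, hy⟩ := exists_isClass (K := K) hM L haux (killsPm_of_parGroup χ) χ.2
  exact TrivCl.of_one hM L haux (killsPm_of_parGroup ⟨_, ES.charOp_mem_parGroup D χ.2⟩)
    (hy.transfer D hD) (Triv.nrm' hy.1.serIn (h y hy))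

/-- A character of exponent `p` with trivial classes of higher exponent has trivial classes. -/
theorem TrivCl.descend {χ : Γ →* ℂˣ} (k : ℕ) (h : TrivCl K (p ^ (k + 1)) χ) : TrivCl K p χ := by
  intro y hy
  have key : ∀ k, Triv K (p ^ (k + 1)) (y ^ p ^ k) → Triv K p y := by
    intro k
    induction k with
    | zero => intro h; simpa using h
    | succ k ih =>
      intro h
      refine ih (Triv.root hp.out (pow_ne_zero _ hp.out.ne_zero) (hy.1.pow _).1 ?_)
      rwa [← pow_succ', ← pow_mul, ← pow_succ]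
  have h1 := hy.pow (p ^ k)
  rw [← pow_succ'] at h1
  exact key k (h _ h1)

theorem TrivCl.powApprox {χ : Γ →* ℂˣ} (h : TrivCl K p χ) {y : LaurentSeries ℂ}
    (hy : IsClass K p χ y) : PowApprox K p (rp P ^ p) y :=
  h y hy _ rpp_pos

end FermatAgent.PSEMI
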