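import Fermat.Agent.HM.H1.DegeneracyMaps
import Fermat.Agent.HM.H1.TaylorWiles

/-!
# A Hecke operator outside the variables

The operator at one more prime on the localised Hecke module, and its square where the classes of
the lower level vanish.
-/

set_option autoImplicit false

noncomputable section

open scoped MatrixGroups
open CongruenceSubgroup MvPolynomial FermatAgent.HM

namespace FermatAgent.PSEMI

/-- A prime as a Hecke prime. -/
def ofPrime {L ℓ : ℕ} (hℓ : ℓ.Prime) (hℓL : ℓ.Coprime L) : HPrime L :=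
  ⟨(⟨ℓ, hℓ⟩ : Nat.Primes), hℓL⟩

section Def

variable {R : Type} [CommRing R] {N L M : ℕ} {X : Type} [AddCommGroup X] [Module R X]
variable {ι : Type} (pr : ι → HPrime L) (hNM : N ∣ M) (ρ : Representation R (sigma0 N L) X)

/-- The operator at a prime as an endomorphism over the variables. -/
def extraEnd (pp : HPrime L) :
    Module.End (MvPolynomial ι R) (HeckeH1 hNM pr ρ) where
  toFun z := toHeckeH1 pr hNM ρ (heckeEnd hNM ρ pp ((toHeckeH1 pr hNM ρ).symm z))
  map_add' z w := by simp only [map_add]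
  map_smul' t z := by
    simp only [RingHom.id_apply, mv_smul_def, LinearEquiv.symm_apply_apply]
    congr 1
    induction t using MvPolynomial.induction_on generalizing z with
    | C a => simp only [← algebraMap_eq, AlgHom.commutes, Module.algebraMap_end_apply, map_smul]
    | add t u ht hu => simp only [map_add, LinearMap.add_apply, ht, hu]
    | mul_X t i ht =>
      simp only [map_mul, heckeHom_X, Module.End.mul_apply]
      have h := ht (toHeckeH1 pr hNM ρ (heckeEnd hNM ρ (pr i) ((toHeckeH1 pr hNM ρ).symm z)))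
      simp only [LinearEquiv.symm_apply_apply] at h
      rw [h]
      congr 1
      exact LinearMap.congr_fun (heckeEnd_comm hNM ρ pp (pr i)).eq _

variable (𝔪 : Ideal (MvPolynomial ι R)) [𝔪.IsPrime]

/-- The operator at a prime on the localised module. -/
def extraLoc (pp : HPrime L) : Module.End (MvPolynomial ι R) (HeckeLoc pr hNM ρ 𝔪) :=
  IsLocalizedModule.map 𝔪.primeCompl (LocalizedModule.mkLinearMap _ _)
    (LocalizedModule.mkLinearMap _ _) (extraEnd pr hNM ρ pp)

lemma extraLoc_mk (pp : HPrime L) (z : HeckeH1 hNM pr ρ) :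
    extraLoc pr hNM ρ 𝔪 pp (LocalizedModule.mkLinearMap 𝔪.primeCompl _ z) =
      LocalizedModule.mkLinearMap 𝔪.primeCompl _ (extraEnd pr hNM ρ pp z) :=
  IsLocalizedModule.map_apply _ _ _ _ _

end Def

section OldPart

variable {R : Type} [CommRing R] {N L : ℕ} {X : Type} [AddCommGroup X] [Module R X]
variable {ι : Type} {pr : ι → HPrime L} {θ : (ZMod N)ˣ →* R}

/-- Restriction, linear over the variables away from the prime. -/
def resLin (D : ALData) (hN : N ∣ D.L) (hpr : ∀ i, ((pr i).1.1 : ℕ) ≠ D.q) :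
    HeckeH1 hN pr (thetaRep (L := L) θ X) →ₗ[MvPolynomial ι R]
      HeckeH1 (D.dvd_N hN) pr (thetaRep (L := L) θ X) where
  toFun a := toHeckeH1 pr (D.dvd_N hN) (thetaRep (L := L) θ X)
    (D.resOp (L := L) (X := X) θ hN ((toHeckeH1 pr hN (thetaRep (L := L) θ X)).symm a))
  map_add' z w := by simp only [map_add]
  map_smul' t z := by
    simp only [RingHom.id_apply, mv_smul_def, LinearEquiv.symm_apply_apply]
    congr 1
    generalize (toHeckeH1 pr hN (thetaRep (L := L) θ X)).symm z = z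
    induction t using MvPolynomial.induction_on generalizing z with
    | C r => simp only [← algebraMap_eq, AlgHom.commutes, Module.algebraMap_end_apply, map_smul]
    | add t u ht hu => simp only [map_add, LinearMap.add_apply, ht, hu]
    | mul_X t i ht =>
      simp only [map_mul, heckeHom_X, Module.End.mul_apply]
      rw [ht]
      congr 1
      have : Fact (pr i).1.1.Prime := ⟨(pr i).1.2⟩
      exact (D.resOp_comm θ hN (hpr i) (pr i).2 z).symm

variable {𝔪 : Ideal (MvPolynomial ι R)} [𝔪.IsPrime]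

/-- At the level of the data: `U² = θ(q)` when nothing comes from below. -/
theorem extraLoc_sq_data (D : ALData) (hN : N ∣ D.L) (hqL : D.q.Coprime L)
    (hpr : ∀ i, ((pr i).1.1 : ℕ) ≠ D.q)
    (hlow : Subsingleton (HeckeLoc pr hN (thetaRep (L := L) θ X) 𝔪)) :
    extraLoc pr (D.dvd_N hN) (thetaRep θ X) 𝔪 (ofPrime D.prime hqL) *
        extraLoc pr (D.dvd_N hN) (thetaRep θ X) 𝔪 (ofPrime D.prime hqL) =
      algebraMap (MvPolynomial ι R) _ (C (thetaAt θ D.q)) := by
  set φ := LocalizedModule.mkLinearMap 𝔪.primeCompl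
    (HeckeH1 (D.dvd_N hN) pr (thetaRep (L := L) θ X)) with hφ
  have kill : ∀ a, φ (resLin D hN hpr a) = 0 := fun a => by
    obtain ⟨s, hs, hsa⟩ := LocalizedModule.subsingleton_iff.mp hlow a
    refine (IsLocalizedModule.eq_zero_iff 𝔪.primeCompl φ).mpr ⟨⟨s, hs⟩, ?_⟩
    rw [Submonoid.smul_def, ← map_smul, hsa, map_zero]
  refine IsLocalizedModule.linearMap_ext 𝔪.primeCompl φ φ (LinearMap.ext fun z => ?_)
  rw [LinearMap.comp_apply, LinearMap.comp_apply, Module.End.mul_apply, hφ, extraLoc_mk,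
    extraLoc_mk, ← hφ,
    Module.algebraMap_end_apply, ← map_smul, C_smul_eq, ← D.thetaQ_eq θ hN]
  let pr₀ : Empty → HPrime L := fun e => e.elim
  set U := extraEnd pr (D.dvd_N hN) (thetaRep (L := L) θ X) (ofPrime D.prime hqL)
  obtain ⟨w, rfl⟩ := (toHeckeH1 pr (D.dvd_N hN) (thetaRep (L := L) θ X)).surjective z
  let Z := toHeckeH1 pr (D.dvd_N hN) (thetaRep (L := L) θ X)
  let W : H1G (L := L) (D.dvd_N hN) (thetaRep θ X) → H1G (L := L) (D.dvd_N hN) (thetaRep θ X) :=
    fun v => D.wOp (X := X) θ hN hqL v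
  let A : H1G (L := L) (D.dvd_N hN) (thetaRep θ X) → HeckeH1 hN pr (thetaRep (L := L) θ X) :=
    fun v => toHeckeH1 pr hN (thetaRep (L := L) θ X) (D.corOp (L := L) (X := X) θ hN v)
  have h1 : U (Z w) = resLin D hN hpr (A (W w)) - Z (W w) := by
    have h := (D.X_none_high (θ := θ) (hN := hN) (hqL := hqL) (pr := pr₀) w).symm.trans
      (D.X_none_eq (θ := θ) (hN := hN) (hqL := hqL) (pr := pr₀) w)
    exact congrArg Z h
  have h2 : U (Z (W w)) = D.thetaQ θ hN • (resLin D hN hpr (A w) - Z w) := by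
    exact (congrArg Z (D.uqOp_wOp θ hN hqL w)).trans (by rw [map_smul, map_sub]; rfl)
  show φ (U (U (Z w))) = φ (D.thetaQ θ hN • Z w)
  rw [h1, map_sub, h2, map_sub, hφ, ← extraLoc_mk, ← hφ, kill, map_zero, zero_sub, ← map_neg,
    smul_sub,
    neg_sub, map_sub, ← C_smul_eq pr _ _ (D.thetaQ θ hN) (resLin D hN hpr (A w)),
    map_smul φ (C _), kill, smul_zero, sub_zero]

/-- **`U_ℓ² = θ(ℓ)` on the localised module when nothing comes from the lower level.** -/
theorem extraLoc_sq {M M₀ ℓ : ℕ} [NeZero M₀] (hℓ : ℓ.Prime) (hM : M = M₀ * ℓ) (hℓM₀ : ¬ ℓ ∣ M₀)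
    (hN : N ∣ M₀) (hNM : N ∣ M) (hℓL : ℓ.Coprime L) (hpr : ∀ i, ((pr i).1.1 : ℕ) ≠ ℓ)
    (hlow : Subsingleton (HeckeLoc pr hN (thetaRep (L := L) θ X) 𝔪)) :
    extraLoc pr hNM (thetaRep θ X) 𝔪 (ofPrime hℓ hℓL) *
        extraLoc pr hNM (thetaRep θ X) 𝔪 (ofPrime hℓ hℓL) =
      algebraMap (MvPolynomial ι R) _ (C (thetaAt θ ℓ)) := by
  obtain ⟨D, rfl, rfl⟩ := ALData.exists_data hℓ hℓM₀ (NeZero.ne M₀)
  subst hM
  exact extraLoc_sq_data D hN hℓL hpr hlow

end OldPart

end FermatAgent.PSEMI
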