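import Fermat.Agent.GaloisBasic.AdicLimit
import Mathlib.NumberTheory.Padics.RingHoms
import Mathlib.LinearAlgebra.Matrix.ToLin
import Mathlib.Data.ZMod.Basic
import Mathlib.Algebra.Group.Idempotent
import Mathlib.RingTheory.AdicCompletion.Basic

/-!
# Limits of powers of `p`-adic matrices
-/

set_option autoImplicit false

noncomputable section

namespace FermatAgent.PSEMI.MatLim

variable {p : ℕ} [hp : Fact p.Prime] {κ : Type} [Fintype κ] [DecidableEq κ]

local notation "MatP" => Matrix κ κ ℤ_[p]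

/-- Reduction modulo `p ^ k`. -/
def mred (k : ℕ) : MatP →+* Matrix κ κ (ZMod (p ^ k)) := (PadicInt.toZModPow k).mapMatrix

theorem mred_eq_iff {k : ℕ} {x y : MatP} :
    mred k x = mred k y ↔ ∀ i j, (p : ℤ_[p]) ^ k ∣ (x i j - y i j) := by
  have h : ∀ a b : ℤ_[p], PadicInt.toZModPow k a = PadicInt.toZModPow k b ↔
      (p : ℤ_[p]) ^ k ∣ a - b := fun a b => by
    rw [← sub_eq_zero, ← map_sub, ← RingHom.mem_ker, PadicInt.ker_toZModPow,
      Ideal.mem_span_singleton]
  simp [mred, ← Matrix.ext_iff, h]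

theorem mred_mono {k l : ℕ} (h : k ≤ l) {x y : MatP} (e : mred l x = mred l y) :
    mred k x = mred k y := by
  rw [mred_eq_iff] at e ⊢
  exact fun i j => (pow_dvd_pow _ h).trans (e i j)

theorem mred_ext {x y : MatP} (h : ∀ k, mred k x = mred k y) : x = y := by
  ext i j
  refine PadicInt.ext_of_toZModPow.mp fun k => ?_
  exact congrFun (congrFun (h k) i) j

/-- A compatible sequence has a limit. -/
theorem exists_limit (f : ℕ → MatP) (h : ∀ k, mred k (f (k + 1)) = mred k (f k)) :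
    ∃ L : MatP, ∀ k, mred k L = mred k (f k) := by
  have key : ∀ i j, ∃ L : ℤ_[p], ∀ k, (p : ℤ_[p]) ^ k ∣ L - f k i j := by
    intro i j
    obtain ⟨L, hL⟩ := GaloisBasic.exists_limit_of_succ (IsLocalRing.maximalIdeal ℤ_[p])
      (fun k => f k i j) fun k => by
        simpa [PadicInt.maximalIdeal_eq_span_p, Ideal.span_singleton_pow, Ideal.mem_span_singleton]
          using mred_eq_iff.mp (h k) i j
    exact ⟨L, fun k => by simpa [PadicInt.maximalIdeal_eq_span_p, Ideal.span_singleton_pow,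
      Ideal.mem_span_singleton] using hL k⟩
  choose L hL using key
  exact ⟨Matrix.of L, fun k => mred_eq_iff.mpr fun i j => hL i j k⟩

/-- In a finite monoid some positive power of every element is idempotent. -/
theorem exists_idem_pow {N : Type} [Monoid N] [Finite N] (x : N) :
    ∃ i, 0 < i ∧ IsIdempotentElem (x ^ i) := by
  obtain ⟨a, b, hab, he⟩ : ∃ a b : ℕ, a < b ∧ x ^ a = x ^ b := by
    obtain ⟨a, b, hne, he⟩ := Finite.exists_ne_map_eq_of_infinite fun i : ℕ => x ^ i
    rcases hne.lt_or_gt with h | h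
    · exact ⟨a, b, h, he⟩
    · exact ⟨b, a, h, he.symm⟩
  obtain ⟨d, rfl⟩ : ∃ d, b = a + d := ⟨b - a, by omega⟩
  have hper : ∀ m t, a ≤ m → x ^ (m + d * t) = x ^ m := by
    intro m t hm
    induction t with
    | zero => simp
    | succ t ih =>
      rw [show m + d * (t + 1) = (m - a) + (a + d) + d * t by rw [Nat.mul_succ]; omega, pow_add,
        pow_add, ← he, ← pow_add, Nat.sub_add_cancel hm, ← pow_add, ih]
  refine ⟨d * (a + 1), Nat.mul_pos (by omega) (by omega), ?_⟩
  show x ^ _ * x ^ _ = x ^ _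
  rw [← pow_add, hper _ (a + 1) (by nlinarith)]

/-- `q` is the idempotent limit of powers of `x`, with exponents `I k`. -/
structure PowLimit (x q : MatP) (I : ℕ → ℕ) : Prop where
  idem : q * q = q
  pos : ∀ k, 0 < I k
  spec : ∀ k t, mred k (x ^ (I k * (t + 1))) = mred k q

/-- Powers of a matrix over `ℤ_p` have an idempotent limit along suitable exponents. -/
theorem exists_powLimit (x : MatP) : ∃ q I, PowLimit x q I := by
  classical
  have hfin : ∀ k, ∃ i, 0 < i ∧ IsIdempotentElem (mred k x ^ i) := fun k => by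
    have : NeZero (p ^ k) := ⟨pow_ne_zero k hp.out.ne_zero⟩
    exact exists_idem_pow _
  choose i hi hid using hfin
  set I : ℕ → ℕ := fun k => ∏ l ∈ Finset.range (k + 1), i l
  have hI : ∀ k, 0 < I k := fun k => Finset.prod_pos fun l _ => hi l
  have hrep : ∀ k m, i k ∣ m → 0 < m → mred k x ^ m = mred k x ^ i k := by
    intro k m hm hm0
    obtain ⟨t, rfl⟩ := hm
    obtain ⟨t, rfl⟩ : ∃ t', t = t' + 1 :=
      ⟨t - 1, by have : 0 < t := Nat.pos_of_mul_pos_left hm0; omega⟩
    rw [pow_mul, (hid k).pow_succ_eq]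
  have hdvd : ∀ {k l}, k ≤ l → i k ∣ I l := fun h =>
    Finset.dvd_prod_of_mem _ (Finset.mem_range.mpr (by omega))
  obtain ⟨q, hq⟩ := exists_limit (fun k => x ^ I k) fun k => by
    rw [map_pow, map_pow, hrep k _ (hdvd k.le_succ) (hI _), hrep k _ (hdvd le_rfl) (hI _)]
  refine ⟨q, I, mred_ext fun k => ?_, hI, fun k t => ?_⟩
  · rw [map_mul, hq, map_pow, hrep k _ (hdvd le_rfl) (hI _)]
    exact hid k
  · rw [hq, map_pow, map_pow, hrep k _ (dvd_mul_of_dvd_left (hdvd le_rfl) _)
      (Nat.mul_pos (hI k) t.succ_pos), hrep k _ (hdvd le_rfl) (hI _)]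



theorem PowLimit.commute {x q y : MatP} {I : ℕ → ℕ} (h : PowLimit x q I) (hy : Commute y x) :
    Commute y q := mred_ext fun k => by
  rw [map_mul, map_mul, ← h.spec k 0, ← map_mul, ← map_mul, (hy.pow_right _).eq]

theorem PowLimit.exists_ge {x q : MatP} {I : ℕ → ℕ} (h : PowLimit x q I) (k j0 : ℕ) :
    ∃ j, j0 ≤ j ∧ mred k (x ^ j) = mred k q :=
  ⟨I k * (j0 + 1), (Nat.le_mul_of_pos_left _ (h.pos k)).trans' (by omega), h.spec k j0⟩

/-- Powers tend to zero on the complement. -/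
theorem PowLimit.nil_compl {x q : MatP} {I : ℕ → ℕ} (h : PowLimit x q I) (k : ℕ) :
    ∃ j, ∀ j', j ≤ j' → mred k (x ^ j' * (1 - q)) = 0 := by
  refine ⟨I k, fun j' hj => ?_⟩
  obtain ⟨d, rfl⟩ : ∃ d, j' = d + I k := ⟨j' - I k, by omega⟩
  rw [pow_add, mul_assoc, map_mul]
  have : mred k (x ^ I k * (1 - q)) = 0 := by
    have := h.spec k 0
    rw [zero_add, mul_one] at this
    rw [map_mul, this, ← map_mul, mul_sub, mul_one, h.idem, sub_self, map_zero]
  rw [this, mul_zero]

/-- A set containing the limits of its sequences. -/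
def Closed (S : Set MatP) : Prop := ∀ z, (∀ k, ∃ w ∈ S, mred k w = mred k z) → z ∈ S

theorem PowLimit.mem {x q : MatP} {I : ℕ → ℕ} (h : PowLimit x q I) {S : Set MatP} (hS : Closed S)
    (hx : ∀ j, 0 < j → x ^ j ∈ S) : q ∈ S :=
  hS q fun k => ⟨_, hx _ (Nat.mul_pos (h.pos k) Nat.one_pos), h.spec k 0⟩

theorem mred_mulVec {x y : MatP} {k : ℕ} (h : mred k x = mred k y) (v : κ → ℤ_[p]) (i : κ) :
    (p : ℤ_[p]) ^ k ∣ (x.mulVec v i - y.mulVec v i) := by
  rw [mred_eq_iff] at h
  simp only [Matrix.mulVec, dotProduct, ← Finset.sum_sub_distrib, ← sub_mul]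
  exact Finset.dvd_sum fun j _ => (h i j).mul_right _

omit [Fintype κ] [DecidableEq κ] in
theorem vec_ext {v w : κ → ℤ_[p]} (h : ∀ k i, (p : ℤ_[p]) ^ k ∣ v i - w i) : v = w := by
  funext i
  refine PadicInt.ext_of_toZModPow.mp fun k => ?_
  rw [← sub_eq_zero, ← map_sub, ← RingHom.mem_ker, PadicInt.ker_toZModPow, Ideal.mem_span_singleton]
  exact h k i

end FermatAgent.PSEMI.MatLim
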