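import Fermat.Agent.PSEMI.Ord.Cut

/-!
# The residual cyclotomic character at inertia

The residual value of the cyclotomic character at an element.
-/

set_option autoImplicit false

noncomputable section

namespace FermatAgent.PSEMI

open FermatAgent.ES (GQ)

variable {p : ℕ} [hp : Fact p.Prime]

/-- The residual value of the cyclotomic character at an element. -/
def wVal (p : ℕ) [Fact p.Prime] (σ : GQ) : ℕ := (PadicInt.toZModPow 1 (ES.padCyclo p σ)).val

theorem toZModPow_padCyclo_eq_wVal (σ : GQ) :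
    PadicInt.toZModPow 1 (ES.padCyclo p σ) = (wVal p σ : ZMod (p ^ 1)) := by
  have : NeZero (p ^ 1) := ⟨pow_ne_zero 1 hp.out.ne_zero⟩
  exact (ZMod.natCast_zmod_val _).symm

theorem wVal_le (σ : GQ) : wVal p σ ≤ p := by
  have : NeZero (p ^ 1) := ⟨pow_ne_zero 1 hp.out.ne_zero⟩
  exact (ZMod.val_lt _).le.trans_eq (pow_one p)

theorem wVal_ne_one {σ : GQ} (h : PadicInt.toZModPow 1 (ES.padCyclo p σ) ≠ 1) :
    (wVal p σ : ZMod p) ≠ 1 := fun h1 => h (by
  rw [toZModPow_padCyclo_eq_wVal]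
  have h2 : ((wVal p σ : ℕ) : ZMod p) = ((1 : ℕ) : ZMod p) := by rw [h1, Nat.cast_one]
  rw [ZMod.natCast_eq_natCast_iff'] at h2
  have h3 := (ZMod.natCast_eq_natCast_iff' (wVal p σ) 1 (p ^ 1)).mpr (by rwa [pow_one p])
  rwa [Nat.cast_one] at h3)

end FermatAgent.PSEMI
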