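import Fermat.Agent.PSEMI.Ord.Datum

/-!
# Ordinarity at a prime exactly dividing the level

An ordinary residual representation gives a rank one projector killing inertia, hence an
ordinary representation.
-/

set_option autoImplicit false

open UpperHalfPlane CongruenceSubgroup IsLocalRing
open scoped MatrixGroups Matrix

noncomputable section

namespace FermatAgent.PSEMI

open FermatAgent.GaloisBasic (repMatrix repBasis)
open FermatAgent.ES (CPlace AuxLevel GQ embC autC zetaC)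
open MatLim

variable {p : ℕ} [hp : Fact p.Prime] {N : ℕ} [NeZero N] {S : Finset ℕ} {O : Type} [CommRing O]
  [IsDomain O] [IsDiscreteValuationRing O] [IsAdicComplete (maximalIdeal O) O]
  {θ : CuspForm.heckeAlgebra N 2 (↑S : Set ℕ) →+* ResidueField O}
  {T : Type} [CommRing T] [IsLocalRing T] [IsNoetherianRing T]
  [IsAdicComplete (maximalIdeal T) T] [Algebra O T] [IsLocalHom (algebraMap O T)]
  [Module.Finite O T] [Module.Free O T]
  (H : CuspForm.HeckeGaloisRepDatum N (↑S : Set ℕ) O θ T)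

include H in
/-- **The projector to the unramified quotient.** -/
theorem exists_projector_datum (hp2 : p ≠ 2) (hpO : (p : O) ∈ maximalIdeal O) (hpN : p ∣ N)
    (hp2N : ¬ p ^ 2 ∣ N) (hNS : ∀ q : ℕ, q.Prime → q ∣ N → q ∈ S)
    (hres : (GaloisRepAdic.ofResidualGaloisRep H.ρ.residual).IsOrdinaryAt p)
    {P0 : ValuationSubring (AlgebraicClosure ℚ)} (hP0 : P0.LiesOverPrime p) :
    ∃ P : Matrix (Fin 2) (Fin 2) T, P * P = P ∧ P.trace = 1 ∧
      (∀ σ ∈ P0.inertiaSubgroupIn ℚ, P * (repMatrix H.ρ σ - 1) = 0) ∧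
      ∀ g ∈ P0.decompositionSubgroup ℚ, P * repMatrix H.ρ g * (1 - P) = 0 := by
  have hpS : p ∈ S := hNS p hp.out hpN
  obtain ⟨M0, M, m, hM00, hM0, hM, L, g, haux, hdiv, hsq⟩ := exists_level_of_dvd hpN hp2N
  obtain ⟨Φ, hΦ⟩ := ES.exists_padicEquiv_compat hP0
  set K := stableCoeffs Φ
  have hI : ∀ σ ∈ P0.inertiaSubgroupIn ℚ, σ ∈ inertSet K := fun σ hσ =>
    exists_keeps Φ (hΦ ▸ hσ)
  -- the inertia element
  set w := p - 1
  obtain ⟨σ0, hσ0, hcyc⟩ := exists_inertia_neg_one hP0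
  obtain ⟨σC, hσC⟩ := exists_cycExt hP0 hΦ hM hσ0 hcyc (Nat.sub_le p 1)
  have hw1 : (w : ZMod p) ≠ 1 := by
    rw [natCast_pred_eq_neg_one (ZMod.natCast_self p)]
    have : Fact (2 < p) := ⟨lt_of_le_of_ne hp.out.two_le (Ne.symm hp2)⟩
    exact ZMod.neg_one_ne_one
  have hpT : (p : T) ∈ maximalIdeal T := by
    rw [← map_natCast (algebraMap O T)]
    exact map_nonunit (algebraMap O T) _ hpO
  have hpk : (p : ResidueField T) = 0 := by
    rw [← map_natCast (residue T), residue_eq_zero_iff]; exact hpT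
  have hwk : (w : ResidueField T) ≠ 1 := by
    rw [natCast_pred_eq_neg_one hpk]
    intro h
    have : CharP (ResidueField T) p := (CharP.charP_iff_prime_eq_zero hp.out).mpr hpk
    have : Fact (2 < p) := ⟨lt_of_le_of_ne hp.out.two_le (Ne.symm hp2)⟩
    exact CharP.neg_one_ne_one (ResidueField T) p h
  obtain ⟨A, hR0, hAG, hAM⟩ := exists_heckeAct H hpO hpS hNS
  have hdet : residue T (A.M σ0).det = (w : ResidueField T) := by
    obtain ⟨ζ, hζ⟩ := ES.exists_primitive_qbar p 1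
    obtain ⟨ι⟩ := ES.exists_padicRingHom p T hpT
    rw [hAM, BAD.det_repMatrix_datum H hpO hpS hNS ι σ0]
    rw [pow_one] at hζ
    exact (ES.map_padCyclo_eq p ((residue T).comp ι) (by simpa using hpk) hζ
      (hcyc ζ hζ.pow_eq_one) :)
  have htr : residue T (A.M σ0).trace = (w : ResidueField T) + 1 := by
    rw [hAM] at hdet ⊢
    rw [residue_trace_inertia H hres hP0 hσ0, hdet]
  have hUR : ∀ r ∈ A.R0, Commute (matU p N) r := fun r hr => commute_matU (hR0 ▸ hr :)
  have hWR : ∀ r ∈ A.R0, Commute (matW hM L) r := fun r hr =>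
    commute_matW hM L hdiv hpS hNS (hR0 ▸ hr :)
  have hres' := A.exists_projector σ0 hwk htr hdet (P0.inertiaSubgroupIn ℚ : Set GQ)
    (P0.decompositionSubgroup ℚ : Set GQ) hσ0
    (fun g hg σ hσ => GaloisBasic.conj_mem_inertiaSubgroupIn_of_mem hp.out hP0 hσ hg)
    (matU p N) (matW hM L) (fun g => hAG ▸ galMat_commute_matU g) hUR hWR
    (hAG ▸ matW_commute hM L hdiv σ0)
    (fun e q eO I1 I2 he hee hs heO hq hnil σ hσ => by
      rw [hAG] at hq hnil ⊢
      exact vanish_ord hM L haux hdiv hpN hσC hw1 hsq e q eO I1 I2 hee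
        (fun X h1 h2 => hs X h1 fun a b => hAG ▸ h2 a b) (fun g => hAG ▸ A.commG g e he)
        (hUR e he) heO hq hnil (hI σ hσ))
    (fun e he hee hs X heX hXG hXU hXW hnU hnG => by
      rw [hAG] at hXG hnG
      exact vanish_nil hM L haux hdiv hpN hσC hw1 hsq e
        (fun X h1 h2 => hs X h1 fun a b => hAG ▸ h2 a b) X heX hXG hXU hXW hnU hnG)
  rw [hAM] at hres'
  exact hres'

/-- A projector of trace one kills a vector completed to a basis by one it does not kill. -/
theorem exists_basis_of_projector {R : Type} [CommRing R] [IsLocalRing R]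
    {P : Matrix (Fin 2) (Fin 2) R} (hP : P * P = P) (ht : P.trace = 1) :
    ∃ C : Matrix (Fin 2) (Fin 2) R, IsUnit C.det ∧ P *ᵥ C.col 0 = 0 ∧
      ∀ c : R, c • P *ᵥ C.col 1 = 0 → c = 0 := by
  rw [Matrix.trace_fin_two] at ht
  have h := congrFun (congrFun hP 0) 0
  simp only [Matrix.mul_apply, Fin.sum_univ_two] at h
  rcases IsLocalRing.isUnit_or_isUnit_of_isUnit_add (by rw [ht]; exact isUnit_one) with hu | hu
  · refine ⟨!![-P 0 1, 1; P 0 0, 0], ?_, ?_, fun c hc => hu.mul_left_eq_zero.mp ?_⟩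
    · simpa [Matrix.det_fin_two_of] using hu
    · funext i
      fin_cases i <;> simp [Matrix.mulVec, dotProduct, Fin.sum_univ_two]
      · ring
      · linear_combination P 0 0 * ht - h
    · simpa [Matrix.mulVec, dotProduct, Fin.sum_univ_two] using congrFun hc 0
  · refine ⟨!![P 1 1, 0; -P 1 0, 1], ?_, ?_, fun c hc => hu.mul_left_eq_zero.mp ?_⟩
    · simpa [Matrix.det_fin_two_of] using hu
    · funext i
      fin_cases i <;> simp [Matrix.mulVec, dotProduct, Fin.sum_univ_two]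
      · linear_combination P 0 0 * ht - h
      · ring
    · simpa [Matrix.mulVec, dotProduct, Fin.sum_univ_two] using congrFun hc 1

include H in
/-- **Representations over Hecke algebras are ordinary at `p ∣∣ N` if residually so.** -/
theorem datum_ordinary (hp2 : p ≠ 2) (hpO : (p : O) ∈ maximalIdeal O) (hpN : p ∣ N)
    (hp2N : ¬ p ^ 2 ∣ N) (hNS : ∀ q : ℕ, q.Prime → q ∣ N → q ∈ S)
    (hres : (GaloisRepAdic.ofResidualGaloisRep H.ρ.residual).IsOrdinaryAt p) :
    H.ρ.IsOrdinaryAt p := by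
  intro P0 hP0
  obtain ⟨P, hP, ht, hI, hD⟩ := exists_projector_datum H hp2 hpO hpN hp2N hNS hres hP0
  obtain ⟨C, hC, hC0, hC1⟩ := exists_basis_of_projector hP ht
  set β := repBasis H.ρ
  have : Invertible C := (Matrix.isUnit_iff_isUnit_det C).mpr hC |>.invertible
  set b : Module.Basis (Fin 2) T H.ρ.V :=
    β.map ((Matrix.toLinearEquiv β C hC)) with hbdef
  have hb : ∀ j i, β.repr (b j) i = C i j := fun j i => by
    rw [hbdef, Module.Basis.map_apply, Matrix.toLinearEquiv_apply, Matrix.toLin_self]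
    simp [Finsupp.single_apply]
    fin_cases i <;> simp
  have hact : ∀ g v, ⇑(β.repr (H.ρ.ρ g v)) = repMatrix H.ρ g *ᵥ ⇑(β.repr v) := fun g v => by
    rw [GaloisBasic.repMatrix_apply, LinearMap.toMatrix_mulVec_repr]
  have hmem : ∀ v : H.ρ.V, P *ᵥ ⇑(β.repr v) = 0 → v ∈ T ∙ b 0 := by
    intro v hv
    obtain ⟨c, hc⟩ : ∃ c : Fin 2 → T, v = c 0 • b 0 + c 1 • b 1 := ⟨fun i => b.repr v i, by
      conv_lhs => rw [← b.sum_repr v, Fin.sum_univ_two]⟩
    have e : ⇑(β.repr v) = c 0 • C.col 0 + c 1 • C.col 1 := by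
      funext i
      simp [hc, map_add, map_smul, hb]
    rw [e, Matrix.mulVec_add, Matrix.mulVec_smul, Matrix.mulVec_smul, hC0, smul_zero,
      zero_add] at hv
    rw [hc, hC1 _ hv, zero_smul, add_zero]
    exact Submodule.smul_mem _ _ (Submodule.mem_span_singleton_self _)
  have hkill : ∀ v, v ∈ T ∙ b 0 → P *ᵥ ⇑(β.repr v) = 0 := by
    intro v hv
    obtain ⟨c, rfl⟩ := Submodule.mem_span_singleton.mp hv
    rw [map_smul, Finsupp.coe_smul, Matrix.mulVec_smul,
      show ⇑(β.repr (b 0)) = C.col 0 from funext fun i => hb 0 i, hC0, smul_zero]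
  refine ⟨T ∙ b 0, ⟨b, rfl⟩, fun g hg v hv => hmem _ ?_, fun σ hσ v => hmem _ ?_⟩
  · have h1 : ⇑(β.repr v) = (1 - P) *ᵥ ⇑(β.repr v) := by
      rw [Matrix.sub_mulVec, Matrix.one_mulVec, hkill v hv, sub_zero]
    rw [hact, h1, Matrix.mulVec_mulVec, Matrix.mulVec_mulVec, hD g hg, Matrix.zero_mulVec]
  · rw [map_sub, Finsupp.coe_sub, hact, show repMatrix H.ρ σ *ᵥ ⇑(β.repr v) - ⇑(β.repr v) =
      (repMatrix H.ρ σ - 1) *ᵥ ⇑(β.repr v) by rw [Matrix.sub_mulVec, Matrix.one_mulVec],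
      Matrix.mulVec_mulVec, hI σ hσ, Matrix.zero_mulVec]

end FermatAgent.PSEMI
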