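import Fermat.Agent.PSEMI.Ord.Algebra
import Mathlib.LinearAlgebra.Matrix.Trace
import Mathlib.LinearAlgebra.Matrix.Determinant.Basic
import Fermat.Agent.GaloisBasic.TracePairing

/-!
# The ordinary shape from the two vanishing statements

`HeckeAct` is a lattice with a group action satisfying Cayley–Hamilton over the algebra, compared
with a two dimensional representation over the local ring.
-/

set_option autoImplicit false

open IsLocalRing

noncomputable section

namespace FermatAgent.PSEMI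

open MatLim

variable {p : ℕ} [hp : Fact p.Prime] {κ : Type} [Fintype κ] [DecidableEq κ]
  {T : Type} [CommRing T] [IsLocalRing T]

local notation "MatP" => Matrix κ κ ℤ_[p]

/-- On two by two matrices no functional `Y ↦ trace (P Y)` with `trace P = 1` is multiplicative. -/
theorem no_mult_functional {K : Type} [Field K] (P : Matrix (Fin 2) (Fin 2) K)
    (h1 : P.trace = 1) (h : ∀ Y Z, (P * (Y * Z)).trace = (P * Y).trace * (P * Z).trace) :
    False := by
  have e : ∀ i j k l, (P * (Matrix.single i j 1 * Matrix.single k l 1)).trace =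
      (P * Matrix.single i j 1).trace * (P * Matrix.single k l 1).trace := fun i j k l => h _ _
  simp only [Matrix.trace_mul_single, MulOpposite.smul_eq_mul_unop, MulOpposite.unop_op] at e
  have a := e 0 1 0 1
  have b := e 1 0 0 1
  have c := e 0 1 1 0
  simp [Matrix.single_mul_single_of_ne, Matrix.trace_mul_single] at a b c
  rw [Matrix.trace_fin_two] at h1
  rw [a] at b c
  simp [b, c] at h1

/-- Commuting Galois and Hecke operators with a two dimensional comparison. -/
structure HeckeAct (p : ℕ) [Fact p.Prime] (κ : Type) [Fintype κ] [DecidableEq κ] (T : Type)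
    [CommRing T] [IsLocalRing T] (𝒢 : Type) [Group 𝒢] extends HeckePart p κ T where
  /-- the Galois operators -/
  G : 𝒢 →* Matrix κ κ ℤ_[p]
  commG : ∀ g, ∀ r ∈ R0, Commute (G g) r
  /-- the cyclotomic character -/
  cyc : 𝒢 →* ℤ_[p]
  /-- the Hecke elements attached to group elements -/
  τ : 𝒢 → R0
  τ_eq : ∀ g, (τ g : Matrix κ κ ℤ_[p]) =
    G g + algebraMap ℤ_[p] (Matrix κ κ ℤ_[p]) (cyc g) * G g⁻¹
  /-- the two dimensional comparison representation -/
  M : 𝒢 →* Matrix (Fin 2) (Fin 2) T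
  tr : ∀ g, φ (τ g) = (M g).trace
  det : ∀ g, φ ⟨_, scalar (cyc g)⟩ = (M g).det
  span : Submodule.span T (Set.range M) = ⊤

/-- Powers of `x` kill `Z` in the limit. -/
def Nil (x Z : MatP) : Prop := ∀ k, ∃ j, ∀ j', j ≤ j' → mred k (x ^ j' * Z) = 0

theorem pow_mul_eq {R : Type} [Monoid R] {x r Z : R} (hc : Commute x r) (h : x * Z = r * Z)
    (j : ℕ) : x ^ j * Z = r ^ j * Z := by
  induction j with
  | zero => simp
  | succ j ih =>
    rw [pow_succ', mul_assoc, ih, ← mul_assoc, (hc.pow_right j).eq, mul_assoc, h, ← mul_assoc,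
      ← pow_succ]

/-- What is fixed by `b x` and killed by the powers of `x` in the limit is zero. -/
theorem eq_zero_of_nil {x b Z : MatP} (hn : Nil x Z) (hc : Commute b x) (h : Z = b * x * Z) :
    Z = 0 := mred_ext fun k => by
  obtain ⟨j, hj⟩ := hn k
  have e : ∀ i, Z = b ^ i * (x ^ i * Z) := fun i => by
    induction i with
    | zero => simp
    | succ i ih =>
      have h2 : ∀ i, x ^ i * (b * x * Z) = b * (x ^ (i + 1) * Z) := fun i => by
        rw [← mul_assoc, ← mul_assoc, (hc.symm.pow_left i).eq, mul_assoc b, ← pow_succ, mul_assoc]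
      rw [pow_succ b, mul_assoc, ← h2, ← h]
      exact ih
  rw [e j, map_mul, hj j le_rfl, mul_zero, map_zero]

theorem MatLim.PowLimit.mul_eq_zero_of_nil {x q Z : MatP} {I : ℕ → ℕ} (h : PowLimit x q I)
    (hn : Nil x Z) : q * Z = 0 := mred_ext fun k => by
  obtain ⟨j, hj⟩ := hn k
  obtain ⟨i, hi, he⟩ := h.exists_ge k j
  rw [map_mul, ← he, ← map_mul, hj i hi, map_zero]

/-- A rank one projector from a root `a` of the characteristic polynomial of `M σ0`. -/
private theorem exists_projector_of_rel {R : Type*} [CommRing R] {𝒢 : Type*} [Group 𝒢]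
    (M : 𝒢 →* Matrix (Fin 2) (Fin 2) R) {σ0 : 𝒢} {a c : R}
    (hquad : a * a - (M σ0).trace * a + (M σ0).det = 0) (hc : ((M σ0).trace - a - a) * c = 1)
    (hu : IsUnit (a - 1)) {I D : Set 𝒢} (hσ0 : σ0 ∈ I)
    (hconj : ∀ g ∈ D, ∀ σ ∈ I, g * σ * g⁻¹ ∈ I)
    (hrel : ∀ σ ∈ I, (M σ0 - a • (1 : Matrix (Fin 2) (Fin 2) R)) * (M σ - 1) = 0) :
    ∃ P : Matrix (Fin 2) (Fin 2) R, P * P = P ∧ P.trace = 1 ∧
      (∀ σ ∈ I, P * (M σ - 1) = 0) ∧ ∀ g ∈ D, P * M g * (1 - P) = 0 := by
  set N := M σ0 - a • (1 : Matrix (Fin 2) (Fin 2) R)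
  have hN : N * N = ((M σ0).trace - a - a) • N := by
    ext i j
    rw [Matrix.det_fin_two, Matrix.trace_fin_two] at hquad
    fin_cases i <;> fin_cases j <;>
      simp [N, Matrix.mul_apply, Fin.sum_univ_two, Matrix.trace_fin_two, Matrix.sub_apply] <;>
      first
      | linear_combination -hquad
      | linear_combination (0 : R) * hquad
  set P := c • N
  have hP : P * P = P := by
    rw [Matrix.smul_mul, Matrix.mul_smul, hN, smul_smul, smul_smul,
      show c * c * ((M σ0).trace - a - a) = c from by linear_combination c * hc]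
  have hNP : N * (1 - P) = 0 := by
    rw [mul_sub, mul_one, Matrix.mul_smul, hN, smul_smul, mul_comm c, hc, one_smul, sub_self]
  have hPI : ∀ σ ∈ I, P * (M σ - 1) = 0 := fun σ hσ => by
    rw [Matrix.smul_mul, hrel σ hσ, smul_zero]
  refine ⟨P, hP, ?_, hPI, fun g hg => ?_⟩
  · rw [Matrix.trace_smul, Matrix.trace_sub, Matrix.trace_smul, Matrix.trace_one, Fintype.card_fin]
    simp only [smul_eq_mul]
    rw [← hc]; push_cast; ring
  · have h1 : M σ0 * (1 - P) = a • (1 - P) := by
      rwa [sub_mul, Matrix.smul_mul, one_mul, sub_eq_zero] at hNP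
    have h2 : P * M g * ((M σ0 - 1) * (1 - P)) = 0 := by
      have h3 : P * M g * (M σ0 - 1) = P * (M (g * σ0 * g⁻¹) - 1) * M g := by
        simp only [mul_sub, sub_mul, mul_one, mul_assoc, ← map_mul, inv_mul_cancel]
      rw [← mul_assoc, h3, hPI _ (hconj g hg σ0 hσ0), zero_mul, zero_mul]
    rw [sub_mul, one_mul, h1, mul_sub, Matrix.mul_smul] at h2
    replace h2 : (a - 1) • (P * M g * (1 - P)) = 0 := by rw [sub_smul, one_smul]; exact h2
    exact hu.smul_eq_zero.mp h2

variable {𝒢 : Type} [Group 𝒢]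

namespace HeckeAct

variable (A : HeckeAct p κ T 𝒢)

/-- The adjugate. -/
def dag (g : 𝒢) : MatP := algebraMap ℤ_[p] MatP (A.cyc g) * A.G g⁻¹

theorem τ_dag (g : 𝒢) : (A.τ g : MatP) = A.G g + A.dag g := A.τ_eq g

theorem dag_mul (g h : 𝒢) : A.dag (g * h) = A.dag h * A.dag g := by
  rw [dag, dag, dag, map_mul A.cyc, mul_comm (A.cyc g), mul_inv_rev, map_mul A.G, map_mul]
  simp only [← mul_assoc]
  rw [mul_assoc (algebraMap ℤ_[p] MatP (A.cyc h)) (algebraMap ℤ_[p] MatP (A.cyc g)),
    Algebra.commutes (A.cyc g) (A.G h⁻¹), ← mul_assoc]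

theorem commDag (g : 𝒢) {r : MatP} (hr : r ∈ A.R0) : Commute (A.dag g) r :=
  (Algebra.commute_algebraMap_left _ _).mul_left (A.commG _ r hr)

theorem dag_mul_self (g : 𝒢) :
    A.dag g * A.G g = algebraMap ℤ_[p] MatP (A.cyc g) := by
  rw [dag, mul_assoc, ← map_mul, inv_mul_cancel, map_one, mul_one]

theorem quad (g : 𝒢) :
    A.G g * A.G g - (A.τ g : MatP) * A.G g + algebraMap ℤ_[p] MatP (A.cyc g) = 0 := by
  rw [τ_dag, add_mul, dag_mul_self]; abel

/-- The scalar of `g` in the algebra. -/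
def d (g : 𝒢) : A.R0 := ⟨_, A.scalar (A.cyc g)⟩

theorem trace_eq_zero_imp {Y : Matrix (Fin 2) (Fin 2) T}
    (h : ∀ g, (Y * A.M g).trace = 0) : Y = 0 :=
  GaloisBasic.eq_zero_of_trace_mul_span A.span h

/-- The residual matrices of the representation span all matrices. -/
theorem span_residue : Submodule.span (ResidueField T)
    (Set.range fun g => (A.M g).map (residue T)) = ⊤ := by
  rw [eq_top_iff]
  rintro Y -
  obtain ⟨Y', rfl⟩ : ∃ Y' : Matrix (Fin 2) (Fin 2) T, Y'.map (residue T) = Y := by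
    choose f hf using fun i j => residue_surjective (Y i j)
    exact ⟨Matrix.of f, Matrix.ext hf⟩
  have hY : Y' ∈ Submodule.span T (Set.range A.M) := A.span ▸ Submodule.mem_top
  induction hY using Submodule.span_induction with
  | mem z hz => obtain ⟨g, rfl⟩ := hz; exact Submodule.subset_span ⟨g, rfl⟩
  | zero => rw [Matrix.map_zero _ (map_zero _)]; exact zero_mem _
  | add y z _ _ hy hz => rw [Matrix.map_add _ (map_add _)]; exact add_mem hy hz
  | smul a y _ hy =>
    rw [Matrix.map_smul' _ a y (map_mul _)]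
    exact Submodule.smul_mem _ _ hy

/-- No functional `Y ↦ trace (P Y)` with `trace P = 1` is multiplicative on the residual image of
the group, as that image spans the matrices. -/
private theorem false_of_mult_trace (P : Matrix (Fin 2) (Fin 2) (ResidueField T))
    (hP1 : P.trace = 1)
    (hmul : ∀ g h, (P * (A.M (g * h)).map (residue T)).trace =
      (P * (A.M g).map (residue T)).trace * (P * (A.M h).map (residue T)).trace) : False := by
  refine no_mult_functional P hP1 fun Y Z => ?_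
  have key : ∀ g, ∀ Z, (P * ((A.M g).map (residue T) * Z)).trace =
      (P * (A.M g).map (residue T)).trace * (P * Z).trace := fun g Z => by
    have hZ : Z ∈ Submodule.span (ResidueField T) (Set.range fun g => (A.M g).map (residue T)) :=
      A.span_residue ▸ Submodule.mem_top
    induction hZ using Submodule.span_induction with
    | mem z hz =>
      obtain ⟨h, rfl⟩ := hz
      dsimp only
      rw [← Matrix.map_mul, ← map_mul A.M]
      exact hmul g h
    | zero => simp
    | add y z _ _ hy hz => simp only [mul_add, Matrix.trace_add, hy, hz]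
    | smul a y _ hy =>
      simp only [Matrix.mul_smul, Matrix.trace_smul, hy, smul_eq_mul]; ring
  have hY : Y ∈ Submodule.span (ResidueField T) (Set.range fun g => (A.M g).map (residue T)) :=
    A.span_residue ▸ Submodule.mem_top
  induction hY using Submodule.span_induction with
  | mem z hz => obtain ⟨g, rfl⟩ := hz; exact key g Z
  | zero => simp
  | add y z _ _ hy hz => simp only [add_mul, mul_add, Matrix.trace_add, hy, hz]
  | smul a y _ hy =>
    simp only [Matrix.mul_smul, Matrix.smul_mul, Matrix.trace_smul, hy, smul_eq_mul]; ring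

variable {e : A.R0} (he : e * e = e) (heφ : A.φ e = 1)
  (hmin : ∀ f : A.R0, f * f = f → A.toHeckePart.θ f = 1 → e * f = e)

include he heφ hmin in
/-- If `σ₀` is the root `α` of its characteristic polynomial on all translates of a vector `y`
fixed by `e`, and the other root is residually different, then `y = 0`: the group would act on `y`
through a character, but the residual representation spans the matrices. -/
theorem eq_zero_of_eigen {R : Type} [Ring R] (f : MatP →+* R) {y : R} (hy : f (e : MatP) * y = y)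
    (σ0 : 𝒢) {α β : A.R0} (hsum : α + β = A.τ σ0)
    (hne : A.toHeckePart.θ (α - β) ≠ 0)
    (heig : ∀ h, f (A.G σ0) * (f (A.G h) * y) = f (α : MatP) * (f (A.G h) * y)) : y = 0 := by
  obtain ⟨v, hv⟩ := HeckePart.exists_inv he hmin hne
  have hv' : f ((α : MatP) - β) * (f (v : MatP) * y) = y := by
    have h1 := congrArg (fun z : A.R0 => f (z : MatP)) hv
    simp only [Subring.coe_mul, AddSubgroupClass.coe_sub, map_mul] at h1
    conv_rhs => rw [← hy, ← h1]
    simp only [mul_assoc, hy]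
  have hcf : ∀ g, ∀ r ∈ A.R0, Commute (f (A.G g)) (f r) := fun g r hr => (A.commG g r hr).map f
  obtain ⟨lam, hlamdef⟩ : ∃ lam : 𝒢 → A.R0, ∀ h, lam h = v * (A.τ (σ0 * h) - β * A.τ h) :=
    ⟨_, fun _ => rfl⟩
  have hy0 : f (A.G σ0) * y = f (α : MatP) * y := by simpa using heig 1
  have hdag0 : f (A.dag σ0) * y = f (β : MatP) * y := by
    have h1 : (A.dag σ0 : MatP) = (α : MatP) + β - A.G σ0 := by
      rw [← Subring.coe_add, hsum, τ_dag]; abel
    rw [h1, map_sub, map_add, sub_mul, add_mul, hy0]; abel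
  have hlam : ∀ h, f (A.G h) * y = f (lam h : MatP) * y := fun h => by
    have e1 : f ((A.τ (σ0 * h) : A.R0) : MatP) * y =
        f (α : MatP) * (f (A.G h) * y) + f (β : MatP) * (f (A.dag h) * y) := by
      rw [τ_dag, dag_mul, map_mul A.G, map_add, map_mul, map_mul, add_mul, mul_assoc, heig h,
        mul_assoc, hdag0, ← mul_assoc (f (A.dag h)), ((A.commDag h β.2).map f).eq, mul_assoc]
    have e2 : f (((A.τ (σ0 * h) - β * A.τ h : A.R0)) : MatP) * y =
        f ((α : MatP) - β) * (f (A.G h) * y) := by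
      rw [AddSubgroupClass.coe_sub, Subring.coe_mul, map_sub, sub_mul, e1, map_sub, sub_mul,
        τ_dag A h, map_mul, map_add, mul_assoc, add_mul, mul_add]
      abel
    calc f (A.G h) * y = f (A.G h) * (f ((α : MatP) - β) * (f (v : MatP) * y)) := by rw [hv']
      _ = f (v : MatP) * (f ((α : MatP) - β) * (f (A.G h) * y)) := by
          have c1 := hcf h ((α : MatP) - β) (sub_mem α.2 β.2)
          have c2 := hcf h v v.2
          have c3 : Commute (f ((α : MatP) - β)) (f (v : MatP)) :=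
            (A.comm _ (sub_mem α.2 β.2) _ v.2).map f
          rw [← mul_assoc, c1.eq, mul_assoc, ← mul_assoc (f (A.G h)), c2.eq, mul_assoc,
            ← mul_assoc, c3.eq, mul_assoc]
      _ = _ := by rw [← e2, ← mul_assoc, ← map_mul, ← Subring.coe_mul, ← hlamdef]
  have hmul : ∀ g h, f ((lam (g * h) - lam g * lam h : A.R0) : MatP) * y = 0 := fun g h => by
    rw [AddSubgroupClass.coe_sub, Subring.coe_mul, map_sub, map_mul, sub_mul, ← hlam, map_mul A.G,
      map_mul, mul_assoc, hlam h, ← mul_assoc, (hcf g _ (lam h).2).eq, mul_assoc, hlam g,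
      ← mul_assoc, ((A.comm _ (lam h).2 _ (lam g).2).map f).eq, sub_self]
  by_contra hy1
  have hθmul : ∀ g h, A.toHeckePart.θ (lam (g * h)) =
      A.toHeckePart.θ (lam g) * A.toHeckePart.θ (lam h) := by
    intro g h
    by_contra hneq
    obtain ⟨u, hu⟩ := HeckePart.exists_inv he hmin
      (x := lam (g * h) - lam g * lam h) (by rwa [map_sub, map_mul, sub_ne_zero])
    refine hy1 ?_
    have h1 := congrArg (fun z : A.R0 => f (z : MatP)) hu
    simp only [Subring.coe_mul, map_mul] at h1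
    rw [← hy, ← h1, ((A.comm _ (lam (g * h) - lam g * lam h).2 _ u.2).map f).eq]
    simp only [mul_assoc]
    rw [hy, hmul, mul_zero]
  -- the functional on residual matrices
  set k := ResidueField T
  set C := (A.M σ0).map (residue T)
  set P : Matrix (Fin 2) (Fin 2) k :=
    A.toHeckePart.θ v • (C - A.toHeckePart.θ β • (1 : Matrix (Fin 2) (Fin 2) k))
  have htr : ∀ Y : Matrix (Fin 2) (Fin 2) T, residue T Y.trace = (Y.map (residue T)).trace :=
    fun Y => by simp [Matrix.trace_fin_two]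
  have hlamP : ∀ h, A.toHeckePart.θ (lam h) = (P * (A.M h).map (residue T)).trace := fun h => by
    simp only [hlamdef, map_mul, map_sub, P, Matrix.smul_mul, Matrix.trace_smul, smul_eq_mul,
      sub_mul, one_mul, Matrix.trace_sub]
    congr 2
    · show residue T (A.φ (A.τ (σ0 * h))) = _
      rw [A.tr, map_mul, htr, Matrix.map_mul]
    · show A.toHeckePart.θ β * residue T (A.φ (A.τ h)) = _
      rw [A.tr, htr]
  have hP1 : P.trace = 1 := by
    have ht : residue T (A.M σ0).trace = A.toHeckePart.θ α + A.toHeckePart.θ β := by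
      rw [← map_add, hsum, ← A.tr]; rfl
    have h1 : A.toHeckePart.θ v * A.toHeckePart.θ (α - β) = 1 := by
      have := congrArg A.toHeckePart.θ hv
      rw [map_mul, map_mul, show A.toHeckePart.θ e = 1 by
        show residue T (A.φ e) = 1
        rw [heφ, map_one], mul_one] at this
      rw [mul_comm]; exact this
    rw [map_sub] at h1
    simp only [P, Matrix.trace_smul, Matrix.trace_sub, C, ← htr, ht, Matrix.trace_one,
      Fintype.card_fin, smul_eq_mul, Nat.cast_ofNat]
    linear_combination h1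
  refine A.false_of_mult_trace P hP1 fun g h => ?_
  rw [← hlamP, ← hlamP, ← hlamP]
  exact hθmul g h

omit he heφ hmin in
/-- Vectors fixed by `e` and by all commutators vanish modulo `p`. -/
def Small (e : MatP) : Prop :=
  ∀ X : Matrix κ κ (ZMod (p ^ 1)), mred 1 e * X = X →
    (∀ a b, mred 1 (A.G (a * b * a⁻¹ * b⁻¹)) * X = X) → X = 0

omit he heφ hmin in
theorem nil_of_eigen {x r Z : MatP} (hc : Commute x r) (h : x * Z = r * Z) {e : MatP}
    (hZ : e * Z = Z) (hn : ∀ k, ∃ j, ∀ j', j ≤ j' → mred k (r ^ j' * e) = 0) :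
    Nil x Z := fun k => by
  obtain ⟨j, hj⟩ := hn k
  refine ⟨j, fun j' hj' => ?_⟩
  rw [pow_mul_eq hc h, ← hZ, ← mul_assoc, map_mul, hj j' hj', zero_mul]

section Root

variable {σ0 : 𝒢} {α : A.R0} (hα : e * (α * α - A.τ σ0 * α + A.d σ0) = 0)

include hα in
/-- `G σ₀` is killed on the part of `e` by `(X - α) (X - (τ σ₀ - α))`. -/
theorem root_mul :
    (A.G σ0 - (α : MatP)) * (A.G σ0 - ((A.τ σ0 - α : A.R0) : MatP)) * (e : MatP) = 0 := by
  have h := congrArg Subtype.val hα
  simp only [Subring.coe_mul, Subring.coe_add, AddSubgroupClass.coe_sub, ZeroMemClass.coe_zero]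
    at h ⊢
  rw [show ((A.d σ0 : A.R0) : MatP) = algebraMap ℤ_[p] MatP (A.cyc σ0) from rfl] at h
  have cq := A.quad σ0
  have c1 : Commute (A.G σ0) (α : MatP) := A.commG _ _ α.2
  have c2 : Commute (A.G σ0) (A.τ σ0 : MatP) := A.commG _ _ (A.τ σ0).2
  have c3 : Commute (α : MatP) (A.τ σ0 : MatP) := A.comm _ α.2 _ (A.τ σ0).2
  have h0 : (A.G σ0 - (α : MatP)) * (A.G σ0 - ((A.τ σ0 : MatP) - α)) =
      (A.G σ0 * A.G σ0 - (A.τ σ0 : MatP) * A.G σ0 + algebraMap ℤ_[p] MatP (A.cyc σ0)) -
      ((α : MatP) * α - (A.τ σ0 : MatP) * α + algebraMap ℤ_[p] MatP (A.cyc σ0)) := by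
    simp only [sub_mul, mul_sub, c1.eq, c2.eq, c3.eq]; abel
  rw [h0, cq, zero_sub, neg_mul,
    ((((A.comm _ α.2 _ e.2).mul_left (A.comm _ α.2 _ e.2)).sub_left
      ((A.comm _ (A.τ σ0).2 _ e.2).mul_left (A.comm _ α.2 _ e.2))).add_left
      (Algebra.commute_algebraMap_left _ _)).eq, h, neg_zero]

include he heφ hmin hα in
/-- An element with residually distinct roots in the algebra makes `e` small: on a vector fixed
by commutators it would cut a stable line. -/
theorem small_of_root (hne : A.toHeckePart.θ (α - (A.τ σ0 - α)) ≠ 0) : A.Small (e : MatP) := by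
  intro X hX hfix
  have hne' : A.toHeckePart.θ ((A.τ σ0 - α) - α) ≠ 0 := by
    rw [← neg_sub, map_neg, neg_ne_zero]; exact hne
  set β := A.τ σ0 - α with hβdef
  set g := fun k => mred 1 (A.G k)
  have hcomm : ∀ a b k, g a * (g b * (g k * X)) = g b * (g a * (g k * X)) := by
    intro a b k
    have h := hfix (k⁻¹ * b⁻¹ * k) (k⁻¹ * a⁻¹ * k)
    rw [show k⁻¹ * b⁻¹ * k * (k⁻¹ * a⁻¹ * k) * (k⁻¹ * b⁻¹ * k)⁻¹ * (k⁻¹ * a⁻¹ * k)⁻¹ =
      k⁻¹ * (b⁻¹ * a⁻¹ * b * a) * k by group] at h
    have h2 := congrArg (fun Z => mred 1 (A.G (a * b * k)) * Z) h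
    simp only [g, ← mul_assoc, ← map_mul] at h2 ⊢
    rw [show a * b * k * k⁻¹ * b⁻¹ * a⁻¹ * b * a * k = b * a * k by group] at h2
    exact h2.symm
  have hce : ∀ k, Commute (g k) (mred 1 (e : MatP)) := fun k => (A.commG k _ e.2).map _
  have hca : ∀ k, ∀ r ∈ A.R0, Commute (g k) (mred 1 r) := fun k r hr => (A.commG k r hr).map _
  have key : ∀ k, (g σ0 - mred 1 (α : MatP)) * ((g σ0 - mred 1 (β : MatP)) * (g k * X)) = 0 := by
    intro k
    rw [← hX, ← mul_assoc (g k), (hce k).eq]
    simp only [g, ← map_sub, ← mul_assoc, ← map_mul]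
    rw [A.root_mul hα, zero_mul, map_zero, zero_mul]
  set y := (g σ0 - mred 1 (β : MatP)) * X with hy
  have hgy : ∀ k, g k * y = (g σ0 - mred 1 (β : MatP)) * (g k * X) := fun k => by
    have := hcomm k σ0 1
    rw [show g 1 = 1 from (congrArg _ (map_one A.G)).trans (map_one _), one_mul] at this
    rw [hy, sub_mul, mul_sub, this, ← mul_assoc (g k), (hca k _ β.2).eq, mul_assoc, sub_mul]
  have hy0 : y = 0 := by
    refine A.eq_zero_of_eigen he heφ hmin (mred 1) ?_ σ0 (α := α) (β := β)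
      (add_sub_cancel _ _) hne fun h => ?_
    · rw [hy, ← mul_assoc, (((hce σ0).symm).sub_right
        ((A.comm _ e.2 _ β.2).map (mred 1))).eq, mul_assoc, hX]
    · show g σ0 * (g h * y) = _
      rw [← sub_eq_zero, ← sub_mul, hgy, key]
  have hgX : ∀ k, (g σ0 - mred 1 (β : MatP)) * (g k * X) = 0 := fun k => by
    rw [← hgy, hy0, mul_zero]
  refine A.eq_zero_of_eigen he heφ hmin (mred 1) hX σ0 (α := β) (β := α)
    (sub_add_cancel _ _) hne' fun h => ?_
  show g σ0 * (g h * X) = _
  rw [← sub_eq_zero, ← sub_mul, hgX]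

include he hmin hα in
/-- Off the limit projector of `G σ0 - w` the eigenvalue is `α`. -/
private theorem mul_one_sub_lim_eq_zero {w : ℕ} {q : MatP} {J : ℕ → ℕ}
    (hq : PowLimit (A.G σ0 - (w : MatP)) q J)
    (hne : A.toHeckePart.θ ((A.τ σ0 - α) - (w : A.R0)) ≠ 0) :
    (A.G σ0 - (α : MatP)) * ((1 - q) * (e : MatP)) = 0 := by
  set β := A.τ σ0 - α
  set G0 := A.G σ0
  set x := G0 - (w : MatP)
  have hR : ∀ r : A.R0, Commute G0 (r : MatP) := fun r => A.commG σ0 r r.2
  have hxR : ∀ r : A.R0, Commute x (r : MatP) := fun r =>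
    (hR r).sub_left (Nat.cast_commute w _)
  have hqR : ∀ r : A.R0, Commute (r : MatP) q := fun r => hq.commute (hxR r).symm
  obtain ⟨u, hu⟩ := HeckePart.exists_inv he hmin hne
  have hu' : (u : MatP) * ((β : MatP) - (w : MatP)) * (e : MatP) = e := by
    have := congrArg Subtype.val hu
    simp only [Subring.coe_mul, AddSubgroupClass.coe_sub, SubringClass.coe_natCast] at this
    rwa [(A.comm _ (sub_mem β.2 (natCast_mem A.R0 w)) _ u.2).eq] at this
  set Z := (G0 - (α : MatP)) * ((1 - q) * (e : MatP))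
  have c1 : Commute x (G0 - (α : MatP)) :=
    ((Commute.refl G0).sub_left (Nat.cast_commute w _)).sub_right (hxR α)
  have hn : Nil x Z := fun n => by
    obtain ⟨j, hj⟩ := hq.nil_compl n
    refine ⟨j, fun j' hj' => ?_⟩
    rw [← mul_assoc, (c1.pow_left j').eq, mul_assoc, ← mul_assoc (x ^ j'), map_mul,
      map_mul (mred n) (x ^ j' * (1 - q)), hj j' hj', zero_mul, mul_zero]
  refine eq_zero_of_nil hn (hxR u).symm ?_
  have h1 : (G0 - (β : MatP)) * Z = 0 := by
    have cG : Commute (G0 - (β : MatP)) (G0 - (α : MatP)) :=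
      ((Commute.refl G0).sub_left (hR β).symm).sub_right
        ((hR α).sub_left (A.comm _ β.2 _ α.2))
    rw [← mul_assoc, cG.eq, ← ((Commute.one_right _).sub_right (hqR e)).eq, ← mul_assoc,
      A.root_mul hα, zero_mul]
  have hEZ : (e : MatP) * Z = Z := by
    rw [← mul_assoc, ((hR e).symm.sub_right (A.comm _ e.2 _ α.2)).eq, mul_assoc,
      ← mul_assoc (e : MatP), ((Commute.one_right _).sub_right (hqR e)).eq, mul_assoc,
      ← Subring.coe_mul, he]
  have h2 : x * Z = ((β : MatP) - (w : MatP)) * Z := by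
    rw [← sub_eq_zero, ← sub_mul, sub_sub_sub_cancel_right, h1]
  rw [mul_assoc, h2, ← mul_assoc]
  conv_rhs => rw [← hEZ, ← mul_assoc, hu', hEZ]

include he hmin hα in
/-- On the limit projector of `G σ0 - w` the eigenvalue is `τ σ0 - α`. -/
private theorem lim_mul_eq_zero {w : ℕ} {q : MatP} {J : ℕ → ℕ}
    (hq : PowLimit (A.G σ0 - (w : MatP)) q J)
    (hθ : A.toHeckePart.θ (α - (w : A.R0)) = 0) :
    (A.G σ0 - ((A.τ σ0 - α : A.R0) : MatP)) * (q * (e : MatP)) = 0 := by
  set β := A.τ σ0 - α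
  set G0 := A.G σ0
  have hR : ∀ r : A.R0, Commute G0 (r : MatP) := fun r => A.commG σ0 r r.2
  have hqR : ∀ r : A.R0, Commute (r : MatP) q := fun r =>
    hq.commute ((hR r).symm.sub_right (Nat.commute_cast _ w))
  have hqG : Commute G0 q := hq.commute ((Commute.refl G0).sub_right (Nat.commute_cast _ w))
  set Z := (G0 - (β : MatP)) * (q * (e : MatP))
  have hqZ : q * Z = Z := by
    rw [← mul_assoc, (hqG.symm.sub_right (hqR β).symm).eq, mul_assoc, ← mul_assoc q, hq.idem]
  have hEZ : (e : MatP) * Z = Z := by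
    rw [← mul_assoc, ((hR e).symm.sub_right (A.comm _ e.2 _ β.2)).eq, mul_assoc,
      ← mul_assoc (e : MatP), (hqR e).eq, mul_assoc, ← Subring.coe_mul, he]
  have h1 : (G0 - (α : MatP)) * Z = 0 := by
    rw [← mul_assoc, ← (hqR e).eq, ← mul_assoc, A.root_mul hα, zero_mul]
  have h2 : (G0 - (w : MatP)) * Z = ((α : MatP) - (w : MatP)) * Z := by
    rw [← sub_eq_zero, ← sub_mul, sub_sub_sub_cancel_right, h1]
  have h3 : Nil (G0 - (w : MatP)) Z :=
    nil_of_eigen (((hR α).sub_left (Nat.cast_commute w _)).sub_right (Nat.commute_cast _ w))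
      h2 hEZ fun n => by
        obtain ⟨j, hj⟩ := HeckePart.nil_of_θ hmin hθ n
        exact ⟨j, by simpa only [AddSubgroupClass.coe_sub, SubringClass.coe_natCast] using hj⟩
  rw [← hqZ]
  exact hq.mul_eq_zero_of_nil h3

include hmin in
/-- `G σ0 - 1` is topologically nilpotent where `G σ0` is a root congruent to `1`. -/
private theorem nil_lim_mul {β : A.R0} (hβ : A.toHeckePart.θ (β - 1) = 0) {q Y : MatP}
    (hqe : Commute (e : MatP) q) (hB2 : (A.G σ0 - (β : MatP)) * (q * (e : MatP)) = 0)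
    (hY : (e : MatP) * Y = Y) : Nil (A.G σ0 - 1) (q * Y) := by
  refine nil_of_eigen
    (((A.commG σ0 _ β.2).sub_left (Commute.one_left _)).sub_right (Commute.one_right _))
    ?_ (e := (e : MatP)) (by rw [← mul_assoc, hqe.eq, mul_assoc, hY]) fun n => ?_
  · rw [← sub_eq_zero, ← sub_mul, sub_sub_sub_cancel_right, ← hY, ← mul_assoc q, ← mul_assoc, hB2,
      zero_mul]
  · obtain ⟨j, hj⟩ := HeckePart.nil_of_θ hmin hβ n
    exact ⟨j, by simpa only [AddSubgroupClass.coe_sub, Subring.coe_one] using hj⟩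

include hα in
/-- What kills `(G σ0 - α) (G σ - 1) e` kills the trace relation on the range of `G σ0 - α`. -/
private theorem mul_rel_eq_zero {eO : MatP} {σ : 𝒢}
    (hvan : eO * ((A.G σ0 - (α : MatP)) * (e : MatP)) * (A.G σ - 1) = 0) (h : 𝒢) :
    eO * (((A.τ (σ0 * (σ * h)) - A.τ (σ0 * h) - α * A.τ (σ * h) + α * A.τ h : A.R0) : MatP) *
      ((A.G σ0 - (α : MatP)) * (e : MatP))) = 0 := by
  set G0 := A.G σ0
  have hr : ((A.τ (σ0 * (σ * h)) - A.τ (σ0 * h) - α * A.τ (σ * h) + α * A.τ h : A.R0) : MatP) =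
      (G0 - (α : MatP)) * (A.G σ - 1) * A.G h +
        A.dag h * (A.dag σ - 1) * (A.dag σ0 - (α : MatP)) := by
    simp only [Subring.coe_add, AddSubgroupClass.coe_sub, Subring.coe_mul, τ_dag, dag_mul,
      map_mul, G0]
    rw [show A.dag h * (A.dag σ - 1) * (A.dag σ0 - (α : MatP)) = A.dag h * A.dag σ * A.dag σ0 -
      A.dag h * A.dag σ0 - A.dag h * (A.dag σ * (α : MatP)) + A.dag h * (α : MatP) by noncomm_ring,
      (A.commDag σ α.2).eq, ← mul_assoc (A.dag h), (A.commDag h α.2).eq]
    noncomm_ring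
  have cE : ∀ g, Commute (A.G g) (e : MatP) := fun g => A.commG g _ e.2
  have hd : (A.dag σ0 - (α : MatP)) * ((G0 - (α : MatP)) * (e : MatP)) = 0 := by
    have cG : Commute (G0 - ((A.τ σ0 - α : A.R0) : MatP)) (G0 - (α : MatP)) :=
      ((Commute.refl G0).sub_left (A.commG σ0 _ (A.τ σ0 - α).2).symm).sub_right
        ((A.commG σ0 _ α.2).sub_left (A.comm _ (A.τ σ0 - α).2 _ α.2))
    rw [show A.dag σ0 - (α : MatP) = ((A.τ σ0 - α : A.R0) : MatP) - G0 by
      simp only [AddSubgroupClass.coe_sub, τ_dag, G0]; abel, ← neg_sub G0, neg_mul, ← mul_assoc,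
      cG.eq, A.root_mul hα, neg_zero]
  have hz : eO * ((G0 - (α : MatP)) * (A.G σ - 1) * (e : MatP)) = 0 := by
    rw [mul_assoc (G0 - (α : MatP)), ((cE σ).sub_left (Commute.one_left _)).eq,
      ← mul_assoc (G0 - (α : MatP)), ← mul_assoc eO]
    exact hvan
  rw [hr, add_mul, mul_add, mul_assoc (A.dag h * _), hd, mul_zero, mul_zero, add_zero,
    mul_assoc _ (A.G h), show A.G h * ((G0 - (α : MatP)) * (e : MatP)) =
      (e : MatP) * (A.G h * (G0 - (α : MatP))) by
        rw [((cE σ0).sub_left (A.comm _ α.2 _ e.2)).eq, ← mul_assoc, (cE h).eq, mul_assoc],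
    ← mul_assoc _ (e : MatP), ← mul_assoc eO, hz, zero_mul]

include he heφ hmin in
/-- An element of `R0` killed by the limit projector is killed by `e`. -/
private theorem mul_eq_zero_of_lim {r β : A.R0} (hsum : α + β = A.τ σ0)
    (hne : A.toHeckePart.θ (α - β) ≠ 0) {q : MatP}
    (hsplit : (A.G σ0 - (α : MatP)) * (e : MatP) = ((β : MatP) - α) * (q * (e : MatP)))
    (hr : q * ((r : MatP) * (e : MatP)) = 0) : (r : MatP) * (e : MatP) = 0 := by
  have hR : ∀ g, ∀ r : A.R0, Commute (A.G g) (r : MatP) := fun g r => A.commG g r r.2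
  have hEr : (e : MatP) * ((r : MatP) * e) = (r : MatP) * e := by
    rw [← mul_assoc, (A.comm _ e.2 _ r.2).eq, mul_assoc, ← Subring.coe_mul _ e e, he]
  refine A.eq_zero_of_eigen he heφ hmin (RingHom.id MatP) hEr σ0 hsum hne fun g => ?_
  simp only [RingHom.id_apply]
  rw [← sub_eq_zero, ← sub_mul, ← hEr, ← mul_assoc (A.G g), (hR g e).eq, mul_assoc,
    ← mul_assoc (A.G σ0 - _), hsplit, mul_assoc, mul_assoc q, ← mul_assoc (e : MatP),
    ← (hR g e).eq, mul_assoc, hEr,
    show A.G g * ((r : MatP) * e) = (r : MatP) * e * A.G g by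
      rw [← mul_assoc, (hR g r).eq, mul_assoc, (hR g e).eq, mul_assoc],
    ← mul_assoc q, hr, zero_mul, mul_zero]

end Root

omit he heφ hmin in
/-- **The ordinary shape.** -/
theorem exists_projector (σ0 : 𝒢) {w : ℕ} (hw : (w : ResidueField T) ≠ 1)
    (htr : residue T (A.M σ0).trace = (w : ResidueField T) + 1)
    (hdet : residue T (A.M σ0).det = (w : ResidueField T))
    (I D : Set 𝒢) (hσ0 : σ0 ∈ I) (hconj : ∀ g ∈ D, ∀ σ ∈ I, g * σ * g⁻¹ ∈ I)
    (U W : MatP) (hUG : ∀ g, Commute (A.G g) U) (hUR : ∀ r ∈ A.R0, Commute U r)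
    (hWR : ∀ r ∈ A.R0, Commute W r) (hWσ : Commute W (A.G σ0))
    (hA : ∀ (e q eO : MatP) (I1 I2 : ℕ → ℕ), e ∈ A.R0 → e * e = e → A.Small e →
      PowLimit U eO I1 → PowLimit (A.G σ0 - (w : MatP)) q I2 →
      Nil (A.G σ0 - 1) (q * eO * e) → ∀ σ ∈ I, q * eO * e * (A.G σ - 1) = 0)
    (hB : ∀ e : MatP, e ∈ A.R0 → e * e = e → A.Small e → ∀ X : MatP, e * X = X →
      Commute X (A.G σ0) → Commute X U → Commute X W → Nil U X → Nil (A.G σ0 - 1) X → X = 0) :
    ∃ P : Matrix (Fin 2) (Fin 2) T, P * P = P ∧ P.trace = 1 ∧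
      (∀ σ ∈ I, P * (A.M σ - 1) = 0) ∧ ∀ g ∈ D, P * A.M g * (1 - P) = 0 := by
  obtain ⟨e, he, heφ, hmin⟩ := A.toHeckePart.exists_idem
  have hθτ : ∀ g, A.toHeckePart.θ (A.τ g) = residue T (A.M g).trace := fun g =>
    congrArg (residue T) (A.tr g)
  have hθd : A.toHeckePart.θ (A.d σ0) = w := (congrArg (residue T) (A.det σ0)).trans hdet
  -- the roots `α` and `β` of the characteristic polynomial, congruent to `w` and `1`
  obtain ⟨α, hαθ, hα⟩ := HeckePart.exists_quad_root he hmin hw (by rw [hθτ, htr]) hθd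
  set β := A.τ σ0 - α with hβdef
  have hβθ : A.toHeckePart.θ β = 1 := by
    simp only [hβdef, map_sub, hθτ, htr, hαθ, add_sub_cancel_left]
  have hne : A.toHeckePart.θ (α - β) ≠ 0 := by rwa [map_sub, hαθ, hβθ, sub_ne_zero]
  obtain ⟨v, hv⟩ := HeckePart.exists_inv he hmin (x := β - α)
    (by rwa [← neg_sub, map_neg, neg_ne_zero])
  have hsmall := A.small_of_root he heφ hmin hα hne
  obtain ⟨eO, I1, heO⟩ := exists_powLimit U
  obtain ⟨q, I2, hq⟩ := exists_powLimit (A.G σ0 - (w : MatP))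
  set E := (e : MatP)
  have hEE : E * E = E := congrArg Subtype.val he
  have hR : ∀ g, ∀ r : A.R0, Commute (A.G g) (r : MatP) := fun g r => A.commG g r r.2
  have hqR : ∀ r : A.R0, Commute (r : MatP) q := fun r =>
    hq.commute ((hR σ0 r).symm.sub_right (Nat.commute_cast _ w))
  have hqG : Commute (A.G σ0) q :=
    hq.commute ((Commute.refl _).sub_right (Nat.commute_cast _ w))
  have hqU : Commute U q := hq.commute ((hUG σ0).symm.sub_right (Nat.commute_cast _ w))
  have hqW : Commute W q := hq.commute (hWσ.sub_right (Nat.commute_cast _ w))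
  have heOR : ∀ r : A.R0, Commute (r : MatP) eO := fun r => heO.commute (hUR r r.2).symm
  -- the two parts
  have hB1 : (A.G σ0 - (α : MatP)) * ((1 - q) * E) = 0 := A.mul_one_sub_lim_eq_zero he hmin hα hq
    (by rw [map_sub, map_natCast, hβθ, sub_ne_zero]; exact Ne.symm hw)
  have hB2 : (A.G σ0 - (β : MatP)) * (q * E) = 0 :=
    A.lim_mul_eq_zero he hmin hα hq (by rw [map_sub, map_natCast, hαθ, sub_self])
  have hnilq : ∀ Y, E * Y = Y → Nil (A.G σ0 - 1) (q * Y) := fun Y hY =>
    A.nil_lim_mul hmin (by rw [map_sub, map_one, hβθ, sub_self]) (hqR e) hB2 hY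
  have hsplit : (A.G σ0 - (α : MatP)) * E = ((β : MatP) - α) * (q * E) := by
    rw [show (A.G σ0 - (α : MatP)) * E =
      (A.G σ0 - (α : MatP)) * ((1 - q) * E) + (A.G σ0 - (β : MatP)) * (q * E) +
        ((β : MatP) - α) * (q * E) by noncomm_ring, hB1, hB2, zero_add, zero_add]
  have hqE : q * E = (v : MatP) * ((A.G σ0 - (α : MatP)) * E) := by
    have hv' : ((β : MatP) - α) * (v : MatP) * E = E := by
      simpa only [Subring.coe_mul, AddSubgroupClass.coe_sub] using congrArg Subtype.val hv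
    have c : Commute (v : MatP) ((β : MatP) - α) := A.comm _ v.2 _ (β - α).2
    rw [hsplit, ← mul_assoc, c.eq, show q * E = E * q from (hqR e).eq.symm, ← mul_assoc, hv']
  have hvan : ∀ σ ∈ I, eO * ((A.G σ0 - (α : MatP)) * E) * (A.G σ - 1) = 0 := fun σ hσ => by
    have h := hA E q eO I1 I2 e.2 hEE hsmall heO hq (by
      rw [mul_assoc]
      exact hnilq _ (by rw [← mul_assoc, (heOR e).eq, mul_assoc, hEE])) σ hσ
    have c : ((β : MatP) - α) * eO = eO * ((β : MatP) - α) := (heOR (β - α)).eq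
    rw [hsplit, ← mul_assoc eO, ← c, mul_assoc ((β : MatP) - α), ← mul_assoc eO,
      (heO.commute hqU.symm).symm.eq, mul_assoc ((β : MatP) - α), h, mul_zero]
  -- the relation in `T`
  have hrel : ∀ σ ∈ I,
      (A.M σ0 - A.φ α • (1 : Matrix (Fin 2) (Fin 2) T)) * (A.M σ - 1) = 0 := by
    refine fun σ hσ => A.trace_eq_zero_imp fun h => ?_
    set r : A.R0 := A.τ (σ0 * (σ * h)) - A.τ (σ0 * h) - α * A.τ (σ * h) + α * A.τ h
    set X := q * ((r : MatP) * E)
    have hEr : E * ((r : MatP) * E) = (r : MatP) * E := by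
      rw [← mul_assoc, (A.comm _ e.2 _ r.2).eq, mul_assoc, hEE]
    have heOX : eO * X = 0 := by
      rw [show X = (r : MatP) * (v : MatP) * ((A.G σ0 - (α : MatP)) * E) by
          rw [mul_assoc, ← hqE, ← mul_assoc, (hqR r).eq, mul_assoc],
        mul_assoc, ← mul_assoc (r : MatP), (A.comm _ r.2 _ v.2).eq, mul_assoc, ← mul_assoc eO,
        ← (heOR v).eq, mul_assoc, A.mul_rel_eq_zero hα (hvan σ hσ) h, mul_zero]
    have hX0 : X = 0 := hB E e.2 hEE hsmall X
      (by rw [← mul_assoc, (hqR e).eq, mul_assoc, hEr])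
      ((hqG.symm).mul_left ((hR σ0 r).symm.mul_left (hR σ0 e).symm))
      ((hqU.symm).mul_left ((hUR r r.2).symm.mul_left (hUR E e.2).symm))
      ((hqW.symm).mul_left ((hWR r r.2).symm.mul_left (hWR E e.2).symm))
      (fun n => by
        obtain ⟨j, hj⟩ := heO.nil_compl n
        refine ⟨j, fun j' hj' => ?_⟩
        rw [show X = (1 - eO) * X by rw [sub_mul, one_mul, heOX, sub_zero], ← mul_assoc, map_mul,
          hj j' hj', zero_mul])
      (hnilq _ hEr)
    have hrE := A.mul_eq_zero_of_lim he heφ hmin (add_sub_cancel _ _) hne hsplit hX0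
    have hφr : A.φ r = 0 := by
      rw [← mul_one (A.φ r), ← heφ, ← map_mul, show r * e = 0 from Subtype.ext hrE, map_zero]
    simp only [r, map_add, map_sub, map_mul, A.tr] at hφr
    simp only [sub_mul, mul_sub, Matrix.smul_mul, one_mul, mul_one,
      Matrix.trace_sub, Matrix.trace_smul, smul_eq_mul, mul_assoc]
    linear_combination hφr
  -- the projector
  refine exists_projector_of_rel A.M ?_ (c := A.φ v) ?_ ?_ hσ0 hconj hrel
  · have h := congrArg A.φ hα
    rwa [map_mul, map_zero, heφ, one_mul, map_add, map_sub, map_mul, map_mul, A.tr,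
      show A.φ (A.d σ0) = (A.M σ0).det from A.det σ0] at h
  · have h := congrArg A.φ hv
    rwa [map_mul, map_mul, map_sub, heφ, mul_one, hβdef, map_sub, A.tr] at h
  · refine (residue_ne_zero_iff_isUnit (A.φ α - 1)).mp ?_
    rwa [map_sub, map_one, sub_ne_zero, show residue T (A.φ α) = w from hαθ]

end HeckeAct

end FermatAgent.PSEMI
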