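import Fermat.Agent.PSEMI.Ord.Dict
import Fermat.Agent.PSEMI.Ord.Shape
import Fermat.Agent.ES.Tate.Module

/-!
# The two vanishing statements on the lattice of `Γ₀(N)`

A vector of the lattice is read modulo `p ^ k` as a character of exponent `p ^ k`; the matrices
of `U`, of the Atkin involution and of Galois act through the operators on characters.
-/

set_option autoImplicit false

open UpperHalfPlane CongruenceSubgroup
open scoped MatrixGroups Matrix
open ModularCurve.Period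

noncomputable section

namespace FermatAgent.PSEMI

open FermatAgent.ES (parGroup GoodLevel charOp conjChar CPlace AuxLevel GQ embC autC galChar zetaC
  padChar goodLevel_Gamma0)
open FermatAgent.Period (parRank parabolicCoords transferDataU)
open MatLim

variable {p : ℕ} [hp : Fact p.Prime] {N : ℕ} [NeZero N]

local notation "ι₀" => Fin (parRank (Gamma0 N))
local notation "Vec" => Fin (parRank (Gamma0 N)) → ℤ_[p]
local notation "MatN" => Matrix (Fin (parRank (Gamma0 N))) (Fin (parRank (Gamma0 N))) ℤ_[p]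

variable (p) in
/-- The character of exponent `p ^ k` of a coordinate vector. -/
def cv (k : ℕ) (v : Vec) : parGroup (Gamma0 N) (p ^ k) :=
  padChar p k ((parabolicCoords (Gamma0 N) ℤ_[p] ℤ_[p]).symm v)

/-- Congruence of vectors modulo `p ^ k`. -/
def Cgr (k : ℕ) (v w : Vec) : Prop := ∀ i, (p : ℤ_[p]) ^ k ∣ v i - w i

section

omit [NeZero N]

theorem Cgr.rfl' {k : ℕ} {v : Vec} : Cgr k v v := fun i => by simp

theorem Cgr.symm {k : ℕ} {v w : Vec} (h : Cgr k v w) : Cgr k w v := fun i => by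
  rw [dvd_sub_comm]; exact h i

theorem Cgr.trans {k : ℕ} {u v w : Vec} (h : Cgr k u v) (h' : Cgr k v w) : Cgr k u w := fun i => by
  have := dvd_add (h i) (h' i); simpa using this

theorem Cgr.mulVec {k : ℕ} {v w : Vec} (h : Cgr k v w) (A : MatN) : Cgr k (A *ᵥ v) (A *ᵥ w) :=
  fun i => by
    simp only [Matrix.mulVec, dotProduct, ← Finset.sum_sub_distrib, ← mul_sub]
    exact Finset.dvd_sum fun j _ => (h j).mul_left _

theorem Cgr.of_mred {k : ℕ} {A B : MatN} (h : mred k A = mred k B) (v : Vec) :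
    Cgr k (A *ᵥ v) (B *ᵥ v) := mred_mulVec h v

theorem cgr_smul {k : ℕ} {v w : Vec} (h : Cgr k v w) (a : ℤ_[p]) : Cgr k (a • v) (a • w) :=
  fun i => by simp only [Pi.smul_apply, smul_eq_mul, ← mul_sub]; exact (h i).mul_left a

end

theorem cv_add (k : ℕ) (v w : Vec) : cv p k (v + w) = cv p k v * cv p k w := by
  rw [cv, map_add, ES.padChar_add]; rfl

theorem cv_smul (k : ℕ) (a : ℤ_[p]) (v : Vec) :
    cv p k (a • v) = cv p k v ^ (PadicInt.toZModPow k a).val := by
  rw [cv, map_smul, ES.padChar_smul]; rfl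

theorem coe_cv_apply (k : ℕ) (v : Vec) (i : ι₀) :
    ((cv p k v : parGroup (Gamma0 N) (p ^ k)) : Gamma0 N →* ℂˣ) (FermatAgent.Period.parElt _ i) =
      ES.zU (p ^ k) (Multiplicative.ofAdd (PadicInt.toZModPow k (v i))) := by
  rw [cv, ES.padChar_apply]
  congr 3
  exact congrFun ((parabolicCoords (Gamma0 N) ℤ_[p] ℤ_[p]).apply_symm_apply v) i

theorem cgr_of_cv_eq {k : ℕ} {v w : Vec} (h : cv p k v = cv p k w) : Cgr k v w := fun i => by
  have h1 := congrArg (fun χ : parGroup (Gamma0 N) (p ^ k) =>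
    (χ : Gamma0 N →* ℂˣ) (FermatAgent.Period.parElt _ i)) h
  simp only [coe_cv_apply] at h1
  rw [← Ideal.mem_span_singleton, ← PadicInt.ker_toZModPow, RingHom.mem_ker, map_sub, sub_eq_zero]
  exact Multiplicative.ofAdd.injective (ES.zU_injective _ h1)

theorem cv_eq_of_cgr {k : ℕ} {v w : Vec} (h : Cgr k v w) : cv p k v = cv p k w := by
  choose f hf using h
  have e : v = w + ((p : ℤ_[p]) ^ k) • f := by
    funext i
    simp only [Pi.add_apply, Pi.smul_apply, smul_eq_mul, ← hf i]; ring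
  rw [e, cv_add, cv_smul, show PadicInt.toZModPow k ((p : ℤ_[p]) ^ k) = 0 by
    rw [← RingHom.mem_ker, PadicInt.ker_toZModPow]; exact Ideal.mem_span_singleton_self _,
    ZMod.val_zero, pow_zero, mul_one]

theorem cv_zero (k : ℕ) : cv p k (0 : Vec) = 1 := by
  have := cv_add (p := p) k (0 : Vec) 0
  rw [add_zero] at this
  exact mul_left_cancel (this.symm.trans (mul_one _).symm)

theorem cv_neg (k : ℕ) (v : Vec) : cv p k (-v) = (cv p k v)⁻¹ := by
  refine eq_inv_of_mul_eq_one_left ?_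
  rw [← cv_add, neg_add_cancel, cv_zero]

theorem coe_cv_p_smul (k : ℕ) (v : Vec) :
    ((cv p (k + 1) ((p : ℤ_[p]) • v) : parGroup (Gamma0 N) (p ^ (k + 1))) : Gamma0 N →* ℂˣ) =
      (cv p k v : Gamma0 N →* ℂˣ) := by
  rw [cv, cv, map_smul, ← ES.padChar_succ p k]
  refine MonoidHom.ext fun γ => ?_
  rw [MonoidHom.pow_apply, ES.padChar_apply, ES.padChar_apply, ← map_pow, ← ofAdd_nsmul,
    nsmul_eq_mul, ← map_natCast (PadicInt.toZModPow (p := p) (k + 1)) p, ← map_mul]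
  rfl

/-- Multiplying by `p` lowers the exponent. -/
theorem coe_cv_shift (k : ℕ) (v : Vec) :
    ((cv p (k + 1) ((p : ℤ_[p]) ^ k • v) : parGroup (Gamma0 N) (p ^ (k + 1))) : Gamma0 N →* ℂˣ) =
      (cv p 1 v : Gamma0 N →* ℂˣ) := by
  induction k with
  | zero => rw [pow_zero, one_smul]
  | succ k ih => rw [← ih, ← coe_cv_p_smul (k + 1), smul_smul, ← pow_succ']

theorem cv_galMat (g : GQ) (k : ℕ) (v : Vec) :
    cv p k (ES.galMat p N g *ᵥ v) = galChar (goodLevel_Gamma0 N) (p ^ k) g (cv p k v) := by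
  obtain ⟨ψ, rfl⟩ := (parabolicCoords (Gamma0 N) ℤ_[p] ℤ_[p]).surjective v
  rw [cv, cv, ES.galMat_mulVec, LinearEquiv.symm_apply_apply, LinearEquiv.symm_apply_apply,
    ES.padChar_galPad]

variable (p N) in
/-- The matrix of `U_p`. -/
def matU : MatN := ES.heckePadMat p ⟨_, MF.heckeAt_mem hp.out (Set.notMem_empty p)⟩

theorem galMat_commute_matU (g : GQ) : Commute (ES.galMat p N g) (matU p N) :=
  ES.galMat_commute p _ g

/-- The matrix `U` is the transfer operator on characters. -/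
theorem cv_matU (hpN : p ∣ N) (k : ℕ) (v : Vec) :
    (cv p k (matU p N *ᵥ v) : Gamma0 N →* ℂˣ) =
      charOp (transferDataU hpN) (cv p k v : Gamma0 N →* ℂˣ) := by
  obtain ⟨ψ, rfl⟩ := (parabolicCoords (Gamma0 N) ℤ_[p] ℤ_[p]).surjective v
  rw [cv, cv, matU, ES.heckePadMat_mulVec, LinearEquiv.symm_apply_apply,
    LinearEquiv.symm_apply_apply,
    show FermatAgent.Period.parAction N ∅ ℤ_[p] ℤ_[p]
        ⟨_, MF.heckeAt_mem hp.out (Set.notMem_empty p)⟩ ψ =
      ⟨FermatAgent.Period.heckeOp ℤ_[p] N hp.out ψ.1,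
        FermatAgent.Period.isParabolicHom_heckeOp ℤ_[p] hp.out ψ.2⟩ from
      Subtype.ext (FermatAgent.Period.parAction_heckeAt ℤ_[p] ℤ_[p] hp.out (Set.notMem_empty p) ψ),
    ES.padChar_heckeOp, ES.heckeChar, dif_pos hpN]

/-! ### The Atkin involution -/

variable {M : ℕ} [NeZero M] (hM : M.Coprime p) {Γ' : Subgroup SL(2, ℤ)}
  (L : IsLevel p M (Gamma0 N) Γ')

omit [NeZero N] in
theorem trace_wHom (γ : Gamma0 N) :
    ((L.wHom hM γ : SL(2, ℤ)) : Matrix (Fin 2) (Fin 2) ℤ).trace =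
      ((γ : SL(2, ℤ)) : Matrix (Fin 2) (Fin 2) ℤ).trace := by
  rw [L.coe_wHom hM, Matrix.SpecialLinearGroup.coe_mul, Matrix.SpecialLinearGroup.coe_mul,
    Matrix.trace_mul_cycle, ← Matrix.SpecialLinearGroup.coe_mul, inv_mul_cancel,
    Matrix.SpecialLinearGroup.coe_one, one_mul, Matrix.trace_fin_two, Matrix.trace_fin_two]
  rfl

/-- The Atkin involution on homomorphisms. -/
def wLin : parabolicHoms ℤ_[p] (Gamma0 N) ℤ_[p] →ₗ[ℤ_[p]] parabolicHoms ℤ_[p] (Gamma0 N) ℤ_[p] where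
  toFun ψ := ⟨ψ.1.comp (MonoidHom.toAdditive (L.wHom hM)), fun γ hγ => ψ.2 _ (by
    rw [trace_wHom hM L]; exact hγ)⟩
  map_add' _ _ := rfl
  map_smul' _ _ := rfl

/-- The matrix of the Atkin involution. -/
def matW : MatN :=
  LinearMap.toMatrixAlgEquiv'
    ((parabolicCoords (Gamma0 N) ℤ_[p] ℤ_[p]).conjAlgEquiv ℤ_[p] (wLin hM L))

theorem matW_mulVec (ψ : parabolicHoms ℤ_[p] (Gamma0 N) ℤ_[p]) :
    matW hM L *ᵥ parabolicCoords (Gamma0 N) ℤ_[p] ℤ_[p] ψ =
      parabolicCoords (Gamma0 N) ℤ_[p] ℤ_[p] (wLin hM L ψ) := by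
  rw [matW, ← Matrix.toLinAlgEquiv'_apply, Matrix.toLinAlgEquiv'_toMatrixAlgEquiv']
  simp [LinearEquiv.conjAlgEquiv_apply]

theorem cv_matW (k : ℕ) (v : Vec) : cv p k (matW hM L *ᵥ v) = wPar hM L (p ^ k) (cv p k v) := by
  obtain ⟨ψ, rfl⟩ := (parabolicCoords (Gamma0 N) ℤ_[p] ℤ_[p]).surjective v
  rw [cv, cv, matW_mulVec, LinearEquiv.symm_apply_apply, LinearEquiv.symm_apply_apply]
  exact Subtype.ext (MonoidHom.ext fun γ => rfl)

include L in
/-- `W` commutes with Galois. -/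
theorem matW_commute (hdiv : p * M ∣ 12 * N) (g : GQ) :
    Commute (matW hM L) (ES.galMat p N g) := by
  refine Matrix.ext_iff_mulVec.mpr fun v => ?_
  refine (parabolicCoords (Gamma0 N) ℤ_[p] ℤ_[p]).symm.injective (ES.padChar_ext p fun k => ?_)
  show cv p k _ = cv p k _
  rw [← Matrix.mulVec_mulVec, ← Matrix.mulVec_mulVec, cv_matW, cv_galMat, cv_galMat, cv_matW]
  exact (conjChar_wPar hM L (goodLevel_Gamma0 N) hdiv (autC g) (cv p k v)).symm

/-- Acting by an element of the group does nothing. -/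
theorem cv_conj (k : ℕ) (v : Vec) (g γ : Gamma0 N) :
    (cv p k v : Gamma0 N →* ℂˣ) (g * γ * g⁻¹) = (cv p k v : Gamma0 N →* ℂˣ) γ := by
  rw [map_mul, map_mul, map_inv, mul_inv_cancel_comm]

section Square

variable {g : Gamma0 N} (hsq : ∀ γ, L.wHom hM (L.wHom hM γ) = g * γ * g⁻¹)

include hsq in
theorem cv_matW_matW (k : ℕ) (v : Vec) :
    cv p k (matW hM L *ᵥ (matW hM L *ᵥ v)) = cv p k v := by
  rw [cv_matW, cv_matW]
  refine Subtype.ext (MonoidHom.ext fun γ => ?_)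
  show (cv p k v : Gamma0 N →* ℂˣ) (L.wHom hM (L.wHom hM γ)) = _
  rw [hsq, cv_conj]

end Square

end FermatAgent.PSEMI
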