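import Fermat.Agent.PSEMI.Ord.Datum

/-!
# Restriction from `Γ₀(M₀)` to `Γ₀(p M₀)` and the operators at `p`

The two degeneracy maps on characters and their relations with `T_p`, `U_p` and conjugation.
-/

set_option autoImplicit false

open UpperHalfPlane CongruenceSubgroup OnePoint
open scoped MatrixGroups Matrix
open P2MW.S_ModularForm_heckeT_slash_eq_self_of_mem_Gamma0.ModularForm
open HeckeSlashInvariance

noncomputable section

namespace FermatAgent.PSEMI

open FermatAgent.ES (parGroup GoodLevel charOp conjChar IsConjTwist IsTwist IsParChar HasExp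
  goodLevel_Gamma0)
open FermatAgent.Period (transferDataU transferDataT)

variable {p : ℕ} [hp : Fact p.Prime] {M0 : ℕ} [NeZero M0] {N : ℕ} [NeZero N]
  {M : ℕ} [NeZero M] (hM : M.Coprime p) (L : IsLevel p M (Gamma0 N) (Gamma0 M0)) {n : ℕ}

/-- The inclusion. -/
def resHom : Gamma0 N →* Gamma0 M0 := Subgroup.inclusion L.le

/-- Conjugation by `diag(p, 1)`. -/
def degHom : Gamma0 N →* Gamma0 M0 where
  toFun γ := ⟨LevelMp.dilHom p (L.toG0 γ), (L.dil_iff _).mpr (L.le γ.2)⟩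
  map_one' := Subtype.ext (by simp [map_one])
  map_mul' γ δ := Subtype.ext (by simp [map_mul])

section

omit [NeZero M0] [NeZero N] [NeZero M]

theorem coe_degHom (γ : Gamma0 N) :
    ((degHom L γ : Gamma0 M0) : SL(2, ℤ)) = LevelMp.dilHom p (L.toG0 γ) := rfl

theorem isParChar_res {φ : Gamma0 M0 →* ℂˣ} (h : IsParChar (Gamma0 M0) φ) :
    IsParChar (Gamma0 N) (φ.comp (resHom L)) := fun _ hγ => h _ hγ

theorem res_mem (φ : parGroup (Gamma0 M0) n) :
    (φ : Gamma0 M0 →* ℂˣ).comp (resHom L) ∈ parGroup (Gamma0 N) n :=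
  ⟨MonoidHom.ext fun γ => DFunLike.congr_fun φ.2.1 (resHom L γ), isParChar_res L φ.2.2⟩

/-- The restricted character. -/
def resPar (φ : parGroup (Gamma0 M0) n) : parGroup (Gamma0 N) n := ⟨_, res_mem L φ⟩

omit hM in
/-- **`U` kills the second degeneracy image of a character killed by `p`.** -/
theorem charOp_deg (hpN : p ∣ N) {φ : Gamma0 M0 →* ℂˣ} (hφ : IsParChar (Gamma0 M0) φ)
    (hφp : φ ^ p = 1) : charOp (transferDataU hpN) (φ.comp (degHom L)) = 1 := by
  refine MonoidHom.ext fun γ => ?_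
  set D := transferDataU hpN
  set t : Gamma0 M0 := ⟨ModularGroup.T, L.T_mem⟩
  have ht : φ t = 1 := hφ _ (by simp [t, ModularGroup.coe_T, Matrix.trace_fin_two])
  have hx : ∀ x, φ (degHom L (D.factor γ x)) = φ (resHom L γ) := fun x => by
    have h := dilHom_of_hecke_mul (g := L.toG0 (D.factor γ x)) (D.factor_spec γ x)
    rw [show degHom L (D.factor γ x) =
      t ^ x.val * resHom L γ * (t ^ (D.perm γ x).val)⁻¹ from Subtype.ext (by
        rw [coe_degHom, h]; rfl), map_mul, map_mul, map_inv, map_pow, map_pow, ht, one_pow,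
      one_pow, inv_one, one_mul, mul_one]
  simp only [ES.charOp_apply, MonoidHom.comp_apply]
  rw [Finset.prod_congr rfl fun x _ => hx x, Finset.prod_const, Finset.card_univ,
    ZMod.card, MonoidHom.one_apply]
  exact DFunLike.congr_fun hφp (resHom L γ)

/-- **`T` restricted is `U` times the second degeneracy.** -/
theorem charOp_T_res (hpM0 : ¬ p ∣ M0) (hpN : p ∣ N) (φ : Gamma0 M0 →* ℂˣ) :
    (charOp (transferDataT hpM0) φ).comp (resHom L) =
      charOp (transferDataU hpN) (φ.comp (resHom L)) * φ.comp (degHom L) := by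
  refine MonoidHom.ext fun γ => ?_
  set DT := transferDataT (N := M0) hpM0
  set DU := transferDataU (N := N) hpN
  have hc : (((γ : SL(2, ℤ)) 1 0 : ℤ) : ZMod p) = 0 := Period.apply_one_zero_mod_eq_zero hpN γ
  have hinf : DT.perm (resHom L γ) ∞ = ∞ := by
    show redMatrix p (γ : SL(2, ℤ)) • (∞ : OnePoint (ZMod p)) = ∞
    rw [OnePoint.smul_infty_eq_self_iff]
    simp [hc]
  have hcoe : ∀ j : ZMod p, DT.perm (resHom L γ) (j : OnePoint (ZMod p)) =
      ((DU.perm γ j : ZMod p) : OnePoint (ZMod p)) := fun j => by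
    show redMatrix p (γ : SL(2, ℤ)) • (j : OnePoint (ZMod p)) = _
    have hd := unit_of_apply_one_zero_eq_zero (γ : SL(2, ℤ)) hc
    have ha : (((γ : SL(2, ℤ)) 0 0 : ℤ) : ZMod p) ≠ 0 := fun h => by
      rw [h] at hd; simp at hd
    rw [OnePoint.smul_some_eq_ite]
    simp only [redMatrix, Matrix.GeneralLinearGroup.val_mkOfDetNeZero, Matrix.of_apply,
      Matrix.cons_val', Matrix.cons_val_zero,
      Matrix.cons_val_one, Matrix.empty_val', Matrix.cons_val_fin_one, hc, zero_mul, zero_add,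
      if_neg ha]
    congr 1
    show _ = ((((γ : SL(2, ℤ)) 1 1 : ℤ) : ZMod p)) *
      ((((γ : SL(2, ℤ)) 0 1 : ℤ) : ZMod p) + (((γ : SL(2, ℤ)) 1 1 : ℤ) : ZMod p) * j)
    rw [div_eq_iff ha]
    linear_combination
      -((((γ : SL(2, ℤ)) 1 1 : ℤ) : ZMod p) * j + (((γ : SL(2, ℤ)) 0 1 : ℤ) : ZMod p)) * hd
  have hfin : ∀ j : ZMod p, DT.factor (resHom L γ) (j : OnePoint (ZMod p)) =
      resHom L (DU.factor γ j) := fun j => by
    have h1 := DT.factor_spec (resHom L γ) (j : OnePoint (ZMod p))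
    rw [hcoe] at h1
    have h2 := DU.factor_spec γ j
    exact Subtype.ext (Matrix.SpecialLinearGroup.mapGL_injective (S := ℝ)
      (mul_right_cancel (h1.symm.trans h2)))
  have hdeg : DT.factor (resHom L γ) ∞ = degHom L γ := by
    have h1 := DT.factor_spec (resHom L γ) ∞
    rw [hinf] at h1
    have h2 := dilDiag_mul (L.toG0 γ)
    exact Subtype.ext (Matrix.SpecialLinearGroup.mapGL_injective (S := ℝ)
      (mul_right_cancel (h1.symm.trans h2)))
  show ∏ x, φ (DT.factor (resHom L γ) x) =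
    (∏ j, φ (resHom L (DU.factor γ j))) * φ (degHom L γ)
  rw [ES.prod_onePoint, hdeg, mul_comm, Finset.prod_congr rfl fun j _ => congrArg φ (hfin j)]

/-- Restriction is injective on parabolic characters. -/
theorem eq_one_of_res (hN : N = p * M0) {φ : Gamma0 M0 →* ℂˣ} (hφ : IsParChar (Gamma0 M0) φ)
    (h : φ.comp (resHom L) = 1) : φ = 1 := by
  refine MonoidHom.ext fun γ => ?_
  obtain ⟨c, hc⟩ := Period.dvd_apply_one_zero γ
  obtain ⟨kk, hk⟩ : ∃ k : ℕ, ((c * (M0 : ℤ) * k + (γ : SL(2, ℤ)) 1 1 : ℤ) : ZMod p) ≠ 0 := by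
    by_cases hd : (((γ : SL(2, ℤ)) 1 1 : ℤ) : ZMod p) = 0
    · refine ⟨1, fun h1 => ?_⟩
      have hdet := congrArg (Int.cast : ℤ → ZMod p)
        (Matrix.det_fin_two ((γ : SL(2, ℤ)) : Matrix (Fin 2) (Fin 2) ℤ))
      rw [(γ : SL(2, ℤ)).2] at hdet
      push_cast at hdet h1
      rw [hd, mul_one, add_zero] at h1
      rw [hc] at hdet
      push_cast at hdet
      rw [hd, mul_comm (M0 : ZMod p), h1, mul_zero, mul_zero, sub_zero] at hdet
      exact one_ne_zero hdet
    · exact ⟨0, by simpa using hd⟩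
  set e : ℤ := c * M0 * kk + (γ : SL(2, ℤ)) 1 1
  obtain ⟨i, hi⟩ : ∃ i : ℤ, (p : ℤ) ∣ c + i * e := by
    refine ⟨((-(c : ZMod p) * (e : ZMod p)⁻¹).val : ℤ), ?_⟩
    rw [← ZMod.intCast_zmod_eq_zero_iff_dvd]
    push_cast
    rw [ZMod.natCast_zmod_val, mul_assoc, inv_mul_cancel₀ hk, mul_one, add_neg_cancel]
  set Lw : Gamma0 M0 := ⟨⟨!![1, 0; i * M0, 1], by simp [Matrix.det_fin_two_of]⟩, by
    simp [Gamma0_mem]⟩
  set t : Gamma0 M0 := ⟨ModularGroup.T, L.T_mem⟩
  have ht : φ t = 1 := hφ _ (by simp [t, ModularGroup.coe_T, Matrix.trace_fin_two])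
  have hL : φ Lw = 1 := hφ _ (by simp [Lw, Matrix.trace_fin_two])
  have hmem : ((γ * t ^ kk * Lw : Gamma0 M0) : SL(2, ℤ)) ∈ Gamma0 N := by
    rw [Gamma0_mem, ZMod.intCast_zmod_eq_zero_iff_dvd, hN, Nat.cast_mul]
    obtain ⟨u, hu⟩ := hi
    refine ⟨u, ?_⟩
    simp only [Subgroup.coe_mul, SubgroupClass.coe_pow, t, Lw, ES.T_pow_coe,
      Matrix.SpecialLinearGroup.coe_mul, Matrix.mul_apply, Fin.sum_univ_two]
    simp only [Matrix.of_apply, Matrix.cons_val', Matrix.cons_val_zero, Matrix.cons_val_one,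
      Matrix.empty_val', Matrix.cons_val_fin_one, hc]
    linear_combination (M0 : ℤ) * hu
  have h1 := DFunLike.congr_fun h ⟨_, hmem⟩
  simp only [MonoidHom.comp_apply, MonoidHom.one_apply] at h1
  rw [show resHom L ⟨_, hmem⟩ = γ * t ^ kk * Lw from Subtype.ext rfl, map_mul, map_mul, map_pow,
    ht, hL, one_pow, mul_one, mul_one] at h1
  exact h1

end

omit [NeZero M0] [NeZero N] in
include hM in
theorem wHom_res (φ : Gamma0 M0 →* ℂˣ) :
    (φ.comp (resHom L)).comp (L.wHom hM) = φ.comp (degHom L) := by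
  refine MonoidHom.ext fun γ => ?_
  set a : Gamma0 M0 := ⟨_, L.atkin_mem' hM⟩
  show φ (resHom L (L.wHom hM γ)) = φ (degHom L γ)
  rw [show resHom L (L.wHom hM γ) = a * degHom L γ * a⁻¹ from Subtype.ext rfl, map_mul, map_mul,
    map_inv, mul_right_comm, mul_inv_cancel, one_mul]

omit [NeZero M] in
/-- Conjugation commutes with restriction. -/
theorem conjChar_res (hN : N = p * M0) [NeZero n] (σ : ℂ ≃+* ℂ) (φ : parGroup (Gamma0 M0) n) :
    conjChar (goodLevel_Gamma0 N) σ (resPar L φ) =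
      resPar L (conjChar (goodLevel_Gamma0 M0) σ φ) := by
  obtain ⟨i, v, v', c, hv, hv0, hv', -, hc, hc'⟩ := ES.conjChar_spec (goodLevel_Gamma0 M0) σ φ
  have hres : ∀ {χ : Gamma0 M0 →* ℂˣ} {f : ℍ → ℂ}, IsTwist (Gamma0 M0) ((2 * i : ℕ) : ℤ) χ f →
      IsTwist (Gamma0 N) ((2 * i : ℕ) : ℤ) (χ.comp (resHom L)) f := fun hf =>
    ⟨hf.mdiff, fun γ => hf.slash (resHom L γ), hf.bdd⟩
  have e : 12 * N = p * (12 * M0) := by rw [hN]; ring
  refine ES.conjChar_eq (goodLevel_Gamma0 N) (IsConjTwist.mk_of (hres hv) hv0 (hres hv')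
    (c := PowerSeries.expand p hp.out.ne_zero c) ?_ ?_)
  · rw [e]; exact hc.expand hp.out.ne_zero
  · rw [e, PowerSeries.map_expand]; exact hc'.expand hp.out.ne_zero

end FermatAgent.PSEMI
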