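import Fermat.Agent.PSEMI.Ord.Shape
import Fermat.Agent.ES.Tate.Cyclo

/-!
# Smallness through complex conjugation
-/

set_option autoImplicit false

open IsLocalRing

noncomputable section

namespace FermatAgent.PSEMI

open MatLim
open FermatAgent.ES (GQ)

variable {p : ℕ} [hp : Fact p.Prime] {κ : Type} [Fintype κ] [DecidableEq κ] {T : Type}
  [CommRing T] [IsLocalRing T]

local notation "MatP" => Matrix κ κ ℤ_[p]

namespace HeckeAct

variable (A : HeckeAct p κ T GQ) {e : A.R0} (he : e * e = e) (heφ : A.φ e = 1)
  (hmin : ∀ f : A.R0, f * f = f → A.toHeckePart.θ f = 1 → e * f = e)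

include he heφ hmin in
/-- A minimal idempotent of an odd action is small. -/
theorem small_of_cyc (hcyc : A.cyc = ES.padCyclo p) (h2 : (2 : ResidueField T) ≠ 0) :
    A.Small (e : MatP) := by
  have hc : A.cyc complexConjugation = -1 := by rw [hcyc, ES.padCyclo_complexConjugation]
  have ht : A.τ complexConjugation = 0 := by
    refine Subtype.ext ?_
    rw [A.τ_eq, hc, inv_eq_of_mul_eq_one_right complexConjugation_mul_self, map_neg, map_one,
      neg_one_mul, add_neg_cancel]
    rfl
  refine A.small_of_root he heφ hmin (σ0 := complexConjugation) (α := 1) ?_ ?_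
  · rw [show A.d complexConjugation = -1 from Subtype.ext (by
      show algebraMap ℤ_[p] MatP (A.cyc complexConjugation) = _
      rw [hc, map_neg, map_one]; rfl), ht]
    ring
  · rw [ht, zero_sub, sub_neg_eq_add, map_add, map_one, one_add_one_eq_two]
    exact h2

end HeckeAct

end FermatAgent.PSEMI
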