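import Fermat.Agent.Flat.Split.Lin
import Fermat.Agent.Period.Hecke
import Fermat.Agent.HM.HeckeCosets

/-!
# `U_p` and the map to the split level

For `p` dividing the level, the transfer at `p` on the homomorphisms of `Γ_H` corresponds to `U_p`
at the split level, the translations being multiplied by `p`.
-/

set_option autoImplicit false

open CongruenceSubgroup
open scoped MatrixGroups
open ModularCurve.Period
open FermatAgent.HM
open FermatAgent.Period (transferDataU)

noncomputable section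

namespace FermatAgent.PSEMI

open FermatAgent.Flat.Split

local notation "Mat2Z" => Matrix (Fin 2) (Fin 2) ℤ

variable {p : ℕ} [hp : Fact p.Prime]

/-- The factors of `U_p` as integral matrices. -/
theorem factorU_spec {L : ℕ} (hpL : p ∣ L) (γ : Gamma0 L) (j : ZMod p) :
    repMat p j * ((γ : SL(2, ℤ)) : Mat2Z) =
      (((transferDataU hpL).factor γ j : SL(2, ℤ)) : Mat2Z) *
        repMat p ((transferDataU hpL).perm γ j : ZMod p) := by
  have h := (transferDataU hpL).factor_spec γ j
  ext a b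
  have h1 := congrArg (fun X : GL (Fin 2) ℝ => X.val a b) h
  have e : ∀ (k : ZMod p) (i i' : Fin 2), ((transferDataU hpL).rep k).val i i' =
      ((repMat p (k : OnePoint (ZMod p))) i i' : ℝ) := fun k i i' => by
    rw [← val_intGL (repMat p (k : OnePoint (ZMod p))) (det_repMat_ne_zero _) i i', intGL_repMat]
    rfl
  simp only [Units.val_mul, Matrix.mul_apply, Fin.sum_univ_two, e] at h1 ⊢
  refine (Int.cast_injective (α := ℝ)) ?_
  push_cast
  exact h1

/-- Translations of `(1 j; 0 p)` are irredundant. -/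
theorem repMat_irredundant {g : SL(2, ℤ)} {i k : ZMod p}
    (h : (g : Mat2Z) * repMat p i = repMat p k) : i = k := by
  have h00 := congrFun (congrFun h 0) 0
  have h01 := congrFun (congrFun h 0) 1
  simp only [repMat_coe, Matrix.mul_apply, Fin.sum_univ_two, Matrix.of_apply, Matrix.cons_val',
    Matrix.cons_val_zero, Matrix.cons_val_one, Matrix.cons_val_fin_one, mul_one, mul_zero,
    add_zero] at h00 h01
  have := congrArg (Int.cast : ℤ → ZMod p) h01
  rw [h00] at this
  simpa using this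

section Split

variable {Δ : Type*} [CommGroup Δ] {N L M : ℕ} [NeZero N]
variable {δ : (ZMod N)ˣ →* Δ} {hNM : N ∣ M}

omit [NeZero N] in
/-- The factors of `U_p` keep the lower right entry modulo `N`. -/
theorem cls_factorU (hpL : p ∣ M * N ^ 2) (γ : Gamma0 (M * N ^ 2)) (j : ZMod p) :
    cls N M ((transferDataU hpL).factor γ j) = cls N M γ := by
  set f : Gamma0 (M * N ^ 2) := (transferDataU hpL).factor γ j
  rw [gammaClass_comp, gammaClass_comp (sqUnits N) _ γ]
  congr 1
  refine Units.ext ?_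
  rw [coe_gammaClass, coe_gammaClass]
  have h := factorU_spec hpL γ j
  have h10 := congrFun (congrFun h 1) 0
  have h11 := congrFun (congrFun h 1) 1
  simp only [repMat_coe, Matrix.mul_apply, Fin.sum_univ_two, Matrix.of_apply, Matrix.cons_val',
    Matrix.cons_val_zero, Matrix.cons_val_one, Matrix.cons_val_fin_one, zero_mul, zero_add, mul_one,
    mul_zero, add_zero] at h10 h11
  have h11' : (f : SL(2, ℤ)) 1 1 = (γ : SL(2, ℤ)) 1 1 -
      (γ : SL(2, ℤ)) 1 0 * ((transferDataU hpL).perm γ j).val := by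
    refine mul_left_cancel₀ (Int.natCast_ne_zero.mpr hp.out.ne_zero) ?_
    rw [← h10] at h11
    linear_combination -h11
  rw [h11']
  obtain ⟨z, hz⟩ := (ZMod.intCast_zmod_eq_zero_iff_dvd _ _).mp (Gamma0_mem.mp γ.2)
  rw [hz]
  push_cast
  rw [ZMod.natCast_self]
  ring

/-- The factor of an element of the split group. -/
def splitFactorU (hpL : p ∣ M * N ^ 2) (c : splitGroup N M) (j : ZMod p) : splitGroup N M :=
  toGammaH (sqUnits N) (dvd_split N M)
    ((transferDataU hpL).factor ⟨c, ((mem_gammaH_iff _ _).mp c.2).1⟩ j) (by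
      rw [cls_factorU]; exact ((mem_gammaH_iff _ _).mp c.2).2)

/-- The permutation of the representatives by an element of the split group. -/
abbrev splitPermU (hpL : p ∣ M * N ^ 2) (c : splitGroup N M) : Equiv.Perm (ZMod p) :=
  (transferDataU hpL).perm ⟨c, ((mem_gammaH_iff _ _).mp c.2).1⟩

/-- The reduction to the split group of an element. -/
def cosetRed (a : Gamma0 (M * N ^ 2)) : splitGroup N M :=
  toGammaH (sqUnits N) (dvd_split N M) (a * (cosetRep (⟨cls N M a, a, rfl⟩ : Cosets N M))⁻¹)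
    (by rw [map_mul, map_inv, cls_cosetRep]; exact mul_inv_cancel _)

variable {A : Type*} [AddCommGroup A] (Ψ : Additive (splitGroup N M) →+ A)

/-- The values of a homomorphism of the split group extended to `Γ₀(M N²)`. -/
def cosetVal (a : Gamma0 (M * N ^ 2)) : A := Ψ (Additive.ofMul (cosetRed a))

omit [NeZero N] in
theorem cosetVal_mul (g : splitGroup N M) (g' a : Gamma0 (M * N ^ 2))
    (hg : (g' : SL(2, ℤ)) = (g : SL(2, ℤ))) :
    cosetVal Ψ (g' * a) = Ψ (Additive.ofMul g) + cosetVal Ψ a := by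
  have hc : cls N M g' = 1 := by
    rw [show g' = ⟨(g : SL(2, ℤ)), ((mem_gammaH_iff _ _).mp g.2).1⟩ from Subtype.ext hg]
    exact ((mem_gammaH_iff _ _).mp g.2).2
  have e : (⟨cls N M (g' * a), g' * a, rfl⟩ : Cosets N M) = ⟨cls N M a, a, rfl⟩ :=
    Subtype.ext ((map_mul (cls N M) g' a).trans (by rw [hc]; exact one_mul _))
  rw [cosetVal, cosetVal, ← map_add Ψ, ← ofMul_mul]
  congr 2
  refine Subtype.ext ?_
  show ((g' * a * (cosetRep _)⁻¹ : Gamma0 _) : SL(2, ℤ)) =
    (g : SL(2, ℤ)) * ((a * (cosetRep _)⁻¹ : Gamma0 _) : SL(2, ℤ))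
  rw [e, ← hg, mul_assoc, Subgroup.coe_mul]

omit [NeZero N] in
theorem cosetVal_sub {a δ' : Gamma0 (M * N ^ 2)} {x : Cosets N M} (ha : cls N M a = x) :
    Ψ (Additive.ofMul (cosetFac δ' x)) = cosetVal Ψ (a * δ') - cosetVal Ψ a := by
  have e : (⟨cls N M a, a, rfl⟩ : Cosets N M) = x := Subtype.ext ha
  have ea : a = (⟨(cosetRed a : SL(2, ℤ)), ((mem_gammaH_iff _ _).mp (cosetRed a).2).1⟩ :
      Gamma0 (M * N ^ 2)) * cosetRep x := Subtype.ext (by
    show _ = ((a * (cosetRep _)⁻¹ : Gamma0 _) : SL(2, ℤ)) * _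
    rw [e, ← Subgroup.coe_mul, inv_mul_cancel_right])
  have e2 : cosetVal Ψ (cosetRep x * δ') = Ψ (Additive.ofMul (cosetFac δ' x)) := by
    rw [cosetVal]
    congr 2
    refine Subtype.ext ?_
    show ((cosetRep x * δ' * (cosetRep _)⁻¹ : Gamma0 _) : SL(2, ℤ)) = _
    rw [coe_cosetFac, Subgroup.coe_mul, Subgroup.coe_mul, Subgroup.coe_inv]
    congr 4
    exact Subtype.ext ((map_mul (cls N M) (cosetRep x) δ').trans (by rw [cls_cosetRep]; rfl))
  conv_rhs => arg 1; rw [ea, mul_assoc, cosetVal_mul Ψ (cosetRed a) _ _ rfl, e2]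
  exact (add_sub_cancel_left _ _).symm

variable [Fintype (ZMod p)]

omit [NeZero N] in
/-- **Corestriction commutes with `U_p`.** -/
theorem sum_factor_cor (hpL : p ∣ M * N ^ 2) (γ : Gamma0 (M * N ^ 2)) :
    ∑ j : ZMod p, ∑ x : Cosets N M,
        Ψ (Additive.ofMul (cosetFac ((transferDataU hpL).factor γ j) x)) =
      ∑ x : Cosets N M, ∑ j : ZMod p,
        Ψ (Additive.ofMul (splitFactorU hpL (cosetFac γ x) j)) := by
  set D := transferDataU hpL
  let f : Cosets N M → ZMod p → A := fun x j => cosetVal Ψ (D.factor (cosetRep x) j)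
  have key : ∀ x j, Ψ (Additive.ofMul (cosetFac (D.factor γ (D.perm (cosetRep x) j)) x)) =
      Ψ (Additive.ofMul (splitFactorU hpL (cosetFac γ x) j)) +
        f (cosetMove γ x) (splitPermU hpL (cosetFac γ x) j) - f x j := fun x j => by
    set c : Gamma0 (M * N ^ 2) :=
      ⟨(cosetFac γ x : SL(2, ℤ)), ((mem_gammaH_iff _ _).mp (cosetFac γ x).2).1⟩
    have e : cosetRep x * γ = c * cosetRep (cosetMove γ x) := Subtype.ext (by
      show _ = (cosetFac γ x : SL(2, ℤ)) * _
      rw [coe_cosetFac, inv_mul_cancel_right]; rfl)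
    rw [cosetVal_sub Ψ (a := D.factor (cosetRep x) j) (by rw [cls_factorU, cls_cosetRep]),
      ← D.factor_mul, e, D.factor_mul, cosetVal_mul Ψ (splitFactorU hpL (cosetFac γ x) j) _ _ rfl]
  rw [Finset.sum_comm]
  calc ∑ x : Cosets N M, ∑ j : ZMod p, Ψ (Additive.ofMul (cosetFac (D.factor γ j) x))
      = ∑ x : Cosets N M, ∑ j : ZMod p,
          Ψ (Additive.ofMul (cosetFac (D.factor γ (D.perm (cosetRep x) j)) x)) :=
        Finset.sum_congr rfl fun x _ => (Equiv.sum_comp (D.perm (cosetRep x))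
          fun j => Ψ (Additive.ofMul (cosetFac (D.factor γ j) x))).symm
    _ = ∑ x : Cosets N M, ∑ j : ZMod p, Ψ (Additive.ofMul (splitFactorU hpL (cosetFac γ x) j)) +
        (∑ x : Cosets N M, ∑ j : ZMod p, f (cosetMove γ x) j -
          ∑ x : Cosets N M, ∑ j : ZMod p, f x j) := by
        rw [← Finset.sum_sub_distrib, ← Finset.sum_add_distrib]
        refine Finset.sum_congr rfl fun x _ => ?_
        rw [← Equiv.sum_comp (splitPermU hpL (cosetFac γ x)) (f (cosetMove γ x)),
          ← Finset.sum_sub_distrib, ← Finset.sum_add_distrib]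
        exact Finset.sum_congr rfl fun j _ => (key x j).trans (add_sub_assoc _ _ _)
    _ = _ := by
        rw [(bijective_cosetMove γ).sum_comp fun x => ∑ j : ZMod p, f x j, sub_self, add_zero]

end Split

section Transfer

variable {Δ : Type*} [CommGroup Δ] {N L M : ℕ} [NeZero N]
variable {δ : (ZMod N)ˣ →* Δ} {hNM : N ∣ M} (hsq : ∀ x : (ZMod N)ˣ, x ^ 2 = 1 → δ x = 1)
variable {R : Type*} [CommRing R]
variable {E : Corr (sigma0 N L) (gammaH δ hNM) (gammaH δ hNM) (HIdx M p)} {r : HIdx M p → Gamma0 M}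

/-- **`U_p` on a translate.** -/
theorem homOp_shiftHom (h : ShiftedCorr E r) (hpM : p ∣ M) (hpL : p ∣ M * N ^ 2)
    (Φ : Additive (gammaH δ hNM) →+ R) (u : ℤ) (c : splitGroup N M) :
    E.homOp Φ (Additive.ofMul (shiftHom hNM hsq ((p : ℤ) * u) c)) =
      ∑ j : ZMod p, Φ (Additive.ofMul (shiftHom hNM hsq u (splitFactorU hpL c j))) := by
  set g : gammaH δ hNM := shiftHom hNM hsq ((p : ℤ) * u) c
  let hh : ZMod p → gammaH δ hNM := fun (j : ZMod p) => shiftHom hNM hsq u (splitFactorU hpL c j)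
  have hh' : ∀ j : ZMod p, repMat p j * ((g : SL(2, ℤ)) : Mat2Z) =
      ((hh j : SL(2, ℤ)) : Mat2Z) * repMat p (splitPermU hpL c j : ZMod p) := fun j => by
    have ht : ∀ k : ZMod p, shiftMat N u * repMat p k = repMat p k * shiftMat N ((p : ℤ) * u) :=
      fun k => by
        ext a b
        fin_cases a <;> fin_cases b <;>
          simp [shiftMat, Matrix.mul_apply, Fin.sum_univ_two] <;> ring
    have hf : repMat p j * ((c : SL(2, ℤ)) : Mat2Z) =
        ((splitFactorU hpL c j : SL(2, ℤ)) : Mat2Z) * repMat p (splitPermU hpL c j : ZMod p) :=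
      factorU_spec hpL ⟨(c : SL(2, ℤ)), ((mem_gammaH_iff _ _).mp c.2).1⟩ j
    have hcan : ∀ X Y : Mat2Z,
        X * shiftMat N ((p : ℤ) * u) = Y * shiftMat N ((p : ℤ) * u) → X = Y := fun X Y hXY => by
      have h1 := congrArg (fun Z => Z * (shiftMat N ((p : ℤ) * u)).adjugate) hXY
      simp only [Matrix.mul_assoc, Matrix.mul_adjugate, Matrix.mul_smul, mul_one] at h1
      exact smul_right_injective _ (det_shiftMat_ne _) h1
    apply hcan
    rw [mul_assoc, ← shiftHom_spec hNM hsq, ← mul_assoc, ← ht, mul_assoc, hf, ← mul_assoc,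
      shiftHom_spec hNM hsq,
      mul_assoc, ht, ← mul_assoc]
  let el : ZMod p → gammaH δ hNM := fun j => toGammaH δ hNM (r (coeIdx j)) (h.class_coe j)
  have hbij : Function.Bijective (coeIdx (M := M) (ℓ := p)) := ⟨fun a b e => by
      simpa [coeIdx] using e, fun x => by
    obtain ⟨x, hx⟩ := x
    induction x using OnePoint.rec with
    | infty => exact absurd hpM (hx rfl)
    | coe j => exact ⟨j, rfl⟩⟩
  have hrep : ∀ k : ZMod p, E.rep (coeIdx k) =
      (((el k)⁻¹ : gammaH δ hNM) : SL(2, ℤ)).1 * repMat p k := fun k => by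
    rw [h.rep_eq]; rfl
  have hperm : ∀ j, E.perm g (coeIdx j) = coeIdx (splitPermU hpL c j) ∧
      E.fac g (coeIdx j) = (el j)⁻¹ * hh j * el (splitPermU hpL c j) := fun j => by
    set k := splitPermU hpL c j
    obtain ⟨k', hk'⟩ := hbij.2 (E.perm g (coeIdx j))
    have e1 : E.rep (coeIdx j) * ((g : SL(2, ℤ)) : Mat2Z) =
        ((((el j)⁻¹ * hh j * el k : gammaH δ hNM) : SL(2, ℤ)) : Mat2Z) * E.rep (coeIdx k) := by
      have hcan : ((el k : gammaH δ hNM) : SL(2, ℤ)).1 *
          (((el k)⁻¹ : gammaH δ hNM) : SL(2, ℤ)).1 = 1 := by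
        rw [← Matrix.SpecialLinearGroup.coe_mul, ← Subgroup.coe_mul, mul_inv_cancel]; rfl
      rw [hrep, hrep, mul_assoc, hh', Subgroup.coe_mul, Subgroup.coe_mul,
        Matrix.SpecialLinearGroup.coe_mul, Matrix.SpecialLinearGroup.coe_mul]
      simp only [mul_assoc]
      rw [← mul_assoc (((el k : gammaH δ hNM) : SL(2, ℤ)).1), hcan, one_mul]
    have e2 := (E.fac_spec g (coeIdx j)).symm.trans e1
    rw [← hk', hrep, hrep, ← mul_assoc, ← mul_assoc, ← Matrix.SpecialLinearGroup.coe_mul,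
      ← Matrix.SpecialLinearGroup.coe_mul] at e2
    set a : SL(2, ℤ) := (E.fac g (coeIdx j) : SL(2, ℤ)) * (((el k')⁻¹ : gammaH δ hNM) : SL(2, ℤ))
    set b : SL(2, ℤ) := (((el j)⁻¹ * hh j * el k : gammaH δ hNM) : SL(2, ℤ)) *
      (((el k)⁻¹ : gammaH δ hNM) : SL(2, ℤ))
    have hkk : k' = k := repMat_irredundant (g := b⁻¹ * a) (by
      rw [Matrix.SpecialLinearGroup.coe_mul, mul_assoc, e2, ← mul_assoc,
        ← Matrix.SpecialLinearGroup.coe_mul, inv_mul_cancel, Matrix.SpecialLinearGroup.coe_one,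
        one_mul])
    have hp1 : E.perm g (coeIdx j) = coeIdx k := by rw [← hk', hkk]
    exact ⟨hp1, E.fac_unique (by rw [hp1]; exact e1)⟩
  rw [Corr.homOp_apply, ← Fintype.sum_bijective coeIdx hbij _ _ fun _ => rfl,
    Finset.sum_congr rfl fun j _ => show Φ (Additive.ofMul (E.fac g (coeIdx j))) =
      Φ (Additive.ofMul (hh j)) + (Φ (Additive.ofMul (el (splitPermU hpL c j))) -
        Φ (Additive.ofMul (el j))) by
      rw [(hperm j).2, ofMul_mul, ofMul_mul, map_add, map_add, ofMul_inv, map_neg]; abel,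
    Finset.sum_add_distrib, Finset.sum_sub_distrib,
    Equiv.sum_comp (splitPermU hpL c) fun j => Φ (Additive.ofMul (el j)), sub_self, add_zero]

/-- **`U_p` and the map to the split level.** -/
theorem splitHom_homOp (h : ShiftedCorr E r) (hpM : p ∣ M) (hpL : p ∣ M * N ^ 2)
    (Φ : Additive (gammaH δ hNM) →+ R) (u : ZMod N) :
    splitHom hNM hsq (E.homOp Φ) ((p : ZMod N) * u) =
      (transferDataU hpL).op R (splitHom hNM hsq Φ u) := by
  refine AddMonoidHom.ext fun x => ?_
  obtain ⟨γ, rfl⟩ := Additive.ofMul.surjective x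
  rw [FermatAgent.Period.TransferData.op_apply, splitHom_apply]
  let Ψ : Additive (splitGroup N M) →+ R :=
    Φ.comp (MonoidHom.toAdditive (shiftHom hNM hsq (u.val : ℤ)))
  have e : ∀ y : Cosets N M,
      E.homOp Φ (Additive.ofMul (shiftHom hNM hsq ((((p : ZMod N) * u).val : ℕ) : ℤ)
        (cosetFac γ y))) =
      ∑ j : ZMod p, Ψ (Additive.ofMul (splitFactorU hpL (cosetFac γ y) j)) := fun y => by
    rw [show (∑ j : ZMod p, Ψ (Additive.ofMul (splitFactorU hpL (cosetFac γ y) j))) = _ from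
      (homOp_shiftHom hsq h hpM hpL Φ (u.val : ℤ) (cosetFac γ y)).symm]
    exact congrArg Multiplicative.toAdd (DFunLike.congr_fun (comp_shiftHom_congr hNM hsq
      (AddMonoidHom.toMultiplicativeRight (E.homOp Φ))
      (u := ((((p : ZMod N) * u).val : ℕ) : ℤ)) (v := (p : ℤ) * (u.val : ℤ)) (by simp)) _)
  rw [Finset.sum_congr rfl fun y _ => e y, ← sum_factor_cor Ψ hpL γ]
  exact Finset.sum_congr rfl fun j _ => (splitHom_apply hNM hsq Φ u _).symm

end Transfer

end FermatAgent.PSEMI
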