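import Fermat.Agent.PSEMI.Ord.Restrict
import Fermat.Agent.PSEMI.Ord.Small

/-!
# Ordinary inertia at `p ∤ M` forces a unit eigenvalue of `T_p`

If inertia has residual trace `1` plus the determinant, the residual value of `T_p` is not zero.
-/

set_option autoImplicit false

open UpperHalfPlane CongruenceSubgroup IsLocalRing
open scoped MatrixGroups Matrix

noncomputable section

namespace FermatAgent.PSEMI

open MatLim
open ModularCurve.Period
open FermatAgent.ES (parGroup GoodLevel charOp conjChar CPlace AuxLevel GQ embC autC galChar zetaC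
  goodLevel_Gamma0)
open FermatAgent.Period (parRank parabolicCoords transferDataU transferDataT TransferData)
open LevelMp (pmLam)

variable {p : ℕ} [hp : Fact p.Prime]

theorem charOp_inv' {Γ : Subgroup SL(2, ℤ)} {ι : Type} [Fintype ι] (D : TransferData Γ ι)
    (φ : Γ →* ℂˣ) : charOp D φ⁻¹ = (charOp D φ)⁻¹ :=
  MonoidHom.ext fun γ => by simp [ES.charOp_apply, Finset.prod_inv_distrib]

section Fixed

variable {κ : Type} [Fintype κ] [DecidableEq κ] {T : Type} [CommRing T] [IsLocalRing T]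
  {𝒢 : Type} [Group 𝒢] (A : HeckeAct p κ T 𝒢) {e : A.R0} (he : e * e = e) (heφ : A.φ e = 1)
  (hmin : ∀ f : A.R0, f * f = f → A.toHeckePart.θ f = 1 → e * f = e)

local notation "MatP" => Matrix κ κ ℤ_[p]

include he heφ hmin in
/-- An element with residual eigenvalues `w ≠ 1` and `1` fixes a vector modulo `p`. -/
theorem HeckeAct.exists_fixed (σ0 : 𝒢) {w : ℕ} (hw : (w : ResidueField T) ≠ 1)
    (htr : A.toHeckePart.θ (A.τ σ0) = (w : ResidueField T) + 1)
    (hdet : A.toHeckePart.θ (A.d σ0) = w) :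
    ∃ X : Matrix κ κ (ZMod (p ^ 1)), X ≠ 0 ∧ mred 1 (e : MatP) * X = X ∧
      mred 1 (A.G σ0) * X = X := by
  by_contra hcon
  push Not at hcon
  obtain ⟨α, hαθ, hα⟩ := HeckePart.exists_quad_root he hmin hw htr hdet
  set β := A.τ σ0 - α with hβdef
  have hβθ : A.toHeckePart.θ β = 1 := by rw [hβdef, map_sub, htr, hαθ, add_sub_cancel_left]
  set g := mred 1 (A.G σ0)
  set E := mred 1 (e : MatP)
  have hEE : E * E = E := by rw [← map_mul]; exact congrArg (mred 1) (congrArg Subtype.val he)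
  have hR : ∀ r : A.R0, Commute g (mred 1 (r : MatP)) := fun r => (A.commG σ0 r r.2).map _
  have hRR : ∀ r s : A.R0, Commute (mred 1 (r : MatP)) (mred 1 (s : MatP)) := fun r s =>
    (A.comm _ r.2 _ s.2).map _
  have cE : Commute E (g - mred 1 (α : MatP)) := (hR e).symm.sub_right (hRR e α)
  have hquad : (g - mred 1 (β : MatP)) * ((g - mred 1 (α : MatP)) * E) = 0 := by
    have h := congrArg (mred 1) (A.root_mul hα)
    simp only [map_mul, map_sub, map_zero] at h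
    rw [← h, ← mul_assoc]
    congr 1
    exact ((Commute.refl g).sub_left (hR β).symm).sub_right ((hR α).sub_left (hRR β α))
  obtain ⟨j, hj⟩ := HeckePart.nil_of_θ hmin (x := β - 1)
    (by rw [map_sub, map_one, hβθ, sub_self]) 1
  set Y := (g - mred 1 (α : MatP)) * E
  have hY : E * Y = Y := by rw [← mul_assoc, cE.eq, mul_assoc, hEE]
  set b := mred 1 ((β - 1 : A.R0) : MatP) with hbdef
  have hb : Commute E b := hRR e _
  have hstep : ∀ i, b ^ (i + 1) * Y = 0 → b ^ i * Y = 0 := by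
    intro i hi
    by_contra hne
    refine hcon _ hne (by rw [← mul_assoc, (hb.pow_right i).eq, mul_assoc, hY]) ?_
    have c : Commute (g - 1) (b ^ i) := ((hR (β - 1)).sub_left (Commute.one_left _)).pow_right i
    have h1 : g - 1 = (g - mred 1 (β : MatP)) + b := by
      simp only [hbdef, AddSubgroupClass.coe_sub, Subring.coe_one, map_sub, map_one]; abel
    rw [← sub_eq_zero, ← sub_one_mul, ← mul_assoc, c.eq, mul_assoc, h1, add_mul, hquad, zero_add,
      ← mul_assoc, ← pow_succ, hi]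
  have hbj : b ^ j * Y = 0 := by
    have h := hj j le_rfl
    rw [map_mul, map_pow] at h
    rw [← hY, ← mul_assoc, h, zero_mul]
  have hY0 : Y = 0 := by
    have : ∀ i ≤ j, b ^ (j - i) * Y = 0 := fun i => by
      induction i with
      | zero => intro; simpa using hbj
      | succ i ih =>
        intro hi
        refine hstep _ ?_
        rw [show j - (i + 1) + 1 = j - i by omega]
        exact ih (by omega)
    simpa using this j le_rfl
  have hne : A.toHeckePart.θ (α - β) ≠ 0 := by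
    rwa [map_sub, hαθ, hβθ, sub_ne_zero]
  have hE0 : E = 0 := A.eq_zero_of_eigen he heφ hmin (mred 1) hEE σ0 (α := α) (β := β)
    (add_sub_cancel _ _) hne fun h => by
      rw [← sub_eq_zero, ← sub_mul, ((A.commG h e e.2).map (mred 1)).eq, ← mul_assoc]
      exact (congrArg (· * _) hY0).trans (zero_mul _)
  have he0 : e = 0 := Subtype.ext
    (HeckePart.idem_eq_zero (congrArg Subtype.val he) hE0)
  rw [he0, map_zero] at heφ
  exact zero_ne_one heφ

end Fixed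

section Level

variable {M0 : ℕ} [NeZero M0]

local notation "ι₀" => Fin (parRank (Gamma0 M0))
local notation "Vec" => ι₀ → ℤ_[p]
local notation "MatN" => Matrix ι₀ ι₀ ℤ_[p]

theorem cv_matT (hpM0 : ¬ p ∣ M0) (k : ℕ) (v : Vec) :
    (cv p k (matU p M0 *ᵥ v) : Gamma0 M0 →* ℂˣ) =
      charOp (transferDataT hpM0) (cv p k v : Gamma0 M0 →* ℂˣ) := by
  obtain ⟨ψ, rfl⟩ := (parabolicCoords (Gamma0 M0) ℤ_[p] ℤ_[p]).surjective v
  rw [cv, cv, matU, ES.heckePadMat_mulVec, LinearEquiv.symm_apply_apply,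
    LinearEquiv.symm_apply_apply,
    show FermatAgent.Period.parAction M0 ∅ ℤ_[p] ℤ_[p]
        ⟨_, MF.heckeAt_mem hp.out (Set.notMem_empty p)⟩ ψ =
      ⟨FermatAgent.Period.heckeOp ℤ_[p] M0 hp.out ψ.1,
        FermatAgent.Period.isParabolicHom_heckeOp ℤ_[p] hp.out ψ.2⟩ from
      Subtype.ext (FermatAgent.Period.parAction_heckeAt ℤ_[p] ℤ_[p] hp.out (Set.notMem_empty p) ψ),
    ES.padChar_heckeOp, ES.heckeChar, dif_neg hpM0]

omit [NeZero M0] in
/-- The residual determinant at an element is its value on `p`-th roots of unity. -/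
private theorem theta_d_eq_natCast {T : Type} [CommRing T] [IsLocalRing T]
    (A : HeckeAct p ι₀ T GQ) (hcyc : A.cyc = ES.padCyclo p) (hpT : (p : ResidueField T) = 0)
    {σ0 : GQ} {w : ℕ} (hσw : ∀ ζ : AlgebraicClosure ℚ, ζ ^ p = 1 → σ0 ζ = ζ ^ w) :
    A.toHeckePart.θ (A.d σ0) = (w : ResidueField T) := by
  obtain ⟨ι, hι⟩ : ∃ ι : ℤ_[p] →+* ResidueField T, ∀ a, A.toHeckePart.θ ⟨_, A.scalar a⟩ = ι a :=
    ⟨A.toHeckePart.θ.comp ((algebraMap ℤ_[p] MatN).codRestrict A.R0 A.scalar), fun a => rfl⟩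
  obtain ⟨ζ, hζ⟩ := ES.exists_primitive_qbar p 1
  rw [pow_one] at hζ
  rw [show A.d σ0 = ⟨_, A.scalar (A.cyc σ0)⟩ from rfl, hι, hcyc,
    ES.map_padCyclo_eq p ι hpT hζ (hσw ζ hζ.pow_eq_one)]

omit [NeZero M0] in
/-- A nonzero vector fixed by `e` and `σ₀` gives one that is also killed by a nilpotent `U`. -/
private theorem exists_fixed_mul_eq_zero {T : Type} [CommRing T] [IsLocalRing T]
    (A : HeckeAct p ι₀ T GQ) {U : MatN} (hU : U ∈ A.R0) (hθ : A.toHeckePart.θ ⟨U, hU⟩ = 0)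
    {e : A.R0} (hmin : ∀ f : A.R0, f * f = f → A.toHeckePart.θ f = 1 → e * f = e) (σ0 : GQ)
    {X : Matrix ι₀ ι₀ (ZMod (p ^ 1))} (hX0 : X ≠ 0) (heX : mred 1 (e : MatN) * X = X)
    (hGX : mred 1 (A.G σ0) * X = X) :
    ∃ Y : Matrix ι₀ ι₀ (ZMod (p ^ 1)), Y ≠ 0 ∧ mred 1 (e : MatN) * Y = Y ∧
      mred 1 (A.G σ0) * Y = Y ∧ mred 1 U * Y = 0 := by
  classical
  obtain ⟨j, hj⟩ := HeckePart.nil_of_θ hmin hθ 1
  have hUX : mred 1 U ^ j * X = 0 := by
    have h := hj j le_rfl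
    rw [map_mul, map_pow] at h
    rw [← heX, ← mul_assoc, h, zero_mul]
  have hex : ∃ i, mred 1 U ^ i * X = 0 := ⟨j, hUX⟩
  obtain ⟨i, hi⟩ : ∃ i, Nat.find hex = i + 1 := Nat.exists_eq_succ_of_ne_zero fun h => hX0 (by
    have := Nat.find_spec hex
    rwa [h, pow_zero, one_mul] at this)
  have cU : ∀ r ∈ A.R0, Commute (mred 1 U ^ i) (mred 1 r) := fun r hr =>
    ((A.comm _ hU _ hr).map (mred 1)).pow_left i
  refine ⟨mred 1 U ^ i * X, Nat.find_min hex (by omega), ?_, ?_, ?_⟩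
  · rw [← mul_assoc, ← (cU _ e.2).eq, mul_assoc, heX]
  · rw [← mul_assoc, (((A.commG σ0 _ hU).map (mred 1)).pow_right i).eq, mul_assoc, hGX]
  · rw [← mul_assoc, ← pow_succ', ← hi]; exact Nat.find_spec hex

/-- A character killed by `T_p` and fixed by inertia of order two is fixed by commutators. -/
private theorem galMat_commutator_cgr (hpM0 : ¬ p ∣ M0) (hp2 : p ≠ 2)
    {P0 : ValuationSubring (AlgebraicClosure ℚ)} (hP0 : P0.LiesOverPrime p)
    {Φ : ℂ ≃+* PadicAlgCl p} {σ0 : GQ} {σC : ℂ ≃+* ℂ} (hσ0 : σ0 ∈ P0.inertiaSubgroupIn ℚ)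
    (hσw : ∀ ζ : AlgebraicClosure ℚ, ζ ^ p = 1 → σ0 ζ = ζ ^ (p - 1))
    (hext : ∀ x, σC (embC x) = embC (σ0 x)) (hkeep : Keeps (stableCoeffs Φ) σC) {z : Vec}
    (hzU : Cgr 1 (matU p M0 *ᵥ z) 0) (hzG : Cgr 1 (ES.galMat p M0 σ0 *ᵥ z) z) (a b : GQ) :
    Cgr 1 (ES.galMat p M0 (a * b * a⁻¹ * b⁻¹) *ᵥ z) z := by
  have : NeZero (p * M0) := ⟨mul_ne_zero hp.out.ne_zero (NeZero.ne M0)⟩
  have : Fact (2 < p) := ⟨lt_of_le_of_ne hp.out.two_le (Ne.symm hp2)⟩
  have hpN : p ∣ p * M0 := dvd_mul_right p M0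
  have h0 : M0.Coprime p := (hp.out.coprime_iff_not_dvd.mpr hpM0).symm
  obtain ⟨M, m, hM0, hM, L, g, haux, hdiv, hsq⟩ := exists_level (N := p * M0) rfl h0
  set K := stableCoeffs Φ
  set w := p - 1
  have hw : σC (zp p) = zp p ^ w := autC_zetaC_eq (n := p) hext hσw
  have hσM := inertia_fixes_zetaC hP0 hM hσ0 hext
  have hw1 : (w : ZMod p) ≠ 1 := by
    rw [natCast_pred_eq_neg_one (ZMod.natCast_self p)]; exact ZMod.neg_one_ne_one
  set φ := cv p 1 z
  have hφp : (φ : Gamma0 M0 →* ℂˣ) ^ p = 1 :=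
    (congrArg ((φ : Gamma0 M0 →* ℂˣ) ^ ·) (pow_one p)).symm.trans φ.2.1
  set χ0 := resPar L φ
  set χ := wPar hM L (p ^ 1) χ0
  have hχ : (χ : Gamma0 (p * M0) →* ℂˣ) = (φ : Gamma0 M0 →* ℂˣ).comp (degHom L) :=
    wHom_res hM L _
  have hUχ : charOp (transferDataU hpN) (χ : Gamma0 (p * M0) →* ℂˣ) = 1 := by
    rw [hχ]; exact charOp_deg L hpN φ.2.2 hφp
  have hTφ : charOp (transferDataT hpM0) (φ : Gamma0 M0 →* ℂˣ) = 1 := by
    rw [← cv_matT hpM0, cv_eq_of_cgr hzU, cv_zero]; rfl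
  have hUχ0 : charOp (transferDataU hpN) (χ0 : Gamma0 (p * M0) →* ℂˣ) =
      (χ : Gamma0 (p * M0) →* ℂˣ)⁻¹ := by
    have h := charOp_T_res L hpM0 hpN (φ : Gamma0 M0 →* ℂˣ)
    rw [hTφ, MonoidHom.one_comp] at h
    rw [hχ]
    exact eq_inv_of_mul_eq_one_left h.symm
  have hW2 : ∀ ψ : Gamma0 (p * M0) →* ℂˣ, (ψ.comp (L.wHom hM)).comp (L.wHom hM) = ψ := fun ψ => by
    refine MonoidHom.ext fun γ => ?_
    show ψ (L.wHom hM (L.wHom hM γ)) = ψ γ
    rw [hsq, map_mul, map_mul, map_inv, mul_right_comm, mul_inv_cancel, one_mul]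
  have hfix0 : conjChar (goodLevel_Gamma0 (p * M0)) σC χ0 = χ0 := by
    rw [conjChar_res L rfl, ← galChar_apply_of_ext (p ^ 1) hext, ← cv_galMat, cv_eq_of_cgr hzG]
  have hk : KillsPm p M p (χ : Gamma0 (p * M0) →* ℂˣ) := fun γ _ => by
    rw [hχ]; exact DFunLike.congr_fun hφp _
  have hkill := killsPm_one_of_nil (K := K) hM L haux (goodLevel_Gamma0 (p * M0))
    (transferDataU hpN) (fun _ => rfl) hdiv hkeep hσM hw (Nat.sub_le p 1) hw1 χ hk
    (fun γ _ => by rw [conjChar_wPar hM L (goodLevel_Gamma0 (p * M0)) hdiv, hfix0])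
    (fun γ _ => by rw [hW2]) (fun γ _ => by rw [hUχ, MonoidHom.one_apply, one_pow])
    (Or.inr ⟨(χ : Gamma0 (p * M0) →* ℂˣ)⁻¹, inv_mem χ.2, fun γ hγ => by
      rw [MonoidHom.inv_apply, inv_pow, hk γ hγ, inv_one], fun γ _ => by
      rw [show (χ : Gamma0 (p * M0) →* ℂˣ) = (χ0 : Gamma0 (p * M0) →* ℂˣ).comp (L.wHom hM) from rfl,
        show (((χ0 : Gamma0 (p * M0) →* ℂˣ).comp (L.wHom hM))⁻¹).comp (L.wHom hM) =
          ((((χ0 : Gamma0 (p * M0) →* ℂˣ).comp (L.wHom hM))).comp (L.wHom hM))⁻¹ from rfl, hW2,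
        charOp_inv', hUχ0, inv_inv]
      rfl⟩)
  have hkill0 : KillsPm p M 1 (χ0 : Gamma0 (p * M0) →* ℂˣ) := by
    have := killsPm_wHom hM L hkill
    rwa [show ((χ : Gamma0 (p * M0) →* ℂˣ).comp (L.wHom hM)) = (χ0 : Gamma0 (p * M0) →* ℂˣ) from
      hW2 _] at this
  have hcomm := conjChar_eq_self_of_killsPm L (goodLevel_Gamma0 (p * M0)) hdiv
    (σ := autC (a * b * a⁻¹ * b⁻¹)) (commutator_fix a b) (commutator_fix a b) χ0 hkill0
  rw [conjChar_res L rfl] at hcomm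
  have hfin : conjChar (goodLevel_Gamma0 M0) (autC (a * b * a⁻¹ * b⁻¹)) φ = φ := by
    refine mul_inv_eq_one.mp (Subtype.ext ?_)
    refine eq_one_of_res L rfl (conjChar (goodLevel_Gamma0 M0) _ φ * φ⁻¹).2.2 ?_
    rw [Subgroup.coe_mul, InvMemClass.coe_inv, MonoidHom.mul_comp]
    have := congrArg Subtype.val hcomm
    simp only [χ0, resPar] at this
    rw [this]
    exact MonoidHom.ext fun γ => mul_inv_cancel _
  refine cgr_of_cv_eq (v := ES.galMat p M0 (a * b * a⁻¹ * b⁻¹) *ᵥ z) (w := z) ?_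
  rw [cv_galMat]
  exact hfin

/-- **Ordinary inertia at `p ∤ M₀` gives a unit eigenvalue of `T_p`.** -/
theorem theta_ne_zero_of_ordinary (hpM0 : ¬ p ∣ M0) {T : Type} [CommRing T] [IsLocalRing T]
    (A : HeckeAct p ι₀ T GQ) (hAG : A.G = ES.galMat p M0) (hcyc : A.cyc = ES.padCyclo p)
    (hU : matU p M0 ∈ A.R0) (hp2 : p ≠ 2) (hpT : (p : ResidueField T) = 0)
    {P0 : ValuationSubring (AlgebraicClosure ℚ)} (hP0 : P0.LiesOverPrime p)
    (htr : ∀ σ ∈ P0.inertiaSubgroupIn ℚ,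
      residue T (A.M σ).trace = residue T (A.M σ).det + 1) :
    A.toHeckePart.θ ⟨_, hU⟩ ≠ 0 := by
  intro hθ
  obtain ⟨Φ, hΦ⟩ := ES.exists_padicEquiv_compat hP0
  set w := p - 1
  obtain ⟨σ0, hσ0, hσw⟩ := exists_inertia_neg_one hP0
  obtain ⟨σC, hext, hkeep⟩ : σ0 ∈ inertSet (stableCoeffs Φ) := exists_keeps Φ (hΦ ▸ hσ0)
  have : Fact (2 < p) := ⟨lt_of_le_of_ne hp.out.two_le (Ne.symm hp2)⟩
  have : CharP (ResidueField T) p := (CharP.charP_iff_prime_eq_zero hp.out).mpr hpT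
  have hwk : (w : ResidueField T) ≠ 1 := by
    rw [natCast_pred_eq_neg_one hpT]; exact CharP.neg_one_ne_one (ResidueField T) p
  have h2 : (2 : ResidueField T) ≠ 0 := by
    rw [← Nat.cast_ofNat (R := ResidueField T) (n := 2), Ne, CharP.cast_eq_zero_iff _ p,
      Nat.prime_dvd_prime_iff_eq hp.out Nat.prime_two]
    exact hp2
  have hdet := theta_d_eq_natCast A hcyc hpT hσw
  have htr0 : A.toHeckePart.θ (A.τ σ0) = (w : ResidueField T) + 1 := by
    rw [show A.toHeckePart.θ (A.τ σ0) = residue T (A.M σ0).trace from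
        congrArg (residue T) (A.tr σ0),
      htr σ0 hσ0, show residue T (A.M σ0).det = A.toHeckePart.θ (A.d σ0) from
        (congrArg (residue T) (A.det σ0)).symm, hdet]
  obtain ⟨e, he, heφ, hmin⟩ := A.toHeckePart.exists_idem
  have hsmall := A.small_of_cyc he heφ hmin hcyc h2
  obtain ⟨X, hX0, heX, hGX⟩ := A.exists_fixed he heφ hmin σ0 hwk htr0 hdet
  obtain ⟨Y, hY0, heY, hGY, hUY⟩ := exists_fixed_mul_eq_zero A hU hθ hmin σ0 hX0 heX hGX
  -- every column of `Y` is fixed by commutators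
  refine hY0 (hsmall Y heY fun a b => ?_)
  obtain ⟨Z, hZ⟩ : ∃ Z : MatN, mred 1 Z = Y := by
    choose f hf using fun r c => ZMod.ringHom_surjective (PadicInt.toZModPow (p := p) 1) (Y r c)
    exact ⟨Matrix.of f, Matrix.ext hf⟩
  have col : ∀ (B B' : MatN), mred 1 (B * Z) = mred 1 (B' * Z) → ∀ c,
      Cgr 1 (B *ᵥ fun r => Z r c) (B' *ᵥ fun r => Z r c) := fun B B' h c r => by
    have := (mred_eq_iff.mp h) r c
    simpa [Matrix.mul_apply, Matrix.mulVec, dotProduct] using this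
  rw [← hZ, ← map_mul, mred_eq_iff]
  intro r c
  have hzU : Cgr 1 (matU p M0 *ᵥ fun r => Z r c) 0 := by
    have := col (matU p M0) 0 (by rw [map_mul, hZ, hUY, zero_mul, map_zero]) c
    rwa [Matrix.zero_mulVec] at this
  have hzG : Cgr 1 (ES.galMat p M0 σ0 *ᵥ fun r => Z r c) fun r => Z r c := by
    have := col (A.G σ0) 1 (by rw [map_mul, hZ, hGY, one_mul, hZ]) c
    rwa [Matrix.one_mulVec, hAG] at this
  rw [hAG]
  exact galMat_commutator_cgr hpM0 hp2 hP0 hσ0 hσw hext hkeep hzU hzG a b r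

end Level

end FermatAgent.PSEMI
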