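import Fermat.Agent.PSEMI.Ord.Datum
import Fermat.Agent.PSEMI.Ord.Small

/-!
# A unit eigenvalue at `p` makes inertia reducible

For `p` dividing the level once, a residually nonzero value of `U_p` gives inertia residual
trace `1` plus the determinant.
-/

set_option autoImplicit false

open UpperHalfPlane CongruenceSubgroup IsLocalRing
open scoped MatrixGroups Matrix

noncomputable section

namespace FermatAgent.PSEMI

open MatLim
open ModularCurve.Period
open FermatAgent.ES (parGroup GoodLevel charOp conjChar CPlace AuxLevel GQ embC autC galChar zetaC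
  goodLevel_Gamma0)
open FermatAgent.Period (parRank transferDataU)
open LevelMp (pmLam)

variable {p : ℕ} [hp : Fact p.Prime] {N : ℕ} [NeZero N]

local notation "ι₀" => Fin (parRank (Gamma0 N))
local notation "Vec" => ι₀ → ℤ_[p]
local notation "MatN" => Matrix ι₀ ι₀ ℤ_[p]

section Limit

variable {κ : Type} [Fintype κ] [DecidableEq κ]

local notation "MatK" => Matrix κ κ ℤ_[p]

/-- Where `U` is invertible modulo the residual character, its limit idempotent fixes `e`. -/
private theorem lim_mul_idem {T : Type} [CommRing T] [IsLocalRing T] {H : HeckePart p κ T}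
    {e U : H.R0} (he : e * e = e)
    (hmin : ∀ f : H.R0, f * f = f → H.θ f = 1 → e * f = e) (hθ : H.θ U ≠ 0)
    {eO : MatK} {I : ℕ → ℕ} (heO : PowLimit (U : MatK) eO I) :
    eO * (e : MatK) = (e : MatK) := by
  have hEE : (e : MatK) * e = e := congrArg Subtype.val he
  have heOR : ∀ r ∈ H.R0, Commute r eO := fun r hr => heO.commute (H.comm _ hr _ U.2)
  obtain ⟨v, hv⟩ := HeckePart.exists_inv he hmin hθ
  have hv' : (U : MatK) * (v : MatK) * (e : MatK) = (e : MatK) := congrArg Subtype.val hv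
  have cq : Commute (e : MatK) (1 - eO) := (Commute.one_right _).sub_right (heOR _ e.2)
  have hn : Nil (U : MatK) ((1 - eO) * (e : MatK)) := fun n => by
    obtain ⟨j, hj⟩ := heO.nil_compl n
    refine ⟨j, fun j' hj' => ?_⟩
    rw [← mul_assoc, map_mul, hj j' hj', zero_mul]
  have h0 := eq_zero_of_nil hn (H.comm _ v.2 _ U.2) (by
    have c : (e : MatK) * ((1 - eO) * (e : MatK)) = (1 - eO) * (e : MatK) := by
      rw [← mul_assoc, cq.eq, mul_assoc, hEE]
    conv_rhs => rw [← c, ← mul_assoc]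
    rw [(H.comm _ v.2 _ U.2).eq, hv', c])
  rwa [sub_mul, one_mul, sub_eq_zero, eq_comm] at h0

end Limit

omit [NeZero N] in
/-- The residual value of the cyclotomic scalar of `σ`. -/
private theorem theta_d_eq_val {T : Type} [CommRing T] [IsLocalRing T] (A : HeckeAct p ι₀ T GQ)
    (hcyc : A.cyc = ES.padCyclo p) (σ : GQ) :
    A.toHeckePart.θ (A.d σ) =
      ((PadicInt.toZModPow 1 (ES.padCyclo p σ)).val : ResidueField T) := by
  have : NeZero (p ^ 1) := ⟨pow_ne_zero 1 hp.out.ne_zero⟩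
  set w := (PadicInt.toZModPow 1 (ES.padCyclo p σ)).val
  obtain ⟨c, hc⟩ : (p : ℤ_[p]) ∣ ES.padCyclo p σ - (w : ℤ_[p]) := by
    rw [← Ideal.mem_span_singleton, ← pow_one (p : ℤ_[p]), ← PadicInt.ker_toZModPow,
      RingHom.mem_ker, map_sub, map_natCast, ZMod.natCast_zmod_val, sub_self]
  have hp0 : A.toHeckePart.θ (p : A.R0) = 0 := by
    have hm : (p : ResidueField T) = 0 := by
      obtain ⟨k, hk⟩ := A.cont
      have h1 : A.φ ((p : A.R0) ^ k) ∈ maximalIdeal T := hk _ (by
        rw [SubmonoidClass.coe_pow, SubringClass.coe_natCast, map_pow, map_natCast,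
          ← Nat.cast_pow, ← Matrix.diagonal_natCast, ZMod.natCast_self, Matrix.diagonal_zero])
      rw [map_pow, map_natCast] at h1
      rw [← map_natCast (residue T), residue_eq_zero_iff]
      exact Ideal.IsPrime.mem_of_pow_mem (maximalIdeal.isMaximal T).isPrime k h1
    rw [map_natCast, hm]
  have e1 : A.d σ = (w : A.R0) + (p : A.R0) * ⟨_, A.scalar c⟩ := Subtype.ext (by
    show algebraMap ℤ_[p] MatN (A.cyc σ) = (w : MatN) + (p : MatN) * algebraMap ℤ_[p] MatN c
    rw [hcyc, sub_eq_iff_eq_add.mp hc, map_add, map_mul, map_natCast, map_natCast, add_comm])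
  rw [e1, map_add, map_mul, hp0, zero_mul, add_zero, map_natCast]

/-- On the small unit part `(σ - w) (σ - 1)` vanishes modulo `p`: what `σ - 1` leaves there is
trivial at `∞`. -/
private theorem mred_sub_mul_sub_eq_zero {M : ℕ} [NeZero M] (hM : M.Coprime p)
    {Γ' : Subgroup SL(2, ℤ)} (L : IsLevel p M (Gamma0 N) Γ') {m : ℕ} (haux : AuxLevel M m)
    (hdiv : p * M ∣ 12 * N) (hpN : p ∣ N) {g : Gamma0 N}
    (hsq : ∀ γ, L.wHom hM (L.wHom hM γ) = g * γ * g⁻¹) {P : CPlace p} {K : Coeffs P} {σ : GQ}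
    {σC : ℂ ≃+* ℂ} {w : ℕ} (hσC : CycExt K M σ σC w) {e eO : MatN} {I : ℕ → ℕ}
    (hs : SmallVec e) (hEE : e * e = e) (hGe : Commute (ES.galMat p N σ) e)
    (heO : PowLimit (matU p N) eO I) (heOe : eO * e = e) :
    mred 1 ((ES.galMat p N σ - (w : MatN)) * ((ES.galMat p N σ - 1) * e)) = 0 := by
  set G0 := ES.galMat p N σ
  refine mred_eq_zero_of_cgr fun v => ?_
  set z := eO *ᵥ ((G0 - 1) *ᵥ (e *ᵥ v)) with hzdef
  have ez : z = ((G0 - 1) * e) *ᵥ v := by
    have cG := (hGe.sub_left (Commute.one_left _)).eq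
    rw [hzdef, Matrix.mulVec_mulVec, Matrix.mulVec_mulVec, mul_assoc, cG, ← mul_assoc, heOe]
  have h := cgr_galMat_of_triv hM L haux hdiv hpN hσC hsq hs hGe heO
    (z := z) (trivVec_of_deep hM L haux hpN ⟨σC, hσC.ext, hσC.keeps⟩ heO 1 _) (by
      rw [ez, Matrix.mulVec_mulVec, ← mul_assoc, ((hGe.sub_left (Commute.one_left _)).symm).eq,
        mul_assoc, hEE]
      exact Cgr.rfl') (by
      rw [hzdef, Matrix.mulVec_mulVec, heO.idem]
      exact Cgr.rfl')
  rw [← Matrix.mulVec_mulVec, ← ez, Matrix.sub_mulVec, Matrix.natCast_mulVec]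
  exact h

/-- **A unit eigenvalue at `p ∣∣ N` gives inertia the eigenvalue one residually.** -/
theorem trace_inertia_of_unit (hpN : p ∣ N) (hp2N : ¬ p ^ 2 ∣ N) {T : Type} [CommRing T]
    [IsLocalRing T] (A : HeckeAct p ι₀ T GQ) (hAG : A.G = ES.galMat p N)
    (hcyc : A.cyc = ES.padCyclo p) (hU : matU p N ∈ A.R0)
    (hθ : A.toHeckePart.θ ⟨_, hU⟩ ≠ 0) (h2 : (2 : ResidueField T) ≠ 0)
    {P0 : ValuationSubring (AlgebraicClosure ℚ)} (hP0 : P0.LiesOverPrime p) {σ : GQ}
    (hσ : σ ∈ P0.inertiaSubgroupIn ℚ) :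
    residue T (A.M σ).trace = residue T (A.M σ).det + 1 := by
  obtain ⟨M0, M, m, hM00, hM0, hM, L, g, haux, hdiv, hsq⟩ := exists_level_of_dvd hpN hp2N
  obtain ⟨Φ, hΦ⟩ := ES.exists_padicEquiv_compat hP0
  set K := stableCoeffs Φ
  set d := PadicInt.toZModPow 1 (ES.padCyclo p σ)
  set w := d.val
  have hwp : w ≤ p := by
    have : NeZero (p ^ 1) := ⟨pow_ne_zero 1 hp.out.ne_zero⟩
    exact (ZMod.val_lt d).le.trans_eq (pow_one p)
  obtain ⟨σC, hσC⟩ := exists_cycExt hP0 hΦ hM hσ
    (fun y hy => ES.padCyclo_spec p σ 1 (by rw [pow_one]; exact hy)) hwp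
  obtain ⟨e, he, heφ, hmin⟩ := A.toHeckePart.exists_idem
  have hsmall := A.small_of_cyc he heφ hmin hcyc h2
  have hs : SmallVec (e : MatN) := fun X h1 h' => hsmall X h1 fun a b => by
    rw [hAG]; exact h' a b
  have hEE : (e : MatN) * (e : MatN) = (e : MatN) := congrArg Subtype.val he
  -- the unit part is everything
  obtain ⟨eO, I, heO⟩ := exists_powLimit (matU p N)
  have heOe := lim_mul_idem he hmin (U := ⟨_, hU⟩) hθ heO
  -- the congruence on the small part
  set G0 := ES.galMat p N σ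
  have hcG : ∀ x ∈ A.R0, Commute G0 x := fun x hx => by
    have := A.commG σ x hx
    rwa [hAG] at this
  have hGe : Commute G0 (e : MatN) := hcG _ e.2
  have hkill : mred 1 ((G0 - (w : MatN)) * ((G0 - 1) * (e : MatN))) = 0 :=
    mred_sub_mul_sub_eq_zero hM L haux hdiv hpN hsq hσC hs hEE hGe heO heOe
  by_contra hne
  set r : A.R0 := A.τ σ - ((w : A.R0) + 1)
  have hd : A.toHeckePart.θ (A.d σ) = w := theta_d_eq_val A hcyc σ
  have hrθ : A.toHeckePart.θ r ≠ 0 := by
    intro h
    apply hne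
    rw [map_sub, map_add, map_one, map_natCast, sub_eq_zero, ← hd] at h
    calc residue T (A.M σ).trace = A.toHeckePart.θ (A.τ σ) := (congrArg (residue T) (A.tr σ)).symm
      _ = A.toHeckePart.θ (A.d σ) + 1 := h
      _ = _ := by rw [show A.toHeckePart.θ (A.d σ) = residue T (A.M σ).det from
          congrArg (residue T) (A.det σ)]
  obtain ⟨u, hu⟩ := HeckePart.exists_inv he hmin hrθ
  have hu' : (r : MatN) * (u : MatN) * (e : MatN) = (e : MatN) := congrArg Subtype.val hu
  have hquad : (r : MatN) * G0 * (e : MatN) =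
      (G0 - (w : MatN)) * ((G0 - 1) * (e : MatN)) +
        (algebraMap ℤ_[p] MatN (A.cyc σ) - (w : MatN)) * (e : MatN) := by
    have q := A.quad σ
    rw [hAG] at q
    have q' : G0 * G0 + algebraMap ℤ_[p] MatN (A.cyc σ) = (A.τ σ : MatN) * G0 :=
      sub_eq_zero.mp (by rw [← q]; abel)
    simp only [r, AddSubgroupClass.coe_sub, Subring.coe_add, SubringClass.coe_natCast,
      Subring.coe_one, sub_mul, add_mul, mul_sub, one_mul, ← mul_assoc, ← q']
    abel
  have hwd : mred 1 (algebraMap ℤ_[p] MatN (A.cyc σ) - (w : MatN)) = 0 := by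
    rw [map_sub, map_natCast, hcyc]
    show (algebraMap ℤ_[p] MatN (ES.padCyclo p σ)).map (PadicInt.toZModPow 1) - _ = 0
    rw [Matrix.algebraMap_eq_diagonal, Matrix.diagonal_map (map_zero _), ← Matrix.diagonal_natCast,
      Matrix.diagonal_sub]
    simp [d, w]
  have h1 : mred 1 ((r : MatN) * G0 * (e : MatN)) = 0 := by
    rw [hquad, map_add, hkill, map_mul, hwd, zero_mul, add_zero]
  have h2' : mred 1 (e : MatN) = 0 := by
    have hGr : Commute G0 (r : MatN) := hcG _ r.2
    have hinv : ES.galMat p N σ⁻¹ * G0 = 1 := by rw [← map_mul, inv_mul_cancel, map_one]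
    have e2 : (e : MatN) = ES.galMat p N σ⁻¹ * (u : MatN) * ((r : MatN) * G0 * (e : MatN)) := by
      calc (e : MatN) = ES.galMat p N σ⁻¹ * G0 * ((r : MatN) * (u : MatN) * (e : MatN)) := by
            rw [hinv, hu', one_mul]
        _ = _ := by
            rw [← hGr.eq, (A.comm _ r.2 _ u.2).eq]
            simp only [← mul_assoc]
            rw [mul_assoc (ES.galMat p N σ⁻¹) G0 (u : MatN),
              (hcG _ u.2).eq]
            simp only [← mul_assoc]
    rw [e2, map_mul, h1, mul_zero]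
  have he0 : e = 0 := Subtype.ext (HeckePart.idem_eq_zero hEE h2')
  rw [he0, map_zero] at heφ
  exact zero_ne_one heφ

end FermatAgent.PSEMI
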