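import Fermat.Agent.PSEMI.Ord.Killed

/-!
# The ordinary identity on the unit part

On the part cut out by `e` and by the idempotent `eO` of `U` one has
`(σ₀ - c σ₀) X = 0` for every operator `X` commuting with `e` with the images of `eO X`
trivial at `∞`, for instance `σ - 1` with `σ` in inertia.
-/

set_option autoImplicit false

open CongruenceSubgroup
open scoped MatrixGroups Matrix

noncomputable section

namespace FermatAgent.PSEMI

open MatLim
open FermatAgent.ES (GQ CPlace AuxLevel embC autC zetaC)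
open FermatAgent.Period (parRank)

variable {p : ℕ} [hp : Fact p.Prime] {N : ℕ} [NeZero N]

local notation "ι₀" => Fin (parRank (Gamma0 N))
local notation "MatN" => Matrix ι₀ ι₀ ℤ_[p]

omit [NeZero N] in
theorem mred_pow_mul_of_idem {e a : MatN} (he : e * e = e) (hc : Commute a e) (k j : ℕ) :
    mred k ((a * e) ^ (j + 1)) = mred k (a ^ (j + 1) * e) := by
  rw [hc.mul_pow, IsIdempotentElem.pow_succ_eq (a := e) j he]

variable {σ0 g1 : GQ} {w : ℕ}

/-- On the cut `(σ₀ - 1) (σ₀ - w)` is topologically nilpotent. -/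
theorem Cut.nil_quad {e : MatN} (hc : Cut σ0 g1 w e)
    (hwc : PadicInt.toZModPow 1 (ES.padCyclo p σ0) = (w : ZMod (p ^ 1))) (k : ℕ) :
    ∃ j, ∀ j', j ≤ j' → mred k (((ES.galMat p N σ0 - 1) * (ES.galMat p N σ0 - (w : MatN))) ^ j' * e)
      = 0 := by
  set G := ES.galMat p N σ0
  set z := rootOp p N σ0 w
  obtain ⟨a, ha⟩ : (p : ℤ_[p]) ∣ ES.padCyclo p σ0 - (w : ℤ_[p]) := by
    rw [← Ideal.mem_span_singleton, ← pow_one (p : ℤ_[p]), ← PadicInt.ker_toZModPow,
      RingHom.mem_ker, map_sub, map_natCast, hwc, sub_self]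
  set b : MatN := algebraMap ℤ_[p] MatN (ES.padCyclo p σ0) - (w : MatN) with hbdef
  have hb : b = (p : MatN) * algebraMap ℤ_[p] MatN a := by
    rw [hbdef, ← map_natCast (algebraMap ℤ_[p] MatN) w, ← map_sub, ha, map_mul, map_natCast]
  have hq : (G - 1) * (G - (w : MatN)) = z * G - b := eq_sub_of_add_eq rootOp_mul_galMat.symm
  have hbG : ∀ y : MatN, Commute b y := fun y =>
    (Algebra.commute_algebraMap_left _ y).sub_left (Nat.cast_commute w y)
  have hzG : Commute z G := (commute_galMat_rootOp σ0).symm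
  have hze : Commute (z * G) e := hc.commute_rootOp.symm.mul_left (hc.commG σ0)
  obtain ⟨j, hj⟩ := hc.nil k
  have h1 : IsNilpotent (mred k (z * G * e)) := ⟨j + 1, by
    rw [← map_pow, mred_pow_mul_of_idem hc.idem hze, hzG.mul_pow, mul_assoc,
      ((hc.commG σ0).pow_left _).eq, ← mul_assoc, map_mul, hj _ (Nat.le_succ j), zero_mul]⟩
  have h2 : IsNilpotent (mred k (b * e)) := by
    refine ⟨k + 1, ?_⟩
    rw [← map_pow, mred_pow_mul_of_idem hc.idem (hbG e), hb,
      (Nat.cast_commute p _).mul_pow, pow_succ (p : MatN) k, map_mul, map_mul, map_mul, map_pow,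
      map_natCast, ← Nat.cast_pow, ← Matrix.diagonal_natCast, ZMod.natCast_self,
      Matrix.diagonal_zero,
      zero_mul, zero_mul, zero_mul]
  have hcomm : Commute (mred k (z * G * e)) (mred k (b * e)) :=
    (((hbG _).symm).mul_right (hze.mul_left (Commute.refl e))).map (mred k)
  obtain ⟨n, hn⟩ := hcomm.isNilpotent_sub h1 h2
  rw [← map_sub, ← sub_mul, ← hq] at hn
  refine ⟨n + 1, fun j' hj' => ?_⟩
  obtain ⟨d, rfl⟩ : ∃ d, j' = d + 1 := ⟨j' - 1, by omega⟩
  rw [← mred_pow_mul_of_idem hc.idem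
    ((((hc.commG σ0).sub_left (Commute.one_left e))).mul_left
      ((hc.commG σ0).sub_left (Nat.cast_commute w e))), map_pow]
  exact pow_eq_zero_of_le (by omega) hn

/-- On the part where `σ₀ - w` is invertible `σ₀ - 1` is topologically nilpotent. -/
theorem Cut.nil_sub_one {e : MatN} (hc : Cut σ0 g1 w e)
    (hwc : PadicInt.toZModPow 1 (ES.padCyclo p σ0) = (w : ZMod (p ^ 1))) {q eO : MatN}
    {I2 : ℕ → ℕ} (hq : PowLimit (ES.galMat p N σ0 - (w : MatN)) q I2)
    (heO : Commute eO e) : Nil (ES.galMat p N σ0 - 1) (q * eO * e) := by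
  set G := ES.galMat p N σ0
  intro k
  obtain ⟨j, hj⟩ := hc.nil_quad hwc k
  refine ⟨j, fun j' hj' => ?_⟩
  obtain ⟨i, hi, hie⟩ := hq.exists_ge k j'
  obtain ⟨d, rfl⟩ := Nat.exists_eq_add_of_le hi
  have cG : Commute (G - 1) (G - (w : MatN)) :=
    ((Commute.refl G).sub_left (Commute.one_left _)).sub_right
      (Nat.commute_cast _ w)
  have e1 : (G - 1) ^ j' * (G - (w : MatN)) ^ (j' + d) =
      (G - (w : MatN)) ^ d * ((G - 1) * (G - (w : MatN))) ^ j' := by
    rw [cG.mul_pow, pow_add, ← mul_assoc]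
    exact ((((cG.pow_left j').mul_left ((Commute.refl _).pow_left j')).pow_right d)).eq
  rw [mul_assoc q, heO.eq, ← mul_assoc, ← mul_assoc, map_mul, map_mul, map_mul, ← hie, ← map_mul,
    e1, map_mul (mred k), mul_assoc (mred k ((G - (w : MatN)) ^ d)), ← map_mul (mred k), hj j' hj',
    mul_zero, zero_mul]

/-- The unit part of the cut where `σ₀` must be `w` vanishes. -/
theorem Cut.eq_zero_of_compl {e : MatN} (hc : Cut σ0 g1 w e)
    (hwc : PadicInt.toZModPow 1 (ES.padCyclo p σ0) = (w : ZMod (p ^ 1)))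
    (hw1 : (w : ZMod p) ≠ 1) {q : MatN} {I2 : ℕ → ℕ}
    (hq : PowLimit (ES.galMat p N σ0 - (w : MatN)) q I2) {R : MatN} (heR : e * R = R)
    (hqR : q * R = 0) (hRG : ∀ g, Commute (ES.galMat p N g) R) : R = 0 := by
  refine eq_zero_of_descend (fun R => e * R = R ∧ q * R = 0 ∧ ∀ g, Commute (ES.galMat p N g) R)
    (fun R hR => ?_) (fun Y hY => ?_) ⟨heR, hqR, hRG⟩
  · refine Matrix.ext_iff_mulVec.mpr fun y => ?_
    rw [Matrix.zero_mulVec]
    refine hc.eq_zero_of_wPart hwc hw1 (by rw [Matrix.mulVec_mulVec, ← map_mul, hR.1]) fun h => ?_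
    refine ⟨I2 1 * (0 + 1), ?_⟩
    rw [← mred_natCast, ← map_sub, ← map_pow, hq.spec 1 0, Matrix.mulVec_mulVec,
      Matrix.mulVec_mulVec, ← map_mul, ← map_mul, mul_assoc, (hR.2.2 h).eq, ← mul_assoc, hR.2.1,
      zero_mul, map_zero, Matrix.zero_mulVec]
  · have hinj : Function.Injective fun Z : MatN => (p : ℤ_[p]) • Z :=
      smul_right_injective _ (Nat.cast_ne_zero.mpr hp.out.ne_zero)
    obtain ⟨h1, h2, h3⟩ := hY
    rw [Matrix.mul_smul] at h1 h2
    refine ⟨hinj h1, hinj (h2.trans (smul_zero _).symm), fun g => hinj ?_⟩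
    have := (h3 g).eq
    rwa [Matrix.mul_smul, Matrix.smul_mul] at this

variable (p N) in
/-- `t σ₀ - (1 + c σ₀)`, `c` the cyclotomic character. -/
private def cycRootOp (σ0 : GQ) :
    Matrix (Fin (parRank (Gamma0 N))) (Fin (parRank (Gamma0 N))) ℤ_[p] :=
  ES.galTrace N p σ0 - (1 + algebraMap ℤ_[p] _ (ES.padCyclo p σ0))

private theorem cycRootOp_mul_galMat :
    cycRootOp p N σ0 * ES.galMat p N σ0 =
      (ES.galMat p N σ0 - 1) * (ES.galMat p N σ0 - algebraMap ℤ_[p] MatN (ES.padCyclo p σ0)) := by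
  unfold cycRootOp
  set G := ES.galMat p N σ0
  set c := algebraMap ℤ_[p] MatN (ES.padCyclo p σ0)
  have cc : Commute c G := Algebra.commute_algebraMap_left _ _
  rw [sub_mul, galTrace_mul_galMat]
  simp only [sub_mul, mul_sub, one_mul, add_mul, cc.eq]
  abel

private theorem commute_galMat_cycRootOp (g : GQ) :
    Commute (ES.galMat p N g) (cycRootOp p N σ0) :=
  (commute_galMat_galTrace p N g σ0).sub_right
    ((Commute.one_right _).add_right (Algebra.commute_algebraMap_right _ _))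

private theorem Cut.commute_cycRootOp {e : MatN} (hc : Cut σ0 g1 w e) :
    Commute e (cycRootOp p N σ0) :=
  (((hc.commG σ0).add_left ((Algebra.commute_algebraMap_left (ES.padCyclo p σ0) e).mul_left
    (hc.commG σ0⁻¹))).sub_left ((Commute.one_left e).add_left
      (Algebra.commute_algebraMap_left (ES.padCyclo p σ0) e))).symm

/-- If `σ₀ - 1` vanishes on `q eO e`, then `t σ₀ - (1 + c σ₀)` vanishes on `eO e`. -/
private theorem Cut.cycRootOp_mul_eq_zero {e : MatN} (hc : Cut σ0 g1 w e)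
    (hwc : PadicInt.toZModPow 1 (ES.padCyclo p σ0) = (w : ZMod (p ^ 1)))
    (hw1 : (w : ZMod p) ≠ 1) {q eO : MatN} {I2 : ℕ → ℕ}
    (hq : PowLimit (ES.galMat p N σ0 - (w : MatN)) q I2)
    (heOG : ∀ g, Commute (ES.galMat p N g) eO) (heOe : Commute eO e)
    (hQ1 : q * eO * e * (ES.galMat p N σ0 - 1) = 0) : cycRootOp p N σ0 * (eO * e) = 0 := by
  set G := ES.galMat p N σ0
  set c := algebraMap ℤ_[p] MatN (ES.padCyclo p σ0)
  set r := cycRootOp p N σ0
  set Q := q * eO * e
  have hqG : Commute G q := hq.commute ((Commute.refl G).sub_right (Nat.commute_cast _ w))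
  have hQG : Commute G Q := (hqG.mul_right (heOG σ0)).mul_right (hc.commG σ0)
  have hr : ∀ g, Commute (ES.galMat p N g) r := commute_galMat_cycRootOp
  have hre : Commute e r := hc.commute_cycRootOp
  have hrG : r * G = (G - 1) * (G - c) := cycRootOp_mul_galMat
  refine hc.eq_zero_of_compl hwc hw1 hq ?_ ?_ fun g =>
    (hr g).mul_right ((heOG g).mul_right (hc.commG g))
  · rw [← mul_assoc, hre.eq, mul_assoc, ← mul_assoc e, ← heOe.eq, mul_assoc eO, hc.idem]
  · have hinv : G * ES.galMat p N σ0⁻¹ = 1 := by rw [← map_mul, mul_inv_cancel, map_one]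
    have hqr : Commute q r :=
      (hq.commute (((hr σ0).symm).sub_right (Nat.commute_cast _ w))).symm
    calc q * (r * (eO * e)) = r * Q := by rw [← mul_assoc, hqr.eq, mul_assoc, ← mul_assoc q]
      _ = r * Q * (G * ES.galMat p N σ0⁻¹) := by rw [hinv, mul_one]
      _ = r * (Q * G) * ES.galMat p N σ0⁻¹ := by simp only [mul_assoc]
      _ = r * (G * Q) * ES.galMat p N σ0⁻¹ := by rw [hQG.eq]
      _ = (G - 1) * (G - c) * Q * ES.galMat p N σ0⁻¹ := by rw [← mul_assoc, hrG]
      _ = 0 := by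
        have cGc : Commute (G - 1) (G - c) :=
          ((Commute.refl G).sub_left (Commute.one_left _)).sub_right
            (Algebra.commute_algebraMap_right _ _)
        rw [cGc.eq, mul_assoc (G - c), (hQG.sub_left (Commute.one_left Q)).eq, hQ1, mul_zero,
          zero_mul]

/-- Off the limit projector of `σ₀ - w` the unit part of the cut is killed by `σ₀ - c σ₀`. -/
private theorem Cut.sub_mul_compl_eq_zero {e : MatN} (hc : Cut σ0 g1 w e)
    (hw1 : (w : ZMod p) ≠ 1) {q eO : MatN} {I2 : ℕ → ℕ}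
    (hq : PowLimit (ES.galMat p N σ0 - (w : MatN)) q I2)
    (heOG : ∀ g, Commute (ES.galMat p N g) eO) (hR : cycRootOp p N σ0 * (eO * e) = 0) :
    (ES.galMat p N σ0 - algebraMap ℤ_[p] MatN (ES.padCyclo p σ0)) *
      ((1 - q) * (eO * e)) = 0 := by
  set G := ES.galMat p N σ0
  set c := algebraMap ℤ_[p] MatN (ES.padCyclo p σ0)
  set r := cycRootOp p N σ0
  have hqG : Commute G q := hq.commute ((Commute.refl G).sub_right (Nat.commute_cast _ w))
  have hr : ∀ g, Commute (ES.galMat p N g) r := commute_galMat_cycRootOp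
  have hrG : r * G = (G - 1) * (G - c) := cycRootOp_mul_galMat
  set Z := (G - c) * ((1 - q) * (eO * e)) with hZdef
  have h1 : (G - 1) * Z = 0 := by
    rw [hZdef, ← mul_assoc, ← hrG, mul_assoc r, ← mul_assoc G,
      ((Commute.one_right G).sub_right hqG).eq,
      mul_assoc, ← ((heOG σ0).mul_right (hc.commG σ0)).eq.symm, ← mul_assoc r,
      ((Commute.one_right r).sub_right (hq.commute (((hr σ0).symm).sub_right
        (Nat.commute_cast _ w)))).eq, mul_assoc, ← mul_assoc r, hR, zero_mul, mul_zero]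
  have hn : Nil (G - (w : MatN)) Z := fun k => by
    obtain ⟨j, hj⟩ := hq.nil_compl k
    refine ⟨j, fun j' hj' => ?_⟩
    have c1 : Commute ((G - (w : MatN)) ^ j') (G - c) :=
      (((Commute.refl G).sub_left (Nat.cast_commute w _)).sub_right
        (Algebra.commute_algebraMap_right _ _)).pow_left j'
    rw [hZdef, ← mul_assoc, c1.eq, mul_assoc, ← mul_assoc ((G - (w : MatN)) ^ j'), map_mul,
      map_mul, hj j' hj', zero_mul, mul_zero]
  obtain ⟨u, hu⟩ : IsUnit (1 - (w : ℤ_[p])) := by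
    rw [← not_not (a := IsUnit (1 - (w : ℤ_[p]))), ← mem_nonunits_iff,
      ← IsLocalRing.mem_maximalIdeal, ← PadicInt.ker_toZMod, RingHom.mem_ker, map_sub, map_one,
      map_natCast, sub_eq_zero]
    exact Ne.symm hw1
  refine eq_zero_of_nil hn (b := algebraMap ℤ_[p] MatN ↑u⁻¹)
    (Algebra.commute_algebraMap_left _ _) ?_
  have hx : (G - (w : MatN)) * Z = algebraMap ℤ_[p] MatN (1 - (w : ℤ_[p])) * Z := by
    rw [map_sub, map_one, map_natCast, ← sub_eq_zero, ← sub_mul, sub_sub_sub_cancel_right, h1]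
  rw [mul_assoc, hx, ← mul_assoc, ← map_mul, ← hu, Units.inv_mul, map_one, one_mul]

section Identity

variable {P : CPlace p} {K : Coeffs P} {M : ℕ} [NeZero M] (hM : M.Coprime p)
  {Γ' : Subgroup SL(2, ℤ)} (L : IsLevel p M (Gamma0 N) Γ') {m : ℕ} (haux : AuxLevel M m)
  (hdiv : p * M ∣ 12 * N) (hpN : p ∣ N) {σC : ℂ ≃+* ℂ} (hσC : CycExt K M σ0 σC w)
  (hw1 : (w : ZMod p) ≠ 1) {g : Gamma0 N} (hsq : ∀ γ, L.wHom hM (L.wHom hM γ) = g * γ * g⁻¹)
  (hwc : PadicInt.toZModPow 1 (ES.padCyclo p σ0) = (w : ZMod (p ^ 1)))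

include hM L haux hdiv hpN hσC hw1 hsq hwc in
/-- **The ordinary identity.** -/
theorem Cut.unit_mul_eq_zero {e : MatN} (hc : Cut σ0 g1 w e) {eO : MatN} {I1 : ℕ → ℕ}
    (heO : PowLimit (matU p N) eO I1) (X : MatN) (hXe : Commute X e)
    (hX : ∀ k v, TrivVec K k (eO *ᵥ (X *ᵥ v))) :
    eO * e * (ES.galMat p N σ0 - algebraMap ℤ_[p] MatN (ES.padCyclo p σ0)) * X = 0 := by
  set G := ES.galMat p N σ0
  set c := algebraMap ℤ_[p] MatN (ES.padCyclo p σ0)
  obtain ⟨q, I2, hq⟩ := exists_powLimit (G - (w : MatN))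
  have heOG : ∀ g, Commute (ES.galMat p N g) eO := fun g => heO.commute (galMat_commute_matU g)
  have heOe : Commute eO e := (heO.commute hc.commU.symm).symm
  have hqG : Commute G q := hq.commute ((Commute.refl G).sub_right (Nat.commute_cast _ w))
  have hqe : Commute e q := hq.commute ((hc.commG σ0).symm.sub_right (Nat.commute_cast _ w))
  have hqU : Commute (matU p N) q :=
    hq.commute ((galMat_commute_matU σ0).symm.sub_right (Nat.commute_cast _ w))
  have hqO : Commute eO q := (heO.commute hqU.symm).symm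
  have hnil := hc.nil_sub_one hwc hq heOe
  set Q := q * eO * e
  have hQG : Commute G Q := (hqG.mul_right (heOG σ0)).mul_right (hc.commG σ0)
  have hQX : Q * X = 0 := vanish_gen hM L haux hdiv hpN hσC hw1 hsq e q eO I1 I2
    hc.idem hc.smallVec hc.commG hc.commU heO hq hnil X hXe hX
  have hQ1 : Q * (G - 1) = 0 := vanish_ord hM L haux hdiv hpN hσC hw1 hsq e q eO
    I1 I2 hc.idem hc.smallVec hc.commG hc.commU heO hq hnil ⟨σC, hσC.ext, hσC.keeps⟩
  have hR := hc.cycRootOp_mul_eq_zero hwc hw1 hq heOG heOe hQ1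
  have hZ := hc.sub_mul_compl_eq_zero hw1 hq heOG hR
  have hsplit : eO * e * (G - c) = (G - c) * ((1 - q) * (eO * e)) + (G - c) * Q := by
    rw [← mul_add, show Q = q * (eO * e) from mul_assoc q eO e, ← add_mul, sub_add_cancel, one_mul]
    exact ((((heOG σ0).mul_right (hc.commG σ0)).sub_left
      (Algebra.commute_algebraMap_left _ _)).symm).eq
  rw [hsplit, hZ, zero_add, mul_assoc, hQX, mul_zero]

end Identity

end FermatAgent.PSEMI
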