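import Fermat.Agent.PSEMI.Ord.Pad

/-!
# The two vanishing statements for `Γ₀(N)`

For a small idempotent `e`: inertia is trivial on the part cut out by the limits of the powers of
`U` and `σ₀ - w`, and the part where `U` and `σ₀ - 1` are nilpotent vanishes.
-/

set_option autoImplicit false

open UpperHalfPlane CongruenceSubgroup
open scoped MatrixGroups Matrix
open ModularCurve.Period

noncomputable section

namespace FermatAgent.PSEMI

open FermatAgent.ES (parGroup GoodLevel charOp conjChar CPlace AuxLevel GQ embC autC galChar zetaC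
  goodLevel_Gamma0)
open FermatAgent.Period (parRank transferDataU)
open MatLim
open LevelMp (pmLam)

variable {p : ℕ} [hp : Fact p.Prime] {N : ℕ} [NeZero N]

local notation "Vec" => Fin (parRank (Gamma0 N)) → ℤ_[p]
local notation "MatN" => Matrix (Fin (parRank (Gamma0 N))) (Fin (parRank (Gamma0 N))) ℤ_[p]

/-- Commutators fix roots of unity. -/
theorem commutator_fix {n : ℕ} [NeZero n] (a b : GQ) :
    autC (a * b * a⁻¹ * b⁻¹) (zetaC n) = zetaC n := by
  have hz : zetaC n ^ n = 1 := (ES.zetaC_isPrimitiveRoot n).pow_eq_one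
  obtain ⟨y, hy⟩ := ES.exists_embC_eq (x := zetaC n)
    ⟨Polynomial.X ^ n - 1, Polynomial.X_pow_sub_C_ne_zero (NeZero.pos n) 1, by simp [hz]⟩
  have hy' : IsPrimitiveRoot y n := IsPrimitiveRoot.of_map_of_injective
    (f := ES.embC) (hy ▸ ES.zetaC_isPrimitiveRoot n) ES.embC.injective
  have hpow : ∀ g : GQ, ∃ i : ℕ, g y = y ^ i := fun g => by
    obtain ⟨i, -, hi⟩ := hy'.eq_pow_of_pow_eq_one (ξ := g y)
      (by rw [← map_pow, hy'.pow_eq_one, map_one])
    exact ⟨i, hi.symm⟩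
  have hcomm : a (b y) = b (a y) := by
    obtain ⟨i, hi⟩ := hpow a
    obtain ⟨j, hj⟩ := hpow b
    rw [hj, hi, map_pow, map_pow, hi, hj, ← pow_mul, ← pow_mul, mul_comm]
  rw [← hy, ES.autC_spec]
  congr 1
  obtain ⟨i, hi⟩ := hpow (a⁻¹ * b⁻¹)
  have h1 : a (b ((a⁻¹ * b⁻¹) y)) = b (a ((a⁻¹ * b⁻¹) y)) := by
    rw [hi, map_pow, map_pow, map_pow, map_pow, hcomm]
  calc (a * b * a⁻¹ * b⁻¹) y = a (b ((a⁻¹ * b⁻¹) y)) := rfl
    _ = b (a ((a⁻¹ * b⁻¹) y)) := h1
    _ = (b * (a * a⁻¹) * b⁻¹) y := rfl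
    _ = y := by rw [mul_inv_cancel, mul_one, mul_inv_cancel]; rfl

/-- The Galois action on characters through any extension of the element to `ℂ`. -/
theorem galChar_apply_of_ext (n : ℕ) [NeZero n] {g : GQ} {σ : ℂ ≃+* ℂ}
    (hσ : ∀ x, σ (embC x) = embC (g x)) (χ : parGroup (Gamma0 N) n) :
    galChar (goodLevel_Gamma0 N) n g χ = conjChar (goodLevel_Gamma0 N) σ χ := by
  rw [ES.galChar_eq _ _ hσ]; rfl

variable {P : CPlace p} (K : Coeffs P) {M : ℕ} [NeZero M] (hM : M.Coprime p)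
  {Γ' : Subgroup SL(2, ℤ)} (L : IsLevel p M (Gamma0 N) Γ') {m : ℕ} (haux : AuxLevel M m)
  (hdiv : p * M ∣ 12 * N) (hpN : p ∣ N)

/-- `σC` extends `σ` to an automorphism of `ℂ` preserving the coefficients, which fixes the
roots of unity of order `M` and is raising to the `w`-th power on those of order `p`, `w ≤ p`: what
an inertia element at `p` gives. -/
structure CycExt (M : ℕ) [NeZero M] (σ : GQ) (σC : ℂ ≃+* ℂ) (w : ℕ) : Prop where
  ext : ∀ x, σC (embC x) = embC (σ x)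
  keeps : Keeps K σC
  fixM : σC (zetaC M) = zetaC M
  cyc : σC (zp p) = zp p ^ w
  le : w ≤ p

/-- Elements of the Galois group with an extension to the coefficients. -/
def inertSet : Set GQ := {g | ∃ σ : ℂ ≃+* ℂ, (∀ x, σ (embC x) = embC (g x)) ∧ Keeps K σ}

/-- `e` fixes no nonzero vector fixed by all commutators, modulo `p`. -/
def SmallVec (e : MatN) : Prop :=
  ∀ X : Matrix (Fin (parRank (Gamma0 N))) (Fin (parRank (Gamma0 N))) (ZMod (p ^ 1)),
    mred 1 e * X = X →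
      (∀ a b : GQ, mred 1 (ES.galMat p N (a * b * a⁻¹ * b⁻¹)) * X = X) → X = 0

include L hdiv in
/-- Vectors fixed by a small `e` with character trivial on `±(Γ₀(p) ∩ Γ(M))` vanish. -/
theorem SmallVec.cgr_zero {e : MatN} (hs : SmallVec e) {z : Vec} (hz : Cgr 1 (e *ᵥ z) z)
    (hk : KillsPm p M 1 (cv p 1 z : Gamma0 N →* ℂˣ)) : Cgr 1 z 0 := by
  have hX := hs (mred 1 (Matrix.of fun i _ => z i)) (by
      rw [← map_mul, mred_eq_iff]
      exact fun i j => hz i) fun a b => by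
    rw [← map_mul, mred_eq_iff]
    refine fun i j => cgr_of_cv_eq (v := ES.galMat p N (a * b * a⁻¹ * b⁻¹) *ᵥ z) (w := z) ?_ i
    rw [cv_galMat]
    exact conjChar_eq_self_of_killsPm L (goodLevel_Gamma0 N) hdiv (commutator_fix a b)
      (commutator_fix a b) _ hk
  rw [← map_zero (mred (p := p) (κ := Fin (parRank (Gamma0 N))) 1), mred_eq_iff] at hX
  exact fun i => hX i i

/-- Trivial classes at `∞` on vectors. -/
def TrivVec (k : ℕ) (v : Vec) : Prop := TrivCl K (p ^ k) (cv p k v : Gamma0 N →* ℂˣ)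

variable {K}

include hM L haux in
theorem TrivVec.sub_natCast {k : ℕ} {v w : Vec} (h : TrivVec K k v) (h' : TrivVec K k w) (a : ℕ) :
    TrivVec K k (v - (a : ℤ_[p]) • w) := by
  have e : cv p k (v - (a : ℤ_[p]) • w) =
      cv p k v * cv p k w ^ (PadicInt.toZModPow k (-(a : ℤ_[p]))).val := by
    rw [← cv_smul, ← cv_add]
    congr 1
    funext i
    simp [sub_eq_add_neg]
  rw [TrivVec, e]
  exact TrivCl.mul hM L haux h (TrivCl.pow hM L haux h' _)

include hM L haux in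
theorem TrivVec.galMat {k : ℕ} {v : Vec} {g : GQ} (hg : g ∈ inertSet K) (h : TrivVec K k v) :
    TrivVec K k (ES.galMat p N g *ᵥ v) := by
  obtain ⟨σ, hσ, hK⟩ := hg
  rw [TrivVec, cv_galMat, galChar_apply_of_ext _ hσ]
  exact TrivCl.conj hM L haux _ hK h

include hM L haux hpN in
theorem TrivVec.matU {k : ℕ} {v : Vec} (h : TrivVec K k v) : TrivVec K k (matU p N *ᵥ v) := by
  rw [TrivVec, cv_matU hpN]
  exact TrivCl.transfer hM L haux _ (fun _ => rfl) h

theorem TrivVec.of_cgr {k : ℕ} {v w : Vec} (h : TrivVec K k v) (e : Cgr k v w) : TrivVec K k w := by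
  rwa [TrivVec, ← cv_eq_of_cgr e]

theorem cv_matU_pow (k j : ℕ) (v : Vec) :
    (cv p k (matU p N ^ j *ᵥ v) : Gamma0 N →* ℂˣ) =
      opIter (transferDataU hpN) j (cv p k v : Gamma0 N →* ℂˣ) := by
  induction j with
  | zero => rw [pow_zero, Matrix.one_mulVec]; rfl
  | succ j ih => rw [pow_succ', ← Matrix.mulVec_mulVec, cv_matU hpN, ih]; rfl

include hM L haux hpN in
/-- **Deep.** On the ordinary part inertia differences are trivial at `∞`. -/
theorem trivVec_of_deep {g : GQ} (hg : g ∈ inertSet K) {eO : MatN} {I : ℕ → ℕ}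
    (heO : PowLimit (matU p N) eO I) (k : ℕ) (u : Vec) :
    TrivVec K k (eO *ᵥ ((ES.galMat p N g - 1) *ᵥ u)) := by
  obtain ⟨σ, hσ, hK⟩ := hg
  obtain ⟨J, hJ⟩ := deep_triv hM L haux (goodLevel_Gamma0 N) (transferDataU hpN) (fun _ => rfl) hK
    (cv p k u)
  obtain ⟨j, hj, hje⟩ := heO.exists_ge k J
  refine TrivVec.of_cgr ?_ (Cgr.of_mred hje _)
  intro y hy
  rw [cv_matU_pow (hpN := hpN), Matrix.sub_mulVec, Matrix.one_mulVec, sub_eq_add_neg, cv_add,
    cv_neg, cv_galMat, galChar_apply_of_ext _ hσ, Subgroup.coe_mul, InvMemClass.coe_inv] at hy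
  exact hJ j hj y hy

omit [NeZero N] in
/-- Iterating to the last nonzero power. -/
theorem exists_last {k : ℕ} {A : MatN} {x : Vec} (hx : ¬ Cgr k x 0)
    (hn : ∃ j, Cgr k (A ^ j *ᵥ x) 0) :
    ∃ i, ¬ Cgr k (A ^ i *ᵥ x) 0 ∧ Cgr k (A *ᵥ (A ^ i *ᵥ x)) 0 := by
  classical
  have h0 : Nat.find hn ≠ 0 := fun h => hx (by
    have := Nat.find_spec hn
    rwa [h, pow_zero, Matrix.one_mulVec] at this)
  refine ⟨Nat.find hn - 1, Nat.find_min hn (by omega), ?_⟩
  rw [Matrix.mulVec_mulVec, ← pow_succ', Nat.sub_add_cancel (Nat.one_le_iff_ne_zero.mpr h0)]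
  exact Nat.find_spec hn

omit [NeZero N] in
/-- An element of exponent `p` below a nonzero one. -/
theorem exists_order_p {k : ℕ} {x : Vec} (hx : ¬ Cgr k x 0) :
    ∃ (k' : ℕ) (z : Vec) (a : ℕ), k = k' + 1 ∧ ¬ Cgr 1 z 0 ∧
      (p : ℤ_[p]) ^ a • x = (p : ℤ_[p]) ^ k' • z := by
  induction k generalizing x with
  | zero => exact absurd (fun i => by simp) hx
  | succ k ih =>
    by_cases h : Cgr 1 x 0
    · choose f hf using h
      have hxf : x = (p : ℤ_[p]) • f := by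
        funext i; simpa using hf i
      obtain ⟨k', z, a, rfl, hz, e⟩ := ih (x := f) fun hf0 => hx fun i => by
        rw [hxf, Pi.smul_apply, smul_eq_mul, Pi.zero_apply, sub_zero, pow_succ']
        exact mul_dvd_mul_left _ (by simpa using hf0 i)
      refine ⟨k' + 1, z, a, rfl, hz, ?_⟩
      rw [hxf, smul_comm, e, smul_smul, ← pow_succ']
    · exact ⟨k, x, k, rfl, h, rfl⟩

omit [NeZero N] in
theorem cgr_cancel {k : ℕ} {v w : Vec}
    (h : Cgr (k + 1) ((p : ℤ_[p]) ^ k • v) ((p : ℤ_[p]) ^ k • w)) :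
    Cgr 1 v w := fun i => by
  have h1 := h i
  rw [Pi.smul_apply, Pi.smul_apply, smul_eq_mul, smul_eq_mul, ← mul_sub, pow_succ] at h1
  rw [pow_one]
  exact (mul_dvd_mul_iff_left (pow_ne_zero k (Nat.cast_ne_zero.mpr hp.out.ne_zero))).mp h1

omit [NeZero N] in
/-- A property inherited by division by `p` forcing zero modulo `p` forces zero. -/
theorem eq_zero_of_descend (Pr : MatN → Prop) (h1 : ∀ R, Pr R → mred 1 R = 0)
    (hdiv : ∀ Y, Pr ((p : ℤ_[p]) • Y) → Pr Y) {R : MatN} (hR : Pr R) : R = 0 := by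
  refine mred_ext fun k => (?_ : mred k R = 0).trans (map_zero _).symm
  induction k generalizing R with
  | zero =>
    rw [← map_zero (mred (p := p) (κ := (Fin (parRank (Gamma0 N)))) 0), mred_eq_iff]
    simp
  | succ k ih =>
    have h0 := h1 R hR
    rw [← map_zero (mred (p := p) (κ := (Fin (parRank (Gamma0 N)))) 1), mred_eq_iff] at h0
    choose f hf using fun i j => h0 i j
    have e : R = (p : ℤ_[p]) • Matrix.of f := Matrix.ext fun i j => by simpa using hf i j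
    have hY := ih (hdiv _ (e ▸ hR))
    rw [← map_zero (mred (p := p) (κ := (Fin (parRank (Gamma0 N)))) _), mred_eq_iff] at hY ⊢
    intro i j
    rw [e, Matrix.smul_apply, smul_eq_mul, Matrix.zero_apply, sub_zero, pow_succ']
    exact mul_dvd_mul_left _ (by simpa using hY i j)

omit [NeZero N] in
theorem mred_eq_zero_of_cgr {k : ℕ} {X : MatN} (h : ∀ v : Vec, Cgr k (X *ᵥ v) 0) :
    mred k X = 0 := by
  rw [← map_zero (mred (p := p) (κ := Fin (parRank (Gamma0 N))) k), mred_eq_iff]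
  intro i j
  simpa [Matrix.mulVec_single] using h (Pi.single j 1) i

omit [NeZero M] in
theorem killsPm_p_cv (v : Vec) : KillsPm p M p (cv p 1 v : Gamma0 N →* ℂˣ) :=
  (Iff.of_eq (congrArg (fun n => KillsPm p M n (cv p 1 v : Gamma0 N →* ℂˣ)) (pow_one p))).mp
    (killsPm_of_parGroup (cv p 1 v))

theorem trivVec_one_iff (v : Vec) : TrivVec K 1 v ↔ TrivCl K p (cv p 1 v : Gamma0 N →* ℂˣ) :=
  Iff.of_eq (congrArg (fun n => TrivCl K n (cv p 1 v : Gamma0 N →* ℂˣ)) (pow_one p))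

include hM L haux hdiv hpN in
/-- **Deep classes on the unit part are moved by inertia through the cyclotomic character.** -/
theorem cgr_galMat_of_triv {σ : GQ} {σC : ℂ ≃+* ℂ} {w : ℕ} (hσ : CycExt K M σ σC w)
    {g : Gamma0 N} (hsq : ∀ γ, L.wHom hM (L.wHom hM γ) = g * γ * g⁻¹)
    {e eO : MatN} (hs : SmallVec e) (heG : Commute (ES.galMat p N σ) e) {I : ℕ → ℕ}
    (heO : PowLimit (matU p N) eO I) {z : Vec} (hzT : TrivVec (P := P) K 1 z)
    (hze : Cgr 1 (e *ᵥ z) z) (hzO : Cgr 1 (eO *ᵥ z) z) :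
    Cgr 1 (ES.galMat p N σ *ᵥ z - (w : ℤ_[p]) • z) 0 := by
  let f : ℕ → parGroup (Gamma0 N) (p ^ 1) := fun j => cv p 1 (matU p N ^ j *ᵥ z)
  have hfT : ∀ j, TrivCl K p (f j : Gamma0 N →* ℂˣ) := fun j => by
    have : TrivVec (P := P) K 1 (matU p N ^ j *ᵥ z) := by
      induction j with
      | zero => rwa [pow_zero, Matrix.one_mulVec]
      | succ j ih =>
        rw [pow_succ', ← Matrix.mulVec_mulVec]; exact TrivVec.matU hM L haux hpN ih
    exact (trivVec_one_iff _).mp this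
  have hkP : ∀ j, KillsPm p M p (f j : Gamma0 N →* ℂˣ) := fun j => killsPm_p_cv _
  have hW2 : ∀ j, ((f j : Gamma0 N →* ℂˣ).comp (L.wHom hM)).comp (L.wHom hM) =
      (f j : Gamma0 N →* ℂˣ) := fun j => by
    have h := congrArg Subtype.val (cv_matW_matW hM L hsq 1 (matU p N ^ j *ᵥ z))
    rwa [cv_matW, cv_matW] at h
  obtain ⟨y, hy⟩ := exists_isClass (K := K) hM L haux (hkP 0) (f 0).2
  obtain ⟨y', hy'⟩ := exists_isClass (K := K) hM L haux (killsPm_wHom hM L (hkP 0))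
    (wHom_mem_parGroup hM L (f 0).2)
  have hper : Cgr 1 (matU p N ^ (I 1 * 1) *ᵥ z) z := (Cgr.of_mred (heO.spec 1 0) z).trans hzO
  have hn' := powApprox_of_cycle (K := K) hM L haux (transferDataU hpN) (fun _ => rfl)
    (N0 := I 1 * 1) (by simpa using (heO.pos 1).ne') f hkP
    (fun j γ _ => by
      rw [hW2, show (f (j + 1) : Gamma0 N →* ℂˣ) =
        charOp (transferDataU hpN) (f j : Gamma0 N →* ℂˣ) by
          simp only [f]; rw [pow_succ' (matU p N) j, ← Matrix.mulVec_mulVec, cv_matU hpN]])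
    (fun γ _ => by simp only [f, cv_eq_of_cgr hper, pow_zero, Matrix.one_mulVec])
    (fun j y hy => (hfT j).powApprox (by rwa [hW2] at hy)) y' hy'
  have key := eqPm_conj_pow_of_near hM hdiv L (goodLevel_Gamma0 N) haux hσ.keeps
    hσ.fixM hσ.cyc hσ.le (f 0) (hkP 0) hy hy' ((hfT 0).powApprox hy) hn'
  simp only [f, pow_zero, Matrix.one_mulVec] at key
  refine hs.cgr_zero L hdiv ?_ ?_
  · have h1 : Cgr 1 (e *ᵥ (ES.galMat p N σ *ᵥ z)) (ES.galMat p N σ *ᵥ z) := by
      rw [Matrix.mulVec_mulVec, ← heG.eq, ← Matrix.mulVec_mulVec]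
      exact Cgr.mulVec hze _
    intro i
    rw [Matrix.mulVec_sub, Matrix.mulVec_smul]
    simp only [Pi.sub_apply, Pi.smul_apply, smul_eq_mul]
    rw [sub_sub_sub_comm, ← mul_sub]
    exact dvd_sub (h1 i) (dvd_mul_of_dvd_right (hze i) _)
  · intro γ hγ
    have h := key γ hγ
    have hp1 := killsPm_p_cv (M := M) z γ hγ
    rw [← galChar_apply_of_ext (p ^ 1) hσ.ext, ← cv_galMat] at h
    rw [pow_one, sub_eq_add_neg, cv_add, cv_neg, cv_smul, map_natCast, ZMod.val_natCast]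
    simp only [Subgroup.coe_mul, InvMemClass.coe_inv, SubgroupClass.coe_pow, MonoidHom.mul_apply,
      MonoidHom.inv_apply, MonoidHom.pow_apply]
    rw [h, MonoidHom.pow_apply, ← pow_eq_pow_mod w (n := p ^ 1)
      ((congrArg _ (pow_one p)).trans hp1),
      mul_inv_cancel]

variable {σ0 : GQ} {σC : ℂ ≃+* ℂ} {w : ℕ} (hσC : CycExt K M σ0 σC w) (hw1 : (w : ZMod p) ≠ 1)
  {g : Gamma0 N}
  (hsq : ∀ γ, L.wHom hM (L.wHom hM γ) = g * γ * g⁻¹)

include hM L haux hdiv hpN hσC hw1 hsq in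
/-- The closed property: a vector with classes trivial at `∞`, fixed by an idempotent `Q` lying
below `e` and `eO` and on which `σ₀ - 1` is nilpotent, vanishes, as inertia moves it by `w ≠ 1`. -/
private theorem cgr_zero_of_trivVec {e eO Q : MatN} {I : ℕ → ℕ} (hs : SmallVec e)
    (heG : Commute (ES.galMat p N σ0) e) (heO : PowLimit (matU p N) eO I) (heQ : e * Q = Q)
    (hUQ : eO * Q = Q) (hQG : Commute (ES.galMat p N σ0) Q)
    (hnil : Nil (ES.galMat p N σ0 - 1) Q) {k : ℕ} {x : Vec} (hx : TrivVec K k x)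
    (hQx : Cgr k (Q *ᵥ x) x) : Cgr k x 0 := by
  set G0 := ES.galMat p N σ0
  have hσ0 : σ0 ∈ inertSet K := ⟨σC, hσC.ext, hσC.keeps⟩
  by_contra hx0
  obtain ⟨j, hj⟩ := hnil k
  obtain ⟨i, hi0, hi1⟩ := exists_last (A := G0 - 1) hx0 ⟨j, by
    refine (Cgr.mulVec hQx.symm _).trans ?_
    rw [Matrix.mulVec_mulVec]
    simpa using Cgr.of_mred ((hj j le_rfl).trans (map_zero (mred k)).symm) x⟩
  set x1 := (G0 - 1) ^ i *ᵥ x with hx1def
  have hx1 : TrivVec K k x1 := by
    rw [hx1def]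
    clear hi0 hi1 hx1def x1
    induction i with
    | zero => rwa [pow_zero, Matrix.one_mulVec]
    | succ i ih =>
      rw [pow_succ', ← Matrix.mulVec_mulVec, Matrix.sub_mulVec, Matrix.one_mulVec]
      have := TrivVec.sub_natCast hM L haux (TrivVec.galMat hM L haux hσ0 ih) ih 1
      rwa [Nat.cast_one, one_smul] at this
  have hQx1 : Cgr k (Q *ᵥ x1) x1 := by
    have c : Commute Q ((G0 - 1) ^ i) := ((hQG.symm).sub_right (Commute.one_right _)).pow_right i
    rw [hx1def, Matrix.mulVec_mulVec, c.eq, ← Matrix.mulVec_mulVec]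
    exact Cgr.mulVec hQx _
  obtain ⟨k', z, a, rfl, hz0, hza⟩ := exists_order_p hi0
  have hdown : ∀ A : MatN, Cgr (k' + 1) (A *ᵥ x1) x1 → Cgr 1 (A *ᵥ z) z := fun A hA => by
    refine cgr_cancel (k := k') ?_
    rw [← Matrix.mulVec_smul, ← hza, Matrix.mulVec_smul]
    exact cgr_smul hA _
  have hzT : TrivCl K p (cv p 1 z : Gamma0 N →* ℂˣ) := by
    refine TrivCl.descend k' ?_
    rw [← coe_cv_shift, ← hza, cv_smul]
    exact TrivCl.pow hM L haux hx1 _
  have hzQ := hdown Q hQx1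
  have hzG : Cgr 1 (G0 *ᵥ z) z := hdown G0 fun i' => by
    have h := hi1 i'
    simp only [Matrix.sub_mulVec, Matrix.one_mulVec, Pi.sub_apply, Pi.zero_apply, sub_zero] at h
    exact h
  have hzO : Cgr 1 (eO *ᵥ z) z := by
    refine ((Cgr.mulVec hzQ.symm eO).trans ?_).trans hzQ
    rw [Matrix.mulVec_mulVec, hUQ]; exact Cgr.rfl'
  have hze : Cgr 1 (e *ᵥ z) z := by
    refine ((Cgr.mulVec hzQ.symm e).trans ?_).trans hzQ
    rw [Matrix.mulVec_mulVec, heQ]; exact Cgr.rfl'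
  -- `σ₀` fixes `z` and acts on it by `w ≠ 1`
  have hmul := cgr_galMat_of_triv hM L haux hdiv hpN hσC hsq hs heG heO
    ((trivVec_one_iff z).mpr hzT) hze hzO
  refine hz0 fun i' => ?_
  have h1 := dvd_sub (hzG i') (hmul i')
  simp only [Pi.sub_apply, Pi.smul_apply, smul_eq_mul, Pi.zero_apply, sub_zero, pow_one] at h1 ⊢
  rw [show (G0 *ᵥ z) i' - z i' - ((G0 *ᵥ z) i' - (w : ℤ_[p]) * z i') = ((w : ℤ_[p]) - 1) * z i' by
    ring] at h1
  refine (PadicInt.prime_p.dvd_or_dvd h1).resolve_left fun h => hw1 ?_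
  rw [← Ideal.mem_span_singleton, ← PadicInt.maximalIdeal_eq_span_p, ← PadicInt.ker_toZMod,
    RingHom.mem_ker, map_sub, map_natCast, map_one, sub_eq_zero] at h
  exact h

include hM L haux hdiv hpN hσC hw1 hsq in
/-- **On the ordinary part with unipotent `σ₀`, operators with images trivial at `∞` vanish.** -/
theorem vanish_gen (e q eO : MatN) (I1 I2 : ℕ → ℕ)
    (hee : e * e = e) (hs : SmallVec e) (heG : ∀ g, Commute (ES.galMat p N g) e)
    (heU : Commute (matU p N) e)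
    (heO : PowLimit (matU p N) eO I1) (hq : PowLimit (ES.galMat p N σ0 - (w : MatN)) q I2)
    (hnil : Nil (ES.galMat p N σ0 - 1) (q * eO * e)) (X : MatN) (hXe : Commute X e)
    (hX : ∀ k v, TrivVec K k (eO *ᵥ (X *ᵥ v))) :
    q * eO * e * X = 0 := by
  set G0 := ES.galMat p N σ0
  set Q := q * eO * e
  have hσ0 : σ0 ∈ inertSet K := ⟨σC, hσC.ext, hσC.keeps⟩
  have hqG : Commute G0 q := hq.commute ((Commute.refl G0).sub_right (Nat.commute_cast _ w))
  have heOG : ∀ g, Commute (ES.galMat p N g) eO := fun g => heO.commute (galMat_commute_matU g)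
  have hqU : Commute (matU p N) q :=
    hq.commute ((galMat_commute_matU σ0).symm.sub_right (Nat.commute_cast _ w))
  have heOq : Commute eO q := (heO.commute hqU.symm).symm
  have hqe : Commute e q := hq.commute ((heG σ0).symm.sub_right (Nat.commute_cast _ w))
  have heOe : Commute e eO := heO.commute heU.symm
  have hQQ : Q * Q = Q := by
    simp only [Q]
    calc q * eO * e * (q * eO * e) = q * eO * (e * (q * eO)) * e := by simp only [mul_assoc]
      _ = q * eO * ((q * eO) * e) * e := by rw [(hqe.mul_right heOe).eq]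
      _ = q * (eO * q) * eO * (e * e) := by simp only [mul_assoc]
      _ = (q * q) * (eO * eO) * e := by rw [heOq.eq, hee]; simp only [mul_assoc]
      _ = q * eO * e := by rw [hq.idem, heO.idem]
  have hQG : Commute G0 Q := (hqG.mul_right (heOG σ0)).mul_right (heG σ0)
  have heQ : e * Q = Q := by
    simp only [Q]; rw [← mul_assoc, (hqe.mul_right heOe).eq, mul_assoc, hee]
  have hUQ : eO * Q = Q := by
    simp only [Q]; rw [← mul_assoc, ← mul_assoc, heOq.eq, mul_assoc q, heO.idem]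
  -- apply it
  refine Matrix.ext_iff_mulVec.mpr fun v => ?_
  rw [Matrix.zero_mulVec]
  refine vec_ext fun k =>
    cgr_zero_of_trivVec hM L haux hdiv hpN hσC hw1 hsq hs (heG σ0) heO heQ hUQ hQG hnil ?_ ?_
  · rw [show Q * X = q * (eO * (X * e)) by
      simp only [Q, mul_assoc]
      rw [hXe.eq]]
    simp only [← Matrix.mulVec_mulVec]
    have h1 := hX k (e *ᵥ v)
    refine TrivVec.of_cgr ?_ (Cgr.of_mred (hq.spec k 0) _)
    generalize eO *ᵥ (X *ᵥ (e *ᵥ v)) = y at h1 ⊢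
    induction I2 k * (0 + 1) with
    | zero => rwa [pow_zero, Matrix.one_mulVec]
    | succ i ih =>
      rw [pow_succ', ← Matrix.mulVec_mulVec, Matrix.sub_mulVec, Matrix.natCast_mulVec]
      exact TrivVec.sub_natCast hM L haux (TrivVec.galMat hM L haux hσ0 ih) ih w
  · rw [Matrix.mulVec_mulVec, ← mul_assoc, hQQ]; exact Cgr.rfl'

include hM L haux hdiv hpN hσC hw1 hsq in
/-- **The ordinary part with unipotent `σ₀` is fixed by inertia.** -/
theorem vanish_ord (e q eO : MatN) (I1 I2 : ℕ → ℕ)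
    (hee : e * e = e) (hs : SmallVec e) (heG : ∀ g, Commute (ES.galMat p N g) e)
    (heU : Commute (matU p N) e)
    (heO : PowLimit (matU p N) eO I1) (hq : PowLimit (ES.galMat p N σ0 - (w : MatN)) q I2)
    (hnil : Nil (ES.galMat p N σ0 - 1) (q * eO * e)) {σ : GQ} (hσ : σ ∈ inertSet K) :
    q * eO * e * (ES.galMat p N σ - 1) = 0 :=
  vanish_gen hM L haux hdiv hpN hσC hw1 hsq e q eO I1 I2 hee hs heG heU heO hq
    hnil _ ((heG σ).sub_left (Commute.one_left e))
    fun k v => trivVec_of_deep hM L haux hpN hσ heO k v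

include hM L haux hdiv hpN hσC hw1 hsq in
/-- A vector modulo `p` fixed by a small `e` and by `σ₀` and killed by `U`, with `U W` killing it
or with it in the image of `U W`, vanishes. -/
private theorem cgr_zero_of_fixed {e : MatN} (hs : SmallVec e) {x : Vec}
    (hxe : Cgr 1 (e *ᵥ x) x) (hxG : Cgr 1 (ES.galMat p N σ0 *ᵥ x) x)
    (hU0 : Cgr 1 (matU p N *ᵥ x) 0)
    (hcase : Cgr 1 (matU p N *ᵥ (matW hM L *ᵥ x)) 0 ∨
      ∃ ξ, matU p N *ᵥ (matW hM L *ᵥ ξ) = x) : Cgr 1 x 0 := by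
  set U := matU p N
  set W := matW hM L
  have hkill1 : ∀ {y : Vec}, Cgr 1 (U *ᵥ y) 0 →
      KillsPm p M 1
        (charOp (transferDataU hpN) (cv p 1 y : Gamma0 N →* ℂˣ)) := fun {y} h γ _ => by
    rw [← cv_matU hpN, cv_eq_of_cgr h, cv_zero]
    simp
  have hkp : ∀ y : Vec, KillsPm p M p (cv p 1 y : Gamma0 N →* ℂˣ) := killsPm_p_cv
  refine hs.cgr_zero L hdiv hxe ?_
  refine killsPm_one_of_nil (K := K) hM L haux (goodLevel_Gamma0 N) (transferDataU hpN)
    (fun _ => rfl) hdiv hσC.keeps hσC.fixM hσC.cyc hσC.le hw1 (cv p 1 x) (hkp x)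
    (fun γ _ => by rw [← galChar_apply_of_ext _ hσC.ext, ← cv_galMat, cv_eq_of_cgr hxG])
    (fun γ _ => by
      have h := congrArg Subtype.val (cv_matW_matW hM L hsq 1 x)
      rw [cv_matW, cv_matW] at h
      exact DFunLike.congr_fun h γ)
    (hkill1 hU0) ?_
  rcases hcase with h | ⟨ξ, hξ⟩
  · left
    have h1 := hkill1 h
    rwa [cv_matW] at h1
  · right
    refine ⟨(cv p 1 ξ : Gamma0 N →* ℂˣ), (cv p 1 ξ).2, hkp ξ, fun γ _ => ?_⟩
    rw [← hξ, cv_matU hpN, cv_matW]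
    rfl

include hM L haux hdiv hpN hσC hw1 hsq in
/-- Nilpotent parts vanish modulo `p`. -/
private theorem cgr_zero_of_nilpotent {e X : MatN} (hs : SmallVec e) (heX : e * X = X)
    (hXG : Commute X (ES.galMat p N σ0)) (hXU : Commute X (matU p N))
    (hXW : Commute X (matW hM L)) (hnU : Nil (matU p N) X)
    (hnG : Nil (ES.galMat p N σ0 - 1) X) (v : Vec) : Cgr 1 (X *ᵥ v) 0 := by
  set G0 := ES.galMat p N σ0
  set U := matU p N
  set W := matW hM L
  have hGU : Commute G0 U := galMat_commute_matU σ0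
  have hGW : Commute G0 W := (matW_commute hM L hdiv σ0).symm
  by_contra hv
  have hnil : ∀ {A : MatN}, Nil A X → ∀ u, ∃ j, Cgr 1 (A ^ j *ᵥ (X *ᵥ u)) 0 := fun {A} h u => by
    obtain ⟨j, hj⟩ := h 1
    refine ⟨j, ?_⟩
    rw [Matrix.mulVec_mulVec]
    simpa using Cgr.of_mred ((hj j le_rfl).trans (map_zero (mred 1)).symm) u
  obtain ⟨i, hi0, hi1⟩ := exists_last hv (hnil hnG v)
  have c1 : Commute ((G0 - 1) ^ i) X := ((hXG.sub_right (Commute.one_right _)).pow_right i).symm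
  have e1 : (G0 - 1) ^ i *ᵥ (X *ᵥ v) = X *ᵥ ((G0 - 1) ^ i *ᵥ v) := by
    rw [Matrix.mulVec_mulVec, c1.eq, ← Matrix.mulVec_mulVec]
  rw [e1] at hi0 hi1
  generalize (G0 - 1) ^ i *ᵥ v = v1 at hi0 hi1
  obtain ⟨i2, hi20, hi21⟩ := exists_last hi0 (hnil hnU v1)
  set x2 := U ^ i2 *ᵥ (X *ᵥ v1) with hx2
  have hmem : ∀ B : MatN, Commute B X → Cgr 1 (e *ᵥ (B *ᵥ (X *ᵥ v1))) (B *ᵥ (X *ᵥ v1)) :=
    fun B hB => by
      rw [Matrix.mulVec_mulVec, Matrix.mulVec_mulVec, Matrix.mulVec_mulVec, mul_assoc e, hB.eq,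
        ← mul_assoc, heX]
      exact Cgr.rfl'
  have hfix : ∀ B : MatN, Commute G0 B → Cgr 1 (G0 *ᵥ (B *ᵥ (X *ᵥ v1))) (B *ᵥ (X *ᵥ v1)) :=
    fun B hB => by
      have h := Cgr.mulVec hi1 B
      rw [Matrix.mulVec_zero, Matrix.sub_mulVec, Matrix.one_mulVec, Matrix.mulVec_sub,
        Matrix.mulVec_mulVec, ← hB.eq, ← Matrix.mulVec_mulVec] at h
      intro j
      simpa using h j
  have crit : ∀ B : MatN, Commute B X → Commute G0 B →
      ¬ Cgr 1 (B *ᵥ (X *ᵥ v1)) 0 → Cgr 1 (U *ᵥ (B *ᵥ (X *ᵥ v1))) 0 →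
      (Cgr 1 (U *ᵥ (W *ᵥ (B *ᵥ (X *ᵥ v1)))) 0 ∨
        ∃ ξ, U *ᵥ (W *ᵥ ξ) = B *ᵥ (X *ᵥ v1)) → False := fun B hBX hGB hne hU0 hcase =>
    hne (cgr_zero_of_fixed hM L haux hdiv hpN hσC hw1 hsq hs (hmem B hBX) (hfix B hGB) hU0
      hcase)
  by_cases hcase : Cgr 1 (U *ᵥ (W *ᵥ x2)) 0
  · exact crit (U ^ i2) ((hXU.pow_right i2).symm) (hGU.pow_right i2) hi20 hi21 (Or.inl hcase)
  · set B0 := U * (W * U ^ i2)
    have eB : U *ᵥ (W *ᵥ x2) = X *ᵥ (B0 *ᵥ v1) := by
      have c : Commute X B0 := hXU.mul_right (hXW.mul_right (hXU.pow_right i2))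
      rw [hx2, Matrix.mulVec_mulVec, Matrix.mulVec_mulVec, Matrix.mulVec_mulVec,
        Matrix.mulVec_mulVec, c.eq]
      simp only [B0, mul_assoc]
    rw [eB] at hcase
    obtain ⟨i4, hi40, hi41⟩ := exists_last hcase (hnil hnU _)
    set B := U ^ i4 * B0
    have eB4 : U ^ i4 *ᵥ (X *ᵥ (B0 *ᵥ v1)) = B *ᵥ (X *ᵥ v1) := by
      have c : Commute X B0 := hXU.mul_right (hXW.mul_right (hXU.pow_right i2))
      simp only [B, Matrix.mulVec_mulVec]
      rw [← mul_assoc, mul_assoc (U ^ i4) X B0, c.eq, ← mul_assoc]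
    rw [eB4] at hi40 hi41
    refine crit B (((hXU.pow_right i4).mul_right
        (hXU.mul_right (hXW.mul_right (hXU.pow_right i2)))).symm)
      ((hGU.pow_right i4).mul_right (hGU.mul_right (hGW.mul_right (hGU.pow_right i2)))) hi40 hi41
      (Or.inr ⟨W *ᵥ (U ^ i4 *ᵥ (W *ᵥ x2)), ?_⟩)
    have hWW : ∀ y : Vec, W *ᵥ (W *ᵥ y) = y := fun y =>
      vec_ext fun k => cgr_of_cv_eq (cv_matW_matW hM L hsq k y)
    rw [hWW, ← eB4, ← eB, Matrix.mulVec_mulVec _ U (U ^ i4), ← pow_succ']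
    rw [Matrix.mulVec_mulVec _ (U ^ i4) U, ← pow_succ]

include hM L haux hdiv hpN hσC hw1 hsq in
/-- **Nilpotent parts vanish.** -/
theorem vanish_nil (e : MatN) (hs : SmallVec e) (X : MatN) (heX : e * X = X)
    (hXG : Commute X (ES.galMat p N σ0)) (hXU : Commute X (matU p N))
    (hXW : Commute X (matW hM L)) (hnU : Nil (matU p N) X)
    (hnG : Nil (ES.galMat p N σ0 - 1) X) : X = 0 := by
  set G0 := ES.galMat p N σ0
  set U := matU p N
  set W := matW hM L
  -- remove the powers of `p`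
  refine eq_zero_of_descend
    (fun R => e * R = R ∧ Commute R G0 ∧ Commute R U ∧ Commute R W ∧ Nil U R ∧ Nil (G0 - 1) R)
    (fun R ⟨h₁, h₂, h₃, h₄, h₅, h₆⟩ => mred_eq_zero_of_cgr
      (cgr_zero_of_nilpotent hM L haux hdiv hpN hσC hw1 hsq hs h₁ h₂ h₃ h₄ h₅ h₆))
    (fun Y ⟨h₁, h₂, h₃, h₄, h₅, h₆⟩ => ?_) ⟨heX, hXG, hXU, hXW, hnU, hnG⟩
  have hinj : Function.Injective fun Z : MatN => (p : ℤ_[p]) • Z :=
    smul_right_injective _ (Nat.cast_ne_zero.mpr hp.out.ne_zero)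
  have hc : ∀ {A : MatN}, Commute ((p : ℤ_[p]) • Y) A → Commute Y A := fun {A} h => hinj (by
    simpa only [Matrix.smul_mul, Matrix.mul_smul] using h.eq)
  have hn : ∀ {A : MatN}, Nil A ((p : ℤ_[p]) • Y) → Nil A Y := fun {A} h l => by
    obtain ⟨j, hj⟩ := h (l + 1)
    refine ⟨j, fun j' hj' => ?_⟩
    have h2 := hj j' hj'
    rw [← map_zero (mred (p := p) (κ := Fin (parRank (Gamma0 N))) _), mred_eq_iff] at h2 ⊢
    intro i i'
    have h3 := h2 i i'
    rw [Matrix.mul_smul, Matrix.smul_apply, smul_eq_mul, Matrix.zero_apply, sub_zero,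
      pow_succ'] at h3
    rw [Matrix.zero_apply, sub_zero]
    exact (mul_dvd_mul_iff_left (Nat.cast_ne_zero.mpr hp.out.ne_zero)).mp h3
  exact ⟨hinj (by simpa only [Matrix.mul_smul] using h₁), hc h₂, hc h₃, hc h₄, hn h₅, hn h₆⟩

end FermatAgent.PSEMI
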